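/-
JT3 (helper7): MacLane-type separability of Laurent series fields.

`k` a perfect field of characteristic `ℓ`, `x ∈ k((q))` a nonzero series whose `q`-order is prime
to `ℓ`.  Then every `y ∈ k((q))` which is algebraic over `k(x)` is SEPARABLE over `k(x)`
(`lsp_isSeparable`).  Elementary: `1, x, …, x^(ℓ-1)` are linearly independent over the field of
`ℓ`-th powers `k((q))^ℓ` (orders mod `ℓ`), and every element of `k(x)` is `∑_{j<ℓ} b_j^ℓ x^j`
with `b_j ∈ k(x)`.  Prefix `lsp_`.
-/
import Mathlib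

set_option autoImplicit false
set_option linter.unusedSectionVars false

namespace Fermat.Agent.JT3

open Polynomial HahnSeries IntermediateField

section Indep

variable {k : Type*} [Field k]

/-- a finite sum of Laurent series whose nonzero terms have pairwise distinct orders and which
has at least one nonzero term is nonzero -/
theorem lsp_sum_ne_zero {ι : Type*} (s : Finset ι) (t : ι → LaurentSeries k)
    (hdist : ∀ i ∈ s, ∀ i' ∈ s, t i ≠ 0 → t i' ≠ 0 → (t i).order = (t i').order → i = i')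
    (hex : ∃ i ∈ s, t i ≠ 0) : ∑ i ∈ s, t i ≠ 0 := by
  classical
  have hne : (s.filter (fun i => t i ≠ 0)).Nonempty := by
    obtain ⟨i, hi, h0⟩ := hex
    exact ⟨i, Finset.mem_filter.mpr ⟨hi, h0⟩⟩
  obtain ⟨i1, hi1, hmin⟩ := Finset.exists_min_image (s.filter (fun i => t i ≠ 0))
    (fun i => (t i).order) hne
  have hi1s : i1 ∈ s := (Finset.mem_filter.mp hi1).1
  have hi10 : t i1 ≠ 0 := (Finset.mem_filter.mp hi1).2
  intro hsum
  have hc : (∑ i ∈ s, t i).coeff (t i1).order = (t i1).coeff (t i1).order := by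
    rw [HahnSeries.coeff_sum]
    refine Finset.sum_eq_single i1 ?_ ?_
    · intro i hi hne1
      by_cases h0 : t i = 0
      · simp [h0]
      · apply coeff_eq_zero_of_lt_order
        have hle := hmin i (Finset.mem_filter.mpr ⟨hi, h0⟩)
        rcases lt_or_eq_of_le hle with h | h
        · exact h
        · exact absurd (hdist i1 hi1s i hi hi10 h0 h).symm hne1
    · intro h; exact absurd hi1s h
  rw [hsum] at hc
  exact hi10 (coeff_order_eq_zero.mp (by simpa using hc.symm))

variable (ℓ : ℕ) [hℓ : Fact ℓ.Prime]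

/-- `1, x, …, x^(ℓ-1)` are linearly independent over the `ℓ`-th powers when `ℓ ∤ ord x`. -/
theorem lsp_indep {x : LaurentSeries k} (hx : x ≠ 0) (hord : ¬ (ℓ : ℤ) ∣ x.order)
    (c : ℕ → LaurentSeries k) (h : ∑ j ∈ Finset.range ℓ, c j ^ ℓ * x ^ j = 0) :
    ∀ j ∈ Finset.range ℓ, c j = 0 := by
  by_contra hcon
  push Not at hcon
  obtain ⟨j0, hj0, hc0⟩ := hcon
  refine lsp_sum_ne_zero (Finset.range ℓ) (fun j => c j ^ ℓ * x ^ j) ?_ ⟨j0, hj0, ?_⟩ h
  · intro i hi i' hi' hti hti' hoo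
    have hci : ∀ i, c i ^ ℓ * x ^ i ≠ 0 → c i ≠ 0 := by
      intro i hti h0
      apply hti
      rw [h0, zero_pow hℓ.out.ne_zero, zero_mul]
    have ho : ∀ i, c i ≠ 0 →
        (c i ^ ℓ * x ^ i).order = (ℓ : ℤ) * (c i).order + (i : ℤ) * x.order := by
      intro i hci
      rw [order_mul (pow_ne_zero _ hci) (pow_ne_zero _ hx), order_pow, order_pow]
      simp
    rw [ho i (hci i hti), ho i' (hci i' hti')] at hoo
    have hdvd : (ℓ : ℤ) ∣ ((i : ℤ) - i') * x.order :=
      ⟨(c i').order - (c i).order, by linarith⟩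
    have hp : Prime (ℓ : ℤ) := Nat.prime_iff_prime_int.mp hℓ.out
    rcases hp.dvd_or_dvd hdvd with h1 | h1
    · have hi2 := Finset.mem_range.mp hi
      have hi2' := Finset.mem_range.mp hi'
      have : (i : ℤ) - i' = 0 := by
        apply Int.eq_zero_of_abs_lt_dvd h1
        rw [abs_lt]; constructor <;> omega
      omega
    · exact absurd h1 hord
  · exact mul_ne_zero (pow_ne_zero _ hc0) (pow_ne_zero _ hx)

end Indep

section Decomp

variable {k : Type*} [Field k] (ℓ : ℕ) [hℓ : Fact ℓ.Prime] [CharP k ℓ] [PerfectField k]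
variable {L : Type*} [Field L] [Algebra k L]

/-- the set of `∑_{j<ℓ} b_j^ℓ x^j` with `b_j ∈ k(x)` -/
def lsp_R (x : L) : Set L :=
  {a | ∃ b : ℕ → L, (∀ j, b j ∈ k⟮x⟯) ∧ a = ∑ j ∈ Finset.range ℓ, b j ^ ℓ * x ^ j}

variable {ℓ} {x : L}

theorem lsp_R_zero : (0 : L) ∈ lsp_R (k := k) ℓ x :=
  ⟨fun _ => 0, fun _ => zero_mem _, by simp [zero_pow hℓ.out.ne_zero]⟩

theorem lsp_R_add {a a' : L} (ha : a ∈ lsp_R (k := k) ℓ x) (ha' : a' ∈ lsp_R (k := k) ℓ x) :
    a + a' ∈ lsp_R (k := k) ℓ x := by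
  have : CharP L ℓ := charP_of_injective_algebraMap (algebraMap k L).injective ℓ
  obtain ⟨b, hb, rfl⟩ := ha
  obtain ⟨b', hb', rfl⟩ := ha'
  refine ⟨fun j => b j + b' j, fun j => add_mem (hb j) (hb' j), ?_⟩
  rw [← Finset.sum_add_distrib]
  refine Finset.sum_congr rfl fun j _ => ?_
  rw [add_pow_char, add_mul]

theorem lsp_R_sum {ι : Type*} (s : Finset ι) (a : ι → L)
    (ha : ∀ i ∈ s, a i ∈ lsp_R (k := k) ℓ x) : ∑ i ∈ s, a i ∈ lsp_R (k := k) ℓ x := by
  classical
  induction s using Finset.induction_on with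
  | empty => simpa using lsp_R_zero
  | insert i s hi ih =>
    rw [Finset.sum_insert hi]
    exact lsp_R_add (ha i (Finset.mem_insert_self i s))
      (ih fun i' hi' => ha i' (Finset.mem_insert_of_mem hi'))

theorem lsp_R_pow_mul {a d : L} (hd : d ∈ k⟮x⟯) (ha : a ∈ lsp_R (k := k) ℓ x) :
    d ^ ℓ * a ∈ lsp_R (k := k) ℓ x := by
  obtain ⟨b, hb, rfl⟩ := ha
  refine ⟨fun j => d * b j, fun j => mul_mem hd (hb j), ?_⟩
  rw [Finset.mul_sum]
  refine Finset.sum_congr rfl fun j _ => ?_
  rw [mul_pow, mul_assoc]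

theorem lsp_R_x_mul {a : L} (ha : a ∈ lsp_R (k := k) ℓ x) : x * a ∈ lsp_R (k := k) ℓ x := by
  obtain ⟨b, hb, rfl⟩ := ha
  obtain ⟨m, hm⟩ : ∃ m, ℓ = m + 1 := ⟨ℓ - 1, by have := hℓ.out.pos; omega⟩
  refine ⟨fun j => if j = 0 then b m * x else b (j - 1), fun j => ?_, ?_⟩
  · by_cases hj : j = 0
    · simp only [hj, if_true]; exact mul_mem (hb m) (mem_adjoin_simple_self k x)
    · simp only [hj, if_false]; exact hb _
  · rw [Finset.mul_sum]
    have e1 : ∑ i ∈ Finset.range ℓ, x * (b i ^ ℓ * x ^ i) =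
        ∑ i ∈ Finset.range m, x * (b i ^ ℓ * x ^ i) + x * (b m ^ ℓ * x ^ m) := by
      rw [hm, Finset.sum_range_succ]
    have e2 : ∑ j ∈ Finset.range ℓ, (if j = 0 then b m * x else b (j - 1)) ^ ℓ * x ^ j =
        ∑ j ∈ Finset.range m, (if j + 1 = 0 then b m * x else b (j + 1 - 1)) ^ ℓ * x ^ (j + 1)
          + (if 0 = 0 then b m * x else b (0 - 1)) ^ ℓ * x ^ 0 := by
      rw [hm, Finset.sum_range_succ']
    rw [e1, e2]
    congr 1
    · refine Finset.sum_congr rfl fun j _ => ?_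
      simp only [Nat.add_eq_zero_iff, one_ne_zero, and_false, if_false, Nat.add_sub_cancel]
      ring
    · simp only [if_true, pow_zero, mul_one]
      rw [mul_pow]
      have : x ^ ℓ = x * x ^ m := by rw [hm, pow_succ']
      rw [this]; ring

theorem lsp_R_x_pow_mul {a : L} (ha : a ∈ lsp_R (k := k) ℓ x) (n : ℕ) :
    x ^ n * a ∈ lsp_R (k := k) ℓ x := by
  induction n with
  | zero => simpa using ha
  | succ n ih => rw [pow_succ', mul_assoc]; exact lsp_R_x_mul ih

theorem lsp_R_mul {a a' : L} (ha : a ∈ lsp_R (k := k) ℓ x) (ha' : a' ∈ lsp_R (k := k) ℓ x) :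
    a * a' ∈ lsp_R (k := k) ℓ x := by
  obtain ⟨b', hb', rfl⟩ := ha'
  rw [Finset.mul_sum]
  refine lsp_R_sum _ _ fun j _ => ?_
  have : a * (b' j ^ ℓ * x ^ j) = b' j ^ ℓ * (x ^ j * a) := by ring
  rw [this]
  exact lsp_R_pow_mul (hb' j) (lsp_R_x_pow_mul ha j)

theorem lsp_R_one : (1 : L) ∈ lsp_R (k := k) ℓ x := by
  refine ⟨fun j => if j = 0 then 1 else 0, fun j => ?_, ?_⟩
  · by_cases hj : j = 0
    · simp only [hj, if_true]; exact one_mem _
    · simp only [hj, if_false]; exact zero_mem _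
  · rw [Finset.sum_eq_single 0]
    · simp
    · intro j _ hj; simp [hj, zero_pow hℓ.out.ne_zero]
    · intro h; exact absurd (Finset.mem_range.mpr hℓ.out.pos) h

theorem lsp_R_pow {a : L} (ha : a ∈ lsp_R (k := k) ℓ x) (n : ℕ) : a ^ n ∈ lsp_R (k := k) ℓ x := by
  induction n with
  | zero => simpa using lsp_R_one
  | succ n ih => rw [pow_succ]; exact lsp_R_mul ih ha

/-- every element of `k(x)` is `∑_{j<ℓ} b_j^ℓ x^j` with `b_j ∈ k(x)` -/
theorem lsp_mem_R {a : L} (ha : a ∈ k⟮x⟯) : a ∈ lsp_R (k := k) ℓ x := by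
  induction ha using IntermediateField.adjoin_induction with
  | mem y hy =>
    rw [Set.mem_singleton_iff] at hy
    subst hy
    simpa using lsp_R_x_mul (lsp_R_one (k := k) (ℓ := ℓ) (x := y))
  | algebraMap c =>
    obtain ⟨c', hc'⟩ := surjective_frobenius k ℓ c
    have : algebraMap k L c = (algebraMap k L c') ^ ℓ * 1 := by
      rw [mul_one, ← map_pow, ← hc', frobenius_def]
    rw [this]
    exact lsp_R_pow_mul (IntermediateField.algebraMap_mem _ c') lsp_R_one
  | add y z hy hz ihy ihz => exact lsp_R_add ihy ihz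
  | inv y hy ihy =>
    rcases eq_or_ne y 0 with rfl | h0
    · simpa using lsp_R_zero
    · have : y⁻¹ = (y⁻¹) ^ ℓ * y ^ (ℓ - 1) := by
        have hl : ℓ = (ℓ - 1) + 1 := by have := hℓ.out.pos; omega
        conv_rhs => rw [hl, pow_succ, Nat.add_sub_cancel, inv_pow]
        field_simp
      rw [this]
      exact lsp_R_pow_mul (inv_mem hy) (lsp_R_pow ihy _)
  | mul y z hy hz ihy ihz => exact lsp_R_mul ihy ihz

end Decomp

section Main

variable {k : Type*} [Field k] (ℓ : ℕ) [hℓ : Fact ℓ.Prime] [CharP k ℓ] [PerfectField k]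
variable {L : Type*} [Field L] [Algebra k L]

/-- **MacLane**, abstract form: if `1, x, …, x^(ℓ-1)` are linearly independent over the `ℓ`-th
powers of `L`, then every element of `L` algebraic over `k(x)` is separable over `k(x)`
(`k` perfect of characteristic `ℓ`). -/
theorem lsp_isSeparable_of_indep {x : L}
    (hind : ∀ c : ℕ → L, ∑ j ∈ Finset.range ℓ, c j ^ ℓ * x ^ j = 0 →
      ∀ j ∈ Finset.range ℓ, c j = 0)
    {y : L} (hy : IsAlgebraic k⟮x⟯ y) : IsSeparable k⟮x⟯ y := by
  classical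
  have : CharP L ℓ := charP_of_injective_algebraMap (algebraMap k L).injective ℓ
  have : CharP k⟮x⟯ ℓ := charP_of_injective_algebraMap (algebraMap k k⟮x⟯).injective ℓ
  have hirr := minpoly.irreducible hy.isIntegral
  rcases Polynomial.separable_or ℓ hirr with h | ⟨_, g, hg, hgf⟩
  · exact h
  exfalso
  set d := g.natDegree with hd
  have hdpos : 0 < d := Polynomial.natDegree_pos_iff_degree_pos.mpr
    (Polynomial.degree_pos_of_irreducible hg)
  -- decompose the coefficients
  have hdec : ∀ i : ℕ, ∃ b : ℕ → L, (∀ j, b j ∈ k⟮x⟯) ∧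
      ((g.coeff i : k⟮x⟯) : L) = ∑ j ∈ Finset.range ℓ, b j ^ ℓ * x ^ j :=
    fun i => lsp_mem_R (k := k) (ℓ := ℓ) (g.coeff i).2
  choose b hb hbe using hdec
  -- the relation
  have h0 : Polynomial.aeval y (Polynomial.expand k⟮x⟯ ℓ g) = 0 := by
    rw [hgf]; exact minpoly.aeval _ _
  rw [Polynomial.expand_aeval, Polynomial.aeval_eq_sum_range] at h0
  have h1 : ∑ j ∈ Finset.range ℓ,
      (∑ i ∈ Finset.range (d + 1), b i j * y ^ i) ^ ℓ * x ^ j = 0 := by
    rw [← h0]
    simp_rw [sum_pow_char, Finset.sum_mul]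
    rw [Finset.sum_comm]
    refine Finset.sum_congr rfl fun i _ => ?_
    rw [Algebra.smul_def, IntermediateField.algebraMap_apply, hbe i, Finset.sum_mul]
    refine Finset.sum_congr rfl fun j _ => ?_
    rw [mul_pow, ← pow_mul, ← pow_mul, mul_comm i ℓ]
    ring
  have h2 := hind _ h1
  -- the polynomials `B_j`
  have h3 : ∀ j ∈ Finset.range ℓ, ∀ i ∈ Finset.range (d + 1), b i j = 0 := by
    intro j hj
    set B : Polynomial k⟮x⟯ :=
      ∑ i ∈ Finset.range (d + 1), Polynomial.monomial i (⟨b i j, hb i j⟩ : k⟮x⟯) with hB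
    have hBy : Polynomial.aeval y B = 0 := by
      rw [hB, map_sum, ← h2 j hj]
      refine Finset.sum_congr rfl fun i _ => ?_
      rw [Polynomial.aeval_monomial, IntermediateField.algebraMap_apply]
    have hBdeg : B.natDegree ≤ d :=
      Polynomial.natDegree_sum_le_of_forall_le _ _
        (fun i hi => (Polynomial.natDegree_monomial_le _).trans
          (Nat.lt_succ_iff.mp (Finset.mem_range.mp hi)))
    have hB0 : B = 0 := by
      by_contra hne
      have hle := minpoly.degree_le_of_ne_zero k⟮x⟯ y hne hBy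
      have hnat := Polynomial.natDegree_le_natDegree hle
      rw [← hgf, Polynomial.natDegree_expand] at hnat
      have : d * ℓ ≤ d := hnat.trans hBdeg
      have h2l := hℓ.out.two_le
      nlinarith
    intro i hi
    have hc : B.coeff i = 0 := by rw [hB0, Polynomial.coeff_zero]
    rw [hB, Polynomial.finsetSum_coeff] at hc
    simp only [Polynomial.coeff_monomial] at hc
    rw [Finset.sum_eq_single i] at hc
    · simpa using congrArg Subtype.val hc
    · intro i' _ hne; simp [hne]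
    · intro h; exact absurd hi h
  -- hence `g = 0`
  apply hg.ne_zero
  refine Polynomial.ext fun i => ?_
  rw [Polynomial.coeff_zero]
  by_cases hi : i ∈ Finset.range (d + 1)
  · apply Subtype.ext
    rw [hbe i]
    simp only [ZeroMemClass.coe_zero]
    refine Finset.sum_eq_zero fun j hj => ?_
    rw [h3 j hj i hi, zero_pow hℓ.out.ne_zero, zero_mul]
  · apply Polynomial.coeff_eq_zero_of_natDegree_lt
    rw [Finset.mem_range] at hi
    omega

/-- **MacLane**: every element of `k((q))` algebraic over `k(x)` is separable over `k(x)`, as soon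
as `k` is perfect of characteristic `ℓ` and `ℓ ∤ ord_q x`. -/
theorem lsp_isSeparable {x : LaurentSeries k} (hx : x ≠ 0) (hord : ¬ (ℓ : ℤ) ∣ x.order)
    {y : LaurentSeries k} (hy : IsAlgebraic k⟮x⟯ y) : IsSeparable k⟮x⟯ y :=
  lsp_isSeparable_of_indep ℓ (lsp_indep ℓ hx hord) hy

/-- the same for a field `F` embedded in `k((q))` -/
theorem lsp_isSeparable_of_algHom {F : Type*} [Field F] [Algebra k F]
    (ι : F →ₐ[k] LaurentSeries k) {x : F} (hx : x ≠ 0) (hord : ¬ (ℓ : ℤ) ∣ (ι x).order)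
    {y : F} (hy : IsAlgebraic k⟮x⟯ y) : IsSeparable k⟮x⟯ y := by
  refine lsp_isSeparable_of_indep ℓ (fun c hc j hj => ?_) hy
  have h := congrArg ι hc
  rw [map_sum, map_zero] at h
  simp only [map_mul, map_pow] at h
  have := lsp_indep ℓ ((map_ne_zero ι).mpr hx) hord (fun j => ι (c j)) h j hj
  exact (map_eq_zero ι).mp this

end Main

end Fermat.Agent.JT3
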