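/-
Copyright: team work for the Fermat project (helper14).

# The "norm trick": quotients of a Dedekind special fibre by a finite group

`B` a Dedekind domain with a faithful action of a finite group `G`, `A → B` a finite ring map from a
noetherian ring whose image consists of `G`-invariant elements, contains all norms
`∏ g, g • t` and has the same residue fields as `B`.  Then the image of `A` is ALL of `B ^ G`
(`nq_fixed_mem_range`).  No completions are used: the ramification index of `B / B^G` at a maximal
ideal `n` with trivial residue extension is the order of the stabiliser of `n`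
(`nq_fixed_mem_pow`, from the fundamental identity `r * e * f = |G|`), and the norm of a
uniformiser at `n` is an element of `A` of exactly this order.

The lifted form `nq_lift` is the statement `A / π = (B / π) ^ G` for `A = B ^ G`, and
`nq_maximal_local` says that a ring whose special fibre `A / π` is Dedekind is, at every closed
point of the special fibre, generated by `π` and one more element.
-/
import Mathlib

set_option linter.unusedSectionVars false
set_option linter.style.longLine false

namespace Fermat.Agent.JT3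

section Dedekind

variable {R : Type*} [CommRing R] [IsDedekindDomain R]

/-- In a Dedekind domain, if `x ∈ n ^ k` and `s ∉ n ^ (k+1)` (`n` maximal), then `x / s` is
integral at `n`: there is `d ∉ n` with `d * x ∈ (s)`. -/
theorem nq_exists_mul_mem_span (n : Ideal R) [hn : n.IsMaximal] {k : ℕ} {x s : R}
    (hx : x ∈ n ^ k) (hs : s ∉ n ^ (k + 1)) :
    ∃ d : R, d ∉ n ∧ d * x ∈ Ideal.span {s} := by
  classical
  have hs0 : s ≠ 0 := fun h => hs (h ▸ Ideal.zero_mem _)
  have hI : Ideal.span {s} ≠ ⊥ := by rwa [Ne, Ideal.span_singleton_eq_bot]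
  obtain ⟨Q, hQ, hIQ⟩ := Ideal.eq_prime_pow_mul_coprime hI n
  set c := Multiset.count n (UniqueFactorizationMonoid.normalizedFactors (Ideal.span {s})) with hc
  have hck : c ≤ k := by
    by_contra hlt
    rw [not_le] at hlt
    apply hs
    have h1 : Ideal.span {s} ≤ n ^ c := by
      rw [hIQ]; exact (Ideal.mul_le_left : n ^ c * Q ≤ n ^ c)
    exact Ideal.pow_le_pow_right (R := R) hlt (h1 (Ideal.mem_span_singleton_self s))
  have hQn : ¬ Q ≤ n := by
    intro hle
    have : n ⊔ Q = n := sup_eq_left.mpr hle
    rw [this] at hQ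
    exact hn.ne_top hQ
  obtain ⟨d, hdQ, hdn⟩ := Set.not_subset.mp hQn
  refine ⟨d, hdn, ?_⟩
  rw [hIQ, mul_comm d x]
  exact Ideal.mul_mem_mul (Ideal.pow_le_pow_right hck hx) hdQ

/-- Multiplicativity of the `n`-adic order, in membership form. -/
theorem nq_prod_notMem_pow {ι : Type*} (n : Ideal R) [hn : n.IsPrime] (hn0 : n ≠ ⊥)
    (S : Finset ι) (f : ι → R) (k : ι → ℕ) (hf : ∀ i ∈ S, f i ∉ n ^ (k i + 1)) :
    ∏ i ∈ S, f i ∉ n ^ (∑ i ∈ S, k i + 1) := by
  have hp : Prime n := Ideal.prime_of_isPrime hn0 hn
  have key : ∀ r : R, ∀ m : ℕ, r ∉ n ^ (m + 1) ↔ emultiplicity n (Ideal.span {r}) ≤ m := by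
    intro r m
    rw [← Ideal.dvd_span_singleton, ← emultiplicity_lt_iff_not_dvd, Nat.cast_add, Nat.cast_one,
      ENat.lt_add_one_iff (ENat.natCast_ne_top m)]
  rw [key, ← Ideal.prod_span_singleton, Finset.emultiplicity_prod hp, Nat.cast_sum]
  exact Finset.sum_le_sum fun i hi => (key _ _).mp (hf i hi)

end Dedekind

section Main

variable (A B G : Type*) [CommRing A] [CommRing B] [IsDedekindDomain B]
  [Algebra A B] [Module.Finite A B] [IsNoetherianRing A]
  [Group G] [Finite G] [MulSemiringAction G B] [SMulCommClass G A B] [FaithfulSMul G B]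

theorem nq_isGaloisGroup : IsGaloisGroup G (FixedPoints.subalgebra A B G) B where
  faithful := inferInstance
  commutes := inferInstance
  isInvariant := ⟨fun x h => ⟨⟨x, h⟩, rfl⟩⟩

theorem nq_isIntegrallyClosed_fixed : IsIntegrallyClosed (FixedPoints.subalgebra A B G) := by
  set C := FixedPoints.subalgebra A B G with hC
  let K := FractionRing C
  let L := FractionRing B
  rw [isIntegrallyClosed_iff K]
  intro x hx
  obtain ⟨a, b, hb, rfl⟩ := IsFractionRing.div_surjective (A := C) x
  have hb0 : b ≠ 0 := nonZeroDivisors.ne_zero hb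
  -- the map K → L
  have hinj : Function.Injective (algebraMap C L) := by
    rw [IsScalarTower.algebraMap_eq C B L]
    exact (IsFractionRing.injective B L).comp Subtype.val_injective
  let φ : K →ₐ[C] L := IsFractionRing.liftAlgHom (g := Algebra.ofId C L) hinj
  have h1 : IsIntegral C (φ (algebraMap C K a / algebraMap C K b)) := hx.map φ
  have h2 : IsIntegral B (φ (algebraMap C K a / algebraMap C K b)) := h1.tower_top
  obtain ⟨z, hz⟩ := IsIntegrallyClosed.algebraMap_eq_of_integral h2
  have hφ : φ (algebraMap C K a / algebraMap C K b) =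
      algebraMap B L (a : B) / algebraMap B L (b : B) := by
    rw [map_div₀, AlgHom.commutes, AlgHom.commutes, IsScalarTower.algebraMap_apply C B L,
      IsScalarTower.algebraMap_apply C B L]
    rfl
  have hbL : algebraMap B L (b : B) ≠ 0 := by
    rw [Ne, map_eq_zero_iff _ (IsFractionRing.injective B L)]
    exact fun h => hb0 (Subtype.ext h)
  have hzb : z * (b : B) = (a : B) := by
    apply IsFractionRing.injective B L
    rw [map_mul, hz, hφ, div_mul_cancel₀ _ hbL]
  have hzinv : ∀ g : G, g • z = z := by
    intro g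
    have hbB : (b : B) ≠ 0 := fun h => hb0 (Subtype.ext h)
    apply mul_right_cancel₀ hbB
    have := congrArg (g • ·) hzb
    simp only [smul_mul'] at this
    rw [b.2 g, a.2 g] at this
    rw [this, hzb]
  refine ⟨⟨z, hzinv⟩, ?_⟩
  have hbK : algebraMap C K b ≠ 0 := by
    rw [Ne, map_eq_zero_iff _ (IsFractionRing.injective C K)]
    exact hb0
  rw [eq_div_iff hbK, ← map_mul]
  congr 1
  exact Subtype.ext hzb

theorem nq_dimensionLEOne_fixed : Ring.DimensionLEOne (FixedPoints.subalgebra A B G) := by
  set C := FixedPoints.subalgebra A B G with hC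
  have := nq_isGaloisGroup A B G
  have : Algebra.IsIntegral C B := Algebra.IsInvariant.isIntegral C B G
  refine ⟨fun {p} hp0 hp => ?_⟩
  obtain ⟨P, -, hP, hPp⟩ := Ideal.exists_ideal_over_prime_of_isIntegral p (⊥ : Ideal B) (by
    rw [Ideal.comap_bot_of_injective _ (FaithfulSMul.algebraMap_injective C B)]
    exact bot_le)
  have hP0 : P ≠ ⊥ := by
    rintro rfl
    rw [Ideal.comap_bot_of_injective _ (FaithfulSMul.algebraMap_injective C B)] at hPp
    exact hp0 hPp.symm
  have : P.IsMaximal := hP.isMaximal hP0
  rw [← hPp]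
  exact Ideal.isMaximal_comap_of_isIntegral_of_isMaximal P

theorem nq_isDedekindDomain_fixed : IsDedekindDomain (FixedPoints.subalgebra A B G) := by
  have := nq_isIntegrallyClosed_fixed A B G
  have := nq_dimensionLEOne_fixed A B G
  have : IsNoetherianRing (FixedPoints.subalgebra A B G) := by
    have h1 : IsNoetherian A (FixedPoints.subalgebra A B G) :=
      isNoetherian_of_injective (FixedPoints.subalgebra A B G).val.toLinearMap
        Subtype.val_injective
    exact isNoetherian_of_tower A h1
  exact { }

variable {A B G}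

open scoped Pointwise in
theorem nq_fixed_mem_pow (n : Ideal B) [hn : n.IsMaximal]
    (hres : ∀ b : B, ∃ a : A, b - algebraMap A B a ∈ n)
    {x : B} (hx : ∀ g : G, g • x = x) (hxn : x ∈ n) :
    x ∈ n ^ Nat.card (MulAction.stabilizer G n) := by
  by_cases hn0 : n = ⊥
  · subst hn0
    rw [Ideal.mem_bot] at hxn
    rw [hxn]; exact Ideal.zero_mem _
  set C := FixedPoints.subalgebra A B G with hC
  have := nq_isGaloisGroup A B G
  have := nq_isDedekindDomain_fixed A B G
  have : Module.Finite C B := Module.Finite.of_restrictScalars_finite A _ B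
  have : Algebra.IsIntegral C B := Algebra.IsInvariant.isIntegral C B G
  set p : Ideal C := n.under C with hp
  have hpmax : p.IsMaximal := Ideal.isMaximal_comap_of_isIntegral_of_isMaximal n
  have hlo : n.LiesOver p := ⟨rfl⟩
  have hp0 : p ≠ ⊥ := by
    obtain ⟨y, hyn, hy0⟩ := Submodule.exists_mem_ne_zero_of_ne_bot hn0
    exact Ideal.comap_ne_bot_of_integral_mem hy0 hyn (Algebra.IsIntegral.isIntegral y)
  have hpS : p.map (algebraMap C B) ≠ ⊥ := Ideal.map_ne_bot_of_ne_bot hp0
  -- fundamental identity
  have key := Ideal.ncard_primesOver_mul_ramificationIdxIn_mul_inertiaDegIn p B G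
  rw [Ideal.ramificationIdxIn_eq_ramificationIdx p n G, Ideal.inertiaDegIn_eq_inertiaDeg p n G,
    ← Algebra.IsInvariant.orbit_eq_primesOver C B G p n, ← MulAction.index_stabilizer] at key
  -- inertia degree one
  have hf : n.inertiaDeg C = 1 := by
    rw [Ideal.inertiaDeg_eq_of_isMaximal p n]
    let _ : Field (C ⧸ p) := Ideal.Quotient.field p
    have : Nontrivial (B ⧸ n) := Ideal.Quotient.nontrivial_iff.mpr hn.ne_top
    have hbij : Function.Bijective (Algebra.linearMap (C ⧸ p) (B ⧸ n)) := by
      constructor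
      · rw [Algebra.coe_linearMap]
        exact (algebraMap (C ⧸ p) (B ⧸ n)).injective
      · intro b
        obtain ⟨b, rfl⟩ := Ideal.Quotient.mk_surjective b
        obtain ⟨a, ha⟩ := hres b
        refine ⟨Ideal.Quotient.mk p (algebraMap A C a), ?_⟩
        rw [Algebra.linearMap_apply, Ideal.Quotient.algebraMap_mk_of_liesOver]
        symm
        rw [Ideal.Quotient.eq]
        exact ha
    rw [← (LinearEquiv.ofBijective _ hbij).finrank_eq, Module.finrank_self]
  rw [hf, mul_one] at key
  have hcard := Subgroup.index_mul_card (MulAction.stabilizer G n)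
  have he : n.ramificationIdx C = Nat.card (MulAction.stabilizer G n) := by
    have h0 : (MulAction.stabilizer G n).index ≠ 0 := Subgroup.index_ne_zero_of_finite
    exact Nat.eq_of_mul_eq_mul_left (Nat.pos_of_ne_zero h0) (key.trans hcard.symm)
  rw [← he, ← Ideal.ramificationIdx'_eq_ramificationIdx' p n hpS]
  apply Ideal.le_pow_ramificationIdx' (p := p) (P := n)
  have : x = algebraMap C B ⟨x, hx⟩ := rfl
  rw [this]
  exact Ideal.mem_map_of_mem _ (show (⟨x, hx⟩ : C) ∈ p from hxn)

end Main

section Main2

variable {A B G : Type*} [CommRing A] [CommRing B] [IsDedekindDomain B]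
  [Algebra A B] [Module.Finite A B] [IsNoetherianRing A]
  [Group G] [Fintype G] [MulSemiringAction G B] [SMulCommClass G A B] [FaithfulSMul G B]

open scoped Pointwise in
theorem nq_key
    (hnorm : ∀ t : B, ∃ a : A, algebraMap A B a = ∏ g : G, g • t)
    (hres : ∀ n : Ideal B, n.IsMaximal → ∀ b : B, ∃ a : A, b - algebraMap A B a ∈ n)
    (m : Ideal A) [hm : m.IsMaximal] :
    Subalgebra.toSubmodule (FixedPoints.subalgebra A B G) ≤
      LinearMap.range (Algebra.linearMap A B) ⊔
        m • Subalgebra.toSubmodule (FixedPoints.subalgebra A B G) := by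
  classical
  intro x hxC
  have hx : ∀ g : G, g • x = x := hxC
  by_cases hker : RingHom.ker (algebraMap A B) ≤ m
  swap
  · obtain ⟨k, hk, hkm⟩ := Set.not_subset.mp hker
    obtain ⟨w, i, hi, hwi⟩ := hm.exists_inv hkm
    apply Submodule.mem_sup_right
    have hx1 : x = i • x := by
      calc x = (1 : A) • x := (one_smul _ _).symm
        _ = (w * k + i) • x := by rw [hwi]
        _ = i • x := by
          rw [add_smul, mul_smul, Algebra.smul_def k, (RingHom.mem_ker).mp hk, zero_mul,
            smul_zero, zero_add]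
    rw [hx1]
    exact Submodule.smul_mem_smul hi hxC
  obtain ⟨n, hnmax, hnm⟩ := Ideal.exists_ideal_over_maximal_of_isIntegral (S := B) m hker
  obtain ⟨a, ha⟩ := hres n hnmax x
  set x' := x - algebraMap A B a with hx'
  have hx'inv : ∀ g : G, g • x' = x' := by
    intro g; rw [hx', smul_sub, hx g, smul_algebraMap]
  have hx'C : x' ∈ Subalgebra.toSubmodule (FixedPoints.subalgebra A B G) := hx'inv
  suffices hsuff : x' ∈ m • Subalgebra.toSubmodule (FixedPoints.subalgebra A B G) by
    have hxa : x = algebraMap A B a + x' := by rw [hx']; ring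
    rw [hxa]
    exact Submodule.add_mem_sup ⟨a, rfl⟩ hsuff
  by_cases hn0 : n = ⊥
  · have : x' = 0 := by rw [hn0] at ha; exact ha
    rw [this]; exact Submodule.zero_mem _
  -- the main case
  set d := Nat.card (MulAction.stabilizer G n) with hd
  have hmem_smul : ∀ (g : G) (k : ℕ) (y : B), g • y = y → (y ∈ (g • n) ^ k ↔ y ∈ n ^ k) := by
    intro g k y hy
    rw [← smul_pow', Ideal.mem_pointwise_smul_iff_inv_smul_mem]
    have : g⁻¹ • y = y := by rw [inv_smul_eq_iff, hy]
    rw [this]
  have hx'pow : ∀ g : G, x' ∈ (g • n) ^ d := fun g =>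
    (hmem_smul g d x' (hx'inv g)).mpr (nq_fixed_mem_pow n (hres n hnmax) hx'inv ha)
  -- the uniformiser `t`
  have hnsq : ¬ n ≤ n ^ 2 := by
    have := Ideal.pow_right_strictAnti n hn0 hnmax.ne_top (show 1 < 2 by norm_num)
    simp only [pow_one] at this
    exact not_le_of_gt this
  obtain ⟨t, htn, htsq, htg⟩ : ∃ t ∈ n, t ∉ n ^ 2 ∧ ∀ g : G, g • n ≠ n → t ∉ g • n := by
    let f : Option G → Ideal B := fun o => o.elim (n ^ 2) (fun g => g • n)
    let S : Finset (Option G) :=
      insert none ((Finset.univ.filter (fun g : G => g • n ≠ n)).map Function.Embedding.some)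
    have hprime : ∀ i ∈ S, i ≠ none → i ≠ none → (f i).IsPrime := by
      intro i _ hi _
      cases i with
      | none => exact absurd rfl hi
      | some g => exact Ideal.IsPrime.smul g
    have hnot : ¬ ((n : Set B) ⊆ ⋃ i ∈ (↑S : Set (Option G)), f i) := by
      rw [Ideal.subset_union_prime none none hprime]
      rintro ⟨i, hiS, hle⟩
      cases i with
      | none => exact hnsq hle
      | some g =>
        simp only [S, Finset.mem_insert, reduceCtorEq, Finset.mem_map, Finset.mem_filter,
          Finset.mem_univ, true_and, Function.Embedding.some_apply, Option.some.injEq,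
          exists_eq_right, false_or] at hiS
        have hgp : (g • n).IsPrime := Ideal.IsPrime.smul g
        exact hiS (hnmax.eq_of_le hgp.ne_top hle).symm
    obtain ⟨t, htn, htU⟩ := Set.not_subset.mp hnot
    refine ⟨t, htn, fun h => htU ?_, fun g hg h => htU ?_⟩
    · refine Set.mem_biUnion (x := none) ?_ h
      simp [S]
    · refine Set.mem_biUnion (x := some g) ?_ h
      simp [S, hg]
  -- the norm `s` of `t`
  obtain ⟨as, has⟩ := hnorm t
  set s := ∏ g : G, g • t with hs
  have hsinv : ∀ g : G, g • s = s := fun g => by rw [← has, smul_algebraMap]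
  have hsn : s ∈ n := by
    have hdvd : (1 : G) • t ∣ s := Finset.dvd_prod_of_mem (fun g : G => g • t) (Finset.mem_univ 1)
    rw [one_smul] at hdvd
    exact Ideal.mem_of_dvd n hdvd htn
  have hasm : as ∈ m := by
    rw [← hnm, Ideal.mem_comap, has]; exact hsn
  have hsd : s ∉ n ^ (d + 1) := by
    have hprod := nq_prod_notMem_pow n hn0 Finset.univ (fun g : G => g • t)
      (fun g => if g ∈ MulAction.stabilizer G n then 1 else 0) (by
        intro g _
        by_cases hg : g ∈ MulAction.stabilizer G n
        · rw [if_pos hg]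
          intro h
          apply htsq
          have hg' : g • n = n := hg
          have h2 : g • t ∈ (g • n) ^ 2 := by rw [hg']; exact h
          rwa [← smul_pow', Ideal.smul_mem_pointwise_smul_iff] at h2
        · rw [if_neg hg]
          intro h
          rw [zero_add, pow_one] at h
          have hg' : g⁻¹ • n ≠ n := by
            intro h'
            apply hg
            rw [MulAction.mem_stabilizer_iff]
            rw [inv_smul_eq_iff] at h'
            exact h'.symm
          apply htg g⁻¹ hg'
          rwa [Ideal.mem_inv_pointwise_smul_iff])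
    have hsum : ∑ g : G, (if g ∈ MulAction.stabilizer G n then 1 else 0) = d := by
      rw [Finset.sum_boole, hd, Nat.card_eq_fintype_card, Fintype.card_subtype]
      simp
    rwa [hsum] at hprod
  have hs0 : s ≠ 0 := fun h => hsd (h ▸ Ideal.zero_mem _)
  have hsdg : ∀ g : G, s ∉ (g • n) ^ (d + 1) := fun g h =>
    hsd ((hmem_smul g (d + 1) s (hsinv g)).mp h)
  -- the denominator ideal
  let J : Ideal B := Submodule.comap (LinearMap.mulRight B x') (Ideal.span {s})
  have hJmem : ∀ b : B, b ∈ J ↔ b * x' ∈ Ideal.span {s} := fun b => by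
    simp [J, Submodule.mem_comap]
  have hJ : ∀ g : G, ¬ J ≤ g • n := by
    intro g hle
    have hgp : (g • n).IsPrime := Ideal.IsPrime.smul g
    have hg0 : g • n ≠ ⊥ := by
      intro h
      apply hn0
      have := congrArg (g⁻¹ • ·) h
      simpa using this
    have hgmax : (g • n).IsMaximal := hgp.isMaximal hg0
    obtain ⟨e, heg, hex⟩ := nq_exists_mul_mem_span (g • n) (hx'pow g) (hsdg g)
    exact heg (hle ((hJmem e).mpr hex))
  obtain ⟨b, hbJ, hbg⟩ : ∃ b ∈ J, ∀ g : G, b ∉ g • n := by
    have hnot : ¬ ((J : Set B) ⊆ ⋃ g ∈ (↑(Finset.univ : Finset G) : Set G),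
        ((g • n : Ideal B) : Set B)) := by
      rw [Ideal.subset_union_prime (f := fun g : G => g • n) 1 1
        (fun g _ _ _ => Ideal.IsPrime.smul g)]
      rintro ⟨g, -, hle⟩
      exact hJ g hle
    obtain ⟨b, hbJ, hbU⟩ := Set.not_subset.mp hnot
    refine ⟨b, hbJ, fun g h => hbU ?_⟩
    exact Set.mem_biUnion (x := g) (by simp) h
  -- the norm `u` of `b`
  obtain ⟨au, hau⟩ := hnorm b
  set u := ∏ g : G, g • b with hu
  have hun : u ∉ n := by
    rw [hu, Ideal.IsPrime.prod_mem_iff]
    rintro ⟨g, -, hg⟩
    apply hbg g⁻¹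
    rwa [Ideal.mem_inv_pointwise_smul_iff]
  have haum : au ∉ m := by
    rw [← hnm, Ideal.mem_comap, hau]; exact hun
  have hux : u * x' ∈ Ideal.span {s} := by
    have hdvd : (1 : G) • b ∣ u := Finset.dvd_prod_of_mem (fun g : G => g • b) (Finset.mem_univ 1)
    rw [one_smul] at hdvd
    obtain ⟨w, hw⟩ := hdvd
    rw [hw, mul_comm b w, mul_assoc]
    exact Ideal.mul_mem_left _ _ ((hJmem b).mp hbJ)
  obtain ⟨z, hz⟩ := Ideal.mem_span_singleton'.mp hux
  have huinv : ∀ g : G, g • u = u := fun g => by rw [← hau, smul_algebraMap]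
  have hzinv : ∀ g : G, g • z = z := by
    intro g
    apply mul_right_cancel₀ hs0
    have := congrArg (g • ·) hz
    simp only [smul_mul', hsinv g, huinv g, hx'inv g] at this
    rw [this, hz]
  have hzC : z ∈ Subalgebra.toSubmodule (FixedPoints.subalgebra A B G) := hzinv
  -- conclusion
  obtain ⟨y, i, hi, hyi⟩ := hm.exists_inv haum
  have hfin : x' = (y * as) • z + i • x' := by
    calc x' = (1 : A) • x' := (one_smul _ _).symm
      _ = (y * au + i) • x' := by rw [hyi]
      _ = (y * as) • z + i • x' := by
        rw [add_smul, mul_smul, mul_smul, Algebra.smul_def au, hau, ← hz, Algebra.smul_def as, has,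
          mul_comm z s]
  rw [hfin]
  exact Submodule.add_mem _ (Submodule.smul_mem_smul (Ideal.mul_mem_left _ _ hasm) hzC)
    (Submodule.smul_mem_smul hi hx'C)

/-- **Norm trick.** -/
theorem nq_fixed_mem_range
    (hnorm : ∀ t : B, ∃ a : A, algebraMap A B a = ∏ g : G, g • t)
    (hres : ∀ n : Ideal B, n.IsMaximal → ∀ b : B, ∃ a : A, b - algebraMap A B a ∈ n)
    {c : B} (hc : ∀ g : G, g • c = c) : ∃ a : A, algebraMap A B a = c := by
  set Cm := Subalgebra.toSubmodule (FixedPoints.subalgebra A B G) with hCm
  set Am := LinearMap.range (Algebra.linearMap A B) with hAm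
  have hcC : c ∈ Cm := hc
  set I : Ideal A := Ideal.torsionOf A (B ⧸ Am) (Am.mkQ c) with hI
  suffices hIt : I = ⊤ by
    have h1 : (1 : A) ∈ I := by rw [hIt]; exact Submodule.mem_top
    rw [hI, Ideal.mem_torsionOf_iff, one_smul, Submodule.mkQ_apply,
      Submodule.Quotient.mk_eq_zero] at h1
    obtain ⟨a, ha⟩ := h1
    exact ⟨a, ha⟩
  by_contra hIt
  obtain ⟨m, hm, hIm⟩ := Ideal.exists_le_maximal I hIt
  have key := nq_key hnorm hres m
  have hN : Cm.map Am.mkQ ≤ m • Cm.map Am.mkQ := by
    rw [← Submodule.map_smul'']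
    rintro y ⟨x, hx, rfl⟩
    obtain ⟨a, ha, w, hw, rfl⟩ := Submodule.mem_sup.mp (key hx)
    refine ⟨w, hw, ?_⟩
    rw [map_add, (Submodule.mkQ_apply Am a), (Submodule.Quotient.mk_eq_zero Am).mpr ha, zero_add]
  have hfg : (Cm.map Am.mkQ).FG := (IsNoetherian.noetherian Cm).map _
  obtain ⟨r, hr1, hr⟩ :=
    Submodule.exists_sub_one_mem_and_smul_eq_zero_of_fg_of_le_smul m _ hfg hN
  have hrI : r ∈ I := by
    rw [hI, Ideal.mem_torsionOf_iff]
    exact hr _ ⟨c, hcC, rfl⟩
  have hrm : r ∈ m := hIm hrI
  have h1m : (1 : A) ∈ m := by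
    have := m.sub_mem hrm hr1
    simpa using this
  exact hm.ne_top ((Ideal.eq_top_iff_one _).mpr h1m)

end Main2

section Lift

variable {A B Bb G : Type*} [CommRing A] [CommRing B] [Algebra A B] [IsNoetherianRing A]
  [Module.Finite A B] [Group G] [Fintype G] [MulSemiringAction G B] [SMulCommClass G A B]
  [CommRing Bb] [IsDedekindDomain Bb] [MulSemiringAction G Bb] [FaithfulSMul G Bb]

omit [IsNoetherianRing A] [Module.Finite A B] [SMulCommClass G A B] in
/-- The norm `∏ h, h • t` is invariant. -/
theorem nq_smul_prod_smul (t : B) (g : G) : g • ∏ h : G, h • t = ∏ h : G, h • t := by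
  rw [Finset.smul_prod']
  simp only [smul_smul]
  exact Fintype.prod_equiv (Equiv.mulLeft g) _ _ (fun h => rfl)

/-- **Norm trick, lifted form** (`A / π = (B / π) ^ G` for `A = B ^ G`): `q : B → Bb` a surjective
equivariant map onto a Dedekind domain with faithful `G`-action, `A` surjecting onto the invariants
of `B`, residue fields of `Bb` covered by `A`.  Then every invariant of `Bb` comes from `A`. -/
theorem nq_lift (hinv : ∀ b : B, (∀ g : G, g • b = b) → ∃ a : A, algebraMap A B a = b)
    (q : B →+* Bb) (hq : Function.Surjective q) (hqG : ∀ (g : G) (b : B), q (g • b) = g • q b)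
    (hres : ∀ n : Ideal Bb, n.IsMaximal → ∀ b : Bb, ∃ a : A, b - q (algebraMap A B a) ∈ n)
    {c : Bb} (hc : ∀ g : G, g • c = c) : ∃ a : A, q (algebraMap A B a) = c := by
  let _ : Algebra A Bb := (q.comp (algebraMap A B)).toAlgebra
  have halg : ∀ a, algebraMap A Bb a = q (algebraMap A B a) := fun a => rfl
  have : SMulCommClass G A Bb := ⟨fun g a b => by
    simp only [Algebra.smul_def, halg, smul_mul', ← hqG, smul_algebraMap]⟩
  have : Module.Finite A Bb := by
    let ql : B →ₗ[A] Bb :=
      { toFun := q
        map_add' := map_add q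
        map_smul' := fun a b => by
          simp only [Algebra.smul_def, halg, map_mul, RingHom.id_apply] }
    exact Module.Finite.of_surjective ql hq
  refine nq_fixed_mem_range (A := A) (B := Bb) (G := G) (fun t => ?_) hres hc
  obtain ⟨t', rfl⟩ := hq t
  obtain ⟨a, ha⟩ := hinv (∏ g : G, g • t') (nq_smul_prod_smul t')
  refine ⟨a, ?_⟩
  rw [halg, ha, map_prod]
  simp only [hqG]

end Lift

section Transfer

/-- Dedekind domains are invariant under ring isomorphisms. -/
theorem nq_isDedekindDomain_of_ringEquiv {R S : Type*} [CommRing R] [CommRing S]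
    [IsDedekindDomain S] (e : R ≃+* S) : IsDedekindDomain R := by
  have : IsDomain R := e.toMulEquiv.isDomain
  have : IsNoetherianRing R := isNoetherianRing_of_ringEquiv S e.symm
  have : Ring.DimensionLEOne R := Ring.DimensionLEOne.of_ringEquiv e
  have : IsIntegrallyClosed R := IsIntegrallyClosed.of_equiv e.symm
  exact { }

/-- If the special fibre `A ⧸ (π)` is a Dedekind domain, then at every closed point `m ∋ π` the
ring `A` is generated by `π` and one more element, locally at `m`. -/
theorem nq_maximal_local {A : Type*} [CommRing A] (π : A)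
    [IsDedekindDomain (A ⧸ Ideal.span {π})] (m : Ideal A) [hm : m.IsMaximal] (hπm : π ∈ m) :
    ∃ s ∈ m, ∀ x ∈ m, ∃ u, u ∉ m ∧ u * x ∈ Ideal.span {π, s} := by
  set I : Ideal A := Ideal.span {π} with hI
  have hIm : I ≤ m := (Ideal.span_singleton_le_iff_mem m).mpr hπm
  set mk := Ideal.Quotient.mk I with hmk
  have hmksurj : Function.Surjective mk := Ideal.Quotient.mk_surjective
  set mb : Ideal (A ⧸ I) := m.map mk with hmb
  have hcomap : mb.comap mk = m := by
    rw [hmb, Ideal.comap_map_of_surjective mk hmksurj, ← RingHom.ker_eq_comap_bot,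
      Ideal.mk_ker, sup_eq_left.mpr hIm]
  have hmem : ∀ x : A, mk x ∈ mb ↔ x ∈ m := fun x => by
    rw [← Ideal.mem_comap, hcomap]
  have hmbmax : mb.IsMaximal := by
    apply Ideal.IsMaximal.map_of_surjective_of_ker_le hmksurj
    rw [Ideal.mk_ker]; exact hIm
  have hpair : ∀ {s z y : A}, mk y = mk z * mk s → y ∈ Ideal.span {π, s} := by
    intro s z y h
    have h1 : y - z * s ∈ I := by
      rw [← Ideal.Quotient.eq, map_mul]; exact h
    obtain ⟨w, hw⟩ := Ideal.mem_span_singleton'.mp h1
    have : y = w * π + z * s := by rw [hw]; ring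
    rw [this]
    exact Ideal.add_mem _ (Ideal.mul_mem_left _ _ (Ideal.subset_span (by simp)))
      (Ideal.mul_mem_left _ _ (Ideal.subset_span (by simp)))
  by_cases hb : mb = ⊥
  · refine ⟨π, hπm, fun x hx => ⟨1, fun h => hm.ne_top ((Ideal.eq_top_iff_one _).mpr h), ?_⟩⟩
    have : mk x = 0 := by
      have := (hmem x).mpr hx
      rwa [hb, Ideal.mem_bot] at this
    rw [one_mul]
    apply hpair (z := 0)
    rw [this, map_zero, zero_mul]
  · have hsq : ¬ mb ≤ mb ^ 2 := by
      have := Ideal.pow_right_strictAnti mb hb hmbmax.ne_top (show 1 < 2 by norm_num)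
      simp only [pow_one] at this
      exact not_le_of_gt this
    obtain ⟨sb, hsb, hsb2⟩ := Set.not_subset.mp hsq
    obtain ⟨s, rfl⟩ := hmksurj sb
    refine ⟨s, (hmem s).mp hsb, fun x hx => ?_⟩
    have hx1 : mk x ∈ mb ^ 1 := by rw [pow_one]; exact (hmem x).mpr hx
    obtain ⟨db, hdb, hdx⟩ := nq_exists_mul_mem_span mb hx1 hsb2
    obtain ⟨d, rfl⟩ := hmksurj db
    refine ⟨d, fun h => hdb ((hmem d).mpr h), ?_⟩
    obtain ⟨zb, hzb⟩ := Ideal.mem_span_singleton'.mp hdx
    obtain ⟨z, rfl⟩ := hmksurj zb
    apply hpair (z := z)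
    rw [map_mul, hzb]

end Transfer

section Quotient

variable {A B Bb G : Type*} [CommRing A] [CommRing B] [Algebra A B] [IsNoetherianRing A]
  [Module.Finite A B] [Group G] [Fintype G] [MulSemiringAction G B] [SMulCommClass G A B]
  [CommRing Bb] [IsDedekindDomain Bb] [MulSemiringAction G Bb] [FaithfulSMul G Bb]

/-- **The special fibre of the quotient is Dedekind.**  `A = B ^ G`, `π ∈ A` a non-zero-divisor on
`B`, `B / π B = Bb` a Dedekind domain on which `G` still acts faithfully, residue fields of `Bb`
covered by `A`.  Then `A / π A ≃ Bb ^ G` is a Dedekind domain. -/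
theorem nq_quotient_isDedekindDomain (π : A)
    (hinj : Function.Injective (algebraMap A B))
    (hinv : ∀ b : B, (∀ g : G, g • b = b) → ∃ a : A, algebraMap A B a = b)
    (q : B →+* Bb) (hq : Function.Surjective q) (hqG : ∀ (g : G) (b : B), q (g • b) = g • q b)
    (hker : RingHom.ker q = Ideal.span {algebraMap A B π})
    (hπ : ∀ b : B, algebraMap A B π * b = 0 → b = 0)
    (hres : ∀ n : Ideal Bb, n.IsMaximal → ∀ b : Bb, ∃ a : A, b - q (algebraMap A B a) ∈ n) :
    IsDedekindDomain (A ⧸ Ideal.span {π}) := by
  let _ : Algebra A Bb := (q.comp (algebraMap A B)).toAlgebra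
  have halg : ∀ a, algebraMap A Bb a = q (algebraMap A B a) := fun a => rfl
  have : SMulCommClass G A Bb := ⟨fun g a b => by
    simp only [Algebra.smul_def, halg, smul_mul', ← hqG, smul_algebraMap]⟩
  have : Module.Finite A Bb := by
    let ql : B →ₗ[A] Bb :=
      { toFun := q
        map_add' := map_add q
        map_smul' := fun a b => by
          simp only [Algebra.smul_def, halg, map_mul, RingHom.id_apply] }
    exact Module.Finite.of_surjective ql hq
  have hC : IsDedekindDomain (FixedPoints.subalgebra A Bb G) := nq_isDedekindDomain_fixed A Bb G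
  set φ : A →+* FixedPoints.subalgebra A Bb G := algebraMap A _ with hφ
  have hφsurj : Function.Surjective φ := by
    rintro ⟨c, hc⟩
    obtain ⟨a, ha⟩ := nq_lift hinv q hq hqG hres hc
    exact ⟨a, Subtype.ext ha⟩
  have hφker : Ideal.span {π} = RingHom.ker φ := by
    apply le_antisymm
    · rw [Ideal.span_singleton_le_iff_mem, RingHom.mem_ker]
      apply Subtype.ext
      change q (algebraMap A B π) = 0
      rw [← RingHom.mem_ker, hker]
      exact Ideal.mem_span_singleton_self _
    · intro a ha
      rw [RingHom.mem_ker] at ha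
      have ha' : q (algebraMap A B a) = 0 := congrArg Subtype.val ha
      rw [← RingHom.mem_ker, hker, Ideal.mem_span_singleton'] at ha'
      obtain ⟨b', hb'⟩ := ha'
      have hb'inv : ∀ g : G, g • b' = b' := by
        intro g
        have h1 : algebraMap A B π * (g • b' - b') = 0 := by
          have := congrArg (g • ·) hb'
          simp only [smul_mul', smul_algebraMap] at this
          rw [mul_sub, mul_comm _ (g • b'), this, mul_comm _ b', hb', sub_self]
        exact sub_eq_zero.mp (hπ _ h1)
      obtain ⟨a', ha'⟩ := hinv b' hb'inv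
      have : a = a' * π := by
        apply hinj
        rw [map_mul, ha', hb']
      rw [this]
      exact Ideal.mul_mem_left _ _ (Ideal.mem_span_singleton_self _)
  exact nq_isDedekindDomain_of_ringEquiv
    ((Ideal.quotEquivOfEq hφker).trans (RingHom.quotientKerEquivOfSurjective hφsurj))

end Quotient

end Fermat.Agent.JT3
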