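import Mathlib

/-!
# JT3 / pure algebra: idempotents of the special fibre of a two-chart model come from global
functions ("formal functions for idempotents", elementary form)

Setting: `A` a Noetherian ring, `π : A`; `A`-algebra maps `ρ₁ : B₁ → B₁₂ ← B₂ : ρ₂` (two affine
charts and their intersection); `H¹ := B₁₂ ⧸ (ρ₁ B₁ + ρ₂ B₂)` a finitely generated `A`-module.

`jf_exists_lift_idem`: every pair `(e₁, e₂)` which is idempotent modulo `π` and compatible modulo
`π` is congruent modulo `π` to a pair `(a, b)` with `ρ₁ a = ρ₂ b` (a global function).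

No flatness, no completions.
-/

set_option autoImplicit false
set_option linter.unusedSectionVars false
set_option linter.style.haveILetI false

namespace Fermat.Agent.JT3

section Idem

variable {B : Type*} [CommRing B]

/-- Idempotents modulo `I` lift to idempotents modulo `I ^ n`. -/
theorem jf_lift_idem (I : Ideal B) (e : B) (he : e * e - e ∈ I) (n : ℕ) (hn : n ≠ 0) :
    ∃ e' : B, e' - e ∈ I ∧ e' * e' - e' ∈ I ^ n := by
  have hle : I ^ n ≤ I := Ideal.pow_le_self hn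
  let f : B ⧸ I ^ n →+* B ⧸ I := Ideal.Quotient.factor hle
  have hf : ∀ x : B, f (Ideal.Quotient.mk _ x) = Ideal.Quotient.mk _ x := fun x => rfl
  have hker : ∀ x ∈ RingHom.ker f, IsNilpotent x := by
    intro x hx
    obtain ⟨x, rfl⟩ := Ideal.Quotient.mk_surjective x
    rw [RingHom.mem_ker, hf, Ideal.Quotient.eq_zero_iff_mem] at hx
    refine ⟨n, ?_⟩
    rw [← map_pow, Ideal.Quotient.eq_zero_iff_mem]
    exact Ideal.pow_mem_pow hx n
  have hidem : IsIdempotentElem (Ideal.Quotient.mk I e) := by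
    rw [IsIdempotentElem, ← map_mul, ← sub_eq_zero, ← map_sub, Ideal.Quotient.eq_zero_iff_mem]
    exact he
  obtain ⟨e', he', hfe'⟩ := exists_isIdempotentElem_eq_of_ker_isNilpotent f hker
    (Ideal.Quotient.mk I e) ⟨Ideal.Quotient.mk _ e, hf e⟩ hidem
  obtain ⟨e', rfl⟩ := Ideal.Quotient.mk_surjective e'
  refine ⟨e', ?_, ?_⟩
  · rw [hf, ← sub_eq_zero, ← map_sub, Ideal.Quotient.eq_zero_iff_mem] at hfe'
    exact hfe'
  · rw [IsIdempotentElem, ← map_mul, ← sub_eq_zero, ← map_sub,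
      Ideal.Quotient.eq_zero_iff_mem] at he'
    exact he'

/-- Two idempotents modulo `I ^ n` which are congruent modulo `I` are congruent modulo `I ^ n`. -/
theorem jf_idem_unique (I : Ideal B) (n : ℕ) (e e' : B) (he : e * e - e ∈ I ^ n)
    (he' : e' * e' - e' ∈ I ^ n) (h : e - e' ∈ I) : e - e' ∈ I ^ n := by
  have h1 : IsIdempotentElem (Ideal.Quotient.mk (I ^ n) e) := by
    rw [IsIdempotentElem, ← map_mul, ← sub_eq_zero, ← map_sub, Ideal.Quotient.eq_zero_iff_mem]
    exact he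
  have h2 : IsIdempotentElem (Ideal.Quotient.mk (I ^ n) e') := by
    rw [IsIdempotentElem, ← map_mul, ← sub_eq_zero, ← map_sub, Ideal.Quotient.eq_zero_iff_mem]
    exact he'
  have h3 : IsNilpotent (Ideal.Quotient.mk (I ^ n) e - Ideal.Quotient.mk (I ^ n) e') := by
    refine ⟨n, ?_⟩
    rw [← map_sub, ← map_pow, Ideal.Quotient.eq_zero_iff_mem]
    exact Ideal.pow_mem_pow h n
  have := eq_of_isNilpotent_sub_of_isIdempotentElem h1 h2 h3
  rw [← sub_eq_zero, ← map_sub, Ideal.Quotient.eq_zero_iff_mem] at this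
  exact this

end Idem

section Torsion

variable {A : Type*} [CommRing A] [IsNoetherianRing A]

/-- In a finite module over a Noetherian ring the `π`-power torsion is killed by a fixed power
of `π`. -/
theorem jf_exists_pow_torsion_bound (π : A) (Q : Type*) [AddCommGroup Q] [Module A Q]
    [Module.Finite A Q] : ∃ c : ℕ, ∀ (n : ℕ) (q : Q), π ^ n • q = 0 → π ^ c • q = 0 := by
  have : IsNoetherian A Q := isNoetherian_of_isNoetherianRing_of_finite A Q
  let f : ℕ →o Submodule A Q := ⟨fun n => LinearMap.ker (LinearMap.lsmul A Q (π ^ n)), by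
    intro m n hmn q hq
    simp only [LinearMap.mem_ker, LinearMap.lsmul_apply] at hq ⊢
    obtain ⟨k, rfl⟩ := Nat.exists_eq_add_of_le hmn
    rw [pow_add, mul_comm, mul_smul, hq, smul_zero]⟩
  have hf : ∀ n q, q ∈ f n ↔ π ^ n • q = 0 := fun n q => by
    change q ∈ LinearMap.ker (LinearMap.lsmul A Q (π ^ n)) ↔ _
    rw [LinearMap.mem_ker, LinearMap.lsmul_apply]
  obtain ⟨c, hc⟩ := monotone_stabilizes_iff_noetherian.mpr inferInstance f
  refine ⟨c, fun n q hq => ?_⟩
  rcases le_total n c with h | h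
  · exact (hf c q).1 (f.monotone h ((hf n q).2 hq))
  · have : q ∈ f n := (hf n q).2 hq
    rw [← hc n h] at this
    exact (hf c q).1 this

end Torsion

section Main

variable {A B₁ B₂ B₁₂ : Type*} [CommRing A] [IsNoetherianRing A] [CommRing B₁] [CommRing B₂]
  [CommRing B₁₂] [Algebra A B₁] [Algebra A B₂] [Algebra A B₁₂]

/-- **Idempotents of the special fibre come from global functions.**  `ρ₁ : B₁ → B₁₂ ← B₂ : ρ₂`
maps of algebras over the Noetherian ring `A`, with `B₁₂ ⧸ (ρ₁ B₁ + ρ₂ B₂)` a finite `A`-module.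
If `(e₁, e₂)` is idempotent modulo `π` and `ρ₁ e₁ ≡ ρ₂ e₂` modulo `π`, then there are `a`, `b`
with `ρ₁ a = ρ₂ b`, `a ≡ e₁` and `b ≡ e₂` modulo `π`. -/
theorem jf_exists_lift_idem (ρ₁ : B₁ →ₐ[A] B₁₂) (ρ₂ : B₂ →ₐ[A] B₁₂) (π : A)
    (hfg : Module.Finite A
      (B₁₂ ⧸ (LinearMap.range ρ₁.toLinearMap ⊔ LinearMap.range ρ₂.toLinearMap)))
    (e₁ : B₁) (e₂ : B₂)
    (h₁ : e₁ * e₁ - e₁ ∈ Ideal.span {algebraMap A B₁ π})
    (h₂ : e₂ * e₂ - e₂ ∈ Ideal.span {algebraMap A B₂ π})
    (h₁₂ : ρ₁ e₁ - ρ₂ e₂ ∈ Ideal.span {algebraMap A B₁₂ π}) :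
    ∃ (a : B₁) (b : B₂), ρ₁ a = ρ₂ b ∧ a - e₁ ∈ Ideal.span {algebraMap A B₁ π} ∧
      b - e₂ ∈ Ideal.span {algebraMap A B₂ π} := by
  set U : Submodule A B₁₂ := LinearMap.range ρ₁.toLinearMap ⊔ LinearMap.range ρ₂.toLinearMap
    with hU
  obtain ⟨c, hc⟩ := jf_exists_pow_torsion_bound π (B₁₂ ⧸ U)
  -- images of the ideals `(π ^ n)`
  have hmap₁ : ∀ (n : ℕ) (x : B₁), x ∈ Ideal.span {algebraMap A B₁ π} ^ n →
      ρ₁ x ∈ Ideal.span {algebraMap A B₁₂ π} ^ n := by
    intro n x hx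
    rw [Ideal.span_singleton_pow, Ideal.mem_span_singleton'] at hx
    obtain ⟨y, rfl⟩ := hx
    rw [Ideal.span_singleton_pow, Ideal.mem_span_singleton']
    refine ⟨ρ₁ y, ?_⟩
    rw [map_mul, map_pow, AlgHom.commutes]
  have hmap₂ : ∀ (n : ℕ) (x : B₂), x ∈ Ideal.span {algebraMap A B₂ π} ^ n →
      ρ₂ x ∈ Ideal.span {algebraMap A B₁₂ π} ^ n := by
    intro n x hx
    rw [Ideal.span_singleton_pow, Ideal.mem_span_singleton'] at hx
    obtain ⟨y, rfl⟩ := hx
    rw [Ideal.span_singleton_pow, Ideal.mem_span_singleton']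
    refine ⟨ρ₂ y, ?_⟩
    rw [map_mul, map_pow, AlgHom.commutes]
  -- lift to idempotents modulo `π ^ (c + 1)`
  obtain ⟨e₁', he₁, he₁'⟩ := jf_lift_idem _ e₁ h₁ (c + 1) (Nat.succ_ne_zero c)
  obtain ⟨e₂', he₂, he₂'⟩ := jf_lift_idem _ e₂ h₂ (c + 1) (Nat.succ_ne_zero c)
  have hi₁ : ρ₁ e₁' * ρ₁ e₁' - ρ₁ e₁' ∈ Ideal.span {algebraMap A B₁₂ π} ^ (c + 1) := by
    have := hmap₁ _ _ he₁'
    rwa [map_sub, map_mul] at this
  have hi₂ : ρ₂ e₂' * ρ₂ e₂' - ρ₂ e₂' ∈ Ideal.span {algebraMap A B₁₂ π} ^ (c + 1) := by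
    have := hmap₂ _ _ he₂'
    rwa [map_sub, map_mul] at this
  have hcong : ρ₁ e₁' - ρ₂ e₂' ∈ Ideal.span {algebraMap A B₁₂ π} := by
    have k₁ : ρ₁ (e₁' - e₁) ∈ Ideal.span {algebraMap A B₁₂ π} := by
      have := hmap₁ 1 _ (by rwa [pow_one])
      rwa [pow_one] at this
    have k₂ : ρ₂ (e₂' - e₂) ∈ Ideal.span {algebraMap A B₁₂ π} := by
      have := hmap₂ 1 _ (by rwa [pow_one])
      rwa [pow_one] at this
    have : ρ₁ e₁' - ρ₂ e₂' = ρ₁ (e₁' - e₁) + (ρ₁ e₁ - ρ₂ e₂) - ρ₂ (e₂' - e₂) := by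
      rw [map_sub, map_sub]; ring
    rw [this]
    exact Ideal.sub_mem _ (Ideal.add_mem _ k₁ h₁₂) k₂
  have hdiff := jf_idem_unique _ (c + 1) _ _ hi₁ hi₂ hcong
  rw [Ideal.span_singleton_pow, Ideal.mem_span_singleton'] at hdiff
  obtain ⟨d, hd⟩ := hdiff
  -- the class of `d` in `H¹` is `π`-power torsion
  have hmemU : ρ₁ e₁' - ρ₂ e₂' ∈ U :=
    U.sub_mem (Submodule.mem_sup_left ⟨e₁', rfl⟩) (Submodule.mem_sup_right ⟨e₂', rfl⟩)
  have htors : π ^ (c + 1) • (U.mkQ d) = 0 := by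
    rw [← map_smul, Submodule.mkQ_apply, Submodule.Quotient.mk_eq_zero, Algebra.smul_def,
      map_pow, mul_comm, hd]
    exact hmemU
  have hc' := hc (c + 1) _ htors
  rw [← map_smul, Submodule.mkQ_apply, Submodule.Quotient.mk_eq_zero] at hc'
  obtain ⟨u₁, ⟨a', rfl⟩, u₂, ⟨b', rfl⟩, hab⟩ := Submodule.mem_sup.1 hc'
  refine ⟨e₁' - algebraMap A B₁ π * a', e₂' + algebraMap A B₂ π * b', ?_, ?_, ?_⟩
  · have key : ρ₁ e₁' - ρ₂ e₂' = algebraMap A B₁₂ π * (ρ₁ a' + ρ₂ b') := by
      have : ρ₁.toLinearMap a' + ρ₂.toLinearMap b' = π ^ c • d := hab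
      simp only [AlgHom.toLinearMap_apply] at this
      rw [this, ← hd, Algebra.smul_def, map_pow, pow_succ]
      ring
    rw [map_sub, map_add, map_mul, map_mul, AlgHom.commutes, AlgHom.commutes]
    linear_combination key
  · have : e₁' - algebraMap A B₁ π * a' - e₁ = (e₁' - e₁) - algebraMap A B₁ π * a' := by ring
    rw [this]
    exact Ideal.sub_mem _ he₁ (Ideal.mul_mem_right _ _ (Ideal.subset_span rfl))
  · have : e₂' + algebraMap A B₂ π * b' - e₂ = (e₂' - e₂) + algebraMap A B₂ π * b' := by ring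
    rw [this]
    exact Ideal.add_mem _ he₂ (Ideal.mul_mem_right _ _ (Ideal.subset_span rfl))

end Main

section Count

open Cardinal

variable {A : Type*} [CommRing A]

/-- Abstract counting: `E` generated by the finset `s`, `I` maximal, `φ : E → V` linear with `V`
killed by `I`; a family `x i` whose images are independent modulo `I` has at most `s.card`
members. -/
theorem jf_card_le_of_indep (I : Ideal A) [hI : I.IsMaximal] {E V : Type*} [AddCommGroup E]
    [Module A E] [AddCommGroup V] [Module A V] (hV : ∀ c ∈ I, ∀ v : V, c • v = 0)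
    (φ : E →ₗ[A] V) (s : Finset E) (hs : Submodule.span A (s : Set E) = ⊤)
    {ι : Type*} [Fintype ι] (x : ι → E)
    (hx : ∀ c : ι → A, ∑ i, c i • φ (x i) = 0 → ∀ i, c i ∈ I) :
    Fintype.card ι ≤ s.card := by
  classical
  letI : Field (A ⧸ I) := Ideal.Quotient.field I
  let W := E ⧸ (I • ⊤ : Submodule A E)
  let mkW : E →ₗ[A] W := Submodule.mkQ _
  -- `φ` kills `I • ⊤`
  have hφ : ∀ y ∈ (I • ⊤ : Submodule A E), φ y = 0 := by
    intro y hy
    refine Submodule.smul_induction_on hy (fun c hc z _ => ?_) (fun a b ha hb => ?_)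
    · rw [map_smul]; exact hV c hc _
    · rw [map_add, ha, hb, add_zero]
  have hli : LinearIndependent (A ⧸ I) (fun i => (mkW (x i) : W)) := by
    rw [Fintype.linearIndependent_iff]
    intro g hg i
    choose c hc using fun i => Ideal.Quotient.mk_surjective (g i)
    have h1 : (∑ i, g i • (mkW (x i) : W)) = mkW (∑ i, c i • x i) := by
      rw [map_sum]
      refine Finset.sum_congr rfl fun i _ => ?_
      rw [← hc i, map_smul]
      rfl
    rw [h1] at hg
    have h2 : ∑ i, c i • x i ∈ (I • ⊤ : Submodule A E) := by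
      rwa [Submodule.mkQ_apply, Submodule.Quotient.mk_eq_zero] at hg
    have h3 := hφ _ h2
    rw [map_sum] at h3
    simp only [map_smul] at h3
    have h4 := hx c h3 i
    rw [← hc i, Ideal.Quotient.eq_zero_iff_mem]
    exact h4
  -- `W` is spanned by the image of `s`
  have hspan : Submodule.span (A ⧸ I) ((s.image fun y => (mkW y : W) : Finset W) : Set W) = ⊤ := by
    rw [eq_top_iff]
    rintro w -
    obtain ⟨y, rfl⟩ := Submodule.mkQ_surjective _ w
    have hy : y ∈ Submodule.span A (s : Set E) := by rw [hs]; trivial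
    refine Submodule.span_induction (fun z hz => ?_) ?_ (fun a b _ _ ha hb => ?_)
      (fun a z _ hz => ?_) hy
    · exact Submodule.subset_span (by
        rw [Finset.coe_image]; exact ⟨z, hz, rfl⟩)
    · rw [map_zero]; exact Submodule.zero_mem _
    · rw [map_add]; exact Submodule.add_mem _ ha hb
    · have : mkW (a • z) = Ideal.Quotient.mk I a • (mkW z : W) := by
        rw [map_smul]; rfl
      rw [this]
      exact Submodule.smul_mem _ _ hz
  have := linearIndependent_le_span_finset _ hli _ hspan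
  have h5 : (Fintype.card ι : Cardinal) ≤ ((s.image fun y => (mkW y : W)).card : Cardinal) := by
    rwa [Cardinal.mk_fintype] at this
  exact (Nat.cast_le.1 h5).trans Finset.card_image_le

end Count

section CountIdem

variable {A B₁ B₂ B₁₂ : Type*} [CommRing A] [IsNoetherianRing A] [CommRing B₁] [CommRing B₂]
  [CommRing B₁₂] [Algebra A B₁] [Algebra A B₂] [Algebra A B₁₂]

/-- **Counting idempotents of the special fibre.**  In the situation of `jf_exists_lift_idem`,
with `(π)` maximal in `A`: if the `A`-module of global functions `{(a, b) | ρ₁ a = ρ₂ b}` is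
generated by the finset `s`, then every family of pairs `(e₁ i, e₂ i)` which are, modulo `π`,
idempotent, compatible, pairwise orthogonal and nonzero has at most `s.card` members. -/
theorem jf_card_idem_le (ρ₁ : B₁ →ₐ[A] B₁₂) (ρ₂ : B₂ →ₐ[A] B₁₂) (π : A)
    [hmax : (Ideal.span {π} : Ideal A).IsMaximal]
    (hfg : Module.Finite A
      (B₁₂ ⧸ (LinearMap.range ρ₁.toLinearMap ⊔ LinearMap.range ρ₂.toLinearMap)))
    (s : Finset (B₁ × B₂)) (hsE : ∀ y ∈ s, ρ₁ y.1 = ρ₂ y.2)
    (hs : ∀ y : B₁ × B₂, ρ₁ y.1 = ρ₂ y.2 → y ∈ Submodule.span A (s : Set (B₁ × B₂)))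
    {ι : Type*} [Fintype ι] (e₁ : ι → B₁) (e₂ : ι → B₂)
    (h₁ : ∀ i, e₁ i * e₁ i - e₁ i ∈ Ideal.span {algebraMap A B₁ π})
    (h₂ : ∀ i, e₂ i * e₂ i - e₂ i ∈ Ideal.span {algebraMap A B₂ π})
    (h₁₂ : ∀ i, ρ₁ (e₁ i) - ρ₂ (e₂ i) ∈ Ideal.span {algebraMap A B₁₂ π})
    (horth₁ : ∀ i j, i ≠ j → e₁ i * e₁ j ∈ Ideal.span {algebraMap A B₁ π})
    (horth₂ : ∀ i j, i ≠ j → e₂ i * e₂ j ∈ Ideal.span {algebraMap A B₂ π})
    (hne : ∀ i, e₁ i ∉ Ideal.span {algebraMap A B₁ π} ∨ e₂ i ∉ Ideal.span {algebraMap A B₂ π}) :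
    Fintype.card ι ≤ s.card := by
  classical
  set I₁ : Ideal B₁ := Ideal.span {algebraMap A B₁ π} with hI₁
  set I₂ : Ideal B₂ := Ideal.span {algebraMap A B₂ π} with hI₂
  -- the module of global functions
  let E : Submodule A (B₁ × B₂) :=
    LinearMap.eqLocus (ρ₁.toLinearMap ∘ₗ LinearMap.fst A B₁ B₂)
      (ρ₂.toLinearMap ∘ₗ LinearMap.snd A B₁ B₂)
  have hE : ∀ y : B₁ × B₂, y ∈ E ↔ ρ₁ y.1 = ρ₂ y.2 := fun y => Iff.rfl
  -- the target: the special fibres of the two charts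
  let φ₀ : (B₁ × B₂) →ₗ[A] (B₁ ⧸ I₁) × (B₂ ⧸ I₂) :=
    LinearMap.prodMap ((Ideal.Quotient.mkₐ A I₁).toLinearMap) ((Ideal.Quotient.mkₐ A I₂).toLinearMap)
  have hφ₀ : ∀ y : B₁ × B₂, φ₀ y = (Ideal.Quotient.mk I₁ y.1, Ideal.Quotient.mk I₂ y.2) :=
    fun y => rfl
  let φ : E →ₗ[A] (B₁ ⧸ I₁) × (B₂ ⧸ I₂) := φ₀ ∘ₗ E.subtype
  have hV : ∀ c ∈ (Ideal.span {π} : Ideal A), ∀ v : (B₁ ⧸ I₁) × (B₂ ⧸ I₂), c • v = 0 := by
    intro c hc v
    obtain ⟨a, rfl⟩ := Ideal.mem_span_singleton'.1 hc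
    obtain ⟨v₁, v₂⟩ := v
    obtain ⟨v₁, rfl⟩ := Ideal.Quotient.mk_surjective v₁
    obtain ⟨v₂, rfl⟩ := Ideal.Quotient.mk_surjective v₂
    refine Prod.ext ?_ ?_
    · change (a * π) • Ideal.Quotient.mk I₁ v₁ = 0
      rw [Algebra.smul_def, ← Ideal.Quotient.mk_algebraMap, ← map_mul,
        Ideal.Quotient.eq_zero_iff_mem, map_mul, mul_assoc]
      exact Ideal.mul_mem_left _ _ (Ideal.mul_mem_right _ _ (Ideal.subset_span rfl))
    · change (a * π) • Ideal.Quotient.mk I₂ v₂ = 0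
      rw [Algebra.smul_def, ← Ideal.Quotient.mk_algebraMap, ← map_mul,
        Ideal.Quotient.eq_zero_iff_mem, map_mul, mul_assoc]
      exact Ideal.mul_mem_left _ _ (Ideal.mul_mem_right _ _ (Ideal.subset_span rfl))
  -- the generating finset inside `E`
  let s' : Finset E := s.attach.image fun y => ⟨y.1, (hE y.1).2 (hsE y.1 y.2)⟩
  have hs' : Submodule.span A (s' : Set E) = ⊤ := by
    rw [eq_top_iff]
    rintro ⟨y, hy⟩ -
    have hy' := hs y ((hE y).1 hy)
    have : ∀ z ∈ Submodule.span A (s : Set (B₁ × B₂)), ∀ hz : z ∈ E,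
        (⟨z, hz⟩ : E) ∈ Submodule.span A (s' : Set E) := by
      intro z hz
      refine Submodule.span_induction (p := fun z _ => ∀ hz : z ∈ E,
        (⟨z, hz⟩ : E) ∈ Submodule.span A (s' : Set E)) (fun w hw hwE => ?_) (fun _ => ?_)
        (fun a b ha hb iha ihb hab => ?_) (fun a w hw ihw haw => ?_) hz
      · refine Submodule.subset_span ?_
        rw [Finset.coe_image]
        exact ⟨⟨w, hw⟩, Finset.mem_coe.2 (Finset.mem_attach _ _), rfl⟩
      · exact Submodule.zero_mem _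
      · have haE : a ∈ E := (Submodule.span_le.2 (fun w hw => (hE w).2 (hsE w hw))) ha
        have hbE : b ∈ E := (Submodule.span_le.2 (fun w hw => (hE w).2 (hsE w hw))) hb
        have : (⟨a + b, hab⟩ : E) = ⟨a, haE⟩ + ⟨b, hbE⟩ := rfl
        rw [this]
        exact Submodule.add_mem _ (iha haE) (ihb hbE)
      · have hwE : w ∈ E := (Submodule.span_le.2 (fun w hw => (hE w).2 (hsE w hw))) hw
        have : (⟨a • w, haw⟩ : E) = a • ⟨w, hwE⟩ := rfl
        rw [this]
        exact Submodule.smul_mem _ _ (ihw hwE)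
    exact this y hy' hy
  -- lifts of the idempotents
  choose a b hab ha hb using fun i =>
    jf_exists_lift_idem ρ₁ ρ₂ π hfg (e₁ i) (e₂ i) (h₁ i) (h₂ i) (h₁₂ i)
  let x : ι → E := fun i => ⟨(a i, b i), (hE _).2 (hab i)⟩
  have hφx : ∀ i, φ (x i) = (Ideal.Quotient.mk I₁ (e₁ i), Ideal.Quotient.mk I₂ (e₂ i)) := by
    intro i
    change φ₀ (a i, b i) = _
    rw [hφ₀]
    refine Prod.ext ?_ ?_
    · exact (Ideal.Quotient.eq.2 (ha i))
    · exact (Ideal.Quotient.eq.2 (hb i))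
  have hx : ∀ c : ι → A, ∑ i, c i • φ (x i) = 0 → ∀ i, c i ∈ (Ideal.span {π} : Ideal A) := by
    intro c hc j
    by_contra hcj
    -- `c j` is invertible modulo `π`
    obtain ⟨u, v, hv, huv⟩ := Ideal.IsMaximal.exists_inv hmax hcj
    simp only [hφx] at hc
    have hc₁ : ∑ i, c i • Ideal.Quotient.mk I₁ (e₁ i) = 0 := by
      have := congrArg Prod.fst hc
      simpa [Prod.fst_sum] using this
    have hc₂ : ∑ i, c i • Ideal.Quotient.mk I₂ (e₂ i) = 0 := by
      have := congrArg Prod.snd hc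
      simpa [Prod.snd_sum] using this
    -- multiply by the `j`-th idempotent
    have k₁ : c j • Ideal.Quotient.mk I₁ (e₁ j) = 0 := by
      have := congrArg (fun t => t * Ideal.Quotient.mk I₁ (e₁ j)) hc₁
      simp only [Finset.sum_mul, zero_mul] at this
      rw [Finset.sum_eq_single j] at this
      · rw [smul_mul_assoc, ← map_mul] at this
        rw [← this]
        congr 1
        exact (Ideal.Quotient.eq.2 (h₁ j)).symm
      · intro i _ hij
        rw [smul_mul_assoc, ← map_mul, Ideal.Quotient.eq_zero_iff_mem.2 (horth₁ i j hij),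
          smul_zero]
      · intro h; exact absurd (Finset.mem_univ j) h
    have k₂ : c j • Ideal.Quotient.mk I₂ (e₂ j) = 0 := by
      have := congrArg (fun t => t * Ideal.Quotient.mk I₂ (e₂ j)) hc₂
      simp only [Finset.sum_mul, zero_mul] at this
      rw [Finset.sum_eq_single j] at this
      · rw [smul_mul_assoc, ← map_mul] at this
        rw [← this]
        congr 1
        exact (Ideal.Quotient.eq.2 (h₂ j)).symm
      · intro i _ hij
        rw [smul_mul_assoc, ← map_mul, Ideal.Quotient.eq_zero_iff_mem.2 (horth₂ i j hij),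
          smul_zero]
      · intro h; exact absurd (Finset.mem_univ j) h
    have z₁ : Ideal.Quotient.mk I₁ (e₁ j) = 0 := by
      have hv₁ := congrArg Prod.fst (hV v hv (Ideal.Quotient.mk I₁ (e₁ j), 0))
      have : (1 : A) • Ideal.Quotient.mk I₁ (e₁ j) = 0 := by
        rw [← huv, add_smul, mul_smul, k₁, smul_zero, zero_add]
        exact hv₁
      rwa [one_smul] at this
    have z₂ : Ideal.Quotient.mk I₂ (e₂ j) = 0 := by
      have hv₂ := congrArg Prod.snd (hV v hv (0, Ideal.Quotient.mk I₂ (e₂ j)))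
      have : (1 : A) • Ideal.Quotient.mk I₂ (e₂ j) = 0 := by
        rw [← huv, add_smul, mul_smul, k₂, smul_zero, zero_add]
        exact hv₂
      rwa [one_smul] at this
    rcases hne j with h | h
    · exact h (Ideal.Quotient.eq_zero_iff_mem.1 z₁)
    · exact h (Ideal.Quotient.eq_zero_iff_mem.1 z₂)
  have := jf_card_le_of_indep (Ideal.span {π} : Ideal A) hV φ s' hs' x hx
  exact this.trans (Finset.card_image_le.trans (by rw [Finset.card_attach]))

end CountIdem

end Fermat.Agent.JT3
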