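/-
JT3 node LF: freeness of the normalisation over a base `A` with a prime element `π`
such that `A ⧸ π` is a PID (the "depth 2" argument of D1(a) and F(3) in elementary form).
-/
import Mathlib

namespace Fermat.Agent.JT3

open Polynomial

section LF1

variable {A : Type*} [CommRing A] [IsDomain A]
  (K : Type*) [Field K] [Algebra A K] [IsFractionRing A K]
  {F : Type*} [Field F] [Algebra K F] [Algebra A F] [IsScalarTower A K F]

/-- Coefficientwise criterion: if `π ^ n * e` and `u ^ n * e` both come from `A`, with `π` prime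
and `π ∤ u`, then `e` comes from `A`. -/
theorem nfr_mem_range_of_pow_mul {π u : A} (hπ : Prime π) (hu : ¬ π ∣ u) (n : ℕ) (e : K)
    (h1 : e * algebraMap A K π ^ n ∈ (algebraMap A K).range)
    (h2 : e * algebraMap A K u ^ n ∈ (algebraMap A K).range) :
    e ∈ (algebraMap A K).range := by
  obtain ⟨a, ha⟩ := h1
  obtain ⟨b, hb⟩ := h2
  have hinj := IsFractionRing.injective A K
  have hπK : algebraMap A K π ≠ 0 := by
    simpa using (map_ne_zero_iff (algebraMap A K) hinj).2 hπ.ne_zero
  -- `u ^ n * a = π ^ n * b`
  have hab : π ^ n * b = u ^ n * a := by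
    apply hinj
    simp only [map_mul, map_pow, ha, hb]
    ring
  have hdvd : π ^ n ∣ u ^ n * a := ⟨b, hab.symm⟩
  have hnu : ¬ π ∣ u ^ n := fun h => hu (hπ.dvd_of_dvd_pow h)
  obtain ⟨c, hc⟩ := hπ.pow_dvd_of_dvd_mul_left n hnu hdvd
  refine ⟨c, ?_⟩
  have : algebraMap A K c * algebraMap A K π ^ n = e * algebraMap A K π ^ n := by
    rw [← ha, hc, map_mul, map_pow]; ring
  exact mul_right_cancel₀ (pow_ne_zero n hπK) this

include K in
/-- If `π • z` and `u • z` are integral over the normal domain `A`, with `π` prime and `π ∤ u`,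
then `z` is integral over `A`. -/
theorem nfr_isIntegral_of_smul [IsIntegrallyClosed A] {π u : A} (hπ : Prime π) (hu : ¬ π ∣ u) {z : F}
    (h1 : IsIntegral A (π • z)) (h2 : IsIntegral A (u • z)) : IsIntegral A z := by
  have hinj := IsFractionRing.injective A K
  have hπK : algebraMap A K π ≠ 0 := by
    simpa using (map_ne_zero_iff (algebraMap A K) hinj).2 hπ.ne_zero
  have hu0 : u ≠ 0 := fun h => hu (h ▸ dvd_zero π)
  have huK : algebraMap A K u ≠ 0 := by
    simpa using (map_ne_zero_iff (algebraMap A K) hinj).2 hu0
  -- `z` is integral over `K`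
  have h1K : IsIntegral K (algebraMap A K π • z) := by
    rw [algebraMap_smul]; exact h1.tower_top
  have hzK : IsIntegral K z := by
    have : z = (algebraMap A K π)⁻¹ • (algebraMap A K π • z) := by
      rw [smul_smul, inv_mul_cancel₀ hπK, one_smul]
    rw [this]
    exact h1K.smul _
  set p := minpoly K z with hp
  have hmono : p.Monic := minpoly.monic hzK
  -- the two scaled minimal polynomials have coefficients in `A`
  have key : ∀ r : A, r ≠ 0 → IsIntegral A (r • z) →
      ∀ i, p.coeff i * algebraMap A K r ^ (p.natDegree - i) ∈ (algebraMap A K).range := by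
    intro r hr hint i
    have hrK : algebraMap A K r ≠ 0 := by
      simpa using (map_ne_zero_iff (algebraMap A K) hinj).2 hr
    have e1 : minpoly K (algebraMap A K r • z) = p.scaleRoots (algebraMap A K r) :=
      IsIntegrallyClosed.minpoly_smul hrK hzK
    have e2 : minpoly K (algebraMap A K r • z) = (minpoly A (r • z)).map (algebraMap A K) := by
      rw [algebraMap_smul]
      exact minpoly.isIntegrallyClosed_eq_field_fractions' K hint
    have e3 : (p.scaleRoots (algebraMap A K r)).coeff i =
        ((minpoly A (r • z)).map (algebraMap A K)).coeff i := by rw [← e1, e2]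
    rw [coeff_scaleRoots, coeff_map] at e3
    exact ⟨_, e3.symm⟩
  have hcoeff : ∀ i, p.coeff i ∈ (algebraMap A K).range := fun i =>
    nfr_mem_range_of_pow_mul K hπ hu (p.natDegree - i) (p.coeff i)
      (key π hπ.ne_zero h1 i) (key u hu0 h2 i)
  have hlift : p ∈ Polynomial.lifts (algebraMap A K) :=
    (Polynomial.lifts_iff_coeff_lifts p).2 fun i => by
      obtain ⟨a, ha⟩ := hcoeff i
      exact ⟨a, ha⟩
  obtain ⟨q, hq, -, hqm⟩ := Polynomial.lifts_and_degree_eq_and_monic hlift hmono
  refine ⟨q, hqm, ?_⟩
  have : aeval z (q.map (algebraMap A K)) = 0 := by rw [hq]; exact minpoly.aeval K z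
  rwa [aeval_map_algebraMap] at this

end LF1

section LF2

open Pointwise

variable {A : Type*} [CommRing A] [IsDomain A] [IsIntegrallyClosed A]
  (K : Type*) [Field K] [Algebra A K] [IsFractionRing A K]
  (F : Type*) [Field F] [Algebra K F] [Algebra A F] [IsScalarTower A K F]
  (A' : Type*) [CommRing A'] [Algebra A A'] [Algebra A' F] [IsScalarTower A A' F]
  [IsIntegralClosure A' A F]

include K F in
/-- **(LF1)** `(π, u)` is a regular sequence on the integral closure `A'` of the normal domain `A`
as soon as `π` is prime and `π ∤ u`: if `π ∣ u x` in `A'` then `π ∣ x` in `A'`. -/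
theorem nfr_dvd_of_dvd_mul {π u : A} (hπ : Prime π) (hu : ¬ π ∣ u) (x : A')
    (h : algebraMap A A' π ∣ algebraMap A A' u * x) : algebraMap A A' π ∣ x := by
  obtain ⟨y, hy⟩ := h
  have hinjAF : Function.Injective (algebraMap A F) := by
    rw [IsScalarTower.algebraMap_eq A K F]
    exact (algebraMap K F).injective.comp (IsFractionRing.injective A K)
  have hπF : algebraMap A F π ≠ 0 := by
    simpa using (map_ne_zero_iff (algebraMap A F) hinjAF).2 hπ.ne_zero
  set z : F := (algebraMap A F π)⁻¹ * algebraMap A' F x with hz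
  have h1 : π • z = algebraMap A' F x := by
    rw [Algebra.smul_def, hz, ← mul_assoc, mul_inv_cancel₀ hπF, one_mul]
  have h2 : u • z = algebraMap A' F y := by
    have := congrArg (algebraMap A' F) hy
    rw [map_mul, map_mul, ← IsScalarTower.algebraMap_apply, ← IsScalarTower.algebraMap_apply]
      at this
    rw [Algebra.smul_def, hz, mul_left_comm, this, ← mul_assoc, inv_mul_cancel₀ hπF, one_mul]
  have hzint : IsIntegral A z :=
    nfr_isIntegral_of_smul K hπ hu
      (h1 ▸ (IsIntegralClosure.isIntegral_iff (A := A')).2 ⟨x, rfl⟩)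
      (h2 ▸ (IsIntegralClosure.isIntegral_iff (A := A')).2 ⟨y, rfl⟩)
  obtain ⟨w, hw⟩ := (IsIntegralClosure.isIntegral_iff (A := A')).1 hzint
  refine ⟨w, ?_⟩
  apply IsIntegralClosure.algebraMap_injective A' A F
  rw [map_mul, ← IsScalarTower.algebraMap_apply, hw, ← h1, Algebra.smul_def]

include K F in
/-- `A' ⧸ π A'` is torsion-free over `A ⧸ π`. -/
theorem nfr_quot_isTorsionFree {π : A} (hπ : Prime π) :
    Module.IsTorsionFree (A ⧸ Ideal.span {π}) (QuotSMulTop π A') := by
  refine ⟨fun rbar hreg => ?_⟩
  obtain ⟨r, rfl⟩ := Ideal.Quotient.mk_surjective rbar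
  have : (Ideal.span {π}).IsPrime := (Ideal.span_singleton_prime hπ.ne_zero).2 hπ
  have hr : ¬ π ∣ r := by
    intro hdvd
    have h0 : Ideal.Quotient.mk (Ideal.span {π}) r = 0 :=
      Ideal.Quotient.eq_zero_iff_mem.2 (Ideal.mem_span_singleton.2 hdvd)
    rw [h0] at hreg
    exact one_ne_zero (hreg.left (by simp : (0 : A ⧸ Ideal.span {π}) * 1 = 0 * 0))
  intro m₁ m₂ hm
  have hsub : Ideal.Quotient.mk (Ideal.span {π}) r • (m₁ - m₂) = 0 := by
    rw [smul_sub, sub_eq_zero]; exact hm
  rw [← sub_eq_zero]
  obtain ⟨x, hx⟩ := Submodule.Quotient.mk_surjective _ (m₁ - m₂)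
  rw [← hx] at hsub ⊢
  have hmem : r • x ∈ π • (⊤ : Submodule A A') :=
    (Submodule.Quotient.mk_eq_zero _).1 hsub
  obtain ⟨y, -, hy⟩ := (Submodule.mem_smul_pointwise_iff_exists _ _ _).1 hmem
  have hdvd : algebraMap A A' π ∣ algebraMap A A' r * x :=
    ⟨y, by rw [← Algebra.smul_def, ← Algebra.smul_def, hy]⟩
  obtain ⟨w, hw⟩ := nfr_dvd_of_dvd_mul K F A' hπ hr x hdvd
  rw [Submodule.Quotient.mk_eq_zero]
  exact (Submodule.mem_smul_pointwise_iff_exists _ _ _).2
    ⟨w, Submodule.mem_top, by rw [hw, Algebra.smul_def]⟩

/-- **(LF2)** Let `A` be a noetherian normal domain, `π` a prime element in the Jacobson radical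
of `A` such that `A ⧸ π` is a PID. Then the integral closure `A'` of `A` in any finite separable
extension `F` of `K = Frac A` is a free `A`-module. -/
theorem nfr_free [IsNoetherianRing A] [FiniteDimensional K F] [Algebra.IsSeparable K F]
    {π : A} (hπ : Prime π) (hjac : π ∈ (⊥ : Ideal A).jacobson)
    [IsPrincipalIdealRing (A ⧸ Ideal.span {π})] : Module.Free A A' := by
  have : Module.Finite A A' := IsIntegralClosure.finite A K F A'
  have : Module.FinitePresentation A A' := Module.finitePresentation_of_finite A A'
  have hprime : (Ideal.span {π}).IsPrime := (Ideal.span_singleton_prime hπ.ne_zero).2 hπ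
  have : IsDomain (A ⧸ Ideal.span {π}) := Ideal.Quotient.isDomain _
  have := nfr_quot_isTorsionFree K F A' hπ
  have : Module.Finite (A ⧸ Ideal.span {π}) (QuotSMulTop π A') :=
    Module.Finite.of_restrictScalars_finite A _ _
  have hinj : Function.Injective (algebraMap A A') := by
    have hinjAF : Function.Injective (algebraMap A F) := by
      rw [IsScalarTower.algebraMap_eq A K F]
      exact (algebraMap K F).injective.comp (IsFractionRing.injective A K)
    rw [IsScalarTower.algebraMap_eq A A' F] at hinjAF
    exact Function.Injective.of_comp hinjAF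
  have : IsDomain A' :=
    (IsIntegralClosure.algebraMap_injective A' A F).isDomain (algebraMap A' F)
  have hreg : IsSMulRegular A' π := by
    intro a b hab
    simp only [Algebra.smul_def] at hab
    have hne : algebraMap A A' π ≠ 0 := by
      simpa using (map_ne_zero_iff (algebraMap A A') hinj).2 hπ.ne_zero
    exact mul_left_cancel₀ hne hab
  exact (Module.free_quotSMulTop_iff_free A A' hjac hreg).1 inferInstance

/-- The rank of the normalisation is the degree of the field extension. -/
theorem nfr_finrank [IsNoetherianRing A] [FiniteDimensional K F] [Algebra.IsSeparable K F]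
    {π : A} (hπ : Prime π) (hjac : π ∈ (⊥ : Ideal A).jacobson)
    [IsPrincipalIdealRing (A ⧸ Ideal.span {π})] :
    Module.finrank A A' = Module.finrank K F := by
  have : Module.Free A A' := nfr_free K F A' hπ hjac
  have : IsNoetherian A A' := IsIntegralClosure.isNoetherian A K F A'
  have : IsLocalization (Algebra.algebraMapSubmonoid A' (nonZeroDivisors A)) F :=
    IsIntegralClosure.isLocalization A K F A'
  let b := Module.Basis.localizationLocalization K (nonZeroDivisors A) F
    (Module.Free.chooseBasis A A')
  rw [Module.finrank_eq_card_chooseBasisIndex, Module.finrank_eq_card_basis b]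

end LF2

section LF3

variable {A : Type*} [CommRing A] [IsDomain A]

omit [IsDomain A] in
/-- Concrete form of "regular local of dimension `≤ 2`": if the maximal ideal of the noetherian
local ring `A` is `(π, u)` with `π` prime, then `A ⧸ π` is a PID (a DVR or a field). -/
theorem nfr_isPrincipalIdealRing_quot [IsLocalRing A] [IsNoetherianRing A] {π u : A}
    (hπ : Prime π) (hm : IsLocalRing.maximalIdeal A = Ideal.span {π, u}) :
    IsPrincipalIdealRing (A ⧸ Ideal.span {π}) := by
  have hprime : (Ideal.span {π}).IsPrime := (Ideal.span_singleton_prime hπ.ne_zero).2 hπ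
  have : IsDomain (A ⧸ Ideal.span {π}) := Ideal.Quotient.isDomain _
  have : IsLocalRing (A ⧸ Ideal.span {π}) :=
    IsLocalRing.of_surjective' (Ideal.Quotient.mk _) Ideal.Quotient.mk_surjective
  have hmax : IsLocalRing.maximalIdeal (A ⧸ Ideal.span {π}) =
      Ideal.span {Ideal.Quotient.mk (Ideal.span {π}) u} := by
    rw [← IsLocalRing.map_maximalIdeal_of_surjective (Ideal.Quotient.mk (Ideal.span {π}))
      Ideal.Quotient.mk_surjective, hm, Ideal.map_span, Set.image_pair]
    have h0 : Ideal.Quotient.mk (Ideal.span {π}) π = 0 :=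
      Ideal.Quotient.eq_zero_iff_mem.2 (Ideal.mem_span_singleton_self π)
    rw [h0]
    apply le_antisymm
    · rw [Ideal.span_le]
      rintro x (rfl | rfl)
      · exact Ideal.zero_mem _
      · exact Ideal.subset_span rfl
    · exact Ideal.span_mono (by intro x hx; right; exact hx)
  have hprin : (IsLocalRing.maximalIdeal (A ⧸ Ideal.span {π})).IsPrincipal := ⟨⟨_, hmax⟩⟩
  exact ((tfae_of_isNoetherianRing_of_isLocalRing_of_isDomain
    (A ⧸ Ideal.span {π})).out 4 0).1 hprin

variable [IsIntegrallyClosed A]
  (K : Type*) [Field K] [Algebra A K] [IsFractionRing A K]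
  (F : Type*) [Field F] [Algebra K F] [Algebra A F] [IsScalarTower A K F]
  (A' : Type*) [CommRing A'] [Algebra A A'] [Algebra A' F] [IsScalarTower A A' F]
  [IsIntegralClosure A' A F]

/-- **(LF3)** Local form: `A` a noetherian normal local domain whose maximal ideal is `(π, u)`
with `π` prime (e.g. a regular local ring of dimension `2` together with a prime regular
parameter, or a DVR with `u = 0`…). Then the integral closure of `A` in a finite separable
extension of its fraction field is `A`-free. -/
theorem nfr_free_of_isLocalRing [IsLocalRing A] [IsNoetherianRing A] [FiniteDimensional K F]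
    [Algebra.IsSeparable K F] {π u : A} (hπ : Prime π)
    (hm : IsLocalRing.maximalIdeal A = Ideal.span {π, u}) : Module.Free A A' := by
  have := nfr_isPrincipalIdealRing_quot hπ hm
  have hπm : π ∈ IsLocalRing.maximalIdeal A := by
    rw [hm]; exact Ideal.subset_span (by simp)
  exact nfr_free K F A' hπ (IsLocalRing.maximalIdeal_le_jacobson _ hπm)

theorem nfr_finrank_of_isLocalRing [IsLocalRing A] [IsNoetherianRing A] [FiniteDimensional K F]
    [Algebra.IsSeparable K F] {π u : A} (hπ : Prime π)
    (hm : IsLocalRing.maximalIdeal A = Ideal.span {π, u}) :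
    Module.finrank A A' = Module.finrank K F := by
  have := nfr_isPrincipalIdealRing_quot hπ hm
  have hπm : π ∈ IsLocalRing.maximalIdeal A := by
    rw [hm]; exact Ideal.subset_span (by simp)
  exact nfr_finrank K F A' hπ (IsLocalRing.maximalIdeal_le_jacobson _ hπm)

end LF3

end Fermat.Agent.JT3
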