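/-
# Instantiation helpers for the norm trick (`NormQuotient.lean`)

* `nq_quotientAction` : the action of a group on the quotient of a ring by an invariant ideal;
* `nq_quotient_span_isDedekindDomain` : `A / π` is Dedekind when `A = B ^ G`, `B / π` is a Dedekind
  domain with faithful `G`-action and rational closed points;
* `nq_isDedekindDomain_of_local` : a noetherian domain all of whose maximal ideals are locally
  principal (elementwise form) is a Dedekind domain.
-/
import Fermat.Agent.JT3.Algebra.NormQuotient

set_option linter.unusedSectionVars false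
set_option linter.style.longLine false

namespace Fermat.Agent.JT3

section QuotientAction

variable {B G : Type*} [CommRing B] [Group G] [MulSemiringAction G B]

/-- The ring endomorphism of `B ⧸ I` induced by `g`, for an invariant ideal `I`. -/
noncomputable def nq_quotientMap (I : Ideal B) (hI : ∀ (g : G) (x : B), x ∈ I → g • x ∈ I) (g : G) :
    B ⧸ I →+* B ⧸ I :=
  Ideal.quotientMap I (MulSemiringAction.toRingHom G B g)
    (show I ≤ Ideal.comap (MulSemiringAction.toRingHom G B g) I from fun x hx => hI g x hx)

theorem nq_quotientMap_mk (I : Ideal B) (hI : ∀ (g : G) (x : B), x ∈ I → g • x ∈ I) (g : G)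
    (x : B) : nq_quotientMap I hI g (Ideal.Quotient.mk I x) = Ideal.Quotient.mk I (g • x) := by
  unfold nq_quotientMap
  exact Ideal.quotientMap_mk

/-- The action of `G` on `B ⧸ I` for an invariant ideal `I`. -/
@[instance_reducible]
noncomputable def nq_quotientAction (I : Ideal B) (hI : ∀ (g : G) (x : B), x ∈ I → g • x ∈ I) :
    MulSemiringAction G (B ⧸ I) where
  smul g x := nq_quotientMap I hI g x
  one_smul x := by
    obtain ⟨x, rfl⟩ := Ideal.Quotient.mk_surjective x
    change nq_quotientMap I hI 1 _ = _
    rw [nq_quotientMap_mk, one_smul]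
  mul_smul g h x := by
    obtain ⟨x, rfl⟩ := Ideal.Quotient.mk_surjective x
    change nq_quotientMap I hI (g * h) _ = nq_quotientMap I hI g (nq_quotientMap I hI h _)
    rw [nq_quotientMap_mk, nq_quotientMap_mk, nq_quotientMap_mk, mul_smul]
  smul_zero g := map_zero (nq_quotientMap I hI g)
  smul_add g x y := map_add (nq_quotientMap I hI g) x y
  smul_one g := map_one (nq_quotientMap I hI g)
  smul_mul g x y := map_mul (nq_quotientMap I hI g) x y

theorem nq_quotientAction_mk (I : Ideal B) (hI : ∀ (g : G) (x : B), x ∈ I → g • x ∈ I) (g : G)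
    (x : B) :
    let _ := nq_quotientAction I hI
    g • (Ideal.Quotient.mk I x) = Ideal.Quotient.mk I (g • x) :=
  nq_quotientMap_mk I hI g x

end QuotientAction

section QuotientSpan

variable {A B G : Type*} [CommRing A] [CommRing B] [Algebra A B] [IsNoetherianRing A]
  [Module.Finite A B] [Group G] [Fintype G] [MulSemiringAction G B] [SMulCommClass G A B]

/-- **`A / π` is Dedekind** for `A = B ^ G` when `B / π` is a Dedekind domain on which `G` acts
faithfully and whose closed points are `A`-rational.  (`nq_quotient_isDedekindDomain` with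
`Bb := B ⧸ (π)` and the quotient action `nq_quotientAction`.) -/
theorem nq_quotient_span_isDedekindDomain (π : A)
    (hinj : Function.Injective (algebraMap A B))
    (hinv : ∀ b : B, (∀ g : G, g • b = b) → ∃ a : A, algebraMap A B a = b)
    [hD : IsDedekindDomain (B ⧸ Ideal.span {algebraMap A B π})]
    (hfaith : ∀ g : G, g ≠ 1 → ∃ b : B, g • b - b ∉ Ideal.span {algebraMap A B π})
    (hπ : ∀ b : B, algebraMap A B π * b = 0 → b = 0)
    (hres : ∀ n : Ideal B, n.IsMaximal → algebraMap A B π ∈ n →
      ∀ b : B, ∃ a : A, b - algebraMap A B a ∈ n) :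
    IsDedekindDomain (A ⧸ Ideal.span {π}) := by
  set I : Ideal B := Ideal.span {algebraMap A B π} with hIdef
  have hI : ∀ (g : G) (x : B), x ∈ I → g • x ∈ I := by
    intro g x hx
    obtain ⟨c, rfl⟩ := Ideal.mem_span_singleton'.mp hx
    rw [smul_mul', smul_algebraMap]
    exact Ideal.mul_mem_left _ _ (Ideal.mem_span_singleton_self _)
  let _ := nq_quotientAction I hI
  have hmk : ∀ (g : G) (x : B), g • (Ideal.Quotient.mk I x) = Ideal.Quotient.mk I (g • x) :=
    fun g x => nq_quotientAction_mk I hI g x
  have : FaithfulSMul G (B ⧸ I) := by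
    refine ⟨fun {g h} H => ?_⟩
    by_contra hne
    have hk : h⁻¹ * g ≠ 1 := by
      intro h1
      apply hne
      have := congrArg (h * ·) h1
      simpa using this
    obtain ⟨b, hb⟩ := hfaith _ hk
    apply hb
    have h1 : g • b - h • b ∈ I := by
      have := H (Ideal.Quotient.mk I b)
      rw [hmk, hmk] at this
      exact Ideal.Quotient.eq.mp this
    have h2 := hI h⁻¹ _ h1
    rwa [smul_sub, smul_smul, smul_smul, inv_mul_cancel, one_smul] at h2
  refine nq_quotient_isDedekindDomain (Bb := B ⧸ I) π hinj hinv (Ideal.Quotient.mk I)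
    Ideal.Quotient.mk_surjective (fun g b => (hmk g b).symm) Ideal.mk_ker hπ ?_
  intro nb hnb bb
  obtain ⟨b, rfl⟩ := Ideal.Quotient.mk_surjective bb
  have hn : (nb.comap (Ideal.Quotient.mk I)).IsMaximal :=
    Ideal.comap_isMaximal_of_surjective _ Ideal.Quotient.mk_surjective
  have hπn : algebraMap A B π ∈ nb.comap (Ideal.Quotient.mk I) := by
    rw [Ideal.mem_comap, Ideal.Quotient.eq_zero_iff_mem.mpr (Ideal.mem_span_singleton_self _)]
    exact Ideal.zero_mem _
  obtain ⟨a, ha⟩ := hres _ hn hπn b
  refine ⟨a, ?_⟩
  rw [← map_sub]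
  exact ha

end QuotientSpan

section LocalPrincipal

variable {D : Type*} [CommRing D] [IsDomain D] [IsNoetherianRing D]

/-- If a maximal ideal `n` is principal "locally at `n`" (elementwise form), then the maximal ideal
of the localisation is principal. -/
theorem nq_maximalIdeal_localization_isPrincipal (n : Ideal D) [hn : n.IsMaximal] {u : D}
    (hu : u ∈ n) (h : ∀ x ∈ n, ∃ s, s ∉ n ∧ s * x ∈ Ideal.span {u}) :
    IsLocalRing.maximalIdeal (Localization.AtPrime n) =
      Ideal.span {algebraMap D (Localization.AtPrime n) u} := by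
  rw [← Localization.AtPrime.map_eq_maximalIdeal]
  apply le_antisymm
  · rw [Ideal.map_le_iff_le_comap]
    intro x hx
    obtain ⟨s, hs, hsx⟩ := h x hx
    obtain ⟨c, hc⟩ := Ideal.mem_span_singleton'.mp hsx
    have hunit : IsUnit (algebraMap D (Localization.AtPrime n) s) :=
      IsLocalization.map_units (M := n.primeCompl) _ ⟨s, hs⟩
    rw [Ideal.mem_comap]
    have h1 : algebraMap D (Localization.AtPrime n) s * algebraMap D (Localization.AtPrime n) x ∈
        Ideal.span {algebraMap D (Localization.AtPrime n) u} := by
      rw [← map_mul, ← hc, map_mul]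
      exact Ideal.mul_mem_left _ _ (Ideal.mem_span_singleton_self _)
    exact (Ideal.unit_mul_mem_iff_mem _ hunit).mp h1
  · rw [Ideal.span_singleton_le_iff_mem]
    exact Ideal.mem_map_of_mem _ hu

/-- **Local criterion.** A noetherian domain in which every maximal ideal is locally principal
(elementwise form: `∀ x ∈ n, ∃ s ∉ n, s * x ∈ (u)`) is a Dedekind domain. -/
theorem nq_isDedekindDomain_of_local
    (h : ∀ n : Ideal D, n.IsMaximal → ∃ u ∈ n, ∀ x ∈ n, ∃ s, s ∉ n ∧ s * x ∈ Ideal.span {u}) :
    IsDedekindDomain D := by
  -- the localisation at a maximal ideal is a PID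
  have hloc : ∀ n : Ideal D, ∀ _ : n.IsMaximal,
      (IsLocalRing.maximalIdeal (Localization.AtPrime n)).IsPrincipal := by
    intro n hn
    obtain ⟨u, hu, hux⟩ := h n hn
    exact ⟨⟨_, nq_maximalIdeal_localization_isPrincipal n hu hux⟩⟩
  -- every nonzero prime is maximal
  have hmax : ∀ P : Ideal D, P ≠ ⊥ → P.IsPrime → P.IsMaximal := by
    intro P hP0 hP
    obtain ⟨n, hn, hPn⟩ := Ideal.exists_le_maximal P hP.ne_top
    have hpr := hloc n hn
    have htfae := (tfae_of_isNoetherianRing_of_isLocalRing_of_isDomain
      (R := Localization.AtPrime n)).out 4 3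
    obtain ⟨-, hprimes⟩ := htfae.mp hpr
    have hdisj : Disjoint (n.primeCompl : Set D) (P : Set D) := by
      rw [Set.disjoint_left]
      intro x hx hxP
      exact hx (hPn hxP)
    have hPmap : (P.map (algebraMap D (Localization.AtPrime n))).IsPrime :=
      IsLocalization.isPrime_of_isPrime_disjoint n.primeCompl _ P hP hdisj
    have hPmap0 : P.map (algebraMap D (Localization.AtPrime n)) ≠ ⊥ := by
      intro h0
      apply hP0
      rw [eq_bot_iff]
      intro x hx
      have : algebraMap D (Localization.AtPrime n) x ∈
          P.map (algebraMap D (Localization.AtPrime n)) := Ideal.mem_map_of_mem _ hx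
      rw [h0, Ideal.mem_bot] at this
      rw [Ideal.mem_bot]
      exact (IsLocalization.injective (Localization.AtPrime n)
        n.primeCompl_le_nonZeroDivisors) (by rw [this, map_zero])
    have heq := hprimes _ hPmap0 hPmap
    rw [← Localization.AtPrime.map_eq_maximalIdeal] at heq
    have hndisj : Disjoint (n.primeCompl : Set D) (n : Set D) := by
      rw [Set.disjoint_left]
      intro x hx hxn
      exact hx hxn
    have h1 := IsLocalization.under_map_of_isPrime_disjoint n.primeCompl
      (Localization.AtPrime n) hP hdisj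
    have h2 := IsLocalization.under_map_of_isPrime_disjoint n.primeCompl
      (Localization.AtPrime n) hn.isPrime hndisj
    have : P = n := h1.symm.trans ((congrArg (Ideal.under D) heq).trans h2)
    rw [this]; exact hn
  have hdvr : IsDedekindDomainDvr D :=
    { is_dvr_at_nonzero_prime := by
        intro P hP0 hP
        have hPmax := hmax P hP0 hP
        have hpr := hloc P hPmax
        have htfae := (tfae_of_isNoetherianRing_of_isLocalRing_of_isDomain
          (R := Localization.AtPrime P)).out 4 0
        have hpid : IsPrincipalIdealRing (Localization.AtPrime P) := htfae.mp hpr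
        have hnf : ¬ IsField (Localization.AtPrime P) :=
          IsLocalization.AtPrime.not_isField D hP0 (Localization.AtPrime P)
        exact
          { not_a_field' := by
              intro hbot
              exact hnf (IsLocalRing.isField_iff_maximalIdeal_eq.mpr hbot) } }
  exact IsDedekindDomainDvr.isDedekindDomain D

end LocalPrincipal

section LocalPair

/-- From the `(h2)(h3)`-shape of a smooth chart (`π` prime, every closed point of the special
fibre locally generated by `π` and one more element) to the Dedekind shape consumed by the norm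
trick: `R ⧸ (π)` is a Dedekind domain.  Converse of `nq_maximal_local`. -/
theorem nq_quotient_isDedekindDomain_of_local_pair {R : Type*} [CommRing R] [IsNoetherianRing R]
    (π : R) (hprime : (Ideal.span {π}).IsPrime)
    (h : ∀ n : Ideal R, n.IsMaximal → π ∈ n →
      ∃ u ∈ n, ∀ x ∈ n, ∃ s, s ∉ n ∧ s * x ∈ Ideal.span {π, u}) :
    IsDedekindDomain (R ⧸ Ideal.span {π}) := by
  set I : Ideal R := Ideal.span {π} with hI
  have : IsDomain (R ⧸ I) := Ideal.Quotient.isDomain I
  apply nq_isDedekindDomain_of_local
  intro nb hnb
  have hn : (nb.comap (Ideal.Quotient.mk I)).IsMaximal :=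
    Ideal.comap_isMaximal_of_surjective _ Ideal.Quotient.mk_surjective
  have hπn : π ∈ nb.comap (Ideal.Quotient.mk I) := by
    rw [Ideal.mem_comap, Ideal.Quotient.eq_zero_iff_mem.mpr (Ideal.mem_span_singleton_self _)]
    exact Ideal.zero_mem _
  obtain ⟨u, hu, hux⟩ := h _ hn hπn
  refine ⟨Ideal.Quotient.mk I u, hu, ?_⟩
  intro xb hxb
  obtain ⟨x, rfl⟩ := Ideal.Quotient.mk_surjective xb
  obtain ⟨s, hs, hsx⟩ := hux x hxb
  refine ⟨Ideal.Quotient.mk I s, hs, ?_⟩
  obtain ⟨a, b, hab⟩ := Ideal.mem_span_pair.mp hsx
  rw [← map_mul, ← hab, map_add, map_mul, map_mul,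
    Ideal.Quotient.eq_zero_iff_mem.mpr (Ideal.mem_span_singleton_self π), mul_zero, zero_add]
  exact Ideal.mul_mem_left _ _ (Ideal.mem_span_singleton_self _)

end LocalPair

end Fermat.Agent.JT3
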