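/-
JT3 / Route R, node (H) ABHYANKAR (helper11).  Mathlib only.  Prefix `ti_`.

1. `ti_isCyclic`: `R` a discrete valuation ring, `G` a finite group acting faithfully on `R` by
   ring automorphisms and trivially on the residue field, `|G|` invertible in `R` (e.g. residue
   characteristic `0`: `ti_isCyclic_of_charZero`).  Then `G` is cyclic: `σ ↦ (σ t / t mod 𝔪)` is
   an injective character `G → κˣ`.
2. `ti_le_of_card_dvd`, `ti_le_of_index_dvd`: subgroups of a finite cyclic group are ordered by
   divisibility of their orders / indices.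
3. `ti_isCyclic_of_trivial_mod`, `ti_isCyclic_inertia`: the same for a nonzero prime `Q` of a
   Dedekind domain `C` (through the action on the localisation, `ti_locAction`).
4. `ti_inertia_inf_le`, `ti_card_inertia_inf`: Abhyankar in group form.
5. `ti_card_inertia_eq_ramificationIdx` and `ti_abhyankar`: Abhyankar's lemma for a tower
   `A ⊆ B₁, B₂ ⊆ B₁₂ ⊆ C` of fixed rings of `G ⊇ H₁, H₂ ⊇ H₁ ⊓ H₂` (Mathlib's `IsGaloisGroup`,
   `Ideal.ramificationIdx`): if `e(Q ∩ B₁ | A)` divides `e(Q ∩ B₂ | A)` then `e(Q ∩ B₁₂ | B₂) = 1`.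
-/
import Mathlib

set_option autoImplicit false
set_option linter.unusedSectionVars false

namespace Fermat.Agent.JT3

open IsLocalRing

section Core

variable {R : Type*} [CommRing R]
variable {G : Type*} [Group G] [MulSemiringAction G R]

/-- If `σ` acts trivially modulo `t` and `σ t = u t` with `u ≡ 1 mod t`, then `σ` acts trivially on
every graded piece `t^k R / t^(k+1) R`. -/
theorem ti_dvd_smul_sub (σ : G) (t u : R) (hu : σ • t = u * t) (hu1 : t ∣ u - 1)
    (h1 : ∀ x : R, t ∣ σ • x - x) (k : ℕ) (x : R) (hx : t ^ k ∣ x) :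
    t ^ (k + 1) ∣ σ • x - x := by
  obtain ⟨a, rfl⟩ := hx
  have e : σ • (t ^ k * a) - t ^ k * a
      = t ^ k * (u ^ k * (σ • a - a) + (u ^ k - 1) * a) := by
    rw [smul_mul', smul_pow', hu]
    ring
  rw [e, pow_succ]
  refine mul_dvd_mul_left _ (dvd_add (Dvd.dvd.mul_left (h1 a) _) (Dvd.dvd.mul_right ?_ _))
  refine hu1.trans ?_
  simpa using sub_dvd_pow_sub_pow u 1 k

/-- Under the hypotheses of `ti_dvd_smul_sub`: `σ^m x - x ≡ m (σ x - x)` modulo `t^(k+1)` as soon as
`t^k ∣ σ x - x`. -/
theorem ti_dvd_pow_smul_sub (σ : G) (t u : R) (hu : σ • t = u * t) (hu1 : t ∣ u - 1)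
    (h1 : ∀ x : R, t ∣ σ • x - x) (k : ℕ) (x : R) (hx : t ^ k ∣ σ • x - x) (m : ℕ) :
    t ^ (k + 1) ∣ (σ ^ m) • x - x - m * (σ • x - x) := by
  induction m with
  | zero => simp
  | succ m ih =>
    set y := σ • x - x with hy
    set z := (σ ^ m) • x - x with hz
    have hzk : t ^ k ∣ z := by
      have h2 : t ^ k ∣ z - m * y := (pow_dvd_pow t (Nat.le_succ k)).trans ih
      have h3 : z = (z - m * y) + m * y := by ring
      rw [h3]
      exact dvd_add h2 (Dvd.dvd.mul_left hx _)
    have h4 := ti_dvd_smul_sub σ t u hu hu1 h1 k z hzk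
    have e : (σ ^ (m + 1)) • x - x - ((m + 1 : ℕ) : R) * y
        = (σ • z - z) + (z - m * y) := by
      rw [pow_succ', mul_smul, hz, smul_sub, hy]
      push_cast
      ring
    rw [e]
    exact dvd_add h4 ih

end Core

section DVR

variable {R : Type*} [CommRing R] [IsDomain R] [IsDiscreteValuationRing R]
variable {G : Type*} [Group G] [Finite G] [MulSemiringAction G R]

/-- In a DVR an element divisible by all powers of a uniformizer vanishes. -/
theorem ti_eq_zero_of_forall_pow_dvd {t : R} (ht : Irreducible t) {y : R}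
    (h : ∀ k : ℕ, t ^ k ∣ y) : y = 0 := by
  by_contra hy
  obtain ⟨n, u, rfl⟩ := IsDiscreteValuationRing.eq_unit_mul_pow_irreducible hy ht
  have h1 := h (n + 1)
  rw [pow_succ, mul_comm (u : R)] at h1
  have h2 : t ∣ (u : R) := (mul_dvd_mul_iff_left (pow_ne_zero n ht.ne_zero)).1 h1
  exact ht.not_isUnit (isUnit_of_dvd_unit h2 u.isUnit)

/-- An automorphism `σ` of finite order `n` (invertible in `R`) of a DVR which is trivial modulo
`𝔪` and satisfies `σ t ≡ t mod 𝔪²` is trivial. -/
theorem ti_smul_eq_of_trivial_gr (σ : G) {t : R} (ht : Irreducible t) (u : R) (hu : σ • t = u * t)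
    (hu1 : t ∣ u - 1) (h1 : ∀ x : R, t ∣ σ • x - x) (n : ℕ) (hn : σ ^ n = 1)
    (hnu : IsUnit (n : R)) (x : R) : σ • x = x := by
  rw [← sub_eq_zero]
  refine ti_eq_zero_of_forall_pow_dvd ht fun k => ?_
  induction k with
  | zero => simp
  | succ k ih =>
    have h := ti_dvd_pow_smul_sub σ t u hu hu1 h1 k x ih n
    rw [hn, one_smul, sub_self, zero_sub, dvd_neg] at h
    exact (hnu.dvd_mul_left).1 h

/-- **Tame inertia is cyclic.**  A finite group acting faithfully on a DVR, trivially on its
residue field, of order invertible in `R`, is cyclic. -/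
theorem ti_isCyclic [FaithfulSMul G R]
    (hI : ∀ (σ : G) (x : R), σ • x - x ∈ maximalIdeal R)
    (hn : IsUnit ((Nat.card G : ℕ) : R)) : IsCyclic G := by
  classical
  obtain ⟨t, ht⟩ := IsDiscreteValuationRing.exists_irreducible R
  have hm : maximalIdeal R = Ideal.span {t} := ht.maximalIdeal_eq
  have h1 : ∀ (σ : G) (x : R), t ∣ σ • x - x := fun σ x => by
    have := hI σ x
    rwa [hm, Ideal.mem_span_singleton] at this
  have hirr : ∀ σ : G, Irreducible (σ • t) := fun σ =>
    (MulEquiv.irreducible_iff (MulSemiringAction.toRingEquiv G R σ)).2 ht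
  have hex : ∀ σ : G, ∃ u : R, σ • t = u * t := fun σ => by
    obtain ⟨u, hu⟩ := IsDiscreteValuationRing.associated_of_irreducible R ht (hirr σ)
    exact ⟨u, by rw [← hu, mul_comm]⟩
  choose u hu using hex
  have hres : ∀ (σ : G) (x : R), residue R (σ • x) = residue R x := fun σ x => by
    rw [← sub_eq_zero, ← map_sub, residue_eq_zero_iff]
    exact hI σ x
  have hmul : ∀ σ τ : G, u (σ * τ) = σ • (u τ) * u σ := by
    intro σ τ
    apply mul_right_cancel₀ ht.ne_zero
    rw [← hu, mul_smul, hu τ, smul_mul', hu σ]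
    ring
  have hone : u 1 = 1 := by
    apply mul_right_cancel₀ ht.ne_zero
    rw [← hu, one_smul, one_mul]
  let χ : G →* ResidueField R :=
    { toFun := fun σ => residue R (u σ)
      map_one' := by simp [hone]
      map_mul' := fun σ τ => by rw [hmul, map_mul, hres, mul_comm] }
  refine isCyclic_of_injective_ringHom χ ?_
  rw [injective_iff_map_eq_one]
  intro σ hσ
  have hu1 : t ∣ u σ - 1 := by
    have h2 : residue R (u σ - 1) = 0 := by
      rw [map_sub, map_one]
      exact sub_eq_zero.2 hσ
    rwa [residue_eq_zero_iff, hm, Ideal.mem_span_singleton] at h2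
  apply FaithfulSMul.eq_of_smul_eq_smul (α := R)
  intro x
  rw [one_smul]
  exact ti_smul_eq_of_trivial_gr σ ht (u σ) (hu σ) hu1 (h1 σ) (Nat.card G) pow_card_eq_one' hn x

/-- Residue characteristic zero version of `ti_isCyclic`. -/
theorem ti_isCyclic_of_charZero [FaithfulSMul G R] [CharZero (ResidueField R)]
    (hI : ∀ (σ : G) (x : R), σ • x - x ∈ maximalIdeal R) : IsCyclic G := by
  refine ti_isCyclic hI ?_
  rw [← IsLocalRing.notMem_maximalIdeal, ← residue_eq_zero_iff, map_natCast]
  exact_mod_cast Nat.card_pos.ne'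

end DVR


section Cyclic

variable {I : Type*} [Group I] [Finite I] [IsCyclic I]

/-- In a finite cyclic group a subgroup consists exactly of the elements killed by its order. -/
theorem ti_mem_of_pow_card_eq_one (A : Subgroup I) {x : I} (hx : x ^ Nat.card A = 1) : x ∈ A := by
  classical
  have := Fintype.ofFinite I
  set d := Nat.card A with hd
  have hd0 : 0 < d := Nat.card_pos
  let S : Finset I := Finset.univ.filter fun a : I => a ^ d = 1
  have hS : S.card ≤ d := IsCyclic.card_pow_eq_one_le hd0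
  let T : Finset I := Finset.univ.filter fun a : I => a ∈ A
  have hT : T.card = d := by
    rw [hd, Nat.card_eq_fintype_card, Fintype.card_subtype]
  have hTS : T ⊆ S := by
    intro a ha
    simp only [T, S, Finset.mem_filter, Finset.mem_univ, true_and] at ha ⊢
    have : (⟨a, ha⟩ : A) ^ Nat.card A = 1 := pow_card_eq_one'
    exact congrArg Subtype.val this
  have hEq : T = S := Finset.eq_of_subset_of_card_le hTS (by rw [hT]; exact hS)
  have : x ∈ S := by simp [S, hx]
  rw [← hEq] at this
  simpa [T] using this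

/-- In a finite cyclic group, subgroups are ordered by divisibility of their orders. -/
theorem ti_le_of_card_dvd {A B : Subgroup I} (h : Nat.card B ∣ Nat.card A) : B ≤ A := by
  intro b hb
  apply ti_mem_of_pow_card_eq_one
  obtain ⟨c, hc⟩ := h
  have : (⟨b, hb⟩ : B) ^ Nat.card B = 1 := pow_card_eq_one'
  have h1 : b ^ Nat.card B = 1 := congrArg Subtype.val this
  rw [hc, pow_mul, h1, one_pow]

/-- In a finite cyclic group, subgroups are ordered by divisibility of their indices. -/
theorem ti_le_of_index_dvd {A B : Subgroup I} (h : A.index ∣ B.index) : B ≤ A := by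
  apply ti_le_of_card_dvd
  have hA := A.card_mul_index
  have hB := B.card_mul_index
  obtain ⟨c, hc⟩ := h
  have hB0 : B.index ≠ 0 := Subgroup.index_ne_zero_of_finite
  have hA0 : A.index ≠ 0 := Subgroup.index_ne_zero_of_finite
  refine ⟨c, ?_⟩
  have : Nat.card A * A.index = Nat.card B * c * A.index := by
    rw [hA, ← hB, hc]; ring
  exact Nat.eq_of_mul_eq_mul_right (Nat.pos_of_ne_zero hA0) this

end Cyclic

section LocAction

variable {C : Type*} [CommRing C] (Q : Ideal C) [Q.IsPrime]
variable {I : Type*} [Group I] [MulSemiringAction I C]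
variable (R : Type*) [CommRing R] [Algebra C R] [IsLocalization.AtPrime R Q]

theorem ti_smul_mem_iff (hI : ∀ (σ : I) (x : C), σ • x - x ∈ Q) (σ : I) (x : C) :
    σ • x ∈ Q ↔ x ∈ Q := by
  constructor
  · intro h
    have := Q.sub_mem h (hI σ x)
    simpa using this
  · intro h
    have := Q.add_mem (hI σ x) h
    simpa using this

theorem ti_primeCompl_le (hI : ∀ (σ : I) (x : C), σ • x - x ∈ Q) (σ : I) :
    Q.primeCompl ≤ Q.primeCompl.comap (MulSemiringAction.toRingHom I C σ) := by
  intro x hx
  rw [Submonoid.mem_comap]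
  intro h
  exact hx ((ti_smul_mem_iff Q hI σ x).1 h)

/-- The action of a group acting trivially modulo `Q` on the localisation at `Q`. -/
@[instance_reducible]
noncomputable def ti_locAction (hI : ∀ (σ : I) (x : C), σ • x - x ∈ Q) :
    MulSemiringAction I R where
  smul σ x := IsLocalization.map R (MulSemiringAction.toRingHom I C σ) (ti_primeCompl_le Q hI σ) x
  one_smul x := by
    show IsLocalization.map R (MulSemiringAction.toRingHom I C 1) _ x = x
    have : (MulSemiringAction.toRingHom I C 1) = RingHom.id C := by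
      ext y; simp
    simp only [this]
    exact IsLocalization.map_id x _
  mul_smul σ τ x := by
    show IsLocalization.map R (MulSemiringAction.toRingHom I C (σ * τ)) _ x =
      IsLocalization.map R (MulSemiringAction.toRingHom I C σ) _
        (IsLocalization.map R (MulSemiringAction.toRingHom I C τ) _ x)
    rw [IsLocalization.map_map]
    have e : MulSemiringAction.toRingHom I C (σ * τ) =
        (MulSemiringAction.toRingHom I C σ).comp (MulSemiringAction.toRingHom I C τ) := by
      ext y
      simp [mul_smul]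
    simp only [e]
  smul_zero σ := map_zero _
  smul_add σ x y := map_add _ x y
  smul_one σ := map_one _
  smul_mul σ x y := map_mul _ x y

theorem ti_locAction_algebraMap (hI : ∀ (σ : I) (x : C), σ • x - x ∈ Q) (σ : I) (c : C) :
    letI := ti_locAction Q R hI
    σ • (algebraMap C R c) = algebraMap C R (σ • c) := by
  let _ := ti_locAction Q R hI
  show IsLocalization.map R (MulSemiringAction.toRingHom I C σ) _ (algebraMap C R c) = _
  rw [IsLocalization.map_eq]
  rfl


/-- **Tame inertia is cyclic, Dedekind form.** `C` a Dedekind domain, `Q ≠ ⊥` a prime, `I` a finite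
group acting faithfully on `C` and trivially on `C ⧸ Q`, with `|I| ∉ Q`.  Then `I` is cyclic. -/
theorem ti_isCyclic_of_trivial_mod [IsDedekindDomain C] (hQ : Q ≠ ⊥) [Finite I] [FaithfulSMul I C]
    (hI : ∀ (σ : I) (x : C), σ • x - x ∈ Q) (hn : ((Nat.card I : ℕ) : C) ∉ Q) : IsCyclic I := by
  let R := Localization.AtPrime Q
  have : IsDiscreteValuationRing R :=
    IsLocalization.AtPrime.isDiscreteValuationRing_of_dedekind_domain C hQ R
  let _ := ti_locAction Q R hI
  have hinj : Function.Injective (algebraMap C R) :=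
    IsLocalization.injective R Q.primeCompl_le_nonZeroDivisors
  have : FaithfulSMul I R := ⟨fun {σ τ} h => by
    apply FaithfulSMul.eq_of_smul_eq_smul (α := C)
    intro c
    apply hinj
    rw [← ti_locAction_algebraMap Q R hI, ← ti_locAction_algebraMap Q R hI]
    exact h _⟩
  refine ti_isCyclic (R := R) (G := I) ?_ ?_
  · intro σ x
    rw [← IsLocalRing.residue_eq_zero_iff, map_sub, sub_eq_zero]
    let f : R →+* IsLocalRing.ResidueField R :=
      (IsLocalRing.residue R).comp (MulSemiringAction.toRingHom I R σ)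
    have hfg : f = IsLocalRing.residue R := by
      apply IsLocalization.ringHom_ext Q.primeCompl
      ext c
      show IsLocalRing.residue R (σ • algebraMap C R c) = IsLocalRing.residue R (algebraMap C R c)
      rw [ti_locAction_algebraMap Q R hI, ← sub_eq_zero, ← map_sub, ← map_sub,
        IsLocalRing.residue_eq_zero_iff, IsLocalization.AtPrime.to_map_mem_maximal_iff R Q]
      exact hI σ c
    exact congrArg (fun g : R →+* IsLocalRing.ResidueField R => g x) hfg
  · have h1 : ((Nat.card I : ℕ) : R) = algebraMap C R ((Nat.card I : ℕ) : C) := by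
      rw [map_natCast]
    rw [h1]
    exact IsLocalization.map_units R (⟨_, hn⟩ : Q.primeCompl)

end LocAction

section Inertia

variable {C : Type*} [CommRing C] [IsDedekindDomain C]
variable {G : Type*} [Group G] [Finite G] [MulSemiringAction G C] [FaithfulSMul G C]
variable (Q : Ideal C) [Q.IsPrime]

/-- In residue characteristic `0`, the inertia group of a nonzero prime of a Dedekind domain (for a
faithful action of a finite group) is cyclic. -/
theorem ti_isCyclic_inertia (hQ : Q ≠ ⊥) [CharZero (C ⧸ Q)] : IsCyclic (Q.inertia G) := by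
  refine ti_isCyclic_of_trivial_mod Q hQ (I := Q.inertia G) ?_ ?_
  · intro σ x
    exact σ.2 x
  · intro h
    rw [← Ideal.Quotient.eq_zero_iff_mem, map_natCast] at h
    exact Nat.card_pos.ne' (Nat.cast_eq_zero.1 h)

/-- Inside `G`, the inertia group of a subgroup `H` is `I ⊓ H`. -/
theorem ti_inertia_subgroup_map (H : Subgroup G) :
    (Q.inertia H).map H.subtype = Q.inertia G ⊓ H := by
  ext σ
  constructor
  · rintro ⟨τ, hτ, rfl⟩
    exact ⟨hτ, τ.2⟩
  · rintro ⟨h1, h2⟩
    exact ⟨⟨σ, h2⟩, h1, rfl⟩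

theorem ti_card_inertia_subgroup (H : Subgroup G) :
    Nat.card (Q.inertia H) = Nat.card (Q.inertia G ⊓ H : Subgroup G) := by
  rw [← ti_inertia_subgroup_map]
  exact (Nat.card_congr ((Q.inertia H).equivMapOfInjective H.subtype
    H.subtype_injective).toEquiv)

/-- **Abhyankar, group form.**  If `[I : I ∩ H₁]` divides `[I : I ∩ H₂]` (with `I` the inertia
group, cyclic because the residue characteristic is `0`) then `I ∩ H₂ ≤ H₁`. -/
theorem ti_inertia_inf_le (hQ : Q ≠ ⊥) [CharZero (C ⧸ Q)] (H₁ H₂ : Subgroup G)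
    (h : Nat.card (Q.inertia H₂) ∣ Nat.card (Q.inertia H₁)) :
    Q.inertia G ⊓ H₂ ≤ H₁ := by
  have := ti_isCyclic_inertia (G := G) Q hQ
  set I := Q.inertia G with hIdef
  have key : (I ⊓ H₂).subgroupOf I ≤ (I ⊓ H₁).subgroupOf I := by
    apply ti_le_of_card_dvd
    rw [Nat.card_congr (Subgroup.subgroupOfEquivOfLe (inf_le_left : I ⊓ H₂ ≤ I)).toEquiv,
      Nat.card_congr (Subgroup.subgroupOfEquivOfLe (inf_le_left : I ⊓ H₁ ≤ I)).toEquiv,
      ← ti_card_inertia_subgroup, ← ti_card_inertia_subgroup]
    exact h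
  intro σ hσ
  have h1 : (⟨σ, hσ.1⟩ : I) ∈ (I ⊓ H₂).subgroupOf I := by
    rw [Subgroup.mem_subgroupOf]
    exact hσ
  have h2 := key h1
  rw [Subgroup.mem_subgroupOf] at h2
  exact h2.2

/-- **Abhyankar, numeric form.**  Under the divisibility hypothesis, the inertia groups of
`H₁ ⊓ H₂` and of `H₂` have the same order. -/
theorem ti_card_inertia_inf (hQ : Q ≠ ⊥) [CharZero (C ⧸ Q)] (H₁ H₂ : Subgroup G)
    (h : Nat.card (Q.inertia H₂) ∣ Nat.card (Q.inertia H₁)) :
    Nat.card (Q.inertia (H₁ ⊓ H₂ : Subgroup G)) = Nat.card (Q.inertia H₂) := by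
  rw [ti_card_inertia_subgroup, ti_card_inertia_subgroup]
  congr 2
  apply le_antisymm
  · exact inf_le_inf_left _ inf_le_right
  · exact le_inf inf_le_left (le_inf (ti_inertia_inf_le Q hQ H₁ H₂ h) inf_le_right)

end Inertia

section Ram

variable {X C : Type*} [CommRing X] [IsDomain X] [CommRing C] [IsDomain C] [Algebra X C]
  [Module.Finite X C] [Module.Flat X C]
variable {H : Type*} [Group H] [Finite H] [MulSemiringAction H C] [IsGaloisGroup H X C]

theorem ti_charZero_residueField_under (Q : Ideal C) [Q.IsPrime] [CharZero (C ⧸ Q)] :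
    CharZero (Q.under X).ResidueField := by
  refine ⟨fun m n h => ?_⟩
  have h1 : ((m : X ⧸ Q.under X)) = (n : X ⧸ Q.under X) := by
    apply Ideal.injective_algebraMap_quotient_residueField (Q.under X)
    rw [map_natCast, map_natCast]
    exact h
  have h2 : ((m : C ⧸ Q)) = (n : C ⧸ Q) := by
    have := congrArg (algebraMap (X ⧸ Q.under X) (C ⧸ Q)) h1
    rwa [map_natCast, map_natCast] at this
  exact Nat.cast_injective h2

theorem ti_card_inertia_eq_ramificationIdx (Q : Ideal C) [Q.IsPrime] [CharZero (C ⧸ Q)] :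
    Nat.card (Q.inertia H) = Q.ramificationIdx X := by
  have := ti_charZero_residueField_under (X := X) Q
  rw [Ideal.card_inertia_eq_ramificationIdxIn (G := H) (Q.under X) Q,
    Ideal.ramificationIdxIn_eq_ramificationIdx (Q.under X) Q H]

end Ram

section Abhyankar

variable {A B₁ B₂ B₁₂ C : Type*} [CommRing A] [IsDomain A] [CommRing B₁] [IsDomain B₁]
  [CommRing B₂] [IsDomain B₂] [CommRing B₁₂] [IsDomain B₁₂] [CommRing C] [IsDedekindDomain C]
  [Algebra A B₁] [Algebra A B₂] [Algebra B₂ B₁₂]
  [Algebra A C] [Algebra B₁ C] [Algebra B₂ C] [Algebra B₁₂ C]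
  [IsScalarTower A B₁ C] [IsScalarTower A B₂ C] [IsScalarTower B₂ B₁₂ C]
  [Module.Finite A C] [Module.Flat A C] [Module.Finite B₁ C] [Module.Flat B₁ C]
  [Module.Finite B₂ C] [Module.Flat B₂ C] [Module.Finite B₁₂ C] [Module.Flat B₁₂ C]
variable (G : Type*) [Group G] [Finite G] [MulSemiringAction G C]
variable (H₁ H₂ : Subgroup G)

/-- **Abhyankar's lemma** (Dedekind form, residue characteristic `0`).  `C ⊇ A` Galois with group
`G`; `B₁ = C^{H₁}`, `B₂ = C^{H₂}`, `B₁₂ = C^{H₁ ⊓ H₂}` (the compositum).  If at a prime `Q` of `C`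
the ramification index of `Q ∩ B₁` over `A` divides that of `Q ∩ B₂` over `A`, then `Q ∩ B₁₂` is
unramified over `B₂`. -/
theorem ti_abhyankar [IsGaloisGroup G A C] [IsGaloisGroup H₁ B₁ C] [IsGaloisGroup H₂ B₂ C]
    [IsGaloisGroup (H₁ ⊓ H₂ : Subgroup G) B₁₂ C] (Q : Ideal C) [Q.IsPrime] (hQ : Q ≠ ⊥) [CharZero (C ⧸ Q)]
    (h : (Q.under B₁).ramificationIdx A ∣ (Q.under B₂).ramificationIdx A) :
    (Q.under B₁₂).ramificationIdx B₂ = 1 := by
  have : FaithfulSMul G C := IsGaloisGroup.faithful A
  have eG : Nat.card (Q.inertia G) = Q.ramificationIdx A :=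
    ti_card_inertia_eq_ramificationIdx (X := A) (H := G) Q
  have e1 : Nat.card (Q.inertia H₁) = Q.ramificationIdx B₁ :=
    ti_card_inertia_eq_ramificationIdx (X := B₁) (H := H₁) Q
  have e2 : Nat.card (Q.inertia H₂) = Q.ramificationIdx B₂ :=
    ti_card_inertia_eq_ramificationIdx (X := B₂) (H := H₂) Q
  have e12 : Nat.card (Q.inertia (H₁ ⊓ H₂ : Subgroup G)) = Q.ramificationIdx B₁₂ :=
    ti_card_inertia_eq_ramificationIdx (X := B₁₂) (H := (H₁ ⊓ H₂ : Subgroup G)) Q
  have t1 : Q.ramificationIdx A = (Q.under B₁).ramificationIdx A * Q.ramificationIdx B₁ :=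
    Ideal.ramificationIdx_tower (Q.under B₁) Q
  have t2 : Q.ramificationIdx A = (Q.under B₂).ramificationIdx A * Q.ramificationIdx B₂ :=
    Ideal.ramificationIdx_tower (Q.under B₂) Q
  have t12 : Q.ramificationIdx B₂ = (Q.under B₁₂).ramificationIdx B₂ * Q.ramificationIdx B₁₂ :=
    Ideal.ramificationIdx_tower (Q.under B₁₂) Q
  have hG0 : Q.ramificationIdx A ≠ 0 := by
    rw [← eG]
    exact Nat.card_pos.ne'
  have h120 : Q.ramificationIdx B₁₂ ≠ 0 := by
    rw [← e12]
    exact Nat.card_pos.ne'
  have hdvd : Nat.card (Q.inertia H₂) ∣ Nat.card (Q.inertia H₁) := by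
    rw [e1, e2]
    obtain ⟨c, hc⟩ := h
    have h3 : (Q.under B₁).ramificationIdx A * Q.ramificationIdx B₁ =
        (Q.under B₁).ramificationIdx A * (c * Q.ramificationIdx B₂) := by
      rw [← t1, t2, hc]
      ring
    have h4 : (Q.under B₁).ramificationIdx A ≠ 0 := by
      intro h0
      rw [h0, zero_mul] at t1
      exact hG0 t1
    exact ⟨c, by rw [Nat.eq_of_mul_eq_mul_left (Nat.pos_of_ne_zero h4) h3]; ring⟩
  have key := ti_card_inertia_inf Q hQ H₁ H₂ hdvd
  rw [e12, e2] at key
  rw [← key] at t12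
  have : 1 * Q.ramificationIdx B₁₂ = (Q.under B₁₂).ramificationIdx B₂ * Q.ramificationIdx B₁₂ := by
    rw [one_mul]
    exact t12
  exact (Nat.eq_of_mul_eq_mul_right (Nat.pos_of_ne_zero h120) this).symm

end Abhyankar

end Fermat.Agent.JT3
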