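/-
JT3 / Route R, node (H) ABHYANKAR, part 2 (helper11): AKLB form.  Prefix `ti_` (continued).

`A` a Dedekind domain with fraction field `K₁`, `M/K₁` finite Galois, `L₁, L₂, L₁₂` fields between
`K₁` and `M` (types with algebra towers, as in Mathlib's AKLB setup), `B₁, B₂, B₁₂, C` the integral
closures of `A` (`IsIntegralClosure`).  No group appears in the final statements:

* `ti_fix K₁ M L` : the subgroup of `Gal(M/K₁)` fixing the image of `L`;
  `ti_fix_compositum` : `L₁₂ = K₁(L₁, L₂)` ⟹ `ti_fix L₁₂ = ti_fix L₁ ⊓ ti_fix L₂`.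
* `ti_isGaloisGroup_top`, `ti_isGaloisGroup_tower`, `ti_tower_instances` : the Mathlib
  `IsGaloisGroup` / finiteness / flatness instances of the tower.
* `ti_abhyankar_aklb` (prime `Q` of `C`), `ti_abhyankar_aklb'` (prime `P` of `B₁₂`):
  `e(P ∩ B₁ | A) ∣ e(P ∩ B₂ | A)` ⟹ `e(P | B₂) = 1`;
  `ti_abhyankar_isUnramifiedAt` : the same with conclusion `Algebra.IsUnramifiedAt B₂ P`.
-/
import Mathlib
import Fermat.Agent.JT3.Algebra.TameInertia

set_option autoImplicit false
set_option linter.unusedSectionVars false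
set_option linter.style.haveILetI false

namespace Fermat.Agent.JT3

section Tower

variable (A K₁ M C : Type*) [CommRing A] [IsDedekindDomain A] [Field K₁] [Algebra A K₁]
  [IsFractionRing A K₁] [Field M] [Algebra K₁ M] [FiniteDimensional K₁ M] [IsGalois K₁ M]
  [Algebra A M] [IsScalarTower A K₁ M]
  [CommRing C] [IsDomain C] [Algebra A C] [Algebra C M] [IsScalarTower A C M] [IsIntegralClosure C A M]
variable (L B : Type*) [Field L] [Algebra K₁ L] [Algebra L M] [IsScalarTower K₁ L M]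
  [Algebra A L] [IsScalarTower A K₁ L]
  [CommRing B] [IsDomain B] [Algebra A B] [Algebra B L] [IsScalarTower A B L] [IsIntegralClosure B A L]
  [Algebra B C] [Algebra B M] [IsScalarTower B C M] [IsScalarTower B L M] [IsScalarTower A B C]

/-- The subgroup of `Gal(M/K₁)` fixing the image of `L`. -/
abbrev ti_fix : Subgroup Gal(M/K₁) := fixingSubgroup Gal(M/K₁) (Set.range (algebraMap L M))

theorem ti_isGaloisGroup_top :
    letI := IsIntegralClosure.MulSemiringAction A K₁ M C
    IsGaloisGroup Gal(M/K₁) A C := by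
  letI := IsIntegralClosure.MulSemiringAction A K₁ M C
  have : IsFractionRing C M := IsIntegralClosure.isFractionRing_of_finite_extension A K₁ M C
  have : Algebra.IsIntegral A C := IsIntegralClosure.isIntegral_algebra A M
  exact IsGaloisGroup.of_isFractionRing _ A C K₁ M

theorem ti_isGaloisGroup_tower :
    letI := IsIntegralClosure.MulSemiringAction A K₁ M C
    IsGaloisGroup (ti_fix K₁ M L) B C := by
  letI := IsIntegralClosure.MulSemiringAction A K₁ M C
  have : FiniteDimensional K₁ L := FiniteDimensional.left K₁ L M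
  have : IsFractionRing C M := IsIntegralClosure.isFractionRing_of_finite_extension A K₁ M C
  have : IsFractionRing B L := IsIntegralClosure.isFractionRing_of_finite_extension A K₁ L B
  have hAC : Algebra.IsIntegral A C := IsIntegralClosure.isIntegral_algebra A M
  have : Algebra.IsIntegral B C := Algebra.IsIntegral.tower_top (R := A)
  have : Algebra.IsSeparable K₁ L := Algebra.isSeparable_tower_bot_of_isSeparable K₁ L M
  have : IsDedekindDomain B := IsIntegralClosure.isDedekindDomain A K₁ L B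
  have : IsGaloisGroup (ti_fix K₁ M L) L M := IsGaloisGroup.of_isScalarTower Gal(M/K₁) K₁ M L
  exact IsGaloisGroup.of_isFractionRing (ti_fix K₁ M L) B C L M

include K₁ M L in
/-- Finiteness and flatness of `C` over the intermediate ring `B`. -/
theorem ti_tower_instances :
    IsDedekindDomain B ∧ IsDedekindDomain C ∧ Module.Finite A C ∧ Module.Finite B C ∧
      Module.Flat A C ∧ Module.Flat B C := by
  have : FiniteDimensional K₁ L := FiniteDimensional.left K₁ L M
  have : Algebra.IsSeparable K₁ L := Algebra.isSeparable_tower_bot_of_isSeparable K₁ L M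
  have hB : IsDedekindDomain B := IsIntegralClosure.isDedekindDomain A K₁ L B
  have hC : IsDedekindDomain C := IsIntegralClosure.isDedekindDomain A K₁ M C
  have hfin : Module.Finite A C := IsIntegralClosure.finite A K₁ M C
  have hfinB : Module.Finite B C := Module.Finite.of_restrictScalars_finite A B C
  have hinjC : Function.Injective (algebraMap C M) := IsIntegralClosure.algebraMap_injective C A M
  have hinjB : Function.Injective (algebraMap B L) := IsIntegralClosure.algebraMap_injective B A L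
  have hinjBC : Function.Injective (algebraMap B C) := by
    have h1 : Function.Injective (algebraMap B M) := by
      rw [IsScalarTower.algebraMap_eq B L M]
      exact (algebraMap L M).injective.comp hinjB
    rw [IsScalarTower.algebraMap_eq B C M] at h1
    exact Function.Injective.of_comp h1
  have hinjAC : Function.Injective (algebraMap A C) := by
    have h1 : Function.Injective (algebraMap A M) := by
      rw [IsScalarTower.algebraMap_eq A K₁ M]
      exact (algebraMap K₁ M).injective.comp (IsFractionRing.injective A K₁)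
    rw [IsScalarTower.algebraMap_eq A C M] at h1
    exact Function.Injective.of_comp h1
  have : Module.IsTorsionFree B C := by
    have : FaithfulSMul B C := (faithfulSMul_iff_algebraMap_injective B C).2 hinjBC
    infer_instance
  have : Module.IsTorsionFree A C := by
    have : FaithfulSMul A C := (faithfulSMul_iff_algebraMap_injective A C).2 hinjAC
    infer_instance
  exact ⟨hB, hC, hfin, hfinB, inferInstance, inferInstance⟩

end Tower

section Compositum

variable (K₁ M L₁ L₂ L₁₂ : Type*) [Field K₁] [Field M] [Algebra K₁ M]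
  [Field L₁] [Algebra K₁ L₁] [Algebra L₁ M] [IsScalarTower K₁ L₁ M]
  [Field L₂] [Algebra K₁ L₂] [Algebra L₂ M] [IsScalarTower K₁ L₂ M]
  [Field L₁₂] [Algebra K₁ L₁₂] [Algebra L₁₂ M] [IsScalarTower K₁ L₁₂ M]
  [Algebra L₁ L₁₂] [IsScalarTower L₁ L₁₂ M] [Algebra L₂ L₁₂] [IsScalarTower L₂ L₁₂ M]
  [Algebra.IsAlgebraic K₁ L₁₂]

/-- If `L₁₂` is generated over `K₁` by (the images of) `L₁` and `L₂`, then the subgroup fixing `L₁₂`
is the intersection of the subgroups fixing `L₁` and `L₂`. -/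
theorem ti_fix_compositum
    (hgen : IntermediateField.adjoin K₁
      (Set.range (algebraMap L₁ L₁₂) ∪ Set.range (algebraMap L₂ L₁₂)) = ⊤) :
    ti_fix K₁ M L₁₂ = ti_fix K₁ M L₁ ⊓ ti_fix K₁ M L₂ := by
  ext g
  simp only [Subgroup.mem_inf, mem_fixingSubgroup_iff, Set.mem_range, forall_exists_index,
    forall_apply_eq_imp_iff]
  constructor
  · intro hg
    refine ⟨fun x => ?_, fun x => ?_⟩
    · rw [IsScalarTower.algebraMap_apply L₁ L₁₂ M]
      exact hg _
    · rw [IsScalarTower.algebraMap_apply L₂ L₁₂ M]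
      exact hg _
  · rintro ⟨h1, h2⟩ x
    let f : L₁₂ →ₐ[K₁] M := IsScalarTower.toAlgHom K₁ L₁₂ M
    let f' : L₁₂ →ₐ[K₁] M := (g : M →ₐ[K₁] M).comp f
    have hadj : Algebra.adjoin K₁
        (Set.range (algebraMap L₁ L₁₂) ∪ Set.range (algebraMap L₂ L₁₂)) = ⊤ :=
      IntermediateField.adjoin_eq_top_iff.1 hgen
    have hff : f' = f := by
      refine AlgHom.ext_of_adjoin_eq_top hadj ?_
      rintro y (⟨z, rfl⟩ | ⟨z, rfl⟩)
      · show g (algebraMap L₁₂ M (algebraMap L₁ L₁₂ z)) = algebraMap L₁₂ M (algebraMap L₁ L₁₂ z)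
        rw [← IsScalarTower.algebraMap_apply L₁ L₁₂ M]
        exact h1 z
      · show g (algebraMap L₁₂ M (algebraMap L₂ L₁₂ z)) = algebraMap L₁₂ M (algebraMap L₂ L₁₂ z)
        rw [← IsScalarTower.algebraMap_apply L₂ L₁₂ M]
        exact h2 z
    exact congrArg (fun φ : L₁₂ →ₐ[K₁] M => φ x) hff

end Compositum

section AKLB

variable (A K₁ M C : Type*) [CommRing A] [IsDedekindDomain A] [Field K₁] [Algebra A K₁]
  [IsFractionRing A K₁] [Field M] [Algebra K₁ M] [FiniteDimensional K₁ M] [IsGalois K₁ M]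
  [Algebra A M] [IsScalarTower A K₁ M]
  [CommRing C] [IsDomain C] [Algebra A C] [Algebra C M] [IsScalarTower A C M] [IsIntegralClosure C A M]
variable (L₁ B₁ : Type*) [Field L₁] [Algebra K₁ L₁] [Algebra L₁ M] [IsScalarTower K₁ L₁ M]
  [Algebra A L₁] [IsScalarTower A K₁ L₁]
  [CommRing B₁] [IsDomain B₁] [Algebra A B₁] [Algebra B₁ L₁] [IsScalarTower A B₁ L₁]
  [IsIntegralClosure B₁ A L₁]
  [Algebra B₁ C] [Algebra B₁ M] [IsScalarTower B₁ C M] [IsScalarTower B₁ L₁ M] [IsScalarTower A B₁ C]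
variable (L₂ B₂ : Type*) [Field L₂] [Algebra K₁ L₂] [Algebra L₂ M] [IsScalarTower K₁ L₂ M]
  [Algebra A L₂] [IsScalarTower A K₁ L₂]
  [CommRing B₂] [IsDomain B₂] [Algebra A B₂] [Algebra B₂ L₂] [IsScalarTower A B₂ L₂]
  [IsIntegralClosure B₂ A L₂]
  [Algebra B₂ C] [Algebra B₂ M] [IsScalarTower B₂ C M] [IsScalarTower B₂ L₂ M] [IsScalarTower A B₂ C]
variable (L₁₂ B₁₂ : Type*) [Field L₁₂] [Algebra K₁ L₁₂] [Algebra L₁₂ M] [IsScalarTower K₁ L₁₂ M]
  [Algebra A L₁₂] [IsScalarTower A K₁ L₁₂]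
  [CommRing B₁₂] [IsDomain B₁₂] [Algebra A B₁₂] [Algebra B₁₂ L₁₂] [IsScalarTower A B₁₂ L₁₂]
  [IsIntegralClosure B₁₂ A L₁₂]
  [Algebra B₁₂ C] [Algebra B₁₂ M] [IsScalarTower B₁₂ C M] [IsScalarTower B₁₂ L₁₂ M]
  [IsScalarTower A B₁₂ C]
  [Algebra B₂ B₁₂] [IsScalarTower B₂ B₁₂ C]

include K₁ M L₁ L₂ L₁₂ in
/-- **Abhyankar's lemma, AKLB form.**  `M/K₁` finite Galois, `L₁, L₂, L₁₂` fields between `K₁` and
`M` with `L₁₂` the compositum of `L₁` and `L₂` (hypothesis `hH` on the fixing subgroups),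
`A ⊆ K₁` a Dedekind domain, `B₁, B₂, B₁₂, C` the integral closures of `A`.  For a nonzero prime `Q`
of `C` of residue characteristic `0`: if `e(Q ∩ B₁ | A)` divides `e(Q ∩ B₂ | A)` then
`Q ∩ B₁₂` is unramified over `B₂`. -/
theorem ti_abhyankar_aklb
    (hH : ti_fix K₁ M L₁₂ = ti_fix K₁ M L₁ ⊓ ti_fix K₁ M L₂)
    (Q : Ideal C) [Q.IsPrime] (hQ : Q ≠ ⊥) [CharZero (C ⧸ Q)]
    (h : (Q.under B₁).ramificationIdx A ∣ (Q.under B₂).ramificationIdx A) :
    (Q.under B₁₂).ramificationIdx B₂ = 1 := by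
  letI := IsIntegralClosure.MulSemiringAction A K₁ M C
  have hG := ti_isGaloisGroup_top A K₁ M C
  have h1 := ti_isGaloisGroup_tower A K₁ M C L₁ B₁
  have h2 := ti_isGaloisGroup_tower A K₁ M C L₂ B₂
  have h12 := ti_isGaloisGroup_tower A K₁ M C L₁₂ B₁₂
  have h12' : IsGaloisGroup (ti_fix K₁ M L₁ ⊓ ti_fix K₁ M L₂ : Subgroup Gal(M/K₁)) B₁₂ C :=
    IsGaloisGroup.of_mulEquiv (MulEquiv.subgroupCongr hH.symm) (fun _ _ => rfl)
  obtain ⟨_, hC, hfA, hf1, hflA, hfl1⟩ := ti_tower_instances A K₁ M C L₁ B₁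
  obtain ⟨_, _, _, hf2, _, hfl2⟩ := ti_tower_instances A K₁ M C L₂ B₂
  obtain ⟨_, _, _, hf12, _, hfl12⟩ := ti_tower_instances A K₁ M C L₁₂ B₁₂
  exact ti_abhyankar (A := A) (B₁ := B₁) (B₂ := B₂) (B₁₂ := B₁₂) (C := C) Gal(M/K₁)
    (ti_fix K₁ M L₁) (ti_fix K₁ M L₂) Q hQ h

variable [Algebra B₁ B₁₂] [IsScalarTower B₁ B₁₂ C]

include K₁ M L₁ L₂ L₁₂ C in
/-- **Abhyankar's lemma, AKLB form**, for a prime of the ring `B₁₂` of the compositum. -/
theorem ti_abhyankar_aklb' (hH : ti_fix K₁ M L₁₂ = ti_fix K₁ M L₁ ⊓ ti_fix K₁ M L₂)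
    (P : Ideal B₁₂) [P.IsPrime] (hP : P ≠ ⊥) [CharZero (B₁₂ ⧸ P)]
    (h : (P.under B₁).ramificationIdx A ∣ (P.under B₂).ramificationIdx A) :
    P.ramificationIdx B₂ = 1 := by
  have hAC : Algebra.IsIntegral A C := IsIntegralClosure.isIntegral_algebra A M
  have : Algebra.IsIntegral B₁₂ C := Algebra.IsIntegral.tower_top (R := A)
  obtain ⟨Q, -, hQp, hQP⟩ := Ideal.exists_ideal_over_prime_of_isIntegral P (⊥ : Ideal C)
    (by
      intro x hx
      have hinj : Function.Injective (algebraMap B₁₂ C) := by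
        have h1 : Function.Injective (algebraMap B₁₂ M) := by
          rw [IsScalarTower.algebraMap_eq B₁₂ L₁₂ M]
          exact (algebraMap L₁₂ M).injective.comp (IsIntegralClosure.algebraMap_injective B₁₂ A L₁₂)
        rw [IsScalarTower.algebraMap_eq B₁₂ C M] at h1
        exact Function.Injective.of_comp h1
      rw [Ideal.mem_comap, Ideal.mem_bot] at hx
      rw [(injective_iff_map_eq_zero _).1 hinj x hx]
      exact P.zero_mem)
  have hQ0 : Q ≠ ⊥ := by
    rintro rfl
    apply hP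
    rw [← hQP, eq_bot_iff]
    intro x hx
    have hinj : Function.Injective (algebraMap B₁₂ C) := by
      have h1 : Function.Injective (algebraMap B₁₂ M) := by
        rw [IsScalarTower.algebraMap_eq B₁₂ L₁₂ M]
        exact (algebraMap L₁₂ M).injective.comp (IsIntegralClosure.algebraMap_injective B₁₂ A L₁₂)
      rw [IsScalarTower.algebraMap_eq B₁₂ C M] at h1
      exact Function.Injective.of_comp h1
    rw [Ideal.mem_comap, Ideal.mem_bot] at hx
    exact (injective_iff_map_eq_zero _).1 hinj x hx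
  have hunder : Q.under B₁₂ = P := hQP
  have : Q.LiesOver P := ⟨hQP.symm⟩
  have : CharZero (C ⧸ Q) := by
    refine ⟨fun m n hmn => ?_⟩
    have e1 : ((m : C ⧸ Q)) = Ideal.Quotient.mk Q ((m : ℕ) : C) := (map_natCast _ m).symm
    have e2 : ((n : C ⧸ Q)) = Ideal.Quotient.mk Q ((n : ℕ) : C) := (map_natCast _ n).symm
    rw [e1, e2, Ideal.Quotient.eq] at hmn
    have h3 : ((m : ℕ) : B₁₂) - ((n : ℕ) : B₁₂) ∈ P := by
      rw [← hunder, Ideal.under_def, Ideal.mem_comap, map_sub, map_natCast, map_natCast]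
      exact hmn
    have h4 : ((m : B₁₂ ⧸ P)) = (n : B₁₂ ⧸ P) := by
      have e3 : ((m : B₁₂ ⧸ P)) = Ideal.Quotient.mk P ((m : ℕ) : B₁₂) := (map_natCast _ m).symm
      have e4 : ((n : B₁₂ ⧸ P)) = Ideal.Quotient.mk P ((n : ℕ) : B₁₂) := (map_natCast _ n).symm
      rw [e3, e4, Ideal.Quotient.eq]
      exact h3
    exact Nat.cast_injective h4
  have h1 : Q.under B₁ = P.under B₁ := by
    rw [← hunder, Ideal.under_under]
  have h2 : Q.under B₂ = P.under B₂ := by
    rw [← hunder, Ideal.under_under]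
  have key := ti_abhyankar_aklb A K₁ M C L₁ B₁ L₂ B₂ L₁₂ B₁₂ hH Q hQ0 (by rw [h1, h2]; exact h)
  rwa [hunder] at key

include K₁ M L₁ L₂ L₁₂ C in
/-- **Abhyankar's lemma, AKLB form, unramifiedness**: under the divisibility hypothesis the prime
`P` of the ring of the compositum is unramified over `B₂` in the sense of `Algebra.IsUnramifiedAt`
(the form consumed by `ud_isUnit_discr_of_unramified`). -/
theorem ti_abhyankar_isUnramifiedAt (hH : ti_fix K₁ M L₁₂ = ti_fix K₁ M L₁ ⊓ ti_fix K₁ M L₂)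
    (P : Ideal B₁₂) [P.IsPrime] (hP : P ≠ ⊥) [CharZero (B₁₂ ⧸ P)]
    (h : (P.under B₁).ramificationIdx A ∣ (P.under B₂).ramificationIdx A) :
    Algebra.IsUnramifiedAt B₂ P := by
  have he := ti_abhyankar_aklb' A K₁ M C L₁ B₁ L₂ B₂ L₁₂ B₁₂ hH P hP h
  have hinj : Function.Injective (algebraMap B₁₂ C) := by
    have h1 : Function.Injective (algebraMap B₁₂ M) := by
      rw [IsScalarTower.algebraMap_eq B₁₂ L₁₂ M]
      exact (algebraMap L₁₂ M).injective.comp (IsIntegralClosure.algebraMap_injective B₁₂ A L₁₂)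
    rw [IsScalarTower.algebraMap_eq B₁₂ C M] at h1
    exact Function.Injective.of_comp h1
  have : IsScalarTower A B₂ B₁₂ := IsScalarTower.of_algebraMap_eq fun a => by
    apply hinj
    rw [← IsScalarTower.algebraMap_apply B₂ B₁₂ C, ← IsScalarTower.algebraMap_apply A B₂ C,
      ← IsScalarTower.algebraMap_apply A B₁₂ C]
  have : FiniteDimensional K₁ L₁₂ := FiniteDimensional.left K₁ L₁₂ M
  have : Algebra.IsSeparable K₁ L₁₂ := Algebra.isSeparable_tower_bot_of_isSeparable K₁ L₁₂ M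
  have : Module.Finite A B₁₂ := IsIntegralClosure.finite A K₁ L₁₂ B₁₂
  have : Module.Finite B₂ B₁₂ := Module.Finite.of_restrictScalars_finite A B₂ B₁₂
  have : Algebra.IsIntegral B₂ B₁₂ := Algebra.IsIntegral.of_finite B₂ B₁₂
  have : CharZero (P.under B₂).ResidueField := by
    refine ⟨fun m n hmn => ?_⟩
    have h1 : ((m : B₂ ⧸ P.under B₂)) = (n : B₂ ⧸ P.under B₂) := by
      apply Ideal.injective_algebraMap_quotient_residueField (P.under B₂)
      rw [map_natCast, map_natCast]
      exact hmn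
    have e1 : ((m : B₂ ⧸ P.under B₂)) = Ideal.Quotient.mk _ ((m : ℕ) : B₂) :=
      (map_natCast _ m).symm
    have e2 : ((n : B₂ ⧸ P.under B₂)) = Ideal.Quotient.mk _ ((n : ℕ) : B₂) :=
      (map_natCast _ n).symm
    rw [e1, e2, Ideal.Quotient.eq, Ideal.under_def, Ideal.mem_comap, map_sub, map_natCast,
      map_natCast] at h1
    have h4 : ((m : B₁₂ ⧸ P)) = (n : B₁₂ ⧸ P) := by
      have e3 : ((m : B₁₂ ⧸ P)) = Ideal.Quotient.mk P ((m : ℕ) : B₁₂) := (map_natCast _ m).symm
      have e4 : ((n : B₁₂ ⧸ P)) = Ideal.Quotient.mk P ((n : ℕ) : B₁₂) := (map_natCast _ n).symm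
      rw [e3, e4, Ideal.Quotient.eq]
      exact h1
    exact Nat.cast_injective h4
  exact Ideal.ramificationIdx_eq_one_iff.1 he

end AKLB

end Fermat.Agent.JT3
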