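/-
JT3 / Route R, node (H) ABHYANKAR, part 3 (helper11): the divisibility companion (DIV).
`e(P₁₂ | B₂)` divides `e(P₁ | A)` (tame case).  Prefix `ti_` (continued).
-/
import Mathlib
import Fermat.Agent.JT3.Algebra.AbhyankarAKLB

set_option autoImplicit false
set_option linter.unusedSectionVars false
set_option linter.style.haveILetI false

namespace Fermat.Agent.JT3

section Group

variable {I : Type*} [Group I] [Finite I]

/-- `|X ⊓ Y| * [Y : X ⊓ Y] = |Y|`. -/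
theorem ti_card_inf_mul_relIndex (X Y : Subgroup I) :
    Nat.card (X ⊓ Y : Subgroup I) * X.relIndex Y = Nat.card Y := by
  have h1 := (X.subgroupOf Y).card_mul_index
  have h2 : Nat.card (X.subgroupOf Y) = Nat.card (X ⊓ Y : Subgroup I) := by
    rw [← Subgroup.inf_subgroupOf_right]
    exact Nat.card_congr (Subgroup.subgroupOfEquivOfLe (inf_le_right : X ⊓ Y ≤ Y)).toEquiv
  rw [h2] at h1
  exact h1

end Group

section Inertia

variable {C : Type*} [CommRing C] [IsDedekindDomain C]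
variable {G : Type*} [Group G] [Finite G] [MulSemiringAction G C] [FaithfulSMul G C]
variable (Q : Ideal C) [Q.IsPrime]

/-- **(DIV), group form.** With `I` the (cyclic) inertia group: there are `r s` with `s ∣ r`,
`|I ∩ H₂| = |I ∩ H₁ ∩ H₂| * s` and `|I| = |I ∩ H₁| * r`. -/
theorem ti_div_card (hQ : Q ≠ ⊥) [CharZero (C ⧸ Q)] (H₁ H₂ : Subgroup G) :
    ∃ r s : ℕ, s ∣ r ∧
      Nat.card (Q.inertia H₂) = Nat.card (Q.inertia (H₁ ⊓ H₂ : Subgroup G)) * s ∧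
      Nat.card (Q.inertia G) = Nat.card (Q.inertia H₁) * r := by
  have hcyc := ti_isCyclic_inertia (G := G) Q hQ
  set I := Q.inertia G with hIdef
  let X : Subgroup I := (I ⊓ H₁).subgroupOf I
  let Y : Subgroup I := (I ⊓ H₂).subgroupOf I
  have hcomm : ∀ a b : I, a * b = b * a := fun a b => by
    obtain ⟨g, hg⟩ := hcyc.exists_generator
    obtain ⟨m, rfl⟩ := Subgroup.mem_zpowers_iff.1 (hg a)
    obtain ⟨n, rfl⟩ := Subgroup.mem_zpowers_iff.1 (hg b)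
    rw [← zpow_add, ← zpow_add, add_comm]
  have hXn : X.Normal := ⟨fun n hn g => by
    rw [hcomm g n, mul_assoc, mul_inv_cancel, mul_one]; exact hn⟩
  have hdvd : X.relIndex Y ∣ X.index := Subgroup.relIndex_dvd_index_of_normal X Y
  have cX : Nat.card X = Nat.card (Q.inertia H₁) := by
    rw [ti_card_inertia_subgroup]
    exact Nat.card_congr (Subgroup.subgroupOfEquivOfLe (inf_le_left : I ⊓ H₁ ≤ I)).toEquiv
  have cY : Nat.card Y = Nat.card (Q.inertia H₂) := by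
    rw [ti_card_inertia_subgroup]
    exact Nat.card_congr (Subgroup.subgroupOfEquivOfLe (inf_le_left : I ⊓ H₂ ≤ I)).toEquiv
  have cXY : Nat.card (X ⊓ Y : Subgroup I) = Nat.card (Q.inertia (H₁ ⊓ H₂ : Subgroup G)) := by
    rw [ti_card_inertia_subgroup]
    have e : (X ⊓ Y : Subgroup I) = (I ⊓ (H₁ ⊓ H₂)).subgroupOf I := by
      ext σ
      simp only [X, Y, Subgroup.mem_inf, Subgroup.mem_subgroupOf]
      tauto
    rw [e]
    exact Nat.card_congr (Subgroup.subgroupOfEquivOfLe (inf_le_left : I ⊓ (H₁ ⊓ H₂) ≤ I)).toEquiv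
  refine ⟨X.index, X.relIndex Y, hdvd, ?_, ?_⟩
  · rw [← cY, ← cXY]
    exact (ti_card_inf_mul_relIndex X Y).symm
  · rw [← cX]
    exact X.card_mul_index.symm

end Inertia

section Ring

variable {A B₁ B₂ B₁₂ C : Type*} [CommRing A] [IsDomain A] [CommRing B₁] [IsDomain B₁]
  [CommRing B₂] [IsDomain B₂] [CommRing B₁₂] [IsDomain B₁₂] [CommRing C] [IsDedekindDomain C]
  [Algebra A B₁] [Algebra A B₂] [Algebra B₂ B₁₂]
  [Algebra A C] [Algebra B₁ C] [Algebra B₂ C] [Algebra B₁₂ C]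
  [IsScalarTower A B₁ C] [IsScalarTower A B₂ C] [IsScalarTower B₂ B₁₂ C]
  [Module.Finite A C] [Module.Flat A C] [Module.Finite B₁ C] [Module.Flat B₁ C]
  [Module.Finite B₂ C] [Module.Flat B₂ C] [Module.Finite B₁₂ C] [Module.Flat B₁₂ C]
variable (G : Type*) [Group G] [Finite G] [MulSemiringAction G C]
variable (H₁ H₂ : Subgroup G)

/-- **(DIV)**, Dedekind form: in the setting of `ti_abhyankar`, `e(Q ∩ B₁₂ | B₂)` divides
`e(Q ∩ B₁ | A)`. -/
theorem ti_div [IsGaloisGroup G A C] [IsGaloisGroup H₁ B₁ C] [IsGaloisGroup H₂ B₂ C]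
    [IsGaloisGroup (H₁ ⊓ H₂ : Subgroup G) B₁₂ C] (Q : Ideal C) [Q.IsPrime] (hQ : Q ≠ ⊥)
    [CharZero (C ⧸ Q)] :
    (Q.under B₁₂).ramificationIdx B₂ ∣ (Q.under B₁).ramificationIdx A := by
  have : FaithfulSMul G C := IsGaloisGroup.faithful A
  have eG : Nat.card (Q.inertia G) = Q.ramificationIdx A :=
    ti_card_inertia_eq_ramificationIdx (X := A) (H := G) Q
  have e1 : Nat.card (Q.inertia H₁) = Q.ramificationIdx B₁ :=
    ti_card_inertia_eq_ramificationIdx (X := B₁) (H := H₁) Q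
  have e2 : Nat.card (Q.inertia H₂) = Q.ramificationIdx B₂ :=
    ti_card_inertia_eq_ramificationIdx (X := B₂) (H := H₂) Q
  have e12 : Nat.card (Q.inertia (H₁ ⊓ H₂ : Subgroup G)) = Q.ramificationIdx B₁₂ :=
    ti_card_inertia_eq_ramificationIdx (X := B₁₂) (H := (H₁ ⊓ H₂ : Subgroup G)) Q
  have t1 : Q.ramificationIdx A = (Q.under B₁).ramificationIdx A * Q.ramificationIdx B₁ :=
    Ideal.ramificationIdx_tower (Q.under B₁) Q
  have t12 : Q.ramificationIdx B₂ = (Q.under B₁₂).ramificationIdx B₂ * Q.ramificationIdx B₁₂ :=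
    Ideal.ramificationIdx_tower (Q.under B₁₂) Q
  have h10 : Q.ramificationIdx B₁ ≠ 0 := by
    rw [← e1]; exact Nat.card_pos.ne'
  have h120 : Q.ramificationIdx B₁₂ ≠ 0 := by
    rw [← e12]; exact Nat.card_pos.ne'
  obtain ⟨r, s, hsr, h2, hG⟩ := ti_div_card Q hQ H₁ H₂
  rw [e2, e12] at h2
  rw [eG, e1] at hG
  have hx : (Q.under B₁₂).ramificationIdx B₂ = s := by
    have : (Q.under B₁₂).ramificationIdx B₂ * Q.ramificationIdx B₁₂ =
        s * Q.ramificationIdx B₁₂ := by rw [← t12, h2, mul_comm]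
    exact Nat.eq_of_mul_eq_mul_right (Nat.pos_of_ne_zero h120) this
  have hy : (Q.under B₁).ramificationIdx A = r := by
    have : (Q.under B₁).ramificationIdx A * Q.ramificationIdx B₁ = r * Q.ramificationIdx B₁ := by
      rw [← t1, hG, mul_comm]
    exact Nat.eq_of_mul_eq_mul_right (Nat.pos_of_ne_zero h10) this
  rw [hx, hy]
  exact hsr

end Ring

section AKLB

variable (A K₁ M C : Type*) [CommRing A] [IsDedekindDomain A] [Field K₁] [Algebra A K₁]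
  [IsFractionRing A K₁] [Field M] [Algebra K₁ M] [FiniteDimensional K₁ M] [IsGalois K₁ M]
  [Algebra A M] [IsScalarTower A K₁ M]
  [CommRing C] [IsDomain C] [Algebra A C] [Algebra C M] [IsScalarTower A C M] [IsIntegralClosure C A M]
variable (L₁ B₁ : Type*) [Field L₁] [Algebra K₁ L₁] [Algebra L₁ M] [IsScalarTower K₁ L₁ M]
  [Algebra A L₁] [IsScalarTower A K₁ L₁]
  [CommRing B₁] [IsDomain B₁] [Algebra A B₁] [Algebra B₁ L₁] [IsScalarTower A B₁ L₁]
  [IsIntegralClosure B₁ A L₁]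
  [Algebra B₁ C] [Algebra B₁ M] [IsScalarTower B₁ C M] [IsScalarTower B₁ L₁ M] [IsScalarTower A B₁ C]
variable (L₂ B₂ : Type*) [Field L₂] [Algebra K₁ L₂] [Algebra L₂ M] [IsScalarTower K₁ L₂ M]
  [Algebra A L₂] [IsScalarTower A K₁ L₂]
  [CommRing B₂] [IsDomain B₂] [Algebra A B₂] [Algebra B₂ L₂] [IsScalarTower A B₂ L₂]
  [IsIntegralClosure B₂ A L₂]
  [Algebra B₂ C] [Algebra B₂ M] [IsScalarTower B₂ C M] [IsScalarTower B₂ L₂ M] [IsScalarTower A B₂ C]
variable (L₁₂ B₁₂ : Type*) [Field L₁₂] [Algebra K₁ L₁₂] [Algebra L₁₂ M] [IsScalarTower K₁ L₁₂ M]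
  [Algebra A L₁₂] [IsScalarTower A K₁ L₁₂]
  [CommRing B₁₂] [IsDomain B₁₂] [Algebra A B₁₂] [Algebra B₁₂ L₁₂] [IsScalarTower A B₁₂ L₁₂]
  [IsIntegralClosure B₁₂ A L₁₂]
  [Algebra B₁₂ C] [Algebra B₁₂ M] [IsScalarTower B₁₂ C M] [IsScalarTower B₁₂ L₁₂ M]
  [IsScalarTower A B₁₂ C]
  [Algebra B₂ B₁₂] [IsScalarTower B₂ B₁₂ C]

include K₁ M L₁ L₂ L₁₂ in
/-- **(DIV), AKLB form** (prime `Q` of the big ring `C`). -/
theorem ti_div_aklb
    (hH : ti_fix K₁ M L₁₂ = ti_fix K₁ M L₁ ⊓ ti_fix K₁ M L₂)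
    (Q : Ideal C) [Q.IsPrime] (hQ : Q ≠ ⊥) [CharZero (C ⧸ Q)] :
    (Q.under B₁₂).ramificationIdx B₂ ∣ (Q.under B₁).ramificationIdx A := by
  letI := IsIntegralClosure.MulSemiringAction A K₁ M C
  have hG := ti_isGaloisGroup_top A K₁ M C
  have h1 := ti_isGaloisGroup_tower A K₁ M C L₁ B₁
  have h2 := ti_isGaloisGroup_tower A K₁ M C L₂ B₂
  have h12 := ti_isGaloisGroup_tower A K₁ M C L₁₂ B₁₂
  have h12' : IsGaloisGroup (ti_fix K₁ M L₁ ⊓ ti_fix K₁ M L₂ : Subgroup Gal(M/K₁)) B₁₂ C :=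
    IsGaloisGroup.of_mulEquiv (MulEquiv.subgroupCongr hH.symm) (fun _ _ => rfl)
  obtain ⟨_, hC, hfA, hf1, hflA, hfl1⟩ := ti_tower_instances A K₁ M C L₁ B₁
  obtain ⟨_, _, _, hf2, _, hfl2⟩ := ti_tower_instances A K₁ M C L₂ B₂
  obtain ⟨_, _, _, hf12, _, hfl12⟩ := ti_tower_instances A K₁ M C L₁₂ B₁₂
  exact ti_div (A := A) (B₁ := B₁) (B₂ := B₂) (B₁₂ := B₁₂) (C := C) Gal(M/K₁)
    (ti_fix K₁ M L₁) (ti_fix K₁ M L₂) Q hQ

variable [Algebra B₁ B₁₂] [IsScalarTower B₁ B₁₂ C]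

include A K₁ M L₁₂ in
/-- A nonzero prime of residue characteristic `0` of the ring `B₁₂` of an intermediate field lifts
to a nonzero prime of residue characteristic `0` of `C`. -/
theorem ti_exists_over (P : Ideal B₁₂) [P.IsPrime] (hP : P ≠ ⊥) [CharZero (B₁₂ ⧸ P)] :
    ∃ Q : Ideal C, Q.IsPrime ∧ Q ≠ ⊥ ∧ CharZero (C ⧸ Q) ∧ Q.under B₁₂ = P := by
  have hAC : Algebra.IsIntegral A C := IsIntegralClosure.isIntegral_algebra A M
  have : Algebra.IsIntegral B₁₂ C := Algebra.IsIntegral.tower_top (R := A)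
  have hinj : Function.Injective (algebraMap B₁₂ C) := by
    have h1 : Function.Injective (algebraMap B₁₂ M) := by
      rw [IsScalarTower.algebraMap_eq B₁₂ L₁₂ M]
      exact (algebraMap L₁₂ M).injective.comp (IsIntegralClosure.algebraMap_injective B₁₂ A L₁₂)
    rw [IsScalarTower.algebraMap_eq B₁₂ C M] at h1
    exact Function.Injective.of_comp h1
  obtain ⟨Q, -, hQp, hQP⟩ := Ideal.exists_ideal_over_prime_of_isIntegral P (⊥ : Ideal C)
    (by
      intro x hx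
      rw [Ideal.mem_comap, Ideal.mem_bot] at hx
      rw [(injective_iff_map_eq_zero _).1 hinj x hx]
      exact P.zero_mem)
  have hQ0 : Q ≠ ⊥ := by
    rintro rfl
    apply hP
    rw [← hQP, eq_bot_iff]
    intro x hx
    rw [Ideal.mem_comap, Ideal.mem_bot] at hx
    exact (injective_iff_map_eq_zero _).1 hinj x hx
  have hunder : Q.under B₁₂ = P := hQP
  refine ⟨Q, hQp, hQ0, ⟨fun m n hmn => ?_⟩, hunder⟩
  have e1 : ((m : C ⧸ Q)) = Ideal.Quotient.mk Q ((m : ℕ) : C) := (map_natCast _ m).symm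
  have e2 : ((n : C ⧸ Q)) = Ideal.Quotient.mk Q ((n : ℕ) : C) := (map_natCast _ n).symm
  rw [e1, e2, Ideal.Quotient.eq] at hmn
  have h3 : ((m : ℕ) : B₁₂) - ((n : ℕ) : B₁₂) ∈ P := by
    rw [← hunder, Ideal.under_def, Ideal.mem_comap, map_sub, map_natCast, map_natCast]
    exact hmn
  have h4 : ((m : B₁₂ ⧸ P)) = (n : B₁₂ ⧸ P) := by
    have e3 : ((m : B₁₂ ⧸ P)) = Ideal.Quotient.mk P ((m : ℕ) : B₁₂) := (map_natCast _ m).symm
    have e4 : ((n : B₁₂ ⧸ P)) = Ideal.Quotient.mk P ((n : ℕ) : B₁₂) := (map_natCast _ n).symm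
    rw [e3, e4, Ideal.Quotient.eq]
    exact h3
  exact Nat.cast_injective h4

include K₁ M L₁ L₂ L₁₂ C in
/-- **(DIV), AKLB form**, for a prime of the ring `B₁₂` of the compositum:
`e(P | B₂)` divides `e(P ∩ B₁ | A)`. -/
theorem ti_div_aklb' (hH : ti_fix K₁ M L₁₂ = ti_fix K₁ M L₁ ⊓ ti_fix K₁ M L₂)
    (P : Ideal B₁₂) [P.IsPrime] (hP : P ≠ ⊥) [CharZero (B₁₂ ⧸ P)] :
    P.ramificationIdx B₂ ∣ (P.under B₁).ramificationIdx A := by
  obtain ⟨Q, hQp, hQ0, hQc, hunder⟩ := ti_exists_over A K₁ M C L₁₂ B₁₂ P hP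
  have h1 : Q.under B₁ = P.under B₁ := by
    rw [← hunder, Ideal.under_under]
  have key := ti_div_aklb A K₁ M C L₁ B₁ L₂ B₂ L₁₂ B₁₂ hH Q hQ0
  rwa [hunder, h1] at key

end AKLB

end Fermat.Agent.JT3
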