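/-
JT3 / Route R, node [ABH] (helper11): Abhyankar's lemma, FIELD FORM (helper2's shape #1232).

`K` a field of characteristic `0`, `V0 : Subring K` a Dedekind domain (a DVR in the applications)
with fraction field `K`, `Ω/K` normal (e.g. an algebraic closure), `F1 F2 : IntermediateField K Ω`
finite over `K`, `ti_IC V0 F := integralClosure V0 F`.  For a nonzero prime `P` of
`ti_IC V0 (F1 ⊔ F2)` of residue characteristic `0`:

* `ti_abhyankar_field` (ABH): `e(P ∩ C_1 | V0) ∣ e(P ∩ C_2 | V0)` ⟹ `e(P | C_2) = 1`;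
  `ti_abhyankar_field_unram`: same with conclusion `Algebra.IsUnramifiedAt C_2 P`;
* `ti_div_field` (DIV): `e(P | C_2) ∣ e(P ∩ C_1 | V0)`.

The algebra structures between the rings of two intermediate fields `F ≤ F'` are NOT instances: use
`letI := ti_algIC V0 h` (ring level, from `ti_mapIC V0 h`) and `letI := ti_algIF h` (field level).
`P ∩ C_i` is `P.comap (ti_mapIC V0 _)`.  Versions `_aux` take any finite Galois `M ⊇ F1 ⊔ F2`
instead of the normal closure (no normality hypothesis on `Ω`).  Prefix `ti_` (continued).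
-/
import Mathlib
import Fermat.Agent.JT3.Algebra.AbhyankarDiv

set_option autoImplicit false
set_option linter.unusedSectionVars false
set_option linter.style.haveILetI false

namespace Fermat.Agent.JT3

open IntermediateField

section Defs

variable {K Ω : Type*} [Field K] [Field Ω] [Algebra K Ω] (V0 : Subring K)

/-- The inclusion of intermediate fields, as an algebra structure (to be used with `letI`). -/
@[instance_reducible]
def ti_algIF {F F' : IntermediateField K Ω} (h : F ≤ F') : Algebra F F' :=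
  (IntermediateField.inclusion h).toRingHom.toAlgebra

/-- The integral closure of `V0` in an intermediate field. -/
abbrev ti_IC (F : IntermediateField K Ω) : Subalgebra V0 F := integralClosure V0 F

/-- The inclusion of the integral closures. -/
noncomputable def ti_mapIC {F F' : IntermediateField K Ω} (h : F ≤ F') :
    ti_IC V0 F →ₐ[V0] ti_IC V0 F' :=
  AlgHom.mapIntegralClosure ((IntermediateField.inclusion h).restrictScalars V0)

theorem ti_mapIC_coe {F F' : IntermediateField K Ω} (h : F ≤ F') (x : ti_IC V0 F) :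
    ((ti_mapIC V0 h x : F') : Ω) = ((x : F) : Ω) := rfl

/-- The inclusion of the integral closures, as an algebra structure (to be used with `letI`). -/
@[instance_reducible]
noncomputable def ti_algIC {F F' : IntermediateField K Ω} (h : F ≤ F') :
    Algebra (ti_IC V0 F) (ti_IC V0 F') :=
  (ti_mapIC V0 h).toRingHom.toAlgebra

/-- `B_F → F'`, as an algebra structure (to be used with `letI`). -/
@[instance_reducible]
noncomputable def ti_algICF {F F' : IntermediateField K Ω} (h : F ≤ F') :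
    Algebra (ti_IC V0 F) F' :=
  ((IntermediateField.inclusion h).toRingHom.comp (algebraMap (ti_IC V0 F) F)).toAlgebra

end Defs

section Fix

variable {K Ω : Type*} [Field K] [Field Ω] [Algebra K Ω]
variable (F1 F2 M : IntermediateField K Ω)

/-- Inside a field `M ⊇ F1 ⊔ F2`, the subgroup fixing `F1 ⊔ F2` is the intersection of the subgroups
fixing `F1` and `F2`. -/
theorem ti_fix_sup (h12M : F1 ⊔ F2 ≤ M) :
    letI := ti_algIF h12M
    letI := ti_algIF (le_sup_left.trans h12M : F1 ≤ M)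
    letI := ti_algIF (le_sup_right.trans h12M : F2 ≤ M)
    ti_fix K M (F1 ⊔ F2 : IntermediateField K Ω) = ti_fix K M F1 ⊓ ti_fix K M F2 := by
  letI := ti_algIF h12M
  letI := ti_algIF (le_sup_left.trans h12M : F1 ≤ M)
  letI := ti_algIF (le_sup_right.trans h12M : F2 ≤ M)
  ext g
  simp only [Subgroup.mem_inf, mem_fixingSubgroup_iff, Set.mem_range, forall_exists_index,
    forall_apply_eq_imp_iff]
  constructor
  · intro hg
    refine ⟨fun x => ?_, fun x => ?_⟩
    · exact hg ⟨x.1, (le_sup_left : F1 ≤ F1 ⊔ F2) x.2⟩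
    · exact hg ⟨x.1, (le_sup_right : F2 ≤ F1 ⊔ F2) x.2⟩
  · rintro ⟨hg1, hg2⟩ x
    let S : IntermediateField K Ω :=
      (IntermediateField.fixedField (Subgroup.zpowers g)).map M.val
    have key : ∀ yM : M, g • yM = yM → yM ∈ IntermediateField.fixedField (Subgroup.zpowers g) := by
      intro yM hfix τ
      obtain ⟨n, hn⟩ := Subgroup.mem_zpowers_iff.1 τ.2
      have hstab : g ∈ MulAction.stabilizer Gal(M/K) yM := hfix
      have h3 : g ^ n ∈ MulAction.stabilizer Gal(M/K) yM :=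
        (MulAction.stabilizer Gal(M/K) yM).zpow_mem hstab n
      rw [hn] at h3
      exact h3
    have hS1 : F1 ≤ S := by
      intro y hy
      exact ⟨⟨y, (le_sup_left.trans h12M : F1 ≤ M) hy⟩, key _ (hg1 ⟨y, hy⟩), rfl⟩
    have hS2 : F2 ≤ S := by
      intro y hy
      exact ⟨⟨y, (le_sup_right.trans h12M : F2 ≤ M) hy⟩, key _ (hg2 ⟨y, hy⟩), rfl⟩
    obtain ⟨z, hz, hzx⟩ := (sup_le hS1 hS2) x.2
    have hz' : g • z = z := hz ⟨g, Subgroup.mem_zpowers g⟩
    have hzeq : z = algebraMap (F1 ⊔ F2 : IntermediateField K Ω) M x := Subtype.ext hzx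
    rw [← hzeq]
    exact hz'

end Fix

section Main

variable {K Ω : Type*} [Field K] [Field Ω] [Algebra K Ω]
variable (V0 : Subring K) [IsDedekindDomain V0] [IsFractionRing V0 K]
variable (F1 F2 M : IntermediateField K Ω) [FiniteDimensional K M] [IsGalois K M]

theorem ti_abhyankar_field_aux (h12M : F1 ⊔ F2 ≤ M)
    (P : Ideal (ti_IC V0 (F1 ⊔ F2))) [P.IsPrime] (hP : P ≠ ⊥)
    [CharZero (ti_IC V0 (F1 ⊔ F2) ⧸ P)]
    (h : (P.comap (ti_mapIC V0 (le_sup_left : F1 ≤ F1 ⊔ F2))).ramificationIdx V0 ∣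
      (P.comap (ti_mapIC V0 (le_sup_right : F2 ≤ F1 ⊔ F2))).ramificationIdx V0) :
    letI := ti_algIC V0 (le_sup_right : F2 ≤ F1 ⊔ F2)
    P.ramificationIdx (ti_IC V0 F2) = 1 := by
  have h1M : F1 ≤ M := le_sup_left.trans h12M
  have h2M : F2 ≤ M := le_sup_right.trans h12M
  have h1 : F1 ≤ F1 ⊔ F2 := le_sup_left
  have h2 : F2 ≤ F1 ⊔ F2 := le_sup_right
  -- fields
  letI a1M : Algebra F1 M := ti_algIF h1M
  letI a2M : Algebra F2 M := ti_algIF h2M
  letI a12M : Algebra (F1 ⊔ F2 : IntermediateField K Ω) M := ti_algIF h12M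
  haveI : IsScalarTower K F1 M := IsScalarTower.of_algebraMap_eq fun x => rfl
  haveI : IsScalarTower K F2 M := IsScalarTower.of_algebraMap_eq fun x => rfl
  haveI : IsScalarTower K (F1 ⊔ F2 : IntermediateField K Ω) M :=
    IsScalarTower.of_algebraMap_eq fun x => rfl
  -- rings
  letI b1C : Algebra (ti_IC V0 F1) (ti_IC V0 M) := ti_algIC V0 h1M
  letI b2C : Algebra (ti_IC V0 F2) (ti_IC V0 M) := ti_algIC V0 h2M
  letI b12C : Algebra (ti_IC V0 (F1 ⊔ F2)) (ti_IC V0 M) := ti_algIC V0 h12M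
  letI b1M : Algebra (ti_IC V0 F1) M := ti_algICF V0 h1M
  letI b2M : Algebra (ti_IC V0 F2) M := ti_algICF V0 h2M
  letI b12M : Algebra (ti_IC V0 (F1 ⊔ F2)) M := ti_algICF V0 h12M
  letI b2b12 : Algebra (ti_IC V0 F2) (ti_IC V0 (F1 ⊔ F2)) := ti_algIC V0 h2
  letI b1b12 : Algebra (ti_IC V0 F1) (ti_IC V0 (F1 ⊔ F2)) := ti_algIC V0 h1
  haveI t1 := IsScalarTower.of_algebraMap_eq (R := ti_IC V0 F1) (S := ti_IC V0 M) (A := M)
    fun x => rfl
  haveI t2 := IsScalarTower.of_algebraMap_eq (R := ti_IC V0 F2) (S := ti_IC V0 M) (A := M)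
    fun x => rfl
  haveI t12 := IsScalarTower.of_algebraMap_eq (R := ti_IC V0 (F1 ⊔ F2)) (S := ti_IC V0 M) (A := M)
    fun x => rfl
  haveI u1 := IsScalarTower.of_algebraMap_eq (R := ti_IC V0 F1) (S := F1) (A := M)
    fun x => rfl
  haveI u2 := IsScalarTower.of_algebraMap_eq (R := ti_IC V0 F2) (S := F2) (A := M)
    fun x => rfl
  haveI u12 := IsScalarTower.of_algebraMap_eq (R := ti_IC V0 (F1 ⊔ F2))
    (S := (F1 ⊔ F2 : IntermediateField K Ω)) (A := M) fun x => rfl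
  haveI v1 := IsScalarTower.of_algebraMap_eq (R := V0) (S := ti_IC V0 F1) (A := ti_IC V0 M)
    fun x => rfl
  haveI v2 := IsScalarTower.of_algebraMap_eq (R := V0) (S := ti_IC V0 F2) (A := ti_IC V0 M)
    fun x => rfl
  haveI v12 := IsScalarTower.of_algebraMap_eq (R := V0) (S := ti_IC V0 (F1 ⊔ F2))
    (A := ti_IC V0 M) fun x => rfl
  haveI w2 := IsScalarTower.of_algebraMap_eq (R := ti_IC V0 F2) (S := ti_IC V0 (F1 ⊔ F2))
    (A := ti_IC V0 M) fun x => rfl
  haveI w1 := IsScalarTower.of_algebraMap_eq (R := ti_IC V0 F1) (S := ti_IC V0 (F1 ⊔ F2))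
    (A := ti_IC V0 M) fun x => rfl
  have hH := ti_fix_sup F1 F2 M h12M
  exact ti_abhyankar_aklb' V0 K M (ti_IC V0 M) F1 (ti_IC V0 F1) F2 (ti_IC V0 F2)
    (F1 ⊔ F2 : IntermediateField K Ω) (ti_IC V0 (F1 ⊔ F2)) hH P hP h

theorem ti_div_field_aux (h12M : F1 ⊔ F2 ≤ M)
    (P : Ideal (ti_IC V0 (F1 ⊔ F2))) [P.IsPrime] (hP : P ≠ ⊥)
    [CharZero (ti_IC V0 (F1 ⊔ F2) ⧸ P)] :
    letI := ti_algIC V0 (le_sup_right : F2 ≤ F1 ⊔ F2)
    P.ramificationIdx (ti_IC V0 F2) ∣
      (P.comap (ti_mapIC V0 (le_sup_left : F1 ≤ F1 ⊔ F2))).ramificationIdx V0 := by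
  have h1M : F1 ≤ M := le_sup_left.trans h12M
  have h2M : F2 ≤ M := le_sup_right.trans h12M
  have h1 : F1 ≤ F1 ⊔ F2 := le_sup_left
  have h2 : F2 ≤ F1 ⊔ F2 := le_sup_right
  -- fields
  letI a1M : Algebra F1 M := ti_algIF h1M
  letI a2M : Algebra F2 M := ti_algIF h2M
  letI a12M : Algebra (F1 ⊔ F2 : IntermediateField K Ω) M := ti_algIF h12M
  haveI : IsScalarTower K F1 M := IsScalarTower.of_algebraMap_eq fun x => rfl
  haveI : IsScalarTower K F2 M := IsScalarTower.of_algebraMap_eq fun x => rfl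
  haveI : IsScalarTower K (F1 ⊔ F2 : IntermediateField K Ω) M :=
    IsScalarTower.of_algebraMap_eq fun x => rfl
  -- rings
  letI b1C : Algebra (ti_IC V0 F1) (ti_IC V0 M) := ti_algIC V0 h1M
  letI b2C : Algebra (ti_IC V0 F2) (ti_IC V0 M) := ti_algIC V0 h2M
  letI b12C : Algebra (ti_IC V0 (F1 ⊔ F2)) (ti_IC V0 M) := ti_algIC V0 h12M
  letI b1M : Algebra (ti_IC V0 F1) M := ti_algICF V0 h1M
  letI b2M : Algebra (ti_IC V0 F2) M := ti_algICF V0 h2M
  letI b12M : Algebra (ti_IC V0 (F1 ⊔ F2)) M := ti_algICF V0 h12M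
  letI b2b12 : Algebra (ti_IC V0 F2) (ti_IC V0 (F1 ⊔ F2)) := ti_algIC V0 h2
  letI b1b12 : Algebra (ti_IC V0 F1) (ti_IC V0 (F1 ⊔ F2)) := ti_algIC V0 h1
  haveI t1 := IsScalarTower.of_algebraMap_eq (R := ti_IC V0 F1) (S := ti_IC V0 M) (A := M)
    fun x => rfl
  haveI t2 := IsScalarTower.of_algebraMap_eq (R := ti_IC V0 F2) (S := ti_IC V0 M) (A := M)
    fun x => rfl
  haveI t12 := IsScalarTower.of_algebraMap_eq (R := ti_IC V0 (F1 ⊔ F2)) (S := ti_IC V0 M) (A := M)
    fun x => rfl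
  haveI u1 := IsScalarTower.of_algebraMap_eq (R := ti_IC V0 F1) (S := F1) (A := M)
    fun x => rfl
  haveI u2 := IsScalarTower.of_algebraMap_eq (R := ti_IC V0 F2) (S := F2) (A := M)
    fun x => rfl
  haveI u12 := IsScalarTower.of_algebraMap_eq (R := ti_IC V0 (F1 ⊔ F2))
    (S := (F1 ⊔ F2 : IntermediateField K Ω)) (A := M) fun x => rfl
  haveI v1 := IsScalarTower.of_algebraMap_eq (R := V0) (S := ti_IC V0 F1) (A := ti_IC V0 M)
    fun x => rfl
  haveI v2 := IsScalarTower.of_algebraMap_eq (R := V0) (S := ti_IC V0 F2) (A := ti_IC V0 M)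
    fun x => rfl
  haveI v12 := IsScalarTower.of_algebraMap_eq (R := V0) (S := ti_IC V0 (F1 ⊔ F2))
    (A := ti_IC V0 M) fun x => rfl
  haveI w2 := IsScalarTower.of_algebraMap_eq (R := ti_IC V0 F2) (S := ti_IC V0 (F1 ⊔ F2))
    (A := ti_IC V0 M) fun x => rfl
  haveI w1 := IsScalarTower.of_algebraMap_eq (R := ti_IC V0 F1) (S := ti_IC V0 (F1 ⊔ F2))
    (A := ti_IC V0 M) fun x => rfl
  have hH := ti_fix_sup F1 F2 M h12M
  exact ti_div_aklb' V0 K M (ti_IC V0 M) F1 (ti_IC V0 F1) F2 (ti_IC V0 F2)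
    (F1 ⊔ F2 : IntermediateField K Ω) (ti_IC V0 (F1 ⊔ F2)) hH P hP


theorem ti_abhyankar_field_unram_aux (h12M : F1 ⊔ F2 ≤ M)
    (P : Ideal (ti_IC V0 (F1 ⊔ F2))) [P.IsPrime] (hP : P ≠ ⊥)
    [CharZero (ti_IC V0 (F1 ⊔ F2) ⧸ P)]
    (h : (P.comap (ti_mapIC V0 (le_sup_left : F1 ≤ F1 ⊔ F2))).ramificationIdx V0 ∣
      (P.comap (ti_mapIC V0 (le_sup_right : F2 ≤ F1 ⊔ F2))).ramificationIdx V0) :
    letI := ti_algIC V0 (le_sup_right : F2 ≤ F1 ⊔ F2)
    Algebra.IsUnramifiedAt (ti_IC V0 F2) P := by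
  have h1M : F1 ≤ M := le_sup_left.trans h12M
  have h2M : F2 ≤ M := le_sup_right.trans h12M
  have h1 : F1 ≤ F1 ⊔ F2 := le_sup_left
  have h2 : F2 ≤ F1 ⊔ F2 := le_sup_right
  -- fields
  letI a1M : Algebra F1 M := ti_algIF h1M
  letI a2M : Algebra F2 M := ti_algIF h2M
  letI a12M : Algebra (F1 ⊔ F2 : IntermediateField K Ω) M := ti_algIF h12M
  haveI : IsScalarTower K F1 M := IsScalarTower.of_algebraMap_eq fun x => rfl
  haveI : IsScalarTower K F2 M := IsScalarTower.of_algebraMap_eq fun x => rfl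
  haveI : IsScalarTower K (F1 ⊔ F2 : IntermediateField K Ω) M :=
    IsScalarTower.of_algebraMap_eq fun x => rfl
  -- rings
  letI b1C : Algebra (ti_IC V0 F1) (ti_IC V0 M) := ti_algIC V0 h1M
  letI b2C : Algebra (ti_IC V0 F2) (ti_IC V0 M) := ti_algIC V0 h2M
  letI b12C : Algebra (ti_IC V0 (F1 ⊔ F2)) (ti_IC V0 M) := ti_algIC V0 h12M
  letI b1M : Algebra (ti_IC V0 F1) M := ti_algICF V0 h1M
  letI b2M : Algebra (ti_IC V0 F2) M := ti_algICF V0 h2M
  letI b12M : Algebra (ti_IC V0 (F1 ⊔ F2)) M := ti_algICF V0 h12M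
  letI b2b12 : Algebra (ti_IC V0 F2) (ti_IC V0 (F1 ⊔ F2)) := ti_algIC V0 h2
  letI b1b12 : Algebra (ti_IC V0 F1) (ti_IC V0 (F1 ⊔ F2)) := ti_algIC V0 h1
  haveI t1 := IsScalarTower.of_algebraMap_eq (R := ti_IC V0 F1) (S := ti_IC V0 M) (A := M)
    fun x => rfl
  haveI t2 := IsScalarTower.of_algebraMap_eq (R := ti_IC V0 F2) (S := ti_IC V0 M) (A := M)
    fun x => rfl
  haveI t12 := IsScalarTower.of_algebraMap_eq (R := ti_IC V0 (F1 ⊔ F2)) (S := ti_IC V0 M) (A := M)
    fun x => rfl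
  haveI u1 := IsScalarTower.of_algebraMap_eq (R := ti_IC V0 F1) (S := F1) (A := M)
    fun x => rfl
  haveI u2 := IsScalarTower.of_algebraMap_eq (R := ti_IC V0 F2) (S := F2) (A := M)
    fun x => rfl
  haveI u12 := IsScalarTower.of_algebraMap_eq (R := ti_IC V0 (F1 ⊔ F2))
    (S := (F1 ⊔ F2 : IntermediateField K Ω)) (A := M) fun x => rfl
  haveI v1 := IsScalarTower.of_algebraMap_eq (R := V0) (S := ti_IC V0 F1) (A := ti_IC V0 M)
    fun x => rfl
  haveI v2 := IsScalarTower.of_algebraMap_eq (R := V0) (S := ti_IC V0 F2) (A := ti_IC V0 M)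
    fun x => rfl
  haveI v12 := IsScalarTower.of_algebraMap_eq (R := V0) (S := ti_IC V0 (F1 ⊔ F2))
    (A := ti_IC V0 M) fun x => rfl
  haveI w2 := IsScalarTower.of_algebraMap_eq (R := ti_IC V0 F2) (S := ti_IC V0 (F1 ⊔ F2))
    (A := ti_IC V0 M) fun x => rfl
  haveI w1 := IsScalarTower.of_algebraMap_eq (R := ti_IC V0 F1) (S := ti_IC V0 (F1 ⊔ F2))
    (A := ti_IC V0 M) fun x => rfl
  have hH := ti_fix_sup F1 F2 M h12M
  exact ti_abhyankar_isUnramifiedAt V0 K M (ti_IC V0 M) F1 (ti_IC V0 F1) F2 (ti_IC V0 F2)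
    (F1 ⊔ F2 : IntermediateField K Ω) (ti_IC V0 (F1 ⊔ F2)) hH P hP h


end Main

section NormalClosure

variable {K Ω : Type*} [Field K] [Field Ω] [Algebra K Ω] [Normal K Ω] [CharZero K]
variable (V0 : Subring K) [IsDedekindDomain V0] [IsFractionRing V0 K]
variable (F1 F2 : IntermediateField K Ω) [FiniteDimensional K F1] [FiniteDimensional K F2]

/-- **Abhyankar's lemma, field form (ABH).**  `K ⊇ V0` a Dedekind subring with fraction field `K`
(characteristic `0`), `Ω/K` normal, `F1, F2` finite intermediate fields, `C_i := integralClosure V0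
F_i`.  For a nonzero prime `P` of `C_12` (`F12 = F1 ⊔ F2`) of residue characteristic `0`:
`e(P ∩ C_1 | V0) ∣ e(P ∩ C_2 | V0)` implies `e(P | C_2) = 1`. -/
theorem ti_abhyankar_field
    (P : Ideal (ti_IC V0 (F1 ⊔ F2))) [P.IsPrime] (hP : P ≠ ⊥)
    [CharZero (ti_IC V0 (F1 ⊔ F2) ⧸ P)]
    (h : (P.comap (ti_mapIC V0 (le_sup_left : F1 ≤ F1 ⊔ F2))).ramificationIdx V0 ∣
      (P.comap (ti_mapIC V0 (le_sup_right : F2 ≤ F1 ⊔ F2))).ramificationIdx V0) :
    letI := ti_algIC V0 (le_sup_right : F2 ≤ F1 ⊔ F2)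
    P.ramificationIdx (ti_IC V0 F2) = 1 := by
  let M : IntermediateField K Ω :=
    IntermediateField.normalClosure K (F1 ⊔ F2 : IntermediateField K Ω) Ω
  haveI : FiniteDimensional K M := normalClosure.is_finiteDimensional K _ Ω
  haveI : Normal K M := normalClosure.normal K _ Ω
  haveI : IsGalois K M := ⟨⟩
  exact ti_abhyankar_field_aux V0 F1 F2 M (IntermediateField.le_normalClosure _) P hP h

/-- **Abhyankar's lemma, field form, unramifiedness.** -/
theorem ti_abhyankar_field_unram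
    (P : Ideal (ti_IC V0 (F1 ⊔ F2))) [P.IsPrime] (hP : P ≠ ⊥)
    [CharZero (ti_IC V0 (F1 ⊔ F2) ⧸ P)]
    (h : (P.comap (ti_mapIC V0 (le_sup_left : F1 ≤ F1 ⊔ F2))).ramificationIdx V0 ∣
      (P.comap (ti_mapIC V0 (le_sup_right : F2 ≤ F1 ⊔ F2))).ramificationIdx V0) :
    letI := ti_algIC V0 (le_sup_right : F2 ≤ F1 ⊔ F2)
    Algebra.IsUnramifiedAt (ti_IC V0 F2) P := by
  let M : IntermediateField K Ω :=
    IntermediateField.normalClosure K (F1 ⊔ F2 : IntermediateField K Ω) Ω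
  haveI : FiniteDimensional K M := normalClosure.is_finiteDimensional K _ Ω
  haveI : Normal K M := normalClosure.normal K _ Ω
  haveI : IsGalois K M := ⟨⟩
  exact ti_abhyankar_field_unram_aux V0 F1 F2 M (IntermediateField.le_normalClosure _) P hP h

/-- **(DIV), field form**: `e(P | C_2)` divides `e(P ∩ C_1 | V0)`. -/
theorem ti_div_field
    (P : Ideal (ti_IC V0 (F1 ⊔ F2))) [P.IsPrime] (hP : P ≠ ⊥)
    [CharZero (ti_IC V0 (F1 ⊔ F2) ⧸ P)] :
    letI := ti_algIC V0 (le_sup_right : F2 ≤ F1 ⊔ F2)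
    P.ramificationIdx (ti_IC V0 F2) ∣
      (P.comap (ti_mapIC V0 (le_sup_left : F1 ≤ F1 ⊔ F2))).ramificationIdx V0 := by
  let M : IntermediateField K Ω :=
    IntermediateField.normalClosure K (F1 ⊔ F2 : IntermediateField K Ω) Ω
  haveI : FiniteDimensional K M := normalClosure.is_finiteDimensional K _ Ω
  haveI : Normal K M := normalClosure.normal K _ Ω
  haveI : IsGalois K M := ⟨⟩
  exact ti_div_field_aux V0 F1 F2 M (IntermediateField.le_normalClosure _) P hP

end NormalClosure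

end Fermat.Agent.JT3
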