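/-
JT3 / Route R, node [ABH] (helper11), part 5: THE SEAM.  Prefix `ti_` (continued).

No ambient field, no normality hypothesis: all fields are types with algebra towers and the Galois
closure is constructed internally (inside an algebraic closure of the compositum).

* `ti_icMap A L L'`          : `integralClosure A L →ₐ[A] integralClosure A L'` for `L → L'`.
* `ti_gc K E`                : a Galois closure of `E / K` (finite, characteristic `0`).
* `ti_abhyankar_unb`         : Abhyankar's lemma for `K ⊆ L₁, L₂ ⊆ E = L₁ L₂`, `A ⊆ K` Dedekind.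
* `ti_centre`, `ti_isLocalization_centre`, `ti_centre_ne_bot` : a local subring `V ⊇ B` of the
  fraction field of a Dedekind domain `B`, not a field, is the localisation of `B` at its centre.
* `ti_ic_isLocalization`     : integral closures and localisation of the base.
* `ti_isUnramifiedAt_localization` : `Algebra.IsUnramifiedAt` passes to localisations of the base.
* **`ti_seam_unram`**        : `e(P₁ | V0) ∣ n` for all primes of the integral closure of `V0` in
  `L₁`, `n ∣ e(P₂ | V0)` for all primes of the integral closure of `V0` in `L₂` ⟹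
  `jt_UnramAt V2 E` for every discrete valuation ring `V2 ⊇ V0` of `L₂` of residue
  characteristic `0`;  `ti_seam_unram_subalgebra` (carrier a `Subalgebra`),
  `ti_seam_unram_under` (`V0 := V2 ∩ K`).
* `ti_under K V2 = V2 ∩ K`, `ti_under_isDVR`, `ti_under_isFractionRing`, `ti_under_isUnit_iff`.
* `ti_hgen_of_sup_eq_top`, `ti_hgen_of_sup` : the generation hypothesis `hgen` for intermediate
  fields.
-/
import Mathlib
import Fermat.Agent.JT3.Algebra.AbhyankarField
import Fermat.Agent.JT3.Seams

set_option autoImplicit false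
set_option linter.unusedSectionVars false
set_option linter.style.haveILetI false

namespace Fermat.Agent.JT3

open IntermediateField

section IcMap

/-- The map of integral closures induced by a field extension `L → L'`. -/
noncomputable def ti_icMap (A L L' : Type*) [CommRing A] [Field L] [Field L'] [Algebra A L]
    [Algebra A L'] [Algebra L L'] [IsScalarTower A L L'] :
    integralClosure A L →ₐ[A] integralClosure A L' :=
  AlgHom.mapIntegralClosure (IsScalarTower.toAlgHom A L L')

theorem ti_icMap_coe (A L L' : Type*) [CommRing A] [Field L] [Field L'] [Algebra A L]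
    [Algebra A L'] [Algebra L L'] [IsScalarTower A L L'] (x : integralClosure A L) :
    (ti_icMap A L L' x : L') = algebraMap L L' (x : L) := rfl

end IcMap

section GalClosure

variable (K E : Type*) [Field K] [Field E] [Algebra K E]

/-- A Galois closure of `E / K`, inside an algebraic closure of `E`. -/
noncomputable abbrev ti_gc : IntermediateField K (AlgebraicClosure E) :=
  IntermediateField.normalClosure K E (AlgebraicClosure E)

theorem ti_gc_normalBig [Algebra.IsAlgebraic K E] : Normal K (AlgebraicClosure E) := by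
  haveI : IsAlgClosure K (AlgebraicClosure E) :=
    ⟨inferInstance, Algebra.IsAlgebraic.trans K E (AlgebraicClosure E)⟩
  exact IsAlgClosure.normal K (AlgebraicClosure E)

theorem ti_gc_finite [FiniteDimensional K E] : FiniteDimensional K (ti_gc K E) :=
  normalClosure.is_finiteDimensional K E (AlgebraicClosure E)

theorem ti_gc_isGalois [FiniteDimensional K E] [CharZero K] : IsGalois K (ti_gc K E) := by
  haveI : Normal K (AlgebraicClosure E) := ti_gc_normalBig K E
  haveI : Normal K (ti_gc K E) := normalClosure.normal K E (AlgebraicClosure E)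
  exact ⟨⟩

end GalClosure

section Unbundled

variable (A K : Type*) [CommRing A] [IsDedekindDomain A] [Field K] [Algebra A K]
  [IsFractionRing A K] [CharZero K]
variable (L₁ L₂ E : Type*) [Field L₁] [Field L₂] [Field E] [Algebra K L₁] [Algebra K L₂]
  [Algebra K E] [Algebra A L₁] [Algebra A L₂] [Algebra A E] [IsScalarTower A K L₁]
  [IsScalarTower A K L₂] [IsScalarTower A K E] [Algebra L₁ E] [Algebra L₂ E]
  [IsScalarTower K L₁ E] [IsScalarTower K L₂ E] [IsScalarTower A L₁ E] [IsScalarTower A L₂ E]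
  [FiniteDimensional K E]

/-- **Abhyankar's lemma, unbundled field form**: no ambient field, no normality; the Galois closure
is constructed inside an algebraic closure of the compositum `E = L₁ L₂`. -/
theorem ti_abhyankar_unb
    (hgen : IntermediateField.adjoin K
      (Set.range (algebraMap L₁ E) ∪ Set.range (algebraMap L₂ E)) = ⊤)
    (P : Ideal (integralClosure A E)) [P.IsPrime] (hP : P ≠ ⊥)
    [CharZero (integralClosure A E ⧸ P)]
    (h : (P.comap (ti_icMap A L₁ E)).ramificationIdx A ∣
      (P.comap (ti_icMap A L₂ E)).ramificationIdx A) :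
    letI := (ti_icMap A L₂ E).toRingHom.toAlgebra
    Algebra.IsUnramifiedAt (integralClosure A L₂) P := by
  let M := ti_gc K E
  haveI : FiniteDimensional K M := ti_gc_finite K E
  haveI : IsGalois K M := ti_gc_isGalois K E
  -- field level
  letI aAM : Algebra A M := ((algebraMap K M).comp (algebraMap A K)).toAlgebra
  haveI : IsScalarTower A K M := IsScalarTower.of_algebraMap_eq fun x => rfl
  letI a1M : Algebra L₁ M := ((algebraMap E M).comp (algebraMap L₁ E)).toAlgebra
  letI a2M : Algebra L₂ M := ((algebraMap E M).comp (algebraMap L₂ E)).toAlgebra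
  haveI s1 : IsScalarTower L₁ E M := IsScalarTower.of_algebraMap_eq fun x => rfl
  haveI s2 : IsScalarTower L₂ E M := IsScalarTower.of_algebraMap_eq fun x => rfl
  haveI : IsScalarTower K L₁ M := IsScalarTower.of_algebraMap_eq fun x => by
    rw [IsScalarTower.algebraMap_apply L₁ E M, ← IsScalarTower.algebraMap_apply K L₁ E,
      ← IsScalarTower.algebraMap_apply K E M]
  haveI : IsScalarTower K L₂ M := IsScalarTower.of_algebraMap_eq fun x => by
    rw [IsScalarTower.algebraMap_apply L₂ E M, ← IsScalarTower.algebraMap_apply K L₂ E,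
      ← IsScalarTower.algebraMap_apply K E M]
  haveI tAEM : IsScalarTower A E M := IsScalarTower.of_algebraMap_eq fun x => by
    rw [IsScalarTower.algebraMap_apply A K M, IsScalarTower.algebraMap_apply A K E,
      ← IsScalarTower.algebraMap_apply K E M]
  haveI tA1M : IsScalarTower A L₁ M := IsScalarTower.of_algebraMap_eq fun x => by
    rw [IsScalarTower.algebraMap_apply A E M, IsScalarTower.algebraMap_apply A L₁ E,
      ← IsScalarTower.algebraMap_apply L₁ E M]
  haveI tA2M : IsScalarTower A L₂ M := IsScalarTower.of_algebraMap_eq fun x => by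
    rw [IsScalarTower.algebraMap_apply A E M, IsScalarTower.algebraMap_apply A L₂ E,
      ← IsScalarTower.algebraMap_apply L₂ E M]
  -- ring level
  let B₁ := integralClosure A L₁
  let B₂ := integralClosure A L₂
  let B₁₂ := integralClosure A E
  let C := integralClosure A M
  letI b1C : Algebra B₁ C := (ti_icMap A L₁ M).toRingHom.toAlgebra
  letI b2C : Algebra B₂ C := (ti_icMap A L₂ M).toRingHom.toAlgebra
  letI b12C : Algebra B₁₂ C := (ti_icMap A E M).toRingHom.toAlgebra
  letI b1M : Algebra B₁ M := ((algebraMap L₁ M).comp (algebraMap B₁ L₁)).toAlgebra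
  letI b2M : Algebra B₂ M := ((algebraMap L₂ M).comp (algebraMap B₂ L₂)).toAlgebra
  letI b12M : Algebra B₁₂ M := ((algebraMap E M).comp (algebraMap B₁₂ E)).toAlgebra
  letI b2b12 : Algebra B₂ B₁₂ := (ti_icMap A L₂ E).toRingHom.toAlgebra
  letI b1b12 : Algebra B₁ B₁₂ := (ti_icMap A L₁ E).toRingHom.toAlgebra
  haveI t1 := IsScalarTower.of_algebraMap_eq (R := B₁) (S := C) (A := M) fun x => rfl
  haveI t2 := IsScalarTower.of_algebraMap_eq (R := B₂) (S := C) (A := M) fun x => rfl
  haveI t12 := IsScalarTower.of_algebraMap_eq (R := B₁₂) (S := C) (A := M) fun x => rfl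
  haveI u1 := IsScalarTower.of_algebraMap_eq (R := B₁) (S := L₁) (A := M) fun x => rfl
  haveI u2 := IsScalarTower.of_algebraMap_eq (R := B₂) (S := L₂) (A := M) fun x => rfl
  haveI u12 := IsScalarTower.of_algebraMap_eq (R := B₁₂) (S := E) (A := M) fun x => rfl
  haveI v1 := IsScalarTower.of_algebraMap_eq (R := A) (S := B₁) (A := C) fun x =>
    ((ti_icMap A L₁ M).commutes x).symm
  haveI v2 := IsScalarTower.of_algebraMap_eq (R := A) (S := B₂) (A := C) fun x =>
    ((ti_icMap A L₂ M).commutes x).symm
  haveI v12 := IsScalarTower.of_algebraMap_eq (R := A) (S := B₁₂) (A := C) fun x =>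
    ((ti_icMap A E M).commutes x).symm
  haveI w2 := IsScalarTower.of_algebraMap_eq (R := B₂) (S := B₁₂) (A := C) fun x => rfl
  haveI w1 := IsScalarTower.of_algebraMap_eq (R := B₁) (S := B₁₂) (A := C) fun x => rfl
  haveI : Algebra.IsAlgebraic K E := Algebra.IsAlgebraic.of_finite K E
  have hH := ti_fix_compositum K M L₁ L₂ E hgen
  exact ti_abhyankar_isUnramifiedAt A K M C L₁ B₁ L₂ B₂ E B₁₂ hH P hP h

end Unbundled

section LocalSubring

variable {B F : Type*} [CommRing B] [IsDedekindDomain B] [Field F] [Algebra B F]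
  [IsFractionRing B F] (V : Subring F) [IsLocalRing V] (hBV : ∀ b : B, algebraMap B F b ∈ V)

/-- `B → V` for a subring `V ⊇ B` of the fraction field. -/
def ti_toSub : B →+* V := (algebraMap B F).codRestrict V hBV

theorem ti_toSub_coe (b : B) : (ti_toSub V hBV b : F) = algebraMap B F b := rfl

/-- The centre of the local ring `V` on `B`. -/
abbrev ti_centre : Ideal B := (IsLocalRing.maximalIdeal V).comap (ti_toSub V hBV)

/-- `B_p` inside `F`, `p` the centre of `V`. -/
noncomputable abbrev ti_centreLoc : Subalgebra B F :=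
  Localization.subalgebra.ofField F (ti_centre V hBV).primeCompl
    (ti_centre V hBV).primeCompl_le_nonZeroDivisors

theorem ti_mem_centreLoc (x : F) :
    x ∈ ti_centreLoc V hBV ↔ ∃ a s : B, s ∉ ti_centre V hBV ∧
      x = algebraMap B F a * (algebraMap B F s)⁻¹ := by
  constructor
  · rintro ⟨a, s, hs, rfl⟩
    exact ⟨a, s, hs, rfl⟩
  · rintro ⟨a, s, hs, rfl⟩
    exact ⟨a, s, hs, rfl⟩

theorem ti_isUnit_toSub {s : B} (hs : s ∉ ti_centre V hBV) : IsUnit (ti_toSub V hBV s) := by
  by_contra h
  exact hs ((IsLocalRing.mem_maximalIdeal _).2 h)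

theorem ti_centreLoc_le (x : F) (hx : x ∈ ti_centreLoc V hBV) : x ∈ V := by
  obtain ⟨a, s, hs, rfl⟩ := (ti_mem_centreLoc V hBV x).1 hx
  obtain ⟨u, hu⟩ := ti_isUnit_toSub V hBV hs
  have h1 : ((u⁻¹ : Vˣ) : V).1 = (algebraMap B F s)⁻¹ := by
    have h2 : ((u : V) * (u⁻¹ : Vˣ) : V).1 = 1 := by rw [Units.mul_inv]; rfl
    rw [Subring.coe_mul, hu, ti_toSub_coe] at h2
    exact eq_inv_of_mul_eq_one_right h2
  rw [← h1]
  exact V.mul_mem (hBV a) ((u⁻¹ : Vˣ) : V).2

/-- A local subring `V` of the fraction field of a Dedekind domain `B`, containing `B` and with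
nonzero centre `p`, is the localisation `B_p`. -/
theorem ti_le_centreLoc (hp : ti_centre V hBV ≠ ⊥) (x : F) (hx : x ∈ V) :
    x ∈ ti_centreLoc V hBV := by
  set p := ti_centre V hBV with hpdef
  haveI hpp : p.IsPrime := Ideal.comap_isPrime _ _
  let W := ti_centreLoc V hBV
  haveI : IsLocalization.AtPrime W p := Localization.subalgebra.isLocalization_ofField F _ _
  haveI : IsDiscreteValuationRing W :=
    IsLocalization.AtPrime.isDiscreteValuationRing_of_dedekind_domain B hp W
  by_cases hx0 : x = 0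
  · rw [hx0]; exact W.zero_mem
  rcases ValuationRing.isInteger_or_isInteger W x with ⟨y, hy⟩ | ⟨y, hy⟩
  · rw [← hy]; exact y.2
  · -- `x⁻¹ = y ∈ W`
    by_cases hyu : IsUnit y
    · obtain ⟨u, hu⟩ := hyu
      have h1 : ((u⁻¹ : Wˣ) : W).1 = x := by
        have h2 : ((u : W) * (u⁻¹ : Wˣ) : W).1 = 1 := by rw [Units.mul_inv]; rfl
        rw [Subalgebra.coe_mul, hu] at h2
        have h3 : (y : F) = x⁻¹ := hy
        rw [h3] at h2
        have := eq_inv_of_mul_eq_one_right h2
        rwa [inv_inv] at this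
      rw [← h1]; exact ((u⁻¹ : Wˣ) : W).2
    · exfalso
      obtain ⟨a, s, hs, hys⟩ := (ti_mem_centreLoc V hBV (y : F)).1 y.2
      have hs0 : algebraMap B F s ≠ 0 := by
        intro h0
        apply hs
        have : s = 0 := (IsFractionRing.injective B F) (by rw [h0, map_zero])
        rw [this]; exact p.zero_mem
      -- `a ∈ p`
      have ha : a ∈ p := by
        by_contra hap
        apply hyu
        have h1 : IsUnit (algebraMap B W a) :=
          (IsLocalization.AtPrime.isUnit_to_map_iff W p a).2 hap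
        have h2 : IsUnit (algebraMap B W s) :=
          (IsLocalization.AtPrime.isUnit_to_map_iff W p s).2 hs
        have h3 : y * algebraMap B W s = algebraMap B W a := by
          apply Subtype.ext
          rw [Subalgebra.coe_mul]
          show (y : F) * algebraMap B F s = algebraMap B F a
          rw [hys, mul_assoc, inv_mul_cancel₀ hs0, mul_one]
        exact isUnit_of_mul_isUnit_left (h3 ▸ h1)
      -- so `x⁻¹ ∈ 𝔪_V`
      have ha' : ti_toSub V hBV a ∈ IsLocalRing.maximalIdeal V := ha
      obtain ⟨u, hu⟩ := ti_isUnit_toSub V hBV hs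
      have h4 : (⟨x, hx⟩ : V) * (ti_toSub V hBV a * ((u⁻¹ : Vˣ) : V)) = 1 := by
        have h5 : (⟨x, hx⟩ : V) * ti_toSub V hBV a = ti_toSub V hBV s := by
          apply Subtype.ext
          rw [Subring.coe_mul]
          show x * algebraMap B F a = algebraMap B F s
          have h3 : (y : F) = x⁻¹ := hy
          rw [h3] at hys
          have : algebraMap B F a = x⁻¹ * algebraMap B F s := by
            rw [hys, mul_assoc, inv_mul_cancel₀ hs0, mul_one]
          rw [this, ← mul_assoc, mul_inv_cancel₀ hx0, one_mul]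
        rw [← mul_assoc, h5, ← hu, Units.mul_inv]
      have h6 : (1 : V) ∈ IsLocalRing.maximalIdeal V := by
        rw [← h4]
        exact Ideal.mul_mem_left _ _ (Ideal.mul_mem_right _ _ ha')
      exact (Ideal.ne_top_iff_one _).1 (IsLocalRing.maximalIdeal.isMaximal V).ne_top h6

/-- `V = B_p` as a localisation. -/
theorem ti_isLocalization_centre (hp : ti_centre V hBV ≠ ⊥) :
    letI := (ti_toSub V hBV).toAlgebra
    IsLocalization.AtPrime V (ti_centre V hBV) := by
  letI := (ti_toSub V hBV).toAlgebra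
  haveI hpp : (ti_centre V hBV).IsPrime := Ideal.comap_isPrime _ _
  let W := ti_centreLoc V hBV
  haveI : IsLocalization.AtPrime W (ti_centre V hBV) :=
    Localization.subalgebra.isLocalization_ofField F _ _
  let e : W ≃ₐ[B] V :=
    { toFun := fun w => ⟨w.1, ti_centreLoc_le V hBV w.1 w.2⟩
      invFun := fun v => ⟨v.1, ti_le_centreLoc V hBV hp v.1 v.2⟩
      left_inv := fun w => rfl
      right_inv := fun v => rfl
      map_mul' := fun _ _ => rfl
      map_add' := fun _ _ => rfl
      commutes' := fun _ => rfl }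
  exact IsLocalization.isLocalization_of_algEquiv (ti_centre V hBV).primeCompl e

/-- If `V` is not a field its centre on `B` is nonzero. -/
theorem ti_centre_ne_bot (hV : ∃ x : V, x ≠ 0 ∧ ¬ IsUnit x) : ti_centre V hBV ≠ ⊥ := by
  intro h0
  obtain ⟨x, hx0, hxu⟩ := hV
  apply hxu
  have hunit : ∀ b : B, b ≠ 0 → IsUnit (ti_toSub V hBV b) := by
    intro b hb
    apply ti_isUnit_toSub V hBV
    rw [h0, Ideal.mem_bot]
    exact hb
  obtain ⟨a, b, hb, hab⟩ := IsFractionRing.div_surjective (A := B) (x : F)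
  have hb0 : b ≠ 0 := nonZeroDivisors.ne_zero hb
  have hbF : algebraMap B F b ≠ 0 := by
    intro h
    exact hb0 ((IsFractionRing.injective B F) (by rw [h, map_zero]))
  have ha0 : a ≠ 0 := by
    rintro rfl
    apply hx0
    apply Subtype.ext
    rw [← hab, map_zero, zero_div]; rfl
  have h1 : x * ti_toSub V hBV b = ti_toSub V hBV a := by
    apply Subtype.ext
    rw [Subring.coe_mul, ti_toSub_coe, ti_toSub_coe, ← hab, div_mul_cancel₀ _ hbF]
  exact isUnit_of_mul_isUnit_left (h1 ▸ hunit a ha0)

end LocalSubring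

section IcLoc

variable (A R R' E : Type*) [CommRing A] [CommRing R] [CommRing R'] [Field E] [Algebra A R]
  [Algebra.IsIntegral A R] [Algebra R R'] [Algebra A E] [Algebra R E] [Algebra R' E]
  [IsScalarTower A R E] [IsScalarTower R R' E] (N : Submonoid R) [IsLocalization N R']
  [Algebra R (integralClosure A E)] [IsScalarTower R (integralClosure A E) E]
  [Algebra (integralClosure A E) (integralClosure R' E)]
  [IsScalarTower (integralClosure A E) (integralClosure R' E) E]

/-- Integral closures and localisation of the base: if `R` is integral over `A` and `R' = N⁻¹R`,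
then the integral closure of `R'` in the field `E` is the localisation at `N` of the integral
closure of `A` in `E`. -/
theorem ti_ic_isLocalization :
    IsLocalization (Algebra.algebraMapSubmonoid (integralClosure A E) N)
      (integralClosure R' E) := by
  have hinj' : Function.Injective (algebraMap (integralClosure R' E) E) := Subtype.val_injective
  have hinj : Function.Injective (algebraMap (integralClosure A E) E) := Subtype.val_injective
  have hcomp : ∀ y : integralClosure A E,
      algebraMap (integralClosure R' E) E (algebraMap (integralClosure A E) (integralClosure R' E) y)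
        = algebraMap (integralClosure A E) E y := fun y =>
    (IsScalarTower.algebraMap_apply (integralClosure A E) (integralClosure R' E) E y).symm
  have hR : ∀ n : R, algebraMap (integralClosure A E) E (algebraMap R (integralClosure A E) n)
      = algebraMap R E n := fun n =>
    (IsScalarTower.algebraMap_apply R (integralClosure A E) E n).symm
  refine ⟨⟨?_, ?_, ?_⟩⟩
  · rintro ⟨_, n, hn, rfl⟩
    have h1 : IsUnit (algebraMap R R' n) := IsLocalization.map_units R' ⟨n, hn⟩
    have h2 : algebraMap (integralClosure A E) (integralClosure R' E)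
        (algebraMap R (integralClosure A E) n)
        = algebraMap R' (integralClosure R' E) (algebraMap R R' n) := by
      apply hinj'
      rw [hcomp, hR, ← IsScalarTower.algebraMap_apply R' (integralClosure R' E) E,
        ← IsScalarTower.algebraMap_apply R R' E]
    show IsUnit (algebraMap (integralClosure A E) (integralClosure R' E)
        (algebraMap R (integralClosure A E) n))
    rw [h2]
    exact h1.map _
  · rintro ⟨z, hz⟩
    obtain ⟨⟨m, hm⟩, hmz⟩ := IsIntegral.exists_multiple_integral_of_isLocalization N z hz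
    have hmz' : IsIntegral A (algebraMap R E m * z) := by
      have : IsIntegral R (algebraMap R E m * z) := by
        simpa only [Submonoid.smul_def, Algebra.smul_def] using hmz
      exact isIntegral_trans _ this
    refine ⟨⟨⟨_, hmz'⟩, ⟨algebraMap R (integralClosure A E) m, m, hm, rfl⟩⟩, ?_⟩
    apply hinj'
    rw [map_mul, hcomp, hcomp, hR]
    show z * algebraMap R E m = algebraMap R E m * z
    rw [mul_comm]
  · intro a b hab
    refine ⟨1, ?_⟩
    have : a = b := by
      apply hinj
      rw [← hcomp, ← hcomp, hab]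
    rw [this]

end IcLoc

section LocUnram

variable {R S : Type*} [CommRing R] [CommRing S] [Algebra R S] (N : Submonoid R)
  (R' S' : Type*) [CommRing R'] [CommRing S'] [Algebra R R'] [IsLocalization N R']
  [Algebra S S'] [IsLocalization (Algebra.algebraMapSubmonoid S N) S']
  [Algebra R S'] [Algebra R' S'] [IsScalarTower R R' S'] [IsScalarTower R S S']

include N in
/-- Unramifiedness passes to localisations of the base: if the prime `P' ∩ S` of `S` is unramified
over `R`, then `P'` is unramified over `R' = N⁻¹R` (where `S' = N⁻¹S`). -/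
theorem ti_isUnramifiedAt_localization (P' : Ideal S') [P'.IsPrime]
    (h : Algebra.IsUnramifiedAt R (P'.comap (algebraMap S S'))) :
    Algebra.IsUnramifiedAt R' P' := by
  set P := P'.comap (algebraMap S S') with hP
  let T := Localization.AtPrime P'
  have : IsLocalization.AtPrime T P :=
    IsLocalization.isLocalization_isLocalization_atPrime_isLocalization
      (Algebra.algebraMapSubmonoid S N) T P'
  let e : Localization.AtPrime P ≃ₐ[S] T := IsLocalization.algEquiv P.primeCompl _ _
  have h1 : Algebra.FormallyUnramified R (Localization.AtPrime P) := h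
  have h2 : Algebra.FormallyUnramified R T :=
    Algebra.FormallyUnramified.of_equiv (e.restrictScalars R)
  exact Algebra.FormallyUnramified.of_restrictScalars R R' T

end LocUnram

section Under

variable (K : Type*) {L₂ : Type*} [Field K] [Field L₂] [Algebra K L₂] (V2 : Subring L₂)

/-- `V2 ∩ K` for a subring `V2` of an extension `L₂ / K`. -/
def ti_under : Subring K := V2.comap (algebraMap K L₂)

theorem ti_mem_under (x : K) : x ∈ ti_under K V2 ↔ algebraMap K L₂ x ∈ V2 := Iff.rfl

/-- The inclusion `V2 ∩ K → V2`. -/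
def ti_underHom : ti_under K V2 →+* V2 :=
  ((algebraMap K L₂).comp (ti_under K V2).subtype).codRestrict V2 (fun x => x.2)

theorem ti_underHom_coe (x : ti_under K V2) :
    (ti_underHom K V2 x : L₂) = algebraMap K L₂ (x : K) := rfl

theorem ti_underHom_injective : Function.Injective (ti_underHom K V2) := by
  intro x y h
  apply Subtype.ext
  apply (algebraMap K L₂).injective
  exact congrArg Subtype.val h

variable [IsDiscreteValuationRing V2] [IsFractionRing V2 L₂]

theorem ti_under_mem_or_inv_mem (x : K) : x ∈ ti_under K V2 ∨ x⁻¹ ∈ ti_under K V2 := by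
  rcases ValuationRing.isInteger_or_isInteger V2 (algebraMap K L₂ x) with ⟨y, hy⟩ | ⟨y, hy⟩
  · left
    rw [ti_mem_under]
    have : (y : L₂) = algebraMap K L₂ x := hy
    rw [← this]; exact y.2
  · right
    rw [ti_mem_under, map_inv₀]
    have : (y : L₂) = (algebraMap K L₂ x)⁻¹ := hy
    rw [← this]; exact y.2

theorem ti_under_isFractionRing : IsFractionRing (ti_under K V2) K := by
  refine IsFractionRing.of_field (ti_under K V2) K fun z => ?_
  rcases ti_under_mem_or_inv_mem K V2 z with h | h
  · refine ⟨⟨z, h⟩, 1, ?_⟩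
    rw [map_one, div_one]; rfl
  · refine ⟨1, ⟨z⁻¹, h⟩, ?_⟩
    show z = algebraMap (ti_under K V2) K 1 / z⁻¹
    rw [map_one, one_div, inv_inv]

theorem ti_under_isUnit_iff (x : ti_under K V2) : IsUnit x ↔ IsUnit (ti_underHom K V2 x) := by
  constructor
  · exact fun h => h.map _
  · rintro ⟨u, hu⟩
    have h1 : ((u : V2) * ((u⁻¹ : V2ˣ) : V2) : V2).1 = 1 := by rw [Units.mul_inv]; rfl
    rw [Subring.coe_mul, hu, ti_underHom_coe] at h1
    have h2 : (((u⁻¹ : V2ˣ) : V2) : L₂) = algebraMap K L₂ ((x : K)⁻¹) := by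
      rw [map_inv₀]
      exact eq_inv_of_mul_eq_one_right h1
    have hmem : (x : K)⁻¹ ∈ ti_under K V2 := by
      rw [ti_mem_under, ← h2]; exact ((u⁻¹ : V2ˣ) : V2).2
    have hx0 : (x : K) ≠ 0 := by
      intro h0
      rw [h0, map_zero, zero_mul] at h1
      exact zero_ne_one h1
    refine ⟨⟨x, ⟨(x : K)⁻¹, hmem⟩, ?_, ?_⟩, rfl⟩
    · apply Subtype.ext; show (x : K) * (x : K)⁻¹ = 1; exact mul_inv_cancel₀ hx0
    · apply Subtype.ext; show (x : K)⁻¹ * (x : K) = 1; exact inv_mul_cancel₀ hx0

theorem ti_under_exists_nonunit [Algebra.IsAlgebraic K L₂] :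
    ∃ x : ti_under K V2, x ≠ 0 ∧ ¬ IsUnit x := by
  by_contra hcon
  replace hcon : ∀ x : ti_under K V2, x ≠ 0 → IsUnit x := by
    intro x hx
    by_contra hxu
    exact hcon ⟨x, hx, hxu⟩
  have hall : ∀ z : K, z ∈ ti_under K V2 := by
    intro z
    by_cases hz : z = 0
    · rw [hz]; exact (ti_under K V2).zero_mem
    rcases ti_under_mem_or_inv_mem K V2 z with h | h
    · exact h
    · have hne : (⟨z⁻¹, h⟩ : ti_under K V2) ≠ 0 := by
        intro h0
        exact (inv_ne_zero hz) (congrArg Subtype.val h0)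
      obtain ⟨u, hu⟩ := hcon _ hne
      have h1 : ((u : ti_under K V2) * ((u⁻¹ : (ti_under K V2)ˣ) : ti_under K V2) :
          ti_under K V2).1 = 1 := by rw [Units.mul_inv]; rfl
      rw [Subring.coe_mul, hu] at h1
      have h2 : ((((u⁻¹ : (ti_under K V2)ˣ) : ti_under K V2)) : K) = z := by
        have := eq_inv_of_mul_eq_one_right h1
        rwa [inv_inv] at this
      rw [← h2]; exact ((u⁻¹ : (ti_under K V2)ˣ) : ti_under K V2).2
  letI : Algebra K V2 := ((algebraMap K L₂).codRestrict V2 hall).toAlgebra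
  haveI : IsScalarTower K V2 L₂ := IsScalarTower.of_algebraMap_eq fun x => rfl
  obtain ⟨ϖ, hϖ⟩ := IsDiscreteValuationRing.exists_irreducible V2
  have hint : IsIntegral V2 ((ϖ : L₂)⁻¹) :=
    IsIntegral.tower_top (R := K) (Algebra.IsIntegral.isIntegral _)
  obtain ⟨y, hy⟩ := IsIntegrallyClosed.isIntegral_iff.1 hint
  have hy' : (y : L₂) = (ϖ : L₂)⁻¹ := hy
  have hϖ0 : (ϖ : L₂) ≠ 0 := fun h0 => hϖ.ne_zero (Subtype.ext h0)
  apply hϖ.not_isUnit
  refine ⟨⟨ϖ, y, ?_, ?_⟩, rfl⟩
  · apply Subtype.ext; rw [Subring.coe_mul, hy']; exact mul_inv_cancel₀ hϖ0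
  · apply Subtype.ext; rw [Subring.coe_mul, hy']; exact inv_mul_cancel₀ hϖ0

theorem ti_under_dvd {x t : ti_under K V2} (ht : t ≠ 0)
    (h : IsDiscreteValuationRing.addVal V2 (ti_underHom K V2 t) ≤
      IsDiscreteValuationRing.addVal V2 (ti_underHom K V2 x)) : ∃ c : ti_under K V2, x = t * c := by
  obtain ⟨d, hd⟩ := IsDiscreteValuationRing.addVal_le_iff_dvd.1 h
  have ht0 : (t : K) ≠ 0 := fun h0 => ht (Subtype.ext h0)
  have hd' : algebraMap K L₂ (x : K) = algebraMap K L₂ (t : K) * (d : L₂) := by
    have := congrArg Subtype.val hd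
    rwa [Subring.coe_mul] at this
  have hdK : (d : L₂) = algebraMap K L₂ ((x : K) / (t : K)) := by
    rw [map_div₀, hd', mul_div_assoc, mul_comm, div_mul_cancel₀]
    exact (map_ne_zero _).2 ht0
  have hmem : (x : K) / (t : K) ∈ ti_under K V2 := by
    rw [ti_mem_under, ← hdK]; exact d.2
  refine ⟨⟨_, hmem⟩, ?_⟩
  apply Subtype.ext
  show (x : K) = (t : K) * ((x : K) / (t : K))
  rw [mul_div_cancel₀ _ ht0]

/-- **`V2 ∩ K` is a discrete valuation ring** (`L₂ / K` algebraic, `V2` a discrete valuation ring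
of `L₂`). -/
theorem ti_under_isDVR [Algebra.IsAlgebraic K L₂] : IsDiscreteValuationRing (ti_under K V2) := by
  classical
  let w : ti_under K V2 → ℕ∞ := fun x => IsDiscreteValuationRing.addVal V2 (ti_underHom K V2 x)
  have hw_top : ∀ x, x ≠ 0 → w x ≠ ⊤ := by
    intro x hx h
    apply hx
    apply ti_underHom_injective K V2
    rw [IsDiscreteValuationRing.addVal_eq_top_iff.1 h, map_zero]
  have hw_unit : ∀ x, IsUnit x ↔ w x = 0 := fun x => by
    rw [ti_under_isUnit_iff]; exact IsDiscreteValuationRing.addVal_eq_zero_iff.symm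
  have hw_mul : ∀ x y, w (x * y) = w x + w y := fun x y => by
    show IsDiscreteValuationRing.addVal V2 (ti_underHom K V2 (x * y)) = _
    rw [map_mul, IsDiscreteValuationRing.addVal_mul]
  have hex : ∃ m : ℕ, ∃ x : ti_under K V2, x ≠ 0 ∧ ¬ IsUnit x ∧ w x = m := by
    obtain ⟨x, hx0, hxu⟩ := ti_under_exists_nonunit K V2
    obtain ⟨m, hm⟩ := ENat.ne_top_iff_exists.1 (hw_top x hx0)
    exact ⟨m, x, hx0, hxu, hm.symm⟩
  obtain ⟨t, ht0, htu, hte⟩ := Nat.find_spec hex
  set e := Nat.find hex with he
  have hmin : ∀ x : ti_under K V2, x ≠ 0 → ¬ IsUnit x → (e : ℕ∞) ≤ w x := by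
    intro x hx0 hxu
    obtain ⟨m, hm⟩ := ENat.ne_top_iff_exists.1 (hw_top x hx0)
    rw [← hm]
    exact_mod_cast Nat.find_min' hex ⟨x, hx0, hxu, hm.symm⟩
  have he1 : 1 ≤ e := by
    rcases Nat.eq_zero_or_pos e with h0 | h0
    · exfalso; apply htu; rw [hw_unit, hte, h0]; rfl
    · exact h0
  have key : ∀ m : ℕ, ∀ x : ti_under K V2, x ≠ 0 → w x = m →
      ∃ k : ℕ, Associated (t ^ k) x := by
    intro m
    induction m using Nat.strong_induction_on with
    | _ m ih =>
      intro x hx0 hxm
      by_cases hxu : IsUnit x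
      · exact ⟨0, by rw [pow_zero]; exact (associated_one_iff_isUnit.2 hxu).symm⟩
      · have hle : w t ≤ w x := by rw [hte]; exact hmin x hx0 hxu
        obtain ⟨c, hc⟩ := ti_under_dvd K V2 ht0 hle
        have hc0 : c ≠ 0 := by rintro rfl; exact hx0 (by rw [hc, mul_zero])
        obtain ⟨mc, hmc⟩ := ENat.ne_top_iff_exists.1 (hw_top c hc0)
        have hsum : (m : ℕ∞) = e + mc := by
          rw [← hxm, hc, hw_mul, hte, ← hmc]
        have hsum' : m = e + mc := by exact_mod_cast hsum
        obtain ⟨k, hk⟩ := ih mc (by omega) c hc0 hmc.symm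
        refine ⟨k + 1, ?_⟩
        rw [pow_succ', hc]
        exact hk.mul_left t
  refine IsDiscreteValuationRing.ofHasUnitMulPowIrreducibleFactorization ⟨t, ⟨htu, ?_⟩, ?_⟩
  · intro a b hab
    by_contra hcon
    rw [not_or] at hcon
    obtain ⟨hau, hbu⟩ := hcon
    have ha0 : a ≠ 0 := by rintro rfl; exact ht0 (by rw [hab, zero_mul])
    have hb0 : b ≠ 0 := by rintro rfl; exact ht0 (by rw [hab, mul_zero])
    have h1 := hmin a ha0 hau
    have h2 := hmin b hb0 hbu
    have h3 : (e : ℕ∞) + e ≤ e := by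
      calc (e : ℕ∞) + e ≤ w a + w b := add_le_add h1 h2
        _ = w t := by rw [hab, hw_mul]
        _ = e := hte
    have h4 : e + e ≤ e := by exact_mod_cast h3
    omega
  · intro x hx0
    obtain ⟨m, hm⟩ := ENat.ne_top_iff_exists.1 (hw_top x hx0)
    exact key m x hx0 hm.symm

end Under

section Seam

variable {K : Type*} [Field K] [CharZero K] (V0 : Subring K) [IsDedekindDomain V0]
  [IsFractionRing V0 K]
variable (L₁ L₂ E : Type*) [Field L₁] [Field L₂] [Field E] [Algebra K L₁] [Algebra K L₂]
  [Algebra K E] [Algebra L₁ E] [Algebra L₂ E] [IsScalarTower K L₁ E] [IsScalarTower K L₂ E]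
  [FiniteDimensional K E]

/-- **[ABH] seam.** `V0 ⊆ K` Dedekind with fraction field `K` (characteristic `0`), `E = L₁ L₂` a
finite extension of `K`.  If every nonzero prime of the integral closure of `V0` in `L₁` has
ramification index dividing `n`, and every nonzero prime of the integral closure of `V0` in `L₂` has
ramification index divisible by `n`, then `E` is unramified over every discrete valuation ring `V2`
of `L₂` (of residue characteristic `0`) containing `V0`. -/
theorem ti_seam_unram
    (hgen : IntermediateField.adjoin K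
      (Set.range (algebraMap L₁ E) ∪ Set.range (algebraMap L₂ E)) = ⊤)
    (n : ℕ)
    (h1 : ∀ (P : Ideal (integralClosure V0 L₁)) [P.IsPrime], P ≠ ⊥ → P.ramificationIdx V0 ∣ n)
    (h2 : ∀ (P : Ideal (integralClosure V0 L₂)) [P.IsPrime], P ≠ ⊥ → n ∣ P.ramificationIdx V0)
    (V2 : Subring L₂) [IsDiscreteValuationRing V2] [IsFractionRing V2 L₂]
    (hV : ∀ a : V0, algebraMap K L₂ a ∈ V2) [CharZero (IsLocalRing.ResidueField V2)] :
    jt_UnramAt V2 E := by
  intro P' hP' hP'0
  haveI : FiniteDimensional K L₂ := FiniteDimensional.left K L₂ E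
  haveI : FiniteDimensional K L₁ := FiniteDimensional.left K L₁ E
  let B₁ := integralClosure V0 L₁
  let B₂ := integralClosure V0 L₂
  let B₁₂ := integralClosure V0 E
  let B' := integralClosure V2 E
  haveI : IsDedekindDomain B₂ := IsIntegralClosure.isDedekindDomain V0 K L₂ B₂
  haveI : IsFractionRing B₂ L₂ := IsIntegralClosure.isFractionRing_of_finite_extension V0 K L₂ B₂
  -- `V0 → V2`
  let φ : V0 →+* V2 := ((algebraMap K L₂).comp V0.subtype).codRestrict V2 hV
  letI aV0V2 : Algebra V0 V2 := φ.toAlgebra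
  haveI : IsScalarTower V0 V2 L₂ := IsScalarTower.of_algebraMap_eq fun x => rfl
  haveI : IsScalarTower V0 V2 E := IsScalarTower.of_algebraMap_eq fun x =>
    IsScalarTower.algebraMap_apply K L₂ E (x : K)
  -- `B₂ ⊆ V2`
  have hBV : ∀ b : B₂, algebraMap B₂ L₂ b ∈ V2 := by
    intro b
    have hb : IsIntegral V2 (b : L₂) := IsIntegral.tower_top (R := V0) b.2
    obtain ⟨y, hy⟩ := IsIntegrallyClosed.isIntegral_iff.1 hb
    have : algebraMap B₂ L₂ b = (y : L₂) := hy.symm
    rw [this]; exact y.2
  -- the centre of `V2` on `B₂`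
  have hp2 : ti_centre V2 hBV ≠ ⊥ := by
    apply ti_centre_ne_bot
    obtain ⟨ϖ, hϖ⟩ := IsDiscreteValuationRing.exists_irreducible V2
    exact ⟨ϖ, hϖ.ne_zero, hϖ.not_isUnit⟩
  haveI hp2prime : (ti_centre V2 hBV).IsPrime := Ideal.comap_isPrime _ _
  letI aB2V2 : Algebra B₂ V2 := (ti_toSub V2 hBV).toAlgebra
  haveI hloc : IsLocalization.AtPrime V2 (ti_centre V2 hBV) :=
    ti_isLocalization_centre V2 hBV hp2
  -- towers over `V0`
  letI b2b12 : Algebra B₂ B₁₂ := (ti_icMap V0 L₂ E).toRingHom.toAlgebra
  letI b1b12 : Algebra B₁ B₁₂ := (ti_icMap V0 L₁ E).toRingHom.toAlgebra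
  -- `B₁₂ → B'`
  let ι : B₁₂ →+* B' :=
    { toFun := fun x => ⟨x.1, IsIntegral.tower_top (R := V0) x.2⟩
      map_one' := rfl
      map_mul' := fun _ _ => rfl
      map_zero' := rfl
      map_add' := fun _ _ => rfl }
  letI b12B' : Algebra B₁₂ B' := ι.toAlgebra
  letI b2B' : Algebra B₂ B' := ((algebraMap V2 B').comp (algebraMap B₂ V2)).toAlgebra
  haveI : IsScalarTower B₂ V2 E := IsScalarTower.of_algebraMap_eq fun x => rfl
  haveI : IsScalarTower B₂ B₁₂ E := IsScalarTower.of_algebraMap_eq fun x => rfl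
  haveI : IsScalarTower B₁₂ B' E := IsScalarTower.of_algebraMap_eq fun x => rfl
  haveI : IsScalarTower B₂ V2 B' := IsScalarTower.of_algebraMap_eq fun x => rfl
  haveI : IsScalarTower B₂ B₁₂ B' := IsScalarTower.of_algebraMap_eq fun x => rfl
  haveI hlocB : IsLocalization
      (Algebra.algebraMapSubmonoid B₁₂ (ti_centre V2 hBV).primeCompl) B' :=
    ti_ic_isLocalization V0 B₂ V2 E (ti_centre V2 hBV).primeCompl
  -- the prime `P = P' ∩ B₁₂`
  set P : Ideal B₁₂ := P'.comap (algebraMap B₁₂ B') with hPdef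
  haveI hPprime : P.IsPrime := Ideal.comap_isPrime _ _
  have hP0 : P ≠ ⊥ := by
    intro h0
    apply hP'0
    have hmap : P.map (algebraMap B₁₂ B') = P' := IsLocalization.map_under
      (Algebra.algebraMapSubmonoid B₁₂ (ti_centre V2 hBV).primeCompl) B' P'
    rw [← hmap, h0, Ideal.map_bot]
  -- residue characteristic zero
  haveI hchar : CharZero (B₁₂ ⧸ P) := by
    set q : Ideal V2 := P'.comap (algebraMap V2 B') with hq
    haveI : q.IsPrime := Ideal.comap_isPrime _ _
    have hqm : q ≤ IsLocalRing.maximalIdeal V2 := IsLocalRing.le_maximalIdeal (Ideal.IsPrime.ne_top')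
    let f1 : V2 ⧸ q →+* IsLocalRing.ResidueField V2 := Ideal.Quotient.factor hqm
    haveI : CharZero (V2 ⧸ q) := RingHom.charZero f1
    let f2 : V2 ⧸ q →+* B' ⧸ P' := Ideal.quotientMap P' (algebraMap V2 B') le_rfl
    have hf2 : Function.Injective f2 := Ideal.quotientMap_injective
    haveI : CharZero (B' ⧸ P') := charZero_of_injective_ringHom hf2
    let f3 : B₁₂ ⧸ P →+* B' ⧸ P' := Ideal.quotientMap P' (algebraMap B₁₂ B') le_rfl
    exact RingHom.charZero f3
  -- the primes below `P` are nonzero
  haveI : IsScalarTower V0 B₁ B₁₂ := IsScalarTower.of_algebraMap_eq fun x =>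
    ((ti_icMap V0 L₁ E).commutes x).symm
  haveI : IsScalarTower V0 B₂ B₁₂ := IsScalarTower.of_algebraMap_eq fun x =>
    ((ti_icMap V0 L₂ E).commutes x).symm
  haveI : Algebra.IsIntegral B₁ B₁₂ := Algebra.IsIntegral.tower_top (R := V0)
  haveI : Algebra.IsIntegral B₂ B₁₂ := Algebra.IsIntegral.tower_top (R := V0)
  have hP1 : P.comap (ti_icMap V0 L₁ E) ≠ ⊥ := fun h0 =>
    hP0 (Ideal.eq_bot_of_comap_eq_bot (R := B₁) h0)
  have hP2 : P.comap (ti_icMap V0 L₂ E) ≠ ⊥ := fun h0 =>
    hP0 (Ideal.eq_bot_of_comap_eq_bot (R := B₂) h0)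
  haveI : (P.comap (ti_icMap V0 L₁ E)).IsPrime := Ideal.comap_isPrime _ _
  haveI : (P.comap (ti_icMap V0 L₂ E)).IsPrime := Ideal.comap_isPrime _ _
  have hdvd : (P.comap (ti_icMap V0 L₁ E)).ramificationIdx V0 ∣
      (P.comap (ti_icMap V0 L₂ E)).ramificationIdx V0 :=
    (h1 _ hP1).trans (h2 _ hP2)
  have hunr : Algebra.IsUnramifiedAt B₂ P := ti_abhyankar_unb V0 K L₁ L₂ E hgen P hP0 hdvd
  exact ti_isUnramifiedAt_localization (ti_centre V2 hBV).primeCompl V2 B' P' hunr

/-- `ti_seam_unram` for a `Subalgebra` carrier (e.g. `el_bd_loc K p`), conclusion in the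
arbitrary-carrier form `jt_Unram`. -/
theorem ti_seam_unram_subalgebra
    (hgen : IntermediateField.adjoin K
      (Set.range (algebraMap L₁ E) ∪ Set.range (algebraMap L₂ E)) = ⊤)
    (n : ℕ)
    (h1 : ∀ (P : Ideal (integralClosure V0 L₁)) [P.IsPrime], P ≠ ⊥ → P.ramificationIdx V0 ∣ n)
    (h2 : ∀ (P : Ideal (integralClosure V0 L₂)) [P.IsPrime], P ≠ ⊥ → n ∣ P.ramificationIdx V0)
    {R₀ : Type*} [CommRing R₀] [Algebra R₀ L₂] (V2 : Subalgebra R₀ L₂)
    [hdvr : IsDiscreteValuationRing V2] [hfrac : IsFractionRing V2 L₂]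
    (hV : ∀ a : V0, algebraMap K L₂ a ∈ V2) [hchar : CharZero (IsLocalRing.ResidueField V2)] :
    jt_Unram V2 E := by
  haveI : IsDiscreteValuationRing V2.toSubring := hdvr
  haveI : IsFractionRing V2.toSubring L₂ := hfrac
  haveI : CharZero (IsLocalRing.ResidueField V2.toSubring) := hchar
  exact ti_seam_unram V0 L₁ L₂ E hgen n h1 h2 V2.toSubring hV

end Seam

section SeamUnder

variable {K : Type*} [Field K] [CharZero K]
variable (L₁ L₂ E : Type*) [Field L₁] [Field L₂] [Field E] [Algebra K L₁] [Algebra K L₂]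
  [Algebra K E] [Algebra L₁ E] [Algebra L₂ E] [IsScalarTower K L₁ E] [IsScalarTower K L₂ E]
  [FiniteDimensional K E]

/-- `ti_seam_unram` with `V0 := V2 ∩ K` (which is a discrete valuation ring with fraction field
`K`, `ti_under_isDVR`). -/
theorem ti_seam_unram_under
    (hgen : IntermediateField.adjoin K
      (Set.range (algebraMap L₁ E) ∪ Set.range (algebraMap L₂ E)) = ⊤)
    (V2 : Subring L₂) [IsDiscreteValuationRing V2] [IsFractionRing V2 L₂]
    [CharZero (IsLocalRing.ResidueField V2)] (n : ℕ)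
    (h1 : ∀ (P : Ideal (integralClosure (ti_under K V2) L₁)) [P.IsPrime], P ≠ ⊥ →
      P.ramificationIdx (ti_under K V2) ∣ n)
    (h2 : ∀ (P : Ideal (integralClosure (ti_under K V2) L₂)) [P.IsPrime], P ≠ ⊥ →
      n ∣ P.ramificationIdx (ti_under K V2)) :
    jt_UnramAt V2 E := by
  haveI : FiniteDimensional K L₂ := FiniteDimensional.left K L₂ E
  haveI : IsDiscreteValuationRing (ti_under K V2) := ti_under_isDVR K V2
  haveI : IsFractionRing (ti_under K V2) K := ti_under_isFractionRing K V2
  exact ti_seam_unram (ti_under K V2) L₁ L₂ E hgen n h1 h2 V2 (fun a => a.2)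

end SeamUnder

section Hgen

/-- `hgen` of `ti_seam_unram` for intermediate fields of `E` itself: `F1 ⊔ F2 = ⊤`. -/
theorem ti_hgen_of_sup_eq_top {k E : Type*} [Field k] [Field E] [Algebra k E]
    (K' F1 F2 : IntermediateField k E) (h : F1 ⊔ F2 = ⊤) :
    IntermediateField.adjoin K' (Set.range (algebraMap F1 E) ∪ Set.range (algebraMap F2 E)) = ⊤ := by
  rw [← IntermediateField.restrictScalars_eq_top_iff (K := k), eq_top_iff, ← h]
  refine sup_le ?_ ?_
  · intro x hx
    rw [IntermediateField.mem_restrictScalars]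
    exact IntermediateField.subset_adjoin _ _ (Or.inl ⟨⟨x, hx⟩, rfl⟩)
  · intro x hx
    rw [IntermediateField.mem_restrictScalars]
    exact IntermediateField.subset_adjoin _ _ (Or.inr ⟨⟨x, hx⟩, rfl⟩)

/-- `hgen` of `ti_seam_unram` for `E = F1 ⊔ F2` inside an ambient field, over a common subfield
`K'` (algebra structures `ti_algIF`). -/
theorem ti_hgen_of_sup {k Ω : Type*} [Field k] [Field Ω] [Algebra k Ω]
    (K' F1 F2 : IntermediateField k Ω) (h1 : K' ≤ F1) (_h2 : K' ≤ F2) :
    letI := ti_algIF (h1.trans le_sup_left : K' ≤ F1 ⊔ F2)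
    letI := ti_algIF (le_sup_left : F1 ≤ F1 ⊔ F2)
    letI := ti_algIF (le_sup_right : F2 ≤ F1 ⊔ F2)
    IntermediateField.adjoin K' (Set.range (algebraMap F1 (F1 ⊔ F2 : IntermediateField k Ω)) ∪
      Set.range (algebraMap F2 (F1 ⊔ F2 : IntermediateField k Ω))) = ⊤ := by
  letI a0 := ti_algIF (h1.trans le_sup_left : K' ≤ F1 ⊔ F2)
  letI a1 := ti_algIF (le_sup_left : F1 ≤ F1 ⊔ F2)
  letI a2 := ti_algIF (le_sup_right : F2 ≤ F1 ⊔ F2)
  haveI : IsScalarTower k K' (F1 ⊔ F2 : IntermediateField k Ω) :=
    IsScalarTower.of_algebraMap_eq fun x => rfl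
  have hmem1 : ∀ (x : Ω) (hx : x ∈ F1),
      (⟨x, (le_sup_left : F1 ≤ F1 ⊔ F2) hx⟩ : (F1 ⊔ F2 : IntermediateField k Ω)) ∈
        IntermediateField.adjoin K'
          (Set.range (algebraMap F1 (F1 ⊔ F2 : IntermediateField k Ω)) ∪
            Set.range (algebraMap F2 (F1 ⊔ F2 : IntermediateField k Ω))) := by
    intro x hx
    apply IntermediateField.subset_adjoin
    left
    exact ⟨⟨x, hx⟩, rfl⟩
  have hmem2 : ∀ (x : Ω) (hx : x ∈ F2),
      (⟨x, (le_sup_right : F2 ≤ F1 ⊔ F2) hx⟩ : (F1 ⊔ F2 : IntermediateField k Ω)) ∈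
        IntermediateField.adjoin K'
          (Set.range (algebraMap F1 (F1 ⊔ F2 : IntermediateField k Ω)) ∪
            Set.range (algebraMap F2 (F1 ⊔ F2 : IntermediateField k Ω))) := by
    intro x hx
    apply IntermediateField.subset_adjoin
    right
    exact ⟨⟨x, hx⟩, rfl⟩
  generalize IntermediateField.adjoin K'
      (Set.range (algebraMap F1 (F1 ⊔ F2 : IntermediateField k Ω)) ∪
        Set.range (algebraMap F2 (F1 ⊔ F2 : IntermediateField k Ω))) = T at hmem1 hmem2 ⊢
  let T' : IntermediateField k Ω := (T.restrictScalars k).map (F1 ⊔ F2 : IntermediateField k Ω).val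
  have hF1 : F1 ≤ T' := fun x hx =>
    ⟨⟨x, (le_sup_left : F1 ≤ F1 ⊔ F2) hx⟩, hmem1 x hx, rfl⟩
  have hF2 : F2 ≤ T' := fun x hx =>
    ⟨⟨x, (le_sup_right : F2 ≤ F1 ⊔ F2) hx⟩, hmem2 x hx, rfl⟩
  rw [eq_top_iff]
  intro x _
  obtain ⟨y, hy, hyx⟩ := (sup_le hF1 hF2) x.2
  have : y = x := Subtype.ext hyx
  rw [← this]
  exact hy

end Hgen

end Fermat.Agent.JT3
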