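/-
JT3 / Route R, node [ABH] / [SEAM] (helper11), part 6.  Prefix `ti_` (continued).

* `ti_div_unb`               : (DIV) in the unbundled field form of `AbhyankarSeam.lean`.
* `ti_charZero_residueField` : a local subring containing a field of characteristic `0` has
  residue characteristic `0`.
* **`ti_seam_div`**          : `e(P₁ | V0) ∣ n` for all primes of the integral closure of `V0` in
  `L₁` ⟹ `e(P | V2) ∣ n` for all primes of the integral closure in `E = L₁ L₂` of a discrete
  valuation ring `V2 ⊇ V0` of `L₂` (the shape of `hT` of `mdl_regAt`).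
* `ti_unram_congr`           : transport of `jt_Unram` along ring isomorphisms of the carrier and
  of the field.
-/
import Mathlib
import Fermat.Agent.JT3.Algebra.AbhyankarSeam

set_option autoImplicit false
set_option linter.unusedSectionVars false
set_option linter.style.haveILetI false

namespace Fermat.Agent.JT3

open IntermediateField

section UnbundledDiv

variable (A K : Type*) [CommRing A] [IsDedekindDomain A] [Field K] [Algebra A K]
  [IsFractionRing A K] [CharZero K]
variable (L₁ L₂ E : Type*) [Field L₁] [Field L₂] [Field E] [Algebra K L₁] [Algebra K L₂]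
  [Algebra K E] [Algebra A L₁] [Algebra A L₂] [Algebra A E] [IsScalarTower A K L₁]
  [IsScalarTower A K L₂] [IsScalarTower A K E] [Algebra L₁ E] [Algebra L₂ E]
  [IsScalarTower K L₁ E] [IsScalarTower K L₂ E] [IsScalarTower A L₁ E] [IsScalarTower A L₂ E]
  [FiniteDimensional K E]

/-- **(DIV), unbundled field form**: `e(P | B₂)` divides `e(P ∩ B₁ | A)`. -/
theorem ti_div_unb
    (hgen : IntermediateField.adjoin K
      (Set.range (algebraMap L₁ E) ∪ Set.range (algebraMap L₂ E)) = ⊤)
    (P : Ideal (integralClosure A E)) [P.IsPrime] (hP : P ≠ ⊥)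
    [CharZero (integralClosure A E ⧸ P)] :
    letI := (ti_icMap A L₂ E).toRingHom.toAlgebra
    P.ramificationIdx (integralClosure A L₂) ∣
      (P.comap (ti_icMap A L₁ E)).ramificationIdx A := by
  let M := ti_gc K E
  haveI : FiniteDimensional K M := ti_gc_finite K E
  haveI : IsGalois K M := ti_gc_isGalois K E
  -- field level
  letI aAM : Algebra A M := ((algebraMap K M).comp (algebraMap A K)).toAlgebra
  haveI : IsScalarTower A K M := IsScalarTower.of_algebraMap_eq fun x => rfl
  letI a1M : Algebra L₁ M := ((algebraMap E M).comp (algebraMap L₁ E)).toAlgebra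
  letI a2M : Algebra L₂ M := ((algebraMap E M).comp (algebraMap L₂ E)).toAlgebra
  haveI s1 : IsScalarTower L₁ E M := IsScalarTower.of_algebraMap_eq fun x => rfl
  haveI s2 : IsScalarTower L₂ E M := IsScalarTower.of_algebraMap_eq fun x => rfl
  haveI : IsScalarTower K L₁ M := IsScalarTower.of_algebraMap_eq fun x => by
    rw [IsScalarTower.algebraMap_apply L₁ E M, ← IsScalarTower.algebraMap_apply K L₁ E,
      ← IsScalarTower.algebraMap_apply K E M]
  haveI : IsScalarTower K L₂ M := IsScalarTower.of_algebraMap_eq fun x => by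
    rw [IsScalarTower.algebraMap_apply L₂ E M, ← IsScalarTower.algebraMap_apply K L₂ E,
      ← IsScalarTower.algebraMap_apply K E M]
  haveI tAEM : IsScalarTower A E M := IsScalarTower.of_algebraMap_eq fun x => by
    rw [IsScalarTower.algebraMap_apply A K M, IsScalarTower.algebraMap_apply A K E,
      ← IsScalarTower.algebraMap_apply K E M]
  haveI tA1M : IsScalarTower A L₁ M := IsScalarTower.of_algebraMap_eq fun x => by
    rw [IsScalarTower.algebraMap_apply A E M, IsScalarTower.algebraMap_apply A L₁ E,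
      ← IsScalarTower.algebraMap_apply L₁ E M]
  haveI tA2M : IsScalarTower A L₂ M := IsScalarTower.of_algebraMap_eq fun x => by
    rw [IsScalarTower.algebraMap_apply A E M, IsScalarTower.algebraMap_apply A L₂ E,
      ← IsScalarTower.algebraMap_apply L₂ E M]
  -- ring level
  let B₁ := integralClosure A L₁
  let B₂ := integralClosure A L₂
  let B₁₂ := integralClosure A E
  let C := integralClosure A M
  letI b1C : Algebra B₁ C := (ti_icMap A L₁ M).toRingHom.toAlgebra
  letI b2C : Algebra B₂ C := (ti_icMap A L₂ M).toRingHom.toAlgebra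
  letI b12C : Algebra B₁₂ C := (ti_icMap A E M).toRingHom.toAlgebra
  letI b1M : Algebra B₁ M := ((algebraMap L₁ M).comp (algebraMap B₁ L₁)).toAlgebra
  letI b2M : Algebra B₂ M := ((algebraMap L₂ M).comp (algebraMap B₂ L₂)).toAlgebra
  letI b12M : Algebra B₁₂ M := ((algebraMap E M).comp (algebraMap B₁₂ E)).toAlgebra
  letI b2b12 : Algebra B₂ B₁₂ := (ti_icMap A L₂ E).toRingHom.toAlgebra
  letI b1b12 : Algebra B₁ B₁₂ := (ti_icMap A L₁ E).toRingHom.toAlgebra
  haveI t1 := IsScalarTower.of_algebraMap_eq (R := B₁) (S := C) (A := M) fun x => rfl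
  haveI t2 := IsScalarTower.of_algebraMap_eq (R := B₂) (S := C) (A := M) fun x => rfl
  haveI t12 := IsScalarTower.of_algebraMap_eq (R := B₁₂) (S := C) (A := M) fun x => rfl
  haveI u1 := IsScalarTower.of_algebraMap_eq (R := B₁) (S := L₁) (A := M) fun x => rfl
  haveI u2 := IsScalarTower.of_algebraMap_eq (R := B₂) (S := L₂) (A := M) fun x => rfl
  haveI u12 := IsScalarTower.of_algebraMap_eq (R := B₁₂) (S := E) (A := M) fun x => rfl
  haveI v1 := IsScalarTower.of_algebraMap_eq (R := A) (S := B₁) (A := C) fun x =>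
    ((ti_icMap A L₁ M).commutes x).symm
  haveI v2 := IsScalarTower.of_algebraMap_eq (R := A) (S := B₂) (A := C) fun x =>
    ((ti_icMap A L₂ M).commutes x).symm
  haveI v12 := IsScalarTower.of_algebraMap_eq (R := A) (S := B₁₂) (A := C) fun x =>
    ((ti_icMap A E M).commutes x).symm
  haveI w2 := IsScalarTower.of_algebraMap_eq (R := B₂) (S := B₁₂) (A := C) fun x => rfl
  haveI w1 := IsScalarTower.of_algebraMap_eq (R := B₁) (S := B₁₂) (A := C) fun x => rfl
  haveI : Algebra.IsAlgebraic K E := Algebra.IsAlgebraic.of_finite K E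
  have hH := ti_fix_compositum K M L₁ L₂ E hgen
  exact ti_div_aklb' A K M C L₁ B₁ L₂ B₂ E B₁₂ hH P hP

end UnbundledDiv

section SeamDiv

variable {K : Type*} [Field K] [CharZero K] (V0 : Subring K) [IsDedekindDomain V0]
  [IsFractionRing V0 K]
variable (L₁ L₂ E : Type*) [Field L₁] [Field L₂] [Field E] [Algebra K L₁] [Algebra K L₂]
  [Algebra K E] [Algebra L₁ E] [Algebra L₂ E] [IsScalarTower K L₁ E] [IsScalarTower K L₂ E]
  [FiniteDimensional K E]

/-- **(DIV) seam.** `V0 ⊆ K` Dedekind with fraction field `K` (characteristic `0`), `E = L₁ L₂`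
finite over `K`.  If every nonzero prime of the integral closure of `V0` in `L₁` has ramification
index dividing `n`, then for every discrete valuation ring `V2 ⊇ V0` of `L₂` (of residue
characteristic `0`) every nonzero prime of the integral closure of `V2` in `E` has ramification
index dividing `n`. -/
theorem ti_seam_div
    (hgen : IntermediateField.adjoin K
      (Set.range (algebraMap L₁ E) ∪ Set.range (algebraMap L₂ E)) = ⊤)
    (n : ℕ)
    (h1 : ∀ (P : Ideal (integralClosure V0 L₁)) [P.IsPrime], P ≠ ⊥ → P.ramificationIdx V0 ∣ n)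
    (V2 : Subring L₂) [IsDiscreteValuationRing V2] [IsFractionRing V2 L₂]
    (hV : ∀ a : V0, algebraMap K L₂ a ∈ V2) [CharZero (IsLocalRing.ResidueField V2)]
    (P' : Ideal (integralClosure V2 E)) [hP' : P'.IsPrime] (hP'0 : P' ≠ ⊥) :
    P'.ramificationIdx V2 ∣ n := by
  haveI : FiniteDimensional K L₂ := FiniteDimensional.left K L₂ E
  haveI : FiniteDimensional K L₁ := FiniteDimensional.left K L₁ E
  let B₁ := integralClosure V0 L₁
  let B₂ := integralClosure V0 L₂
  let B₁₂ := integralClosure V0 E
  let B' := integralClosure V2 E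
  haveI : IsDedekindDomain B₂ := IsIntegralClosure.isDedekindDomain V0 K L₂ B₂
  haveI : IsFractionRing B₂ L₂ := IsIntegralClosure.isFractionRing_of_finite_extension V0 K L₂ B₂
  -- `V0 → V2`
  let φ : V0 →+* V2 := ((algebraMap K L₂).comp V0.subtype).codRestrict V2 hV
  letI aV0V2 : Algebra V0 V2 := φ.toAlgebra
  haveI : IsScalarTower V0 V2 L₂ := IsScalarTower.of_algebraMap_eq fun x => rfl
  haveI : IsScalarTower V0 V2 E := IsScalarTower.of_algebraMap_eq fun x =>
    IsScalarTower.algebraMap_apply K L₂ E (x : K)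
  -- `B₂ ⊆ V2`
  have hBV : ∀ b : B₂, algebraMap B₂ L₂ b ∈ V2 := by
    intro b
    have hb : IsIntegral V2 (b : L₂) := IsIntegral.tower_top (R := V0) b.2
    obtain ⟨y, hy⟩ := IsIntegrallyClosed.isIntegral_iff.1 hb
    have : algebraMap B₂ L₂ b = (y : L₂) := hy.symm
    rw [this]; exact y.2
  -- the centre of `V2` on `B₂`
  have hp2 : ti_centre V2 hBV ≠ ⊥ := by
    apply ti_centre_ne_bot
    obtain ⟨ϖ, hϖ⟩ := IsDiscreteValuationRing.exists_irreducible V2
    exact ⟨ϖ, hϖ.ne_zero, hϖ.not_isUnit⟩
  haveI hp2prime : (ti_centre V2 hBV).IsPrime := Ideal.comap_isPrime _ _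
  letI aB2V2 : Algebra B₂ V2 := (ti_toSub V2 hBV).toAlgebra
  haveI hloc : IsLocalization.AtPrime V2 (ti_centre V2 hBV) :=
    ti_isLocalization_centre V2 hBV hp2
  -- towers over `V0`
  letI b2b12 : Algebra B₂ B₁₂ := (ti_icMap V0 L₂ E).toRingHom.toAlgebra
  letI b1b12 : Algebra B₁ B₁₂ := (ti_icMap V0 L₁ E).toRingHom.toAlgebra
  -- `B₁₂ → B'`
  let ι : B₁₂ →+* B' :=
    { toFun := fun x => ⟨x.1, IsIntegral.tower_top (R := V0) x.2⟩
      map_one' := rfl
      map_mul' := fun _ _ => rfl
      map_zero' := rfl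
      map_add' := fun _ _ => rfl }
  letI b12B' : Algebra B₁₂ B' := ι.toAlgebra
  letI b2B' : Algebra B₂ B' := ((algebraMap V2 B').comp (algebraMap B₂ V2)).toAlgebra
  haveI : IsScalarTower B₂ V2 E := IsScalarTower.of_algebraMap_eq fun x => rfl
  haveI : IsScalarTower B₂ B₁₂ E := IsScalarTower.of_algebraMap_eq fun x => rfl
  haveI : IsScalarTower B₁₂ B' E := IsScalarTower.of_algebraMap_eq fun x => rfl
  haveI : IsScalarTower B₂ V2 B' := IsScalarTower.of_algebraMap_eq fun x => rfl
  haveI : IsScalarTower B₂ B₁₂ B' := IsScalarTower.of_algebraMap_eq fun x => rfl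
  haveI hlocB : IsLocalization
      (Algebra.algebraMapSubmonoid B₁₂ (ti_centre V2 hBV).primeCompl) B' :=
    ti_ic_isLocalization V0 B₂ V2 E (ti_centre V2 hBV).primeCompl
  -- the prime `P = P' ∩ B₁₂`
  set P : Ideal B₁₂ := P'.comap (algebraMap B₁₂ B') with hPdef
  haveI hPprime : P.IsPrime := Ideal.comap_isPrime _ _
  have hP0 : P ≠ ⊥ := by
    intro h0
    apply hP'0
    have hmap : P.map (algebraMap B₁₂ B') = P' := IsLocalization.map_under
      (Algebra.algebraMapSubmonoid B₁₂ (ti_centre V2 hBV).primeCompl) B' P'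
    rw [← hmap, h0, Ideal.map_bot]
  -- residue characteristic zero
  haveI hchar : CharZero (B₁₂ ⧸ P) := by
    set q : Ideal V2 := P'.comap (algebraMap V2 B') with hq
    haveI : q.IsPrime := Ideal.comap_isPrime _ _
    have hqm : q ≤ IsLocalRing.maximalIdeal V2 := IsLocalRing.le_maximalIdeal (Ideal.IsPrime.ne_top')
    let f1 : V2 ⧸ q →+* IsLocalRing.ResidueField V2 := Ideal.Quotient.factor hqm
    haveI : CharZero (V2 ⧸ q) := RingHom.charZero f1
    let f2 : V2 ⧸ q →+* B' ⧸ P' := Ideal.quotientMap P' (algebraMap V2 B') le_rfl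
    have hf2 : Function.Injective f2 := Ideal.quotientMap_injective
    haveI : CharZero (B' ⧸ P') := charZero_of_injective_ringHom hf2
    let f3 : B₁₂ ⧸ P →+* B' ⧸ P' := Ideal.quotientMap P' (algebraMap B₁₂ B') le_rfl
    exact RingHom.charZero f3
  -- the primes below `P` are nonzero
  haveI : IsScalarTower V0 B₁ B₁₂ := IsScalarTower.of_algebraMap_eq fun x =>
    ((ti_icMap V0 L₁ E).commutes x).symm
  haveI : IsScalarTower V0 B₂ B₁₂ := IsScalarTower.of_algebraMap_eq fun x =>
    ((ti_icMap V0 L₂ E).commutes x).symm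
  haveI : Algebra.IsIntegral B₁ B₁₂ := Algebra.IsIntegral.tower_top (R := V0)
  haveI : Algebra.IsIntegral B₂ B₁₂ := Algebra.IsIntegral.tower_top (R := V0)
  have hP1 : P.comap (ti_icMap V0 L₁ E) ≠ ⊥ := fun h0 =>
    hP0 (Ideal.eq_bot_of_comap_eq_bot (R := B₁) h0)
  haveI : (P.comap (ti_icMap V0 L₁ E)).IsPrime := Ideal.comap_isPrime _ _
  have hdiv : P.ramificationIdx B₂ ∣ (P.comap (ti_icMap V0 L₁ E)).ramificationIdx V0 :=
    ti_div_unb V0 K L₁ L₂ E hgen P hP0
  -- `P` lies over the centre of `V2`
  have hmap : P.map (algebraMap B₁₂ B') = P' := IsLocalization.map_under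
    (Algebra.algebraMapSubmonoid B₁₂ (ti_centre V2 hBV).primeCompl) B' P'
  haveI hlies : P.LiesOver (ti_centre V2 hBV) := by
    constructor
    -- `P' ∩ V2 = 𝔪`
    have hq : P'.comap (algebraMap V2 B') = IsLocalRing.maximalIdeal V2 := by
      haveI : (P'.comap (algebraMap V2 B')).IsPrime := Ideal.comap_isPrime _ _
      have hne : P'.comap (algebraMap V2 B') ≠ ⊥ := fun h0 =>
        hP'0 (Ideal.eq_bot_of_comap_eq_bot (R := V2) h0)
      exact IsLocalRing.eq_maximalIdeal (Ideal.IsPrime.isMaximal inferInstance hne)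
    ext b
    rw [Ideal.mem_comap, ← hq, Ideal.mem_comap, Ideal.under_def, Ideal.mem_comap,
      Ideal.mem_comap]
    exact Iff.rfl
  have hkey : P'.ramificationIdx V2 = P.ramificationIdx B₂ := by
    rw [← hmap]
    exact IsLocalization.AtPrime.ramificationIdx_map_eq_ramificationIdx
      (ti_centre V2 hBV) V2 B' P
  rw [hkey]
  exact hdiv.trans (h1 _ hP1)

end SeamDiv

section SeamDivUnder

variable {K : Type*} [Field K] [CharZero K]
variable (L₁ L₂ E : Type*) [Field L₁] [Field L₂] [Field E] [Algebra K L₁] [Algebra K L₂]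
  [Algebra K E] [Algebra L₁ E] [Algebra L₂ E] [IsScalarTower K L₁ E] [IsScalarTower K L₂ E]
  [FiniteDimensional K E]

/-- `ti_seam_div` with `V0 := V2 ∩ K`. -/
theorem ti_seam_div_under
    (hgen : IntermediateField.adjoin K
      (Set.range (algebraMap L₁ E) ∪ Set.range (algebraMap L₂ E)) = ⊤)
    (V2 : Subring L₂) [IsDiscreteValuationRing V2] [IsFractionRing V2 L₂]
    [CharZero (IsLocalRing.ResidueField V2)] (n : ℕ)
    (h1 : ∀ (P : Ideal (integralClosure (ti_under K V2) L₁)) [P.IsPrime], P ≠ ⊥ →
      P.ramificationIdx (ti_under K V2) ∣ n)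
    (P' : Ideal (integralClosure V2 E)) [P'.IsPrime] (hP'0 : P' ≠ ⊥) :
    P'.ramificationIdx V2 ∣ n := by
  haveI : FiniteDimensional K L₂ := FiniteDimensional.left K L₂ E
  haveI : IsDiscreteValuationRing (ti_under K V2) := ti_under_isDVR K V2
  haveI : IsFractionRing (ti_under K V2) K := ti_under_isFractionRing K V2
  exact ti_seam_div (ti_under K V2) L₁ L₂ E hgen n h1 V2 (fun a => a.2) P' hP'0

end SeamDivUnder

section CharZeroRes

/-- A local subring containing (the image of) a field of characteristic `0` has residue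
characteristic `0`. -/
theorem ti_charZero_residueField (L : Type*) {K : Type*} [Field L] [CharZero L] [Field K]
    [Algebra L K] (V2 : Subring K) [IsLocalRing V2] (hL : ∀ a : L, algebraMap L K a ∈ V2) :
    CharZero (IsLocalRing.ResidueField V2) := by
  let f : L →+* IsLocalRing.ResidueField V2 :=
    (IsLocalRing.residue V2).comp ((algebraMap L K).codRestrict V2 hL)
  exact charZero_of_injective_ringHom f.injective

end CharZeroRes

section Congr

variable {S S' E E' : Type*} [CommRing S] [CommRing S'] [Field E] [Field E'] [Algebra S E]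
  [Algebra S' E']

/-- Transport of the seam `jt_Unram` along isomorphisms of the carrier and of the field. -/
theorem ti_unram_congr (eS : S ≃+* S') (eE : E ≃+* E')
    (hc : ∀ s, eE (algebraMap S E s) = algebraMap S' E' (eS s)) (h : jt_Unram S E) :
    jt_Unram S' E' := by
  intro P' hP' hP'0
  let B := integralClosure S E
  let B' := integralClosure S' E'
  have hc' : ∀ s', eE.symm (algebraMap S' E' s') = algebraMap S E (eS.symm s') := by
    intro s'
    apply eE.injective
    rw [hc, RingEquiv.apply_symm_apply, RingEquiv.apply_symm_apply]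
  have hint : ∀ x : E, IsIntegral S x → IsIntegral S' (eE x) := fun x hx =>
    hx.map_of_comp_eq eS.toRingHom eE.toRingHom (by ext s; exact (hc s).symm)
  have hint' : ∀ y : E', IsIntegral S' y → IsIntegral S (eE.symm y) := fun y hy =>
    hy.map_of_comp_eq eS.symm.toRingHom eE.symm.toRingHom (by ext s; exact (hc' s).symm)
  let ψ : B ≃+* B' :=
    { toFun := fun x => ⟨eE x.1, hint x.1 x.2⟩
      invFun := fun y => ⟨eE.symm y.1, hint' y.1 y.2⟩
      left_inv := fun x => Subtype.ext (eE.symm_apply_apply x.1)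
      right_inv := fun y => Subtype.ext (eE.apply_symm_apply y.1)
      map_mul' := fun x y => Subtype.ext (map_mul eE x.1 y.1)
      map_add' := fun x y => Subtype.ext (map_add eE x.1 y.1) }
  have hψalg : ∀ t : S, ψ (algebraMap S B t) = algebraMap S' B' (eS t) := fun t =>
    Subtype.ext (hc t)
  set P : Ideal B := P'.comap ψ.toRingHom with hPdef
  haveI hPprime : P.IsPrime := Ideal.comap_isPrime _ _
  have hP0 : P ≠ ⊥ := by
    intro h0
    apply hP'0
    rw [eq_bot_iff]
    intro y hy
    have : ψ.symm y ∈ P := by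
      rw [hPdef, Ideal.mem_comap]
      show ψ (ψ.symm y) ∈ P'
      rw [RingEquiv.apply_symm_apply]; exact hy
    rw [h0, Ideal.mem_bot] at this
    rw [Ideal.mem_bot, ← ψ.apply_symm_apply y, this, map_zero]
  have hunr : Algebra.FormallyUnramified S (Localization.AtPrime P) := h P hP0
  letI a1 : Algebra S' S := eS.symm.toRingHom.toAlgebra
  letI a2 : Algebra S' (Localization.AtPrime P) :=
    ((algebraMap S (Localization.AtPrime P)).comp eS.symm.toRingHom).toAlgebra
  haveI : IsScalarTower S' S (Localization.AtPrime P) :=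
    IsScalarTower.of_algebraMap_eq fun _ => rfl
  haveI : Algebra.FormallyUnramified S' S :=
    Algebra.FormallyUnramified.of_surjective (Algebra.ofId S' S) eS.symm.surjective
  haveI : Algebra.FormallyUnramified S' (Localization.AtPrime P) :=
    Algebra.FormallyUnramified.comp S' S _
  have H : P.primeCompl.map ψ.toMonoidHom = P'.primeCompl := by
    ext y
    constructor
    · rintro ⟨x, hx, rfl⟩
      exact hx
    · intro hy
      refine ⟨ψ.symm y, ?_, ψ.apply_symm_apply y⟩
      show ψ.symm y ∉ P
      rw [hPdef, Ideal.mem_comap]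
      show ψ (ψ.symm y) ∉ P'
      rw [RingEquiv.apply_symm_apply]; exact hy
  let e : Localization.AtPrime P ≃+* Localization.AtPrime P' :=
    IsLocalization.ringEquivOfRingEquiv (M := P.primeCompl) (T := P'.primeCompl)
      (Localization.AtPrime P) (Localization.AtPrime P') ψ H
  let e' : Localization.AtPrime P ≃ₐ[S'] Localization.AtPrime P' :=
    { e with
      commutes' := fun s' => by
        show e (algebraMap S (Localization.AtPrime P) (eS.symm s')) = _
        rw [IsScalarTower.algebraMap_apply S B (Localization.AtPrime P),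
          IsLocalization.ringEquivOfRingEquiv_eq, hψalg, RingEquiv.apply_symm_apply,
          ← IsScalarTower.algebraMap_apply] }
  exact Algebra.FormallyUnramified.of_equiv e'

end Congr

end Fermat.Agent.JT3
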