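/-
JT3 / Route R (S18), leaf [UG] (helper12): generators with separable reduction ⟹ unramified.

`V ⊂ K` a DVR (any residue characteristic), `E = K(θ_1, …, θ_n)` finite separable, each `θ_i` a
root of a monic `h_i : V[X]` whose reduction is separable over the residue field of `V`.  Then
every nonzero prime `P` of `integralClosure V E` is unramified over `V`
(`ug_unramAt`, literally the seam predicate `jt_UnramAt V E` of `JT3/Seams.lean`).

Elementary proof through valuation subrings (no étale algebras):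
* `ug_core`      : `dsc_unram_core` with control of the residue field;
* `ug_isDVR_of_structure` : a valuation subring in which every `x ≠ 0` is `ϖ ^ n * unit` is a DVR;
* `ug_step`, `ug_structure_step`, `ug_structure` : induction over the generators: in the local ring
  `O` of `P` every `y ≠ 0` of `E` is `ϖ ^ n * unit`, with residue of the unit separable over `κ(V)`;
* `ug_unramAt`   : `e = 1` and separable residue field extension ⟹ formally unramified
  (`Algebra.FormallyUnramified.of_map_maximalIdeal`).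
-/
import Mathlib
import Fermat.Agent.JT3.Descent.UnramCore

set_option autoImplicit false
set_option linter.unusedSectionVars false

namespace Fermat.Agent.JT3

open Polynomial

section Core

variable {W V : Type*} [CommRing W] [IsDomain W] [IsDiscreteValuationRing W]
  [CommRing V] [IsDomain V] [IsLocalRing V] [Algebra W V] [IsLocalHom (algebraMap W V)]

omit [IsDomain V] in
open Classical in
/-- the division step with explicit unit: if `a(θ)` is a non-unit then
`a(θ) * r(θ) = ϖ * c(θ)` with `r(θ)` a unit. -/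
theorem ug_div_step {ϖ : W} (hϖ : Irreducible ϖ) (θ : V) (h : W[X]) (hroot : aeval θ h = 0)
    (hsep : (h.map (IsLocalRing.residue W)).Separable) (a : W[X])
    (ha : dsc_evalRes θ (a.map (IsLocalRing.residue W)) = 0) :
    ∃ (r c : W[X]), IsUnit (aeval θ r) ∧
      aeval θ a * aeval θ r = algebraMap W V ϖ * aeval θ c := by
  set abar := a.map (IsLocalRing.residue W) with habar
  set hbar := h.map (IsLocalRing.residue W) with hhbar
  have hE_h : dsc_evalRes θ hbar = 0 := by
    rw [hhbar, dsc_evalRes_map, hroot, map_zero]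
  set gbar := EuclideanDomain.gcd abar hbar with hgbar
  have hE_g : dsc_evalRes θ gbar = 0 := by
    rw [hgbar, EuclideanDomain.gcd_eq_gcd_ab, map_add, map_mul, map_mul, ha, hE_h]
    simp
  obtain ⟨rbar, hr⟩ : gbar ∣ hbar := EuclideanDomain.gcd_dvd_right abar hbar
  obtain ⟨a'bar, ha'⟩ : gbar ∣ abar := EuclideanDomain.gcd_dvd_left abar hbar
  have hcop : IsCoprime gbar rbar := by
    rw [hr] at hsep
    exact hsep.isCoprime
  obtain ⟨u, v, huv⟩ := hcop
  have hE_r : dsc_evalRes θ v * dsc_evalRes θ rbar = 1 := by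
    have := congrArg (dsc_evalRes θ) huv
    rwa [map_add, map_mul, map_mul, hE_g, mul_zero, zero_add, map_one] at this
  have hsurj := Polynomial.map_surjective (IsLocalRing.residue W) IsLocalRing.residue_surjective
  obtain ⟨g, hg⟩ := hsurj gbar
  obtain ⟨r, hrr⟩ := hsurj rbar
  obtain ⟨a', haa'⟩ := hsurj a'bar
  obtain ⟨b, hb⟩ := dsc_exists_eq_C_mul_of_map_eq_zero hϖ (a - g * a') (by
    rw [Polynomial.map_sub, Polynomial.map_mul, hg, haa', ← habar, ha', sub_self])
  obtain ⟨s, hs⟩ := dsc_exists_eq_C_mul_of_map_eq_zero hϖ (h - g * r) (by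
    rw [Polynomial.map_sub, Polynomial.map_mul, hg, hrr, ← hhbar, hr, sub_self])
  have hρ : IsUnit (aeval θ r) := by
    by_contra hnu
    have hm : aeval θ r ∈ IsLocalRing.maximalIdeal V := (IsLocalRing.mem_maximalIdeal _).2 hnu
    have h0 : IsLocalRing.residue V (aeval θ r) = 0 :=
      (IsLocalRing.residue_eq_zero_iff _).2 hm
    rw [← dsc_evalRes_map, hrr] at h0
    rw [h0, mul_zero] at hE_r
    exact zero_ne_one hE_r
  refine ⟨r, b * r - s * a', hρ, ?_⟩
  have ha_eq : a = g * a' + C ϖ * b := by rw [← hb]; ring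
  have hh_eq : g * r = h - C ϖ * s := by rw [← hs]; ring
  have h1 : a * r = h * a' + C ϖ * (b * r - s * a') := by
    rw [ha_eq]
    calc (g * a' + C ϖ * b) * r = (g * r) * a' + C ϖ * (b * r) := by ring
      _ = (h - C ϖ * s) * a' + C ϖ * (b * r) := by rw [hh_eq]
      _ = h * a' + C ϖ * (b * r - s * a') := by ring
  have h2 := congrArg (aeval θ) h1
  rw [map_mul, map_add, map_mul, map_mul, hroot, zero_mul, zero_add, aeval_C] at h2
  exact h2

omit [IsDomain W] [IsDiscreteValuationRing W] [IsDomain V] [IsLocalHom (algebraMap W V)] in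
/-- residues of polynomial expressions in `θ` lie in any subfield containing the residues of `W`
and of `θ`. -/
theorem ug_residue_aeval_mem (M : Subfield (IsLocalRing.ResidueField V))
    (hMW : ∀ w : W, IsLocalRing.residue V (algebraMap W V w) ∈ M) (θ : V)
    (hMθ : IsLocalRing.residue V θ ∈ M) (r : W[X]) :
    IsLocalRing.residue V (aeval θ r) ∈ M := by
  rw [aeval_eq_sum_range, map_sum]
  refine Subfield.sum_mem M fun i _ => ?_
  rw [Algebra.smul_def, map_mul, map_pow]
  exact M.mul_mem (hMW _) (M.pow_mem hMθ i)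

/-- **Unramified core with residue fields**: every nonzero `a(θ)` is `ϖ ^ k * unit`, and the
residue of the unit lies in every subfield of the residue field of `V` containing the residues
of `W` and of `θ`. -/
theorem ug_core {ϖ : W} (hϖ : Irreducible ϖ)
    (hsat : ∀ (c : W) (k : ℕ), algebraMap W V ϖ ^ k ∣ algebraMap W V c → ϖ ^ k ∣ c)
    (θ : V) (h : W[X]) (hmonic : h.Monic) (hroot : aeval θ h = 0)
    (hsep : (h.map (IsLocalRing.residue W)).Separable)
    (M : Subfield (IsLocalRing.ResidueField V))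
    (hMW : ∀ w : W, IsLocalRing.residue V (algebraMap W V w) ∈ M)
    (hMθ : IsLocalRing.residue V θ ∈ M) (a : W[X]) (ha : aeval θ a ≠ 0) :
    ∃ (k : ℕ) (u : Vˣ), aeval θ a = algebraMap W V ϖ ^ k * u ∧
      IsLocalRing.residue V (u : V) ∈ M := by
  -- the bound on the exponent comes from `dsc_unram_core`
  obtain ⟨K, u0, hK⟩ := dsc_unram_core hϖ hsat θ h hmonic hroot hsep a ha
  have hϖmem : algebraMap W V ϖ ∈ IsLocalRing.maximalIdeal V := by
    rw [IsLocalRing.mem_maximalIdeal, mem_nonunits_iff]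
    intro hu
    exact hϖ.not_isUnit (isUnit_of_map_unit (algebraMap W V) ϖ hu)
  have hϖV0 : algebraMap W V ϖ ≠ 0 := by
    intro h0
    obtain ⟨d, hd⟩ := hsat ϖ 2 (by rw [h0]; simp)
    apply hϖ.not_isUnit
    have h1 : ϖ * 1 = ϖ * (ϖ * d) := by rw [mul_one]; nth_rewrite 1 [hd]; ring
    exact IsUnit.of_mul_eq_one d (mul_left_cancel₀ hϖ.ne_zero h1).symm
  have key : ∀ K : ℕ, ∀ a : W[X], ∀ u0 : Vˣ, aeval θ a = algebraMap W V ϖ ^ K * u0 →
      ∃ (k : ℕ) (u : Vˣ), aeval θ a = algebraMap W V ϖ ^ k * u ∧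
        IsLocalRing.residue V (u : V) ∈ M := by
    intro K
    induction K with
    | zero =>
      intro a u0 hK
      refine ⟨0, u0, hK, ?_⟩
      have : (u0 : V) = aeval θ a := by rw [hK, pow_zero, one_mul]
      rw [this]
      exact ug_residue_aeval_mem M hMW θ hMθ a
    | succ K ih =>
      intro a u0 hK
      have hE : dsc_evalRes θ (a.map (IsLocalRing.residue W)) = 0 := by
        rw [dsc_evalRes_map, hK, IsLocalRing.residue_eq_zero_iff]
        exact Ideal.mul_mem_right _ _ (Ideal.pow_mem_of_mem _ hϖmem _ (Nat.succ_pos K))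
      obtain ⟨r, c, hr, hc⟩ := ug_div_step hϖ θ h hroot hsep a hE
      -- `c(θ) = ϖ ^ K * (u0 * r(θ))`
      have hcK : aeval θ c = algebraMap W V ϖ ^ K * ((u0 * hr.unit : Vˣ) : V) := by
        have h1 : algebraMap W V ϖ * aeval θ c =
            algebraMap W V ϖ * (algebraMap W V ϖ ^ K * ((u0 * hr.unit : Vˣ) : V)) := by
          rw [← hc, hK, Units.val_mul, IsUnit.unit_spec, pow_succ]
          ring
        exact mul_left_cancel₀ hϖV0 h1
      obtain ⟨k, u, hku, hu⟩ := ih c (u0 * hr.unit) hcK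
      refine ⟨k + 1, u * hr.unit⁻¹, ?_, ?_⟩
      · have : aeval θ a = algebraMap W V ϖ * aeval θ c * ((hr.unit⁻¹ : Vˣ) : V) := by
          rw [← hc, mul_assoc, hr.mul_val_inv, mul_one]
        rw [this, hku, pow_succ, Units.val_mul]
        ring
      · rw [Units.val_mul, map_mul]
        refine M.mul_mem hu ?_
        have h1 : IsLocalRing.residue V ((hr.unit⁻¹ : Vˣ) : V) *
            IsLocalRing.residue V (aeval θ r) = 1 := by
          rw [← map_mul, hr.val_inv_mul, map_one]
        rw [eq_inv_of_mul_eq_one_left h1]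
        exact M.inv_mem (ug_residue_aeval_mem M hMW θ hMθ r)
  exact key K a u0 hK

end Core

section ValSub

variable {K : Type*} [Field K] {V : ValuationSubring K}

theorem ug_coe_unit_inv (u : Vˣ) : (((u⁻¹ : Vˣ) : V) : K) = ((u : V) : K)⁻¹ := by
  have h2 : (u : V) * ((u⁻¹ : Vˣ) : V) = 1 := Units.mul_inv u
  have h3 := congrArg (fun z : V => (z : K)) h2
  have h1 : ((u : V) : K) * (((u⁻¹ : Vˣ) : V) : K) = 1 := by
    simpa only [MulMemClass.coe_mul, OneMemClass.coe_one] using h3
  exact (inv_eq_of_mul_eq_one_right h1).symm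

theorem ug_coe_unit_ne_zero (u : Vˣ) : ((u : V) : K) ≠ 0 :=
  fun h => u.ne_zero (Subtype.ext h)

theorem ug_zpow_mem_iff {t : K} (ht : t ∈ V.nonunits) (ht0 : t ≠ 0) (d : ℤ) :
    t ^ d ∈ V ↔ 0 ≤ d := by
  have htV : t ∈ V := ValuationSubring.nonunits_subset ht
  constructor
  · intro h
    by_contra hd
    push Not at hd
    obtain ⟨k, hk⟩ : ∃ k : ℕ, d = -((k : ℤ) + 1) := ⟨(-d - 1).toNat, by omega⟩
    have h1 : t * (t ^ k * t ^ d) = 1 := by
      rw [hk, zpow_neg, ← zpow_natCast t k]
      have : t ^ ((k : ℤ) + 1) = t ^ (k : ℤ) * t := by rw [zpow_add_one₀ ht0]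
      rw [this]
      field_simp
    have h2 : t⁻¹ = t ^ k * t ^ d := inv_eq_of_mul_eq_one_right h1
    have h3 : t⁻¹ ∈ V := by rw [h2]; exact V.mul_mem _ _ (pow_mem htV k) h
    rw [ValuationSubring.mem_nonunits_iff_or] at ht
    rcases ht with ht | ht
    · exact ht0 ht
    · exact ht h3
  · intro h
    obtain ⟨k, rfl⟩ := Int.eq_ofNat_of_zero_le h
    rw [zpow_natCast]
    exact pow_mem htV k

theorem ug_zpow_mul_unit_mem_iff {t : K} (ht : t ∈ V.nonunits) (ht0 : t ≠ 0) (d : ℤ)
    (u : Vˣ) : t ^ d * ((u : V) : K) ∈ V ↔ 0 ≤ d := by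
  rw [← ug_zpow_mem_iff ht ht0]
  constructor
  · intro h
    have h1 : t ^ d = t ^ d * ((u : V) : K) * (((u⁻¹ : Vˣ) : V) : K) := by
      rw [ug_coe_unit_inv, mul_assoc, mul_inv_cancel₀ (ug_coe_unit_ne_zero u), mul_one]
    rw [h1]
    exact V.mul_mem _ _ h ((u⁻¹ : Vˣ) : V).2
  · intro h
    exact V.mul_mem _ _ h (u : V).2

/-- **(C1)** a valuation subring in which every nonzero element of the field is a power of a
fixed nonunit `ϖ` times a unit is a DVR with uniformiser `ϖ`. -/
theorem ug_isDVR_of_structure (V : ValuationSubring K) {ϖ : K} (hϖ : ϖ ∈ V.nonunits)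
    (hϖ0 : ϖ ≠ 0)
    (hstr : ∀ x : K, x ≠ 0 → ∃ (n : ℤ) (u : Vˣ), x = ϖ ^ n * ((u : V) : K)) :
    IsDiscreteValuationRing V ∧
      Irreducible (⟨ϖ, ValuationSubring.nonunits_subset hϖ⟩ : V) := by
  set p : V := ⟨ϖ, ValuationSubring.nonunits_subset hϖ⟩ with hp
  have hp0 : p ≠ 0 := fun h => hϖ0 (congrArg Subtype.val h)
  have hpnu : ¬ IsUnit p := by
    have : (p : K) ∈ V.nonunits := hϖ
    rw [ValuationSubring.coe_mem_nonunits_iff, IsLocalRing.mem_maximalIdeal, mem_nonunits_iff]
      at this
    exact this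
  -- natural exponents for elements of `V`
  have hnat : ∀ x : V, x ≠ 0 → ∃ (n : ℕ) (u : Vˣ), x = p ^ n * u := by
    intro x hx
    have hx' : (x : K) ≠ 0 := fun h => hx (Subtype.ext h)
    obtain ⟨n, u, hnu⟩ := hstr x hx'
    have hn : 0 ≤ n := (ug_zpow_mul_unit_mem_iff hϖ hϖ0 n u).1 (hnu ▸ x.2)
    obtain ⟨k, rfl⟩ := Int.eq_ofNat_of_zero_le hn
    refine ⟨k, u, Subtype.ext ?_⟩
    rw [hnu, zpow_natCast]
    rfl
  have hdvd : ∀ x : V, x ≠ 0 → ¬ IsUnit x → p ∣ x := by
    intro x hx hxu
    obtain ⟨n, u, hnu⟩ := hnat x hx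
    rcases Nat.eq_zero_or_pos n with rfl | hn
    · exfalso
      apply hxu
      rw [hnu, pow_zero, one_mul]
      exact u.isUnit
    · obtain ⟨m, rfl⟩ := Nat.exists_eq_succ_of_ne_zero hn.ne'
      exact ⟨p ^ m * u, by rw [hnu, pow_succ]; ring⟩
  have hirr : Irreducible p := by
    rw [irreducible_iff]
    refine ⟨hpnu, fun a b hab => ?_⟩
    by_contra hcon
    rw [not_or] at hcon
    have ha0 : a ≠ 0 := by
      rintro rfl
      rw [zero_mul] at hab
      exact hp0 hab
    obtain ⟨a', rfl⟩ := hdvd a ha0 hcon.1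
    have h1 : p * 1 = p * (a' * b) := by rw [mul_one]; nth_rewrite 1 [hab]; ring
    exact hcon.2 (IsUnit.of_mul_eq_one a' (by
      rw [mul_comm]; exact (mul_left_cancel₀ hp0 h1).symm))
  refine ⟨IsDiscreteValuationRing.ofHasUnitMulPowIrreducibleFactorization
    ⟨p, hirr, fun {x} hx => ?_⟩, hirr⟩
  obtain ⟨n, u, hnu⟩ := hnat x hx
  exact ⟨n, u, hnu.symm⟩

end ValSub

section Incl

variable {F F' E : Type*} [Field F] [Field F'] [Field E] [Algebra F E] [Algebra F' E]
  [Algebra F F'] [IsScalarTower F F' E] (O : ValuationSubring E)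

/-- the inclusion `O ∩ F → O`. -/
noncomputable def ug_incl : ↥(O.comap (algebraMap F E)) →+* ↥O :=
  ((algebraMap F E).comp (O.comap (algebraMap F E)).subtype).codRestrict O.toSubring
    (fun x => x.2)

omit [Field F'] [Algebra F' E] [Algebra F F'] [IsScalarTower F F' E] in
@[simp] theorem ug_incl_coe (x : ↥(O.comap (algebraMap F E))) :
    ((ug_incl O x : O) : E) = algebraMap F E (x : F) := rfl

omit [Field F'] [Algebra F' E] [Algebra F F'] [IsScalarTower F F' E] in
theorem ug_isUnit_incl_iff (x : ↥(O.comap (algebraMap F E))) :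
    IsUnit (ug_incl O x) ↔ IsUnit x := by
  constructor
  · intro h
    obtain ⟨u, hu⟩ := h.exists_right_inv
    have hmul : algebraMap F E (x : F) * (u : E) = 1 := by
      have : ((ug_incl O x * u : O) : E) = 1 := by rw [hu]; rfl
      rwa [MulMemClass.coe_mul, ug_incl_coe] at this
    have hx0 : (x : F) ≠ 0 := by
      rintro h0
      rw [h0, map_zero, zero_mul] at hmul
      exact zero_ne_one hmul
    have hu' : (algebraMap F E (x : F))⁻¹ = (u : E) := inv_eq_of_mul_eq_one_right hmul
    have hmem : (x : F)⁻¹ ∈ O.comap (algebraMap F E) := by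
      rw [ValuationSubring.mem_comap, map_inv₀, hu']
      exact u.2
    exact IsUnit.of_mul_eq_one ⟨(x : F)⁻¹, hmem⟩ (Subtype.ext (mul_inv_cancel₀ hx0))
  · exact fun h => h.map _

omit [Field F'] [Algebra F' E] [Algebra F F'] [IsScalarTower F F' E] in
theorem ug_incl_isLocalHom : IsLocalHom (ug_incl (F := F) O) :=
  ⟨fun x hx => (ug_isUnit_incl_iff O x).1 hx⟩

/-- the inclusion `O ∩ F → O ∩ F'` for a tower `F ⊆ F' ⊆ E`. -/
noncomputable def ug_inclT : ↥(O.comap (algebraMap F E)) →+* ↥(O.comap (algebraMap F' E)) :=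
  ((algebraMap F F').comp (O.comap (algebraMap F E)).subtype).codRestrict
    (O.comap (algebraMap F' E)).toSubring (fun x => by
      show algebraMap F' E (algebraMap F F' (x : F)) ∈ O
      rw [← IsScalarTower.algebraMap_apply]
      exact x.2)

@[simp] theorem ug_inclT_coe (x : ↥(O.comap (algebraMap F E))) :
    ((ug_inclT (F' := F') O x : ↥(O.comap (algebraMap F' E))) : F') = algebraMap F F' (x : F) :=
  rfl

theorem ug_incl_comp_inclT :
    (ug_incl (F := F') O).comp (ug_inclT (F := F) (F' := F') O) = ug_incl (F := F) O := by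
  ext x
  show algebraMap F' E (algebraMap F F' (x : F)) = algebraMap F E (x : F)
  rw [← IsScalarTower.algebraMap_apply]

theorem ug_inclT_isLocalHom : IsLocalHom (ug_inclT (F := F) (F' := F') O) := by
  constructor
  intro x hx
  have h1 : IsUnit (ug_incl O (ug_inclT (F' := F') O x)) := hx.map _
  have h2 : ug_incl O (ug_inclT (F' := F') O x) = ug_incl O x :=
    RingHom.congr_fun (ug_incl_comp_inclT O) x
  rw [h2] at h1
  exact (ug_isUnit_incl_iff O x).1 h1

end Incl


section Step

variable {F E : Type*} [Field F] [Field E] [Algebra F E] (O : ValuationSubring E)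
  [IsDiscreteValuationRing ↥(O.comap (algebraMap F E))]

/-- structure of `a(θ)` for a polynomial `a` with coefficients in `O ∩ F`. -/
theorem ug_step_int {ϖ : ↥(O.comap (algebraMap F E))} (hϖ : Irreducible ϖ) (θ : E) (hθ : θ ∈ O)
    (h : (↥(O.comap (algebraMap F E)))[X]) (hmonic : h.Monic)
    (hroot : eval₂ ((algebraMap F E).comp (O.comap (algebraMap F E)).subtype) θ h = 0)
    (hsep : (h.map (IsLocalRing.residue ↥(O.comap (algebraMap F E)))).Separable)
    (M : Subfield (IsLocalRing.ResidueField O))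
    (hMW : ∀ w : ↥(O.comap (algebraMap F E)), IsLocalRing.residue O (ug_incl O w) ∈ M)
    (hMθ : IsLocalRing.residue O (⟨θ, hθ⟩ : O) ∈ M)
    (a : (↥(O.comap (algebraMap F E)))[X])
    (ha : eval₂ ((algebraMap F E).comp (O.comap (algebraMap F E)).subtype) θ a ≠ 0) :
    ∃ (k : ℕ) (u : Oˣ),
      eval₂ ((algebraMap F E).comp (O.comap (algebraMap F E)).subtype) θ a =
        algebraMap F E (ϖ : F) ^ k * ((u : O) : E) ∧ IsLocalRing.residue O (u : O) ∈ M := by
  classical
  let _ : Algebra ↥(O.comap (algebraMap F E)) O := (ug_incl O).toAlgebra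
  have _ : IsLocalHom (algebraMap ↥(O.comap (algebraMap F E)) O) := ug_incl_isLocalHom O
  have hphi : ∀ x : ↥(O.comap (algebraMap F E)),
      ((algebraMap ↥(O.comap (algebraMap F E)) O x : O) : E) = algebraMap F E (x : F) :=
    fun x => rfl
  have hcompV : (O.subtype : O →+* E).comp (algebraMap ↥(O.comap (algebraMap F E)) O) =
      (algebraMap F E).comp (O.comap (algebraMap F E)).subtype := by
    ext x; rfl
  set θO : O := ⟨θ, hθ⟩ with hθO
  have hev : ∀ b : (↥(O.comap (algebraMap F E)))[X], ((aeval θO b : O) : E) =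
      eval₂ ((algebraMap F E).comp (O.comap (algebraMap F E)).subtype) θ b := by
    intro b
    have := hom_eval₂ b (algebraMap ↥(O.comap (algebraMap F E)) O) (O.subtype : O →+* E) θO
    rw [hcompV] at this
    rw [aeval_def]
    exact this
  have hsat : ∀ (c : ↥(O.comap (algebraMap F E))) (k : ℕ),
      algebraMap ↥(O.comap (algebraMap F E)) O ϖ ^ k ∣
        algebraMap ↥(O.comap (algebraMap F E)) O c → ϖ ^ k ∣ c := by
    rintro c k ⟨d, hd⟩
    have hϖ0 : (ϖ : F) ≠ 0 := fun h => hϖ.ne_zero (Subtype.ext h)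
    have hιϖ0 : algebraMap F E (ϖ : F) ≠ 0 := by
      rw [Ne, map_eq_zero]; exact hϖ0
    have hd' : algebraMap F E (c : F) = algebraMap F E (ϖ : F) ^ k * (d : E) := by
      have := congrArg (Subtype.val) hd
      simpa [hphi] using this
    have hdeq : (d : E) = algebraMap F E ((c : F) / (ϖ : F) ^ k) := by
      rw [map_div₀, map_pow, hd']
      field_simp
    have hmem : (c : F) / (ϖ : F) ^ k ∈ O.comap (algebraMap F E) := by
      rw [ValuationSubring.mem_comap, ← hdeq]; exact d.2
    refine ⟨⟨_, hmem⟩, Subtype.ext ?_⟩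
    show (c : F) = ((ϖ ^ k : ↥(O.comap (algebraMap F E))) : F) * ((c : F) / (ϖ : F) ^ k)
    have hpow : ((ϖ ^ k : ↥(O.comap (algebraMap F E))) : F) = (ϖ : F) ^ k := by
      simp
    rw [hpow]
    field_simp
  have hroot' : aeval θO h = 0 := by
    apply Subtype.ext
    rw [hev, hroot]
    rfl
  have ha' : aeval θO a ≠ 0 := by
    intro h0
    apply ha
    rw [← hev, h0]
    rfl
  obtain ⟨k, u, hku, hu⟩ := ug_core hϖ hsat θO h hmonic hroot' hsep M hMW hMθ a ha'
  refine ⟨k, u, ?_, hu⟩
  rw [← hev, hku]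
  simp [hphi]

/-- structure of `a(θ)` for an arbitrary polynomial `a : F[X]`. -/
theorem ug_step_poly {ϖ : ↥(O.comap (algebraMap F E))} (hϖ : Irreducible ϖ) (θ : E)
    (hθ : θ ∈ O) (h : (↥(O.comap (algebraMap F E)))[X]) (hmonic : h.Monic)
    (hroot : eval₂ ((algebraMap F E).comp (O.comap (algebraMap F E)).subtype) θ h = 0)
    (hsep : (h.map (IsLocalRing.residue ↥(O.comap (algebraMap F E)))).Separable)
    (M : Subfield (IsLocalRing.ResidueField O))
    (hMW : ∀ w : ↥(O.comap (algebraMap F E)), IsLocalRing.residue O (ug_incl O w) ∈ M)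
    (hMθ : IsLocalRing.residue O (⟨θ, hθ⟩ : O) ∈ M) (a : F[X]) (ha : aeval θ a ≠ 0) :
    ∃ (n : ℤ) (u : Oˣ), aeval θ a = algebraMap F E (ϖ : F) ^ n * ((u : O) : E) ∧
      IsLocalRing.residue O (u : O) ∈ M := by
  obtain ⟨b, hbM, hb⟩ := IsLocalization.integerNormalization_spec
    (nonZeroDivisors ↥(O.comap (algebraMap F E))) a
  set a0 := IsLocalization.integerNormalization
    (nonZeroDivisors ↥(O.comap (algebraMap F E))) a with ha0
  have hb0 : b ≠ 0 := nonZeroDivisors.ne_zero hbM
  have hbF0 : (b : F) ≠ 0 := fun h => hb0 (Subtype.ext h)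
  have hιb0 : algebraMap F E (b : F) ≠ 0 := by rw [Ne, map_eq_zero]; exact hbF0
  have hϖ0 : (ϖ : F) ≠ 0 := fun h => hϖ.ne_zero (Subtype.ext h)
  have hιϖ0 : algebraMap F E (ϖ : F) ≠ 0 := by rw [Ne, map_eq_zero]; exact hϖ0
  have hev : eval₂ ((algebraMap F E).comp (O.comap (algebraMap F E)).subtype) θ a0 =
        algebraMap F E (b : F) * aeval θ a := by
    have h1 : eval₂ (algebraMap F E) θ
        (a0.map (algebraMap ↥(O.comap (algebraMap F E)) F)) =
        eval₂ ((algebraMap F E).comp (O.comap (algebraMap F E)).subtype) θ a0 := by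
      rw [eval₂_map]; rfl
    rw [← h1, hb, aeval_def]
    rw [← algebraMap_smul F b a, Polynomial.smul_eq_C_mul, eval₂_mul, eval₂_C]
    rfl
  have hne : eval₂ ((algebraMap F E).comp (O.comap (algebraMap F E)).subtype) θ a0 ≠ 0 := by
    rw [hev]; exact mul_ne_zero hιb0 ha
  obtain ⟨k, u, hku, hu⟩ := ug_step_int O hϖ θ hθ h hmonic hroot hsep M hMW hMθ a0 hne
  obtain ⟨j, ub, hjb⟩ := IsDiscreteValuationRing.eq_unit_mul_pow_irreducible hb0 hϖ
  set ubV : Oˣ := Units.map ((ug_incl (F := F) O : ↥(O.comap (algebraMap F E)) →+* O) :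
    ↥(O.comap (algebraMap F E)) →* O) ub with hubV
  have hubV_coe : ((ubV : O) : E) =
      algebraMap F E ((ub : ↥(O.comap (algebraMap F E))) : F) := rfl
  have hbcoe : (b : F) = ((ub : ↥(O.comap (algebraMap F E))) : F) * (ϖ : F) ^ j := by
    have := congrArg (fun z : ↥(O.comap (algebraMap F E)) => (z : F)) hjb
    simpa using this
  refine ⟨(k : ℤ) - (j : ℤ), u * ubV⁻¹, ?_, ?_⟩
  · have hsolve : aeval θ a =
        (algebraMap F E (b : F))⁻¹ * (algebraMap F E (ϖ : F) ^ k * ((u : O) : E)) := by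
      rw [← hku, hev, ← mul_assoc, inv_mul_cancel₀ hιb0, one_mul]
    rw [hsolve, hbcoe, map_mul, map_pow, Units.val_mul, MulMemClass.coe_mul, ug_coe_unit_inv,
      hubV_coe, zpow_sub₀ hιϖ0, zpow_natCast, zpow_natCast]
    have hub0 : algebraMap F E ((ub : ↥(O.comap (algebraMap F E))) : F) ≠ 0 := by
      rw [Ne, map_eq_zero]
      intro h
      exact ub.ne_zero (Subtype.ext h)
    field_simp
  · rw [Units.val_mul, map_mul]
    refine M.mul_mem hu ?_
    have h1 : IsLocalRing.residue O ((ubV⁻¹ : Oˣ) : O) * IsLocalRing.residue O (ubV : O) = 1 := by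
      rw [← map_mul, Units.inv_mul, map_one]
    rw [eq_inv_of_mul_eq_one_left h1]
    exact M.inv_mem (hMW _)

/-- **the step**: structure of an arbitrary nonzero element of `F(θ)`. -/
theorem ug_step {ϖ : ↥(O.comap (algebraMap F E))} (hϖ : Irreducible ϖ) (θ : E)
    (hθ : θ ∈ O) (h : (↥(O.comap (algebraMap F E)))[X]) (hmonic : h.Monic)
    (hroot : eval₂ ((algebraMap F E).comp (O.comap (algebraMap F E)).subtype) θ h = 0)
    (hsep : (h.map (IsLocalRing.residue ↥(O.comap (algebraMap F E)))).Separable)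
    (M : Subfield (IsLocalRing.ResidueField O))
    (hMW : ∀ w : ↥(O.comap (algebraMap F E)), IsLocalRing.residue O (ug_incl O w) ∈ M)
    (hMθ : IsLocalRing.residue O (⟨θ, hθ⟩ : O) ∈ M) (y : E)
    (hy : y ∈ IntermediateField.adjoin F {θ}) (hy0 : y ≠ 0) :
    ∃ (n : ℤ) (u : Oˣ), y = algebraMap F E (ϖ : F) ^ n * ((u : O) : E) ∧
      IsLocalRing.residue O (u : O) ∈ M := by
  rw [IntermediateField.mem_adjoin_simple_iff] at hy
  obtain ⟨r, s, hrs⟩ := hy
  have hs0 : aeval θ s ≠ 0 := by
    intro h0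
    rw [h0, div_zero] at hrs
    exact hy0 hrs
  have hr0 : aeval θ r ≠ 0 := by
    intro h0
    rw [h0, zero_div] at hrs
    exact hy0 hrs
  obtain ⟨n1, u1, h1, hu1⟩ := ug_step_poly O hϖ θ hθ h hmonic hroot hsep M hMW hMθ r hr0
  obtain ⟨n2, u2, h2, hu2⟩ := ug_step_poly O hϖ θ hθ h hmonic hroot hsep M hMW hMθ s hs0
  have hϖ0 : (ϖ : F) ≠ 0 := fun h => hϖ.ne_zero (Subtype.ext h)
  have hιϖ0 : algebraMap F E (ϖ : F) ≠ 0 := by rw [Ne, map_eq_zero]; exact hϖ0
  refine ⟨n1 - n2, u1 * u2⁻¹, ?_, ?_⟩
  · rw [hrs, h1, h2, Units.val_mul, MulMemClass.coe_mul, ug_coe_unit_inv, zpow_sub₀ hιϖ0]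
    have hu2' : ((u2 : O) : E) ≠ 0 := ug_coe_unit_ne_zero u2
    field_simp
  · rw [Units.val_mul, map_mul]
    refine M.mul_mem hu1 ?_
    have h3 : IsLocalRing.residue O ((u2⁻¹ : Oˣ) : O) * IsLocalRing.residue O (u2 : O) = 1 := by
      rw [← map_mul, Units.inv_mul, map_one]
    rw [eq_inv_of_mul_eq_one_left h3]
    exact M.inv_mem hu2

end Step

section Induction

variable {K E : Type*} [Field K] [Field E] [Algebra K E] (O : ValuationSubring E)

/-- the structure statement on a subset `T` of `E`. -/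
def ug_Str (ϖ : K) (M : Subfield (IsLocalRing.ResidueField O)) (T : Set E) : Prop :=
  ∀ y ∈ T, y ≠ 0 → ∃ (n : ℤ) (u : Oˣ), y = algebraMap K E ϖ ^ n * ((u : O) : E) ∧
    IsLocalRing.residue O (u : O) ∈ M

variable {O}

/-- residues of elements of `O ∩ T` lie in `M`. -/
theorem ug_Str.residue_mem {ϖ : K} {M : Subfield (IsLocalRing.ResidueField O)} {T : Set E}
    (hT : ug_Str O ϖ M T) (hϖ : algebraMap K E ϖ ∈ O.nonunits) (hϖ0 : ϖ ≠ 0)
    (w : O) (hw : (w : E) ∈ T) : IsLocalRing.residue O w ∈ M := by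
  by_cases hw0 : (w : E) = 0
  · have : w = 0 := Subtype.ext hw0
    rw [this, map_zero]
    exact M.zero_mem
  obtain ⟨n, u, hnu, hu⟩ := hT _ hw hw0
  have hιϖ0 : algebraMap K E ϖ ≠ 0 := by rw [Ne, map_eq_zero]; exact hϖ0
  have hn : 0 ≤ n := (ug_zpow_mul_unit_mem_iff hϖ hιϖ0 n u).1 (hnu ▸ w.2)
  obtain ⟨k, rfl⟩ := Int.eq_ofNat_of_zero_le hn
  rw [zpow_natCast] at hnu
  set p : O := ⟨algebraMap K E ϖ, ValuationSubring.nonunits_subset hϖ⟩ with hp
  have hw' : w = p ^ k * u := Subtype.ext (by rw [hnu]; rfl)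
  rcases Nat.eq_zero_or_pos k with rfl | hk
  · rw [hw', pow_zero, one_mul]; exact hu
  · have hpm : p ∈ IsLocalRing.maximalIdeal O := ValuationSubring.coe_mem_nonunits_iff.1 hϖ
    have : IsLocalRing.residue O w = 0 := by
      rw [IsLocalRing.residue_eq_zero_iff, hw']
      exact Ideal.mul_mem_right _ _ (Ideal.pow_mem_of_mem _ hpm _ hk)
    rw [this]
    exact M.zero_mem

/-- **induction step**: from an intermediate field `F` to `F(θ)`. -/
theorem ug_structure_step (F : IntermediateField K E) {ϖ : K}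
    (hϖ : algebraMap K E ϖ ∈ O.nonunits) (hϖ0 : ϖ ≠ 0)
    (M : Subfield (IsLocalRing.ResidueField O)) (hF : ug_Str O ϖ M (F : Set E))
    (θ : E) (hθ : θ ∈ O) (hMθ : IsLocalRing.residue O (⟨θ, hθ⟩ : O) ∈ M)
    (h : (↥(O.comap (algebraMap K E)))[X]) (hmonic : h.Monic)
    (hroot : eval₂ ((algebraMap K E).comp (O.comap (algebraMap K E)).subtype) θ h = 0)
    (hsep : (h.map (IsLocalRing.residue ↥(O.comap (algebraMap K E)))).Separable) :
    ug_Str O ϖ M ((IntermediateField.adjoin F {θ} : IntermediateField F E) : Set E) := by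
  have hιϖ0 : algebraMap K E ϖ ≠ 0 := by rw [Ne, map_eq_zero]; exact hϖ0
  -- the uniformiser inside `F`
  have hϖF : algebraMap F E (algebraMap K F ϖ) = algebraMap K E ϖ := rfl
  have hϖnon : algebraMap K F ϖ ∈ (O.comap (algebraMap F E)).nonunits := by
    rw [ValuationSubring.mem_nonunits_iff_or]
    rw [ValuationSubring.mem_nonunits_iff_or] at hϖ
    rcases hϖ with h0 | h0
    · exact absurd h0 hιϖ0
    · right
      intro hmem
      apply h0
      rw [ValuationSubring.mem_comap, map_inv₀, hϖF] at hmem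
      exact hmem
  have hϖF0 : algebraMap K F ϖ ≠ 0 := by rw [Ne, map_eq_zero]; exact hϖ0
  -- `O ∩ F` is a DVR with uniformiser `ϖ`
  have hstrF : ∀ x : F, x ≠ 0 → ∃ (n : ℤ) (u : (↥(O.comap (algebraMap F E)))ˣ),
      x = algebraMap K F ϖ ^ n * ((u : ↥(O.comap (algebraMap F E))) : F) := by
    intro x hx
    have hx' : (x : E) ≠ 0 := fun h => hx (Subtype.ext h)
    obtain ⟨n, u, hnu, -⟩ := hF (x : E) x.2 hx'
    -- `u ∈ F`
    have hu_eq : ((u : O) : E) = (x : E) * (algebraMap K E ϖ ^ n)⁻¹ := by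
      rw [hnu]; field_simp
    have huF : ((u : O) : E) ∈ F := by
      rw [hu_eq]
      exact F.mul_mem x.2 (F.inv_mem (zpow_mem (F.algebraMap_mem ϖ) n))
    have huinvF : (((u⁻¹ : Oˣ) : O) : E) ∈ F := by
      rw [ug_coe_unit_inv]; exact F.inv_mem huF
    let uF : ↥(O.comap (algebraMap F E)) := ⟨⟨_, huF⟩, (u : O).2⟩
    let uFinv : ↥(O.comap (algebraMap F E)) := ⟨⟨_, huinvF⟩, ((u⁻¹ : Oˣ) : O).2⟩
    have h1 : uF * uFinv = 1 := by
      apply Subtype.ext
      apply Subtype.ext
      show ((u : O) : E) * (((u⁻¹ : Oˣ) : O) : E) = 1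
      rw [ug_coe_unit_inv, mul_inv_cancel₀ (ug_coe_unit_ne_zero u)]
    have h2 : uFinv * uF = 1 := by rw [mul_comm]; exact h1
    refine ⟨n, ⟨uF, uFinv, h1, h2⟩, ?_⟩
    apply Subtype.ext
    show (x : E) = ((algebraMap K F ϖ ^ n * ((uF : ↥(O.comap (algebraMap F E))) : F) : F) : E)
    rw [hnu]
    push_cast
    rfl
  obtain ⟨hDVR, hirr⟩ := ug_isDVR_of_structure (O.comap (algebraMap F E)) hϖnon hϖF0 hstrF
  -- residues of `O ∩ F` lie in `M`
  have hMW : ∀ w : ↥(O.comap (algebraMap F E)), IsLocalRing.residue O (ug_incl O w) ∈ M := by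
    intro w
    exact hF.residue_mem hϖ hϖ0 (ug_incl O w) ((w : F).2)
  -- the polynomial over `O ∩ F`
  have _ : IsLocalHom (ug_inclT (F := K) (F' := F) O) := ug_inclT_isLocalHom O
  set h' : (↥(O.comap (algebraMap F E)))[X] := h.map (ug_inclT (F := K) (F' := F) O) with hh'
  have hmonic' : h'.Monic := hmonic.map _
  have hroot' : eval₂ ((algebraMap F E).comp (O.comap (algebraMap F E)).subtype) θ h' = 0 := by
    rw [hh', eval₂_map]
    have : ((algebraMap F E).comp (O.comap (algebraMap F E)).subtype).comp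
        (ug_inclT (F := K) (F' := F) O) =
        (algebraMap K E).comp (O.comap (algebraMap K E)).subtype := by
      ext x; rfl
    rw [this]
    exact hroot
  have hsep' : (h'.map (IsLocalRing.residue ↥(O.comap (algebraMap F E)))).Separable := by
    rw [hh', Polynomial.map_map, ← IsLocalRing.ResidueField.map_comp_residue,
      ← Polynomial.map_map]
    exact hsep.map
  intro y hy hy0
  obtain ⟨n, u, hnu, hu⟩ := ug_step O hirr θ hθ h' hmonic' hroot' hsep' M hMW hMθ y hy hy0
  exact ⟨n, u, hnu, hu⟩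

/-- the hypothesis on a generator `θ`: integral over `O ∩ K` with separable reduction, and its
residue lies in `M`. -/
def ug_GoodGen (O : ValuationSubring E) (M : Subfield (IsLocalRing.ResidueField O)) (θ : E) :
    Prop :=
  ∃ hθ : θ ∈ O, IsLocalRing.residue O (⟨θ, hθ⟩ : O) ∈ M ∧
    ∃ h : (↥(O.comap (algebraMap K E)))[X], h.Monic ∧
      eval₂ ((algebraMap K E).comp (O.comap (algebraMap K E)).subtype) θ h = 0 ∧
      (h.map (IsLocalRing.residue ↥(O.comap (algebraMap K E)))).Separable

/-- **structure theorem**: if the structure statement holds on `K` and `S` is a finite set of good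
generators, it holds on `K(S)`. -/
theorem ug_structure {ϖ : K} (hϖ : algebraMap K E ϖ ∈ O.nonunits) (hϖ0 : ϖ ≠ 0)
    (M : Subfield (IsLocalRing.ResidueField O))
    (hK : ug_Str O ϖ M (Set.range (algebraMap K E))) (S : Set E) (hS : S.Finite)
    (hgen : ∀ θ ∈ S, ug_GoodGen (K := K) O M θ) :
    ug_Str O ϖ M ((IntermediateField.adjoin K S : IntermediateField K E) : Set E) := by
  induction S, hS using Set.Finite.induction_on with
  | empty =>
    intro y hy
    rw [IntermediateField.adjoin_empty, SetLike.mem_coe, IntermediateField.mem_bot] at hy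
    exact hK y hy
  | @insert θ T _ _ ih =>
    have hT := ih (fun θ' hθ' => hgen θ' (Set.mem_insert_of_mem _ hθ'))
    obtain ⟨hθ, hMθ, h, hmonic, hroot, hsep⟩ := hgen θ (Set.mem_insert _ _)
    have hstep := ug_structure_step (IntermediateField.adjoin K T) hϖ hϖ0 M hT θ hθ hMθ h hmonic
      hroot hsep
    intro y hy hy0
    refine hstep y ?_ hy0
    rw [SetLike.mem_coe, ← Set.union_singleton, ← IntermediateField.adjoin_adjoin_left,
      IntermediateField.mem_restrictScalars] at hy
    exact hy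

end Induction

section Main

open IsDedekindDomain

variable {K : Type*} [Field K] (V : Subring K) [IsDiscreteValuationRing V] [IsFractionRing V K]
  (E : Type*) [Field E] [Algebra K E] [FiniteDimensional K E] [Algebra.IsSeparable K E]

/-- auxiliary form of `ug_unramAt` for a height one prime. -/
theorem ug_unramAt_aux [IsDedekindDomain (integralClosure V E)]
    [IsFractionRing (integralClosure V E) E] [Module.Finite V (integralClosure V E)]
    (S : Set E) (hS : S.Finite) (hgen : IntermediateField.adjoin K S = ⊤)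
    (hθ : ∀ θ ∈ S, ∃ h : (↥V)[X], h.Monic ∧ aeval θ h = 0 ∧
      (h.map (IsLocalRing.residue ↥V)).Separable)
    (v : HeightOneSpectrum (integralClosure V E)) :
    Algebra.IsUnramifiedAt V v.asIdeal := by
  classical
  set P : Ideal (integralClosure V E) := v.asIdeal with hPdef
  have hP : P ≠ ⊥ := v.ne_bot
  set O : ValuationSubring E := HeightOneSpectrum.valuationSubringAtPrime E v with hO
  have hlocO : IsLocalization P.primeCompl ↥O :=
    inferInstanceAs (IsLocalization v.asIdeal.primeCompl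
      (HeightOneSpectrum.valuationSubringAtPrime E v))
  have hPprime : P.IsPrime := v.isPrime
  have hOv : O = (v.valuation E).valuationSubring :=
    HeightOneSpectrum.valuationSubringAtPrime_eq_valuationSubring v
  have hmemO : ∀ x : E, x ∈ O ↔ v.valuation E x ≤ 1 := by
    intro x; rw [hOv]; exact Valuation.mem_valuationSubring_iff _ _
  have hCO : ∀ c : integralClosure V E, (c : E) ∈ O := fun c => (hmemO _).2 (v.valuation_le_one c)
  have hnonO : ∀ x : E, x ∈ O.nonunits ↔ v.valuation E x < 1 := by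
    intro x
    rw [ValuationSubring.mem_nonunits_iff_or]
    by_cases hx : x = 0
    · simp [hx]
    · rw [hmemO, map_inv₀, not_le]
      constructor
      · rintro (h | h)
        · exact absurd h hx
        · exact (one_lt_inv₀ (zero_lt_iff.2 ((_root_.map_ne_zero _).2 hx))).1 h
      · intro h
        exact Or.inr ((one_lt_inv₀ (zero_lt_iff.2 ((_root_.map_ne_zero _).2 hx))).2 h)
  -- the uniformiser of `V` lies in `P`
  obtain ⟨ϖ, hϖ⟩ := IsDiscreteValuationRing.exists_irreducible ↥V
  have hcomap : P.comap (algebraMap V (integralClosure V E)) = IsLocalRing.maximalIdeal V := by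
    have hne : P.comap (algebraMap V (integralClosure V E)) ≠ ⊥ :=
      fun h => hP (Ideal.eq_bot_of_comap_eq_bot h)
    have hprime : (P.comap (algebraMap V (integralClosure V E))).IsPrime :=
      Ideal.comap_isPrime _ P
    exact IsLocalRing.eq_maximalIdeal (hprime.isMaximal hne)
  have hVP : ∀ x : V, x ∈ IsLocalRing.maximalIdeal V → algebraMap K E (x : K) ∈ O.nonunits := by
    intro x hx
    rw [← hcomap, Ideal.mem_comap] at hx
    rw [hnonO]
    exact (v.valuation_lt_one_iff_mem (K := E) (algebraMap V (integralClosure V E) x)).2 hx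
  have hϖnon : algebraMap K E (ϖ : K) ∈ O.nonunits :=
    hVP ϖ ((IsLocalRing.mem_maximalIdeal _).2 hϖ.not_isUnit)
  have hϖ0 : (ϖ : K) ≠ 0 := fun h => hϖ.ne_zero (Subtype.ext h)
  -- `O` as a `V`-algebra
  let _ : Algebra V O :=
    ((algebraMap (integralClosure V E) O).comp (algebraMap V (integralClosure V E))).toAlgebra
  have _ : IsScalarTower V (integralClosure V E) O := IsScalarTower.of_algebraMap_eq (fun _ => rfl)
  have hVO : ∀ x : V, ((algebraMap V O x : O) : E) = algebraMap K E (x : K) := fun x => rfl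
  have hloc : IsLocalHom (algebraMap V O) := by
    constructor
    intro x hx
    by_contra hnu
    have h1 := hVP x ((IsLocalRing.mem_maximalIdeal _).2 hnu)
    rw [← hVO, ValuationSubring.coe_mem_nonunits_iff, IsLocalRing.mem_maximalIdeal] at h1
    exact h1 hx
  -- the separable closure of the residue field of `V` inside that of `O`
  set M : Subfield (IsLocalRing.ResidueField O) :=
    (separableClosure (IsLocalRing.ResidueField V) (IsLocalRing.ResidueField O)).toSubfield
    with hM
  have hmemM : ∀ x : IsLocalRing.ResidueField O, x ∈ M ↔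
      IsSeparable (IsLocalRing.ResidueField V) x := fun x => mem_separableClosure_iff
  have hMV : ∀ x : V, IsLocalRing.residue O (algebraMap V O x) ∈ M := by
    intro x
    have : IsLocalRing.residue O (algebraMap V O x) =
        algebraMap (IsLocalRing.ResidueField V) (IsLocalRing.ResidueField O)
          (IsLocalRing.residue V x) := rfl
    rw [this]
    exact (separableClosure (IsLocalRing.ResidueField V)
      (IsLocalRing.ResidueField O)).algebraMap_mem _
  -- structure on `K`
  have hK : ug_Str O (ϖ : K) M (Set.range (algebraMap K E)) := by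
    rintro y ⟨x, rfl⟩ hy0
    have hx0 : x ≠ 0 := fun h => hy0 (by rw [h, map_zero])
    obtain ⟨a, b, hb, rfl⟩ := IsFractionRing.div_surjective (A := V) x
    have hb0 : b ≠ 0 := nonZeroDivisors.ne_zero hb
    have ha0 : a ≠ 0 := by
      rintro rfl
      rw [map_zero, zero_div] at hx0
      exact hx0 rfl
    obtain ⟨i, ua, hua⟩ := IsDiscreteValuationRing.eq_unit_mul_pow_irreducible ha0 hϖ
    obtain ⟨j, ub, hub⟩ := IsDiscreteValuationRing.eq_unit_mul_pow_irreducible hb0 hϖ
    refine ⟨(i : ℤ) - (j : ℤ), Units.map (algebraMap V O : V →* O) (ua * ub⁻¹), ?_, ?_⟩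
    · have hιϖ0 : algebraMap K E (ϖ : K) ≠ 0 := by rw [Ne, map_eq_zero]; exact hϖ0
      have hub0 : ((ub : V) : K) ≠ 0 := fun h => ub.ne_zero (Subtype.ext h)
      have hua' : algebraMap V K a = ((ua : V) : K) * (ϖ : K) ^ i := by
        rw [hua]; rfl
      have hub' : algebraMap V K b = ((ub : V) : K) * (ϖ : K) ^ j := by
        rw [hub]; rfl
      have hinv : (((ub⁻¹ : (↥V)ˣ) : V) : K) = ((ub : V) : K)⁻¹ := by
        have h2 : (ub : V) * ((ub⁻¹ : (↥V)ˣ) : V) = 1 := Units.mul_inv ub
        have h3 := congrArg (fun z : V => (z : K)) h2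
        have h1 : ((ub : V) : K) * (((ub⁻¹ : (↥V)ˣ) : V) : K) = 1 := by
          simpa only [MulMemClass.coe_mul, OneMemClass.coe_one] using h3
        exact (inv_eq_of_mul_eq_one_right h1).symm
      have hu : ((Units.map (algebraMap V O : V →* O) (ua * ub⁻¹) : O) : E) =
          algebraMap K E (((ua : V) : K) * ((ub : V) : K)⁻¹) := by
        show ((algebraMap V O ((ua * ub⁻¹ : (↥V)ˣ) : V) : O) : E) = _
        rw [hVO, Units.val_mul, MulMemClass.coe_mul, hinv]
      rw [hu, hua', hub', zpow_sub₀ hιϖ0, zpow_natCast, zpow_natCast, map_div₀, map_mul, map_mul,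
        map_mul, map_pow, map_pow, map_inv₀]
      have : algebraMap K E ((ub : V) : K) ≠ 0 := by rw [Ne, map_eq_zero]; exact hub0
      field_simp
    · exact hMV _
  -- `V → O ∩ K`
  let ψ : V →+* ↥(O.comap (algebraMap K E)) :=
    (V.subtype).codRestrict (O.comap (algebraMap K E)).toSubring
      (fun x => hCO (algebraMap V (integralClosure V E) x))
  have hψ : (ug_incl O).comp ψ = algebraMap V O := by
    ext x; rfl
  have hψloc : IsLocalHom ψ := by
    constructor
    intro x hx
    have h1 : IsUnit (ug_incl O (ψ x)) := hx.map _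
    have h2 : ug_incl O (ψ x) = algebraMap V O x := RingHom.congr_fun hψ x
    rw [h2] at h1
    exact hloc.map_nonunit x h1
  have hgood : ∀ θ ∈ S, ug_GoodGen (K := K) O M θ := by
    intro θ hθS
    obtain ⟨h, hmonic, hroot, hsep⟩ := hθ θ hθS
    have hint : IsIntegral V θ := ⟨h, hmonic, by rw [← aeval_def]; exact hroot⟩
    have hθO : θ ∈ O := hCO ⟨θ, hint⟩
    refine ⟨hθO, ?_, h.map ψ, hmonic.map ψ, ?_, ?_⟩
    · -- the residue of `θ` is separable
      rw [hmemM]
      have hroot' : aeval (IsLocalRing.residue O (⟨θ, hθO⟩ : O))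
          (h.map (IsLocalRing.residue V)) = 0 := by
        rw [aeval_def, eval₂_map]
        have hcomp : (algebraMap (IsLocalRing.ResidueField V) (IsLocalRing.ResidueField O)).comp
            (IsLocalRing.residue V) = (IsLocalRing.residue O).comp (algebraMap V O) := rfl
        rw [hcomp, ← hom_eval₂]
        have : eval₂ (algebraMap V O) (⟨θ, hθO⟩ : O) h = 0 := by
          apply Subtype.ext
          have h3 := hom_eval₂ h (algebraMap V O) (O.subtype : O →+* E) (⟨θ, hθO⟩ : O)
          have h4 : (O.subtype : O →+* E).comp (algebraMap V O) = algebraMap V E := by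
            ext x; rfl
          rw [h4] at h3
          show (O.subtype : O →+* E) (eval₂ (algebraMap V O) (⟨θ, hθO⟩ : O) h) = 0
          rw [h3, ← aeval_def]
          exact hroot
        rw [this, map_zero]
      exact Polynomial.Separable.of_dvd hsep (minpoly.dvd _ _ hroot')
    · rw [eval₂_map]
      have : ((algebraMap K E).comp (O.comap (algebraMap K E)).subtype).comp ψ =
          algebraMap V E := by
        ext x; rfl
      rw [this, ← aeval_def]
      exact hroot
    · rw [Polynomial.map_map, ← IsLocalRing.ResidueField.map_comp_residue, ← Polynomial.map_map]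
      exact hsep.map
  have hE := ug_structure hϖnon hϖ0 M hK S hS hgood
  rw [hgen] at hE
  -- separable residue field extension
  have hsepRes : Algebra.IsSeparable (IsLocalRing.ResidueField V) (IsLocalRing.ResidueField O) := by
    refine ⟨fun x => ?_⟩
    obtain ⟨w, rfl⟩ := IsLocalRing.residue_surjective x
    exact (hmemM _).1 (hE.residue_mem hϖnon hϖ0 w trivial)
  -- essentially of finite type
  have hfin : Algebra.EssFiniteType V O := by
    have : Algebra.EssFiniteType (integralClosure V E) O :=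
      Algebra.EssFiniteType.of_isLocalization O P.primeCompl
    exact Algebra.EssFiniteType.comp V (integralClosure V E) O
  -- the maximal ideal of `O` is generated by the uniformiser of `V`
  have hιϖ0 : algebraMap K E (ϖ : K) ≠ 0 := by rw [Ne, map_eq_zero]; exact hϖ0
  have hmax : Ideal.map (algebraMap V O) (IsLocalRing.maximalIdeal V) =
      IsLocalRing.maximalIdeal O := by
    apply le_antisymm
    · rw [Ideal.map_le_iff_le_comap]
      intro x hx
      rw [Ideal.mem_comap, ← ValuationSubring.coe_mem_nonunits_iff, hVO]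
      exact hVP x hx
    · intro w hw
      by_cases hw0 : (w : E) = 0
      · have : w = 0 := Subtype.ext hw0
        rw [this]; exact Ideal.zero_mem _
      obtain ⟨n, u, hnu, -⟩ := hE (w : E) trivial hw0
      have hn : 0 ≤ n := (ug_zpow_mul_unit_mem_iff hϖnon hιϖ0 n u).1 (hnu ▸ w.2)
      obtain ⟨k, rfl⟩ := Int.eq_ofNat_of_zero_le hn
      rw [zpow_natCast] at hnu
      have hw' : w = algebraMap V O ϖ ^ k * u := Subtype.ext (by rw [hnu]; rfl)
      rcases Nat.eq_zero_or_pos k with rfl | hk
      · exfalso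
        rw [hw', pow_zero, one_mul, IsLocalRing.mem_maximalIdeal, mem_nonunits_iff] at hw
        exact hw u.isUnit
      · obtain ⟨m, rfl⟩ := Nat.exists_eq_succ_of_ne_zero hk.ne'
        rw [hw', pow_succ, mul_assoc, mul_comm (algebraMap V O ϖ ^ m), mul_assoc]
        exact Ideal.mul_mem_right _ _ (Ideal.mem_map_of_mem _
          ((IsLocalRing.mem_maximalIdeal _).2 hϖ.not_isUnit))
  have hunr : Algebra.FormallyUnramified V O :=
    Algebra.FormallyUnramified.of_map_maximalIdeal hmax
  -- transfer to the localisation of `integralClosure V E` at `P`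
  let e : O ≃ₐ[integralClosure V E] Localization.AtPrime P :=
    IsLocalization.algEquiv P.primeCompl O (Localization.AtPrime P)
  exact Algebra.FormallyUnramified.of_equiv (e.restrictScalars V)

/-- **[UG]** `E = K(θ_1, …, θ_n)` with each `θ_i` a root of a monic polynomial over the DVR `V`
whose reduction is separable: then `E` is unramified over `V` (`jt_UnramAt V E`). -/
theorem ug_unramAt (S : Set E) (hS : S.Finite) (hgen : IntermediateField.adjoin K S = ⊤)
    (hθ : ∀ θ ∈ S, ∃ h : (↥V)[X], h.Monic ∧ aeval θ h = 0 ∧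
      (h.map (IsLocalRing.residue ↥V)).Separable)
    (P : Ideal (integralClosure V E)) [P.IsPrime] (hP : P ≠ ⊥) :
    Algebra.IsUnramifiedAt V P := by
  have _ : IsDedekindDomain (integralClosure V E) := integralClosure.isDedekindDomain V K E
  have _ : IsFractionRing (integralClosure V E) E :=
    integralClosure.isFractionRing_of_finite_extension K E
  have _ : Module.Finite V (integralClosure V E) :=
    IsIntegralClosure.finite V K E (integralClosure V E)
  exact ug_unramAt_aux V E S hS hgen hθ ⟨P, inferInstance, hP⟩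

end Main

end Fermat.Agent.JT3
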