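/-
JT3 / Route R (S18), helper12: **[V-GEN]** (architect's #1384 (2)): the vertical (Gauss) prime.

* `ug_unramAt_poly` : `E = K(S)`, every `θ ∈ S` satisfies `mdl_GoodGen O x θ`
  (`Model/GenDefs.lean`): then `E` is unramified over every discrete valuation subring `V` of `K`
  with `x ∈ V`, `a(x) ∈ Vˣ` for all `a ∈ O[X]` with nonzero reduction, and `ϖ⁻¹ ∉ V`
  (= the hypothesis `hV` of `el_pb_mdl_etale`, verbatim).
* `ug_goodGen_map` : `mdl_GoodGen` is stable under `O`-algebra homomorphisms of fields.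
-/
import Mathlib
import Fermat.Agent.JT3.Algebra.UnramGen
import Fermat.Agent.JT3.Model.GenDefs

set_option autoImplicit false
set_option linter.unusedSectionVars false

namespace Fermat.Agent.JT3

open Polynomial

section GoodGenMap

/-- `mdl_GoodGen` is stable under field extensions. -/
theorem ug_goodGen_map {O : Type*} [CommRing O] [IsLocalRing O] {E E' : Type*} [Field E]
    [Field E'] [Algebra O E] [Algebra O E'] (f : E →ₐ[O] E') {x θ : E}
    (h : mdl_GoodGen O x θ) : mdl_GoodGen O (f x) (f θ) := by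
  obtain ⟨H, hlc, hroot, hsep⟩ := h
  refine ⟨H, hlc, ?_, hsep⟩
  have hcomp : ((aeval (f x) : O[X] →ₐ[O] E') : O[X] →+* E') =
      (f : E →+* E').comp ((aeval x : O[X] →ₐ[O] E) : O[X] →+* E) := by
    ext a
    · simp
    · simp
  rw [hcomp]
  have h1 := hom_eval₂ H ((aeval x : O[X] →ₐ[O] E) : O[X] →+* E) (f : E →+* E') θ
  rw [hroot, map_zero] at h1
  exact h1.symm

end GoodGenMap

section VGen

variable {O : Type*} [CommRing O] [IsDomain O] [IsDiscreteValuationRing O]
  {K E : Type*} [Field K] [Field E] [Algebra K E] [Algebra O K] [Algebra O E]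
  [IsScalarTower O K E] [FiniteDimensional K E] [Algebra.IsSeparable K E]

/-- **[V-GEN]** the vertical prime: `E = K(S)` with every `θ ∈ S` a root of `H(x, T)`,
`H ∈ O[X][T]` with leading coefficient nonzero modulo `ϖ` and separable reduction over `k(X)`:
then `E` is unramified over every discrete valuation subring `V` of `K` containing `x` in which
every `a(x)`, `a ∈ O[X]` with nonzero reduction, is a unit and `ϖ` is not (the Gauss ring). -/
theorem ug_unramAt_poly {ϖ : O} (hϖ : Irreducible ϖ) (x : K)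
    (S : Finset E) (hS : IntermediateField.adjoin K (S : Set E) = ⊤)
    (hgood : ∀ θ ∈ S, mdl_GoodGen O (algebraMap K E x) θ)
    (V : Subring K) [IsDiscreteValuationRing V] [IsFractionRing V K] (hxV : x ∈ V)
    (hunit : ∀ a : O[X], a.map (IsLocalRing.residue O) ≠ 0 → (aeval x a)⁻¹ ∈ V)
    (hϖV : (algebraMap O K ϖ)⁻¹ ∉ V) :
    ∀ (P : Ideal (integralClosure V E)) [P.IsPrime], P ≠ ⊥ → Algebra.IsUnramifiedAt V P := by
  classical
  -- `V` is a valuation ring of `K`
  have hval : ∀ y : K, y ∈ V ∨ y⁻¹ ∈ V := by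
    intro y
    rcases ValuationRing.isInteger_or_isInteger V y with ⟨b, hb⟩ | ⟨b, hb⟩
    · left; rw [← hb]; exact b.2
    · right; rw [← hb]; exact b.2
  -- `O ⊆ V`
  have hϖmem : algebraMap O K ϖ ∈ V := by
    rcases hval (algebraMap O K ϖ) with h | h
    · exact h
    · exact absurd h hϖV
  have hunitO : ∀ u : Oˣ, algebraMap O K (u : O) ∈ V := by
    intro u
    have h1 : (C ((u⁻¹ : Oˣ) : O) : O[X]).map (IsLocalRing.residue O) ≠ 0 := by
      rw [Polynomial.map_C, Ne, C_eq_zero, IsLocalRing.residue_eq_zero_iff,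
        IsLocalRing.mem_maximalIdeal, mem_nonunits_iff, not_not]
      exact (u⁻¹).isUnit
    have h2 := hunit _ h1
    rw [aeval_C] at h2
    have h3 : algebraMap O K ((u⁻¹ : Oˣ) : O) * algebraMap O K (u : O) = 1 := by
      rw [← map_mul, Units.inv_mul, map_one]
    rwa [inv_eq_of_mul_eq_one_right h3] at h2
  have hOV : ∀ o : O, algebraMap O K o ∈ V := by
    intro o
    by_cases ho : o = 0
    · rw [ho, map_zero]; exact V.zero_mem
    obtain ⟨k, u, hu⟩ := IsDiscreteValuationRing.eq_unit_mul_pow_irreducible ho hϖ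
    rw [hu, map_mul, map_pow]
    exact V.mul_mem (hunitO u) (V.pow_mem hϖmem k)
  -- the ring homomorphisms `O → V` and `O[X] → V`
  let φ : O →+* V := (algebraMap O K).codRestrict V hOV
  have hφ : ∀ o : O, ((φ o : V) : K) = algebraMap O K o := fun _ => rfl
  let xV : V := ⟨x, hxV⟩
  let ψ : O[X] →+* V := eval₂RingHom φ xV
  have hψ : ∀ a : O[X], ((ψ a : V) : K) = aeval x a := by
    intro a
    have h1 := hom_eval₂ a φ (V.subtype) xV
    have h2 : (V.subtype).comp φ = algebraMap O K := by ext o; rfl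
    rw [h2] at h1
    exact h1
  -- units
  have hϖ0 : algebraMap O K ϖ ≠ 0 := by
    intro h0
    apply hϖV
    rw [h0, inv_zero]; exact V.zero_mem
  have hψne : ∀ a : O[X], a.map (IsLocalRing.residue O) ≠ 0 → aeval x a ≠ 0 := by
    intro a ha h0
    have h1 : (a + C ϖ).map (IsLocalRing.residue O) ≠ 0 := by
      rw [Polynomial.map_add, Polynomial.map_C,
        (IsLocalRing.residue_eq_zero_iff ϖ).2 ((IsLocalRing.mem_maximalIdeal _).2 hϖ.not_isUnit),
        map_zero, add_zero]
      exact ha
    have h2 := hunit _ h1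
    rw [map_add, h0, zero_add, aeval_C] at h2
    exact hϖV h2
  have hψunit : ∀ a : O[X], a.map (IsLocalRing.residue O) ≠ 0 → IsUnit (ψ a) := by
    intro a ha
    refine IsUnit.of_mul_eq_one ⟨(aeval x a)⁻¹, hunit a ha⟩ (Subtype.ext ?_)
    show ((ψ a : V) : K) * (aeval x a)⁻¹ = 1
    rw [hψ, mul_inv_cancel₀ (hψne a ha)]
  -- `φ` is local
  have hφϖ : ¬ IsUnit (φ ϖ) := by
    intro hu
    obtain ⟨b, hb⟩ := hu.exists_right_inv
    have h1 : algebraMap O K ϖ * (b : K) = 1 := by
      have := congrArg (Subtype.val) hb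
      simpa [hφ] using this
    apply hϖV
    rw [inv_eq_of_mul_eq_one_right h1]
    exact b.2
  have hloc : IsLocalHom φ := by
    constructor
    intro o ho
    by_contra hnu
    have hmem : o ∈ IsLocalRing.maximalIdeal O := (IsLocalRing.mem_maximalIdeal _).2 hnu
    rw [hϖ.maximalIdeal_eq, Ideal.mem_span_singleton'] at hmem
    obtain ⟨o', rfl⟩ := hmem
    rw [map_mul] at ho
    exact hφϖ (isUnit_of_mul_isUnit_right ho)
  -- the induced maps on residue fields
  let φbar : IsLocalRing.ResidueField O →+* IsLocalRing.ResidueField V :=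
    IsLocalRing.ResidueField.map φ
  let ψbar : (IsLocalRing.ResidueField O)[X] →+* IsLocalRing.ResidueField V :=
    eval₂RingHom φbar (IsLocalRing.residue V xV)
  have hcompat : (IsLocalRing.residue V).comp ψ =
      ψbar.comp (mapRingHom (IsLocalRing.residue O)) := by
    apply Polynomial.ringHom_ext
    · intro o
      simp [ψ, ψbar, φbar, IsLocalRing.ResidueField.map_residue]
    · simp [ψ, ψbar]
  have hinj : Function.Injective ψbar := by
    rw [injective_iff_map_eq_zero]
    intro b hb
    by_contra hb0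
    obtain ⟨a, rfl⟩ := Polynomial.map_surjective (IsLocalRing.residue O)
      IsLocalRing.residue_surjective b
    have h1 : IsUnit (ψ a) := hψunit a hb0
    have h2 : IsLocalRing.residue V (ψ a) = 0 := by
      have := RingHom.congr_fun hcompat a
      simp only [RingHom.comp_apply, coe_mapRingHom] at this
      rw [this]; exact hb
    rw [IsLocalRing.residue_eq_zero_iff, IsLocalRing.mem_maximalIdeal, mem_nonunits_iff] at h2
    exact h2 h1
  obtain ⟨Ψ, hΨ'⟩ : ∃ Ψ : RatFunc (IsLocalRing.ResidueField O) →+* IsLocalRing.ResidueField V,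
      ∀ b : (IsLocalRing.ResidueField O)[X], Ψ (algebraMap _ _ b) = ψbar b :=
    ⟨IsFractionRing.lift hinj, fun b => IsFractionRing.lift_algebraMap hinj b⟩
  have hΨ : Ψ.comp (algebraMap (IsLocalRing.ResidueField O)[X]
      (RatFunc (IsLocalRing.ResidueField O))) = ψbar := RingHom.ext hΨ'
  -- the map `O[X] → E`
  have hψE : (algebraMap V E).comp ψ =
      ((aeval (algebraMap K E x) : O[X] →ₐ[O] E) : O[X] →+* E) := by
    apply Polynomial.ringHom_ext
    · intro o
      simp only [RingHom.comp_apply, ψ, coe_eval₂RingHom, eval₂_C, RingHom.coe_coe, aeval_C]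
      show algebraMap K E ((φ o : V) : K) = algebraMap O E o
      rw [hφ, ← IsScalarTower.algebraMap_apply]
    · simp only [RingHom.comp_apply, ψ, coe_eval₂RingHom, eval₂_X, RingHom.coe_coe, aeval_X]
      rfl
  -- the generators
  have hθ : ∀ θ ∈ (S : Set E), ∃ h : (↥V)[X], h.Monic ∧ aeval θ h = 0 ∧
      (h.map (IsLocalRing.residue ↥V)).Separable := by
    intro θ hθS
    obtain ⟨H, hlc, hroot, hsep⟩ := hgood θ hθS
    have hu : IsUnit (ψ H.leadingCoeff) := hψunit _ hlc
    have hlc0 : ψ H.leadingCoeff ≠ 0 := hu.ne_zero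
    have hlcmap : (H.map ψ).leadingCoeff = ψ H.leadingCoeff := leadingCoeff_map_of_leadingCoeff_ne_zero ψ hlc0
    obtain ⟨b, hb⟩ := hu.exists_left_inv
    refine ⟨C b * H.map ψ, monic_C_mul_of_mul_leadingCoeff_eq_one (by rw [hlcmap, hb]), ?_, ?_⟩
    · rw [map_mul, aeval_C, aeval_def, eval₂_map, hψE, hroot, mul_zero]
    · rw [Polynomial.map_mul, Polynomial.map_C, Polynomial.map_map, hcompat, ← hΨ,
        ← Polynomial.map_map, ← Polynomial.map_map]
      refine Polynomial.Separable.unit_mul ?_ hsep.map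
      rw [Polynomial.isUnit_C]
      exact (IsUnit.of_mul_eq_one _ hb).map (IsLocalRing.residue ↥V)
  exact ug_unramAt V E (S : Set E) S.finite_toSet hS hθ

end VGen

end Fermat.Agent.JT3
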