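/-
JT3 node DS: unit-discriminant toolkit (no étale language).
-/
import Mathlib

namespace Fermat.Agent.JT3

open Module Matrix
open scoped nonZeroDivisors

section DSa

variable {A : Type*} [CommRing A] [IsDomain A]

/-- **(DS-a)** A non-multiple of the prime `π` which becomes a unit after inverting `π` is a unit.
(Unit on the generic fibre + nonzero on the special fibre ⟹ unit.) -/
theorem ud_isUnit_of_not_dvd {π d : A} (hπ : Prime π) (hd : ¬ π ∣ d)
    (h : ∃ (e : A) (k : ℕ), d * e = π ^ k) : IsUnit d := by
  obtain ⟨e, k, hek⟩ := h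
  have hdvd : π ^ k ∣ d * e := ⟨1, by rw [hek, mul_one]⟩
  obtain ⟨e', he'⟩ := hπ.pow_dvd_of_dvd_mul_left k hd hdvd
  have hne : π ^ k ≠ 0 := pow_ne_zero k hπ.ne_zero
  have : π ^ k * (d * e') = π ^ k * 1 := by
    rw [he'] at hek; linear_combination hek
  exact IsUnit.of_mul_eq_one e' (mul_left_cancel₀ hne this)

end DSa

section DSb

variable {A C : Type*} [CommRing A] [IsDomain A] [IsIntegrallyClosed A]
  [CommRing C] [IsDomain C] [Algebra A C] {ι : Type*} [Fintype ι] [DecidableEq ι]

/-- **(DS-b)** A domain `C` which is finite free over a normal domain `A` with unit discriminant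
is integrally closed. -/
theorem ud_isIntegrallyClosed (b : Basis ι A C) (hd : IsUnit (Algebra.discr A b)) :
    IsIntegrallyClosed C := by
  classical
  have : Module.Free A C := Module.Free.of_basis b
  have : Module.Finite A C := Module.Finite.of_basis b
  have : FaithfulSMul A C := inferInstance
  have : Algebra.IsIntegral A C := Algebra.IsIntegral.of_finite A C
  let K := FractionRing A
  let L := FractionRing C
  let _ : Algebra K L := FractionRing.liftAlgebra A L
  have : IsScalarTower A K L := FractionRing.isScalarTower_liftAlgebra A L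
  have : IsLocalization (Algebra.algebraMapSubmonoid C A⁰) L := inferInstance
  let bL : Basis ι K L := b.localizationLocalization K A⁰ L
  have : FiniteDimensional K L := Module.Finite.of_basis bL
  rw [isIntegrallyClosed_iff L]
  intro z hz
  have hzA : IsIntegral A z := isIntegral_trans _ hz
  -- traces of `z * bL j` lie in `A`
  have htr : ∀ j, ∃ a : A, algebraMap A K a = Algebra.trace K L (z * bL j) := fun j => by
    have hbj : IsIntegral A (bL j) := by
      rw [Basis.localizationLocalization_apply]
      exact (Algebra.IsIntegral.isIntegral (b j)).algebraMap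
    have hint : IsIntegral A (z * bL j) := hzA.mul hbj
    have := Algebra.isIntegral_trace (L := K) (F := L) hint
    exact IsIntegrallyClosed.isIntegral_iff.mp this
  choose a ha using htr
  -- the trace matrix
  set T := Algebra.traceMatrix A b with hT
  have hTdet : IsUnit T.det := hd
  have hTK : Algebra.traceMatrix K bL = (algebraMap A K).mapMatrix T :=
    Algebra.traceMatrix_localizationLocalization A A⁰ L b
  have hmul : (algebraMap A K).mapMatrix T *ᵥ bL.equivFun z = fun j => algebraMap A K (a j) := by
    rw [← hTK, Algebra.traceMatrix_of_basis_mulVec]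
    funext j
    exact (ha j).symm
  -- solve the linear system over `A`
  have hx : bL.equivFun z = fun i => algebraMap A K ((T⁻¹ *ᵥ a) i) := by
    have h1 : (algebraMap A K).mapMatrix T⁻¹ *ᵥ ((algebraMap A K).mapMatrix T *ᵥ bL.equivFun z) =
        bL.equivFun z := by
      rw [Matrix.mulVec_mulVec, ← map_mul, Matrix.nonsing_inv_mul _ hTdet, map_one,
        Matrix.one_mulVec]
    rw [← h1, hmul]
    funext i
    simp only [RingHom.mapMatrix_apply, Matrix.mulVec, dotProduct, Matrix.map_apply, map_sum,
      map_mul]
  refine ⟨∑ i, (T⁻¹ *ᵥ a) i • b i, ?_⟩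
  rw [← bL.sum_equivFun z, map_sum]
  refine Finset.sum_congr rfl fun i _ => ?_
  rw [hx, Basis.localizationLocalization_apply, Algebra.smul_def, map_mul,
    ← IsScalarTower.algebraMap_apply, Algebra.smul_def,
    IsScalarTower.algebraMap_apply A K L]

end DSb

section DSc

variable {A C A₁ C₁ : Type*} [CommRing A] [CommRing C] [Algebra A C]
  [CommRing A₁] [CommRing C₁] [Algebra A₁ C₁] {ι : Type*} [Fintype ι] [DecidableEq ι]

/-- Semilinear base change of coordinates: if `ψ : C → C₁` is `φ`-semilinear and carries the
basis `b` to the basis `b₁`, then coordinates are carried by `φ`. -/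
theorem ud_repr_map (φ : A →+* A₁) (ψ : C →+* C₁)
    (hcomp : ∀ a, ψ (algebraMap A C a) = algebraMap A₁ C₁ (φ a))
    (b : Basis ι A C) (b₁ : Basis ι A₁ C₁) (hb : ∀ i, b₁ i = ψ (b i)) (c : C) (i : ι) :
    b₁.repr (ψ c) i = φ (b.repr c i) := by
  have h : ψ c = ∑ j, φ (b.repr c j) • b₁ j := by
    conv_lhs => rw [← b.sum_repr c]
    rw [map_sum]
    refine Finset.sum_congr rfl fun j _ => ?_
    rw [Algebra.smul_def, map_mul, hcomp, hb, Algebra.smul_def]
  rw [h, map_sum, Finsupp.coe_finsetSum, Finset.sum_apply]
  simp only [map_smul, Basis.repr_self, Finsupp.smul_apply, Finsupp.single_apply, smul_eq_mul,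
    mul_ite, mul_one, mul_zero, Finset.sum_ite_eq', Finset.mem_univ, if_true]

/-- The trace commutes with semilinear base change of bases. -/
theorem ud_trace_map (φ : A →+* A₁) (ψ : C →+* C₁)
    (hcomp : ∀ a, ψ (algebraMap A C a) = algebraMap A₁ C₁ (φ a))
    (b : Basis ι A C) (b₁ : Basis ι A₁ C₁) (hb : ∀ i, b₁ i = ψ (b i)) (c : C) :
    Algebra.trace A₁ C₁ (ψ c) = φ (Algebra.trace A C c) := by
  rw [Algebra.trace_eq_matrix_trace b₁, Algebra.trace_eq_matrix_trace b, Matrix.trace,
    Matrix.trace, map_sum]
  refine Finset.sum_congr rfl fun i _ => ?_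
  rw [Matrix.diag_apply, Matrix.diag_apply, Algebra.leftMulMatrix_eq_repr_mul,
    Algebra.leftMulMatrix_eq_repr_mul, hb, ← map_mul, ud_repr_map φ ψ hcomp b b₁ hb]

/-- **(DS-c)** The trace matrix commutes with semilinear base change of bases. -/
theorem ud_traceMatrix_map (φ : A →+* A₁) (ψ : C →+* C₁)
    (hcomp : ∀ a, ψ (algebraMap A C a) = algebraMap A₁ C₁ (φ a))
    (b : Basis ι A C) (b₁ : Basis ι A₁ C₁) (hb : ∀ i, b₁ i = ψ (b i)) :
    Algebra.traceMatrix A₁ b₁ = φ.mapMatrix (Algebra.traceMatrix A b) := by
  ext i j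
  rw [RingHom.mapMatrix_apply, Matrix.map_apply, Algebra.traceMatrix_apply,
    Algebra.traceMatrix_apply, Algebra.traceForm_apply, Algebra.traceForm_apply, hb, hb,
    ← map_mul, ud_trace_map φ ψ hcomp b b₁ hb]

/-- **(DS-c)** The discriminant commutes with semilinear base change of bases. -/
theorem ud_discr_map (φ : A →+* A₁) (ψ : C →+* C₁)
    (hcomp : ∀ a, ψ (algebraMap A C a) = algebraMap A₁ C₁ (φ a))
    (b : Basis ι A C) (b₁ : Basis ι A₁ C₁) (hb : ∀ i, b₁ i = ψ (b i)) :
    Algebra.discr A₁ b₁ = φ (Algebra.discr A b) := by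
  rw [Algebra.discr_def, Algebra.discr_def, RingHom.map_det,
    ud_traceMatrix_map φ ψ hcomp b b₁ hb]

end DSc

section Quot

variable {A C A₁ C₁ : Type*} [CommRing A] [CommRing C] [Algebra A C]
  [CommRing A₁] [CommRing C₁] [Algebra A₁ C₁] {ι : Type*} [Fintype ι] [DecidableEq ι]

omit [DecidableEq ι] in
/-- Coordinates of elements of the extended ideal `I C` lie in `I`. -/
theorem ud_repr_mem_of_mem_map (b : Basis ι A C) (I : Ideal A) {x : C}
    (hx : x ∈ I.map (algebraMap A C)) (i : ι) : b.repr x i ∈ I := by
  let J : Ideal C :=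
    { carrier := {x | ∀ i, b.repr x i ∈ I}
      add_mem' := fun {x y} hx hy i => by
        rw [map_add, Finsupp.add_apply]; exact I.add_mem (hx i) (hy i)
      zero_mem' := fun i => by rw [map_zero, Finsupp.zero_apply]; exact I.zero_mem
      smul_mem' := fun c x hx i => by
        have h : c • x = ∑ j, b.repr x j • (c * b j) := by
          conv_lhs => rw [← b.sum_repr x]
          rw [Finset.smul_sum]
          refine Finset.sum_congr rfl fun j _ => ?_
          rw [smul_eq_mul, mul_smul_comm]
        rw [h, map_sum, Finsupp.coe_finsetSum, Finset.sum_apply]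
        refine I.sum_mem fun j _ => ?_
        rw [map_smul, Finsupp.smul_apply, smul_eq_mul]
        exact I.mul_mem_right _ (hx j) }
  have hle : I.map (algebraMap A C) ≤ J := by
    rw [Ideal.map_le_iff_le_comap]
    intro a ha i
    change b.repr (algebraMap A C a) i ∈ I
    rw [Algebra.algebraMap_eq_smul_one, map_smul, Finsupp.smul_apply, smul_eq_mul]
    exact I.mul_mem_right _ ha
  exact hle hx i

/-- The induced basis of a quotient `C₁ = C ⧸ (ker φ) C` over `A₁ = A ⧸ ker φ`
(in any presentation). -/
noncomputable def ud_basisOfSurjective (φ : A →+* A₁) (ψ : C →+* C₁)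
    (hφ : Function.Surjective φ) (hψ : Function.Surjective ψ)
    (hcomp : ∀ a, ψ (algebraMap A C a) = algebraMap A₁ C₁ (φ a))
    (hker : RingHom.ker ψ ≤ (RingHom.ker φ).map (algebraMap A C))
    (b : Basis ι A C) : Basis ι A₁ C₁ :=
  Basis.mk (v := fun i => ψ (b i))
    (by
      rw [Fintype.linearIndependent_iff]
      intro g hg i
      choose a ha using fun j => hφ (g j)
      have h0 : ψ (∑ j, a j • b j) = 0 := by
        rw [map_sum, ← hg]
        refine Finset.sum_congr rfl fun j _ => ?_
        rw [Algebra.smul_def, map_mul, hcomp, ha, Algebra.smul_def]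
      have hmem : ∑ j, a j • b j ∈ (RingHom.ker φ).map (algebraMap A C) :=
        hker ((RingHom.mem_ker).2 h0)
      have := ud_repr_mem_of_mem_map b (RingHom.ker φ) hmem i
      rw [b.repr_sum_self] at this
      rw [← ha i]
      exact (RingHom.mem_ker).1 this)
    (by
      rintro y -
      obtain ⟨c, rfl⟩ := hψ y
      have h : ψ c = ∑ j, φ (b.repr c j) • ψ (b j) := by
        conv_lhs => rw [← b.sum_repr c]
        rw [map_sum]
        refine Finset.sum_congr rfl fun j _ => ?_
        rw [Algebra.smul_def, map_mul, hcomp, Algebra.smul_def]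
      rw [h]
      exact Submodule.sum_mem _ fun j _ =>
        Submodule.smul_mem _ _ (Submodule.subset_span ⟨j, rfl⟩))

omit [DecidableEq ι] in
@[simp]
theorem ud_basisOfSurjective_apply (φ : A →+* A₁) (ψ : C →+* C₁)
    (hφ : Function.Surjective φ) (hψ : Function.Surjective ψ)
    (hcomp : ∀ a, ψ (algebraMap A C a) = algebraMap A₁ C₁ (φ a))
    (hker : RingHom.ker ψ ≤ (RingHom.ker φ).map (algebraMap A C))
    (b : Basis ι A C) (i : ι) :
    ud_basisOfSurjective φ ψ hφ hψ hcomp hker b i = ψ (b i) := by
  rw [ud_basisOfSurjective, Basis.mk_apply]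

/-- **(DS-c)**, quotient form: the discriminant of the induced basis is the image of the
discriminant. -/
theorem ud_discr_basisOfSurjective (φ : A →+* A₁) (ψ : C →+* C₁)
    (hφ : Function.Surjective φ) (hψ : Function.Surjective ψ)
    (hcomp : ∀ a, ψ (algebraMap A C a) = algebraMap A₁ C₁ (φ a))
    (hker : RingHom.ker ψ ≤ (RingHom.ker φ).map (algebraMap A C))
    (b : Basis ι A C) :
    Algebra.discr A₁ (ud_basisOfSurjective φ ψ hφ hψ hcomp hker b) = φ (Algebra.discr A b) :=
  ud_discr_map φ ψ hcomp b _ (ud_basisOfSurjective_apply φ ψ hφ hψ hcomp hker b)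

/-- **Normality of the special fibre**: if `C` is finite free over `A` with unit discriminant,
then every quotient `C₁ = C ⧸ (ker φ) C` which is a domain, over a normal domain `A₁ = A ⧸ ker φ`,
is integrally closed. -/
theorem ud_isIntegrallyClosed_of_surjective [IsDomain A₁] [IsIntegrallyClosed A₁] [IsDomain C₁]
    (φ : A →+* A₁) (ψ : C →+* C₁)
    (hφ : Function.Surjective φ) (hψ : Function.Surjective ψ)
    (hcomp : ∀ a, ψ (algebraMap A C a) = algebraMap A₁ C₁ (φ a))
    (hker : RingHom.ker ψ ≤ (RingHom.ker φ).map (algebraMap A C))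
    (b : Basis ι A C) (hd : IsUnit (Algebra.discr A b)) : IsIntegrallyClosed C₁ :=
  ud_isIntegrallyClosed (ud_basisOfSurjective φ ψ hφ hψ hcomp hker b)
    (by rw [ud_discr_basisOfSurjective]; exact hd.map φ)

/-- The same for the standard quotient `C ⧸ I C` over `A ⧸ I`. -/
theorem ud_isIntegrallyClosed_quotient (I : Ideal A) [IsDomain (A ⧸ I)]
    [IsIntegrallyClosed (A ⧸ I)] [IsDomain (C ⧸ I.map (algebraMap A C))]
    (b : Basis ι A C) (hd : IsUnit (Algebra.discr A b)) :
    IsIntegrallyClosed (C ⧸ I.map (algebraMap A C)) :=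
  ud_isIntegrallyClosed_of_surjective (Ideal.Quotient.mk I)
    (Ideal.Quotient.mk (I.map (algebraMap A C))) Ideal.Quotient.mk_surjective
    Ideal.Quotient.mk_surjective
    (fun a => (Ideal.Quotient.algebraMap_quotient_map_quotient a).symm)
    (by rw [Ideal.mk_ker, Ideal.mk_ker]) b hd

end Quot

section DSd

variable {A C : Type*} [CommRing A] [IsReduced A] [CommRing C] [Algebra A C]
  {ι : Type*} [Fintype ι] [DecidableEq ι]

/-- **(DS-d)** A finite free algebra with unit discriminant over a reduced ring is reduced. -/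
theorem ud_isReduced (b : Basis ι A C) (hd : IsUnit (Algebra.discr A b)) : IsReduced C := by
  have : Module.Free A C := Module.Free.of_basis b
  have : Module.Finite A C := Module.Finite.of_basis b
  refine ⟨fun x hx => ?_⟩
  -- all traces `Tr (x * b i)` vanish
  have htr : ∀ i, Algebra.trace A C (x * b i) = 0 := fun i => by
    have hnil : IsNilpotent (x * b i) := Commute.isNilpotent_mul_right (Commute.all _ _) hx
    have h1 : IsNilpotent (Algebra.lmul A C (x * b i)) := by
      obtain ⟨n, hn⟩ := hnil
      exact ⟨n, by rw [← map_pow, hn, map_zero]⟩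
    have h2 : IsNilpotent (Algebra.trace A C (x * b i)) := by
      rw [Algebra.trace_apply]
      exact LinearMap.isNilpotent_trace_of_isNilpotent h1
    exact h2.eq_zero
  set T := Algebra.traceMatrix A b with hT
  have hTdet : IsUnit T.det := hd
  have hmul : T *ᵥ b.equivFun x = 0 := by
    rw [Algebra.traceMatrix_of_basis_mulVec]
    funext i
    exact htr i
  have hx0 : b.equivFun x = 0 := by
    have h1 : T⁻¹ *ᵥ (T *ᵥ b.equivFun x) = b.equivFun x := by
      rw [Matrix.mulVec_mulVec, Matrix.nonsing_inv_mul _ hTdet, Matrix.one_mulVec]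
    rw [← h1, hmul, Matrix.mulVec_zero]
  exact b.equivFun.map_eq_zero_iff.1 hx0

end DSd

section DSe

variable {Λ : Type*} [CommRing Λ] [IsDomain Λ] {ι : Type*} [Fintype ι] [DecidableEq ι]

/-- Traces of intertwined endomorphisms agree: if `φ : M → N` is an injective linear map between
free modules of the same finite rank over a domain and `φ ∘ u = v ∘ φ`, then `tr u = tr v`. -/
theorem ud_trace_eq_of_intertwine {M N : Type*} [AddCommGroup M] [Module Λ M] [AddCommGroup N]
    [Module Λ N] (b : Basis ι Λ M) (c : Basis ι Λ N) (φ : M →ₗ[Λ] N)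
    (hφ : Function.Injective φ) (u : M →ₗ[Λ] M) (v : N →ₗ[Λ] N) (h : φ ∘ₗ u = v ∘ₗ φ) :
    LinearMap.trace Λ M u = LinearMap.trace Λ N v ∧ (LinearMap.toMatrix b c φ).det ≠ 0 := by
  set P := LinearMap.toMatrix b c φ with hP
  set U := LinearMap.toMatrix b b u with hU
  set V := LinearMap.toMatrix c c v with hV
  have hdet : P.det ≠ 0 := by
    intro h0
    obtain ⟨w, hw0, hw⟩ := Matrix.exists_mulVec_eq_zero_iff.2 h0
    apply hw0
    have h1 : P *ᵥ b.repr (b.equivFun.symm w) = c.repr (φ (b.equivFun.symm w)) :=
      LinearMap.toMatrix_mulVec_repr b c φ _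
    have h2 : (b.repr (b.equivFun.symm w) : ι → Λ) = w := by
      rw [← Basis.equivFun_apply]
      exact b.equivFun.apply_symm_apply w
    rw [h2, hw] at h1
    have h3 : φ (b.equivFun.symm w) = 0 := by
      apply c.repr.injective
      ext i
      have := congrFun h1 i
      simpa using this.symm
    have h4 : b.equivFun.symm w = 0 := hφ (by rw [h3, map_zero])
    have h5 := b.equivFun.apply_symm_apply w
    rw [h4, map_zero] at h5
    exact h5.symm
  refine ⟨?_, hdet⟩
  have hPU : P * U = V * P := by
    rw [hP, hU, hV, ← LinearMap.toMatrix_comp b b c, ← LinearMap.toMatrix_comp b c c, h]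
  have h1 : P.det • U = P.adjugate * (V * P) := by
    rw [← hPU, ← Matrix.mul_assoc, Matrix.adjugate_mul, Matrix.smul_mul, Matrix.one_mul]
  have h2 : P.det * U.trace = P.det * V.trace := by
    have := congrArg Matrix.trace h1
    rw [Matrix.trace_smul, smul_eq_mul, Matrix.trace_mul_comm, Matrix.mul_assoc,
      Matrix.mul_adjugate, Matrix.mul_smul, Matrix.mul_one, Matrix.trace_smul, smul_eq_mul]
      at this
    exact this
  rw [LinearMap.trace_eq_matrix_trace Λ b u, LinearMap.trace_eq_matrix_trace Λ c v]
  exact mul_left_cancel₀ hdet h2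

variable {B C : Type*} [CommRing B] [CommRing C] [Algebra Λ B] [Algebra Λ C]

/-- The trace is compatible with an injective algebra map between finite free algebras of the
same rank over a domain. -/
theorem ud_trace_eq_of_injective (f : B →ₐ[Λ] C) (hf : Function.Injective f)
    (b : Basis ι Λ B) (c : Basis ι Λ C) (x : B) :
    Algebra.trace Λ C (f x) = Algebra.trace Λ B x := by
  rw [Algebra.trace_apply, Algebra.trace_apply]
  refine ((ud_trace_eq_of_intertwine b c f.toLinearMap hf (Algebra.lmul Λ B x)
    (Algebra.lmul Λ C (f x)) ?_).1).symm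
  ext y
  simp

/-- **(DS-e) = (iii)** A sub-order with the same discriminant (up to a unit) is everything:
if `f : B → C` is an injective algebra map between finite free algebras of the same rank over a
domain, `disc C ≠ 0` and `disc B` is associated to `disc C`, then `f` is bijective. -/
theorem ud_bijective_of_discr (f : B →ₐ[Λ] C) (hf : Function.Injective f)
    (b : Basis ι Λ B) (c : Basis ι Λ C) (hc : Algebra.discr Λ c ≠ 0)
    (h : Associated (Algebra.discr Λ b) (Algebra.discr Λ c)) : Function.Bijective f := by
  set P := LinearMap.toMatrix b c f.toLinearMap with hP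
  -- `f ∘ b = c ᵥ* P`
  have hfb : (fun j => f (b j)) = c ᵥ* P.map (algebraMap Λ C) := by
    funext j
    have h1 : f (b j) = ∑ k, c.repr (f (b j)) k • c k := (c.sum_repr _).symm
    rw [h1]
    simp only [Matrix.vecMul, dotProduct, Matrix.map_apply, hP, LinearMap.toMatrix_apply,
      AlgHom.toLinearMap_apply]
    refine Finset.sum_congr rfl fun k _ => ?_
    rw [Algebra.smul_def, mul_comm]
  -- discriminants
  have hdisc : Algebra.discr Λ b = P.det ^ 2 * Algebra.discr Λ c := by
    rw [← Algebra.discr_of_matrix_vecMul, ← hfb, Algebra.discr_def, Algebra.discr_def]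
    congr 1
    ext i j
    rw [Algebra.traceMatrix_apply, Algebra.traceMatrix_apply, Algebra.traceForm_apply,
      Algebra.traceForm_apply, ← map_mul f, ud_trace_eq_of_injective f hf b c]
  obtain ⟨w, hw⟩ := h
  have hunit : IsUnit (P.det ^ 2) := by
    have h1 : P.det ^ 2 * Algebra.discr Λ c * (w : Λ) = 1 * Algebra.discr Λ c := by
      rw [← hdisc, hw, one_mul]
    have h2 : P.det ^ 2 * (w : Λ) = 1 := by
      apply mul_right_cancel₀ hc
      rw [← h1]; ring
    exact IsUnit.of_mul_eq_one _ h2
  have hdetu : IsUnit P.det := (isUnit_pow_iff two_ne_zero).1 hunit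
  have := (LinearEquiv.ofIsUnitDet (f := f.toLinearMap) (v := b) (v' := c) hdetu).bijective
  exact this

omit [IsDomain Λ] in
/-- The standard basis of `ι → Λ` has discriminant `1`. -/
theorem ud_discr_pi : Algebra.discr Λ (Pi.basisFun Λ ι) = 1 := by
  have htr : ∀ x : ι → Λ, Algebra.trace Λ (ι → Λ) x = ∑ i, x i := fun x => by
    rw [Algebra.trace_eq_matrix_trace (Pi.basisFun Λ ι), Matrix.trace]
    refine Finset.sum_congr rfl fun i _ => ?_
    rw [Matrix.diag_apply, Algebra.leftMulMatrix_eq_repr_mul]
    simp
  have hT : Algebra.traceMatrix Λ (Pi.basisFun Λ ι) = 1 := by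
    ext i j
    rw [Algebra.traceMatrix_apply, Algebra.traceForm_apply, htr, Matrix.one_apply]
    simp only [Pi.basisFun_apply, Pi.mul_apply, Pi.single_apply]
    by_cases hij : i = j
    · subst hij; simp
    · rw [if_neg hij]
      refine Finset.sum_eq_zero fun k _ => ?_
      by_cases hki : k = i
      · subst hki; simp [hij]
      · simp [hki]
  rw [Algebra.discr_def, hT, Matrix.det_one]

/-- **(DS-ii)** unit discriminant + generically split ⟹ split. `A` a normal domain with
fraction field `K`, `C` finite free over `A` with basis indexed by `ι` and unit discriminant,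
`g : C → ι → K` an injective `A`-algebra map (the `|ι|` "generic points"). Then `C ≃ (ι → A)`
as `A`-algebras, compatibly with `g`. -/
theorem ud_split_of_generically_split {A C K : Type*} [CommRing A] [IsDomain A]
    [IsIntegrallyClosed A] [Field K] [Algebra A K] [IsFractionRing A K] [CommRing C]
    [Algebra A C] (b : Basis ι A C) (hd : IsUnit (Algebra.discr A b))
    (g : C →ₐ[A] (ι → K)) (hg : Function.Injective g) :
    ∃ e : C ≃ₐ[A] (ι → A), ∀ x i, algebraMap A K (e x i) = g x i := by
  have : Module.Finite A C := Module.Finite.of_basis b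
  have hinj := IsFractionRing.injective A K
  -- every coordinate of `g x` lies in `A`
  have hint : ∀ x i, ∃ a : A, algebraMap A K a = g x i := fun x i => by
    have h1 : IsIntegral A x := Algebra.IsIntegral.isIntegral x
    have h2 : IsIntegral A (g x) := h1.map g
    have h3 : IsIntegral A (g x i) := h2.map (Pi.evalAlgHom A (fun _ => K) i)
    exact IsIntegrallyClosed.isIntegral_iff.mp h3
  choose e0 he0 using hint
  let e : C →ₐ[A] (ι → A) :=
    { toFun := e0
      map_one' := by
        funext i; apply hinj; rw [he0, map_one, Pi.one_apply, Pi.one_apply, map_one]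
      map_mul' := fun x y => by
        funext i; apply hinj
        rw [he0, map_mul, Pi.mul_apply, Pi.mul_apply, map_mul, he0, he0]
      map_zero' := by
        funext i; apply hinj; rw [he0, map_zero, Pi.zero_apply, Pi.zero_apply, map_zero]
      map_add' := fun x y => by
        funext i; apply hinj
        rw [he0, map_add, Pi.add_apply, Pi.add_apply, map_add, he0, he0]
      commutes' := fun a => by
        funext i; apply hinj
        rw [he0, AlgHom.commutes, Pi.algebraMap_apply, Pi.algebraMap_apply,
          Algebra.algebraMap_self_apply] }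
  have heinj : Function.Injective e := fun x y hxy => by
    apply hg
    funext i
    rw [← he0 x i, ← he0 y i]
    exact congrArg (algebraMap A K) (congrFun hxy i)
  have hbij : Function.Bijective e :=
    ud_bijective_of_discr e heinj b (Pi.basisFun A ι)
      (by rw [ud_discr_pi]; exact one_ne_zero)
      (by rw [ud_discr_pi]; exact associated_one_iff_isUnit.2 hd)
  exact ⟨AlgEquiv.ofBijective e hbij, fun x i => he0 x i⟩

end DSe

end Fermat.Agent.JT3
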