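/-
JT3 node DS, part 2: everywhere unramified ⟹ unit discriminant (Dedekind case).
-/
import Mathlib

namespace Fermat.Agent.JT3

open Module Matrix
open scoped nonZeroDivisors

attribute [local instance] FractionRing.liftAlgebra FractionRing.isScalarTower_liftAlgebra

section

variable {A B : Type*} [CommRing A] [CommRing B] [Algebra A B]
  [IsDedekindDomain A] [IsDedekindDomain B] [Module.IsTorsionFree A B] [Module.Finite A B]
  [Algebra.IsSeparable (FractionRing A) (FractionRing B)]

/-- If every nonzero prime of `B` is unramified over `A`, the different ideal is trivial. -/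
theorem ud_differentIdeal_eq_top
    (h : ∀ (P : Ideal B) [P.IsPrime], P ≠ ⊥ → Algebra.IsUnramifiedAt A P) :
    differentIdeal A B = ⊤ := by
  by_contra hne
  obtain ⟨P, hPmax, hle⟩ := Ideal.exists_le_maximal _ hne
  have hPprime : P.IsPrime := hPmax.isPrime
  by_cases hP : P = ⊥
  · subst hP
    exact differentIdeal_ne_bot (le_bot_iff.1 hle)
  · have hunr := h P hP
    exact (not_dvd_differentIdeal_iff.2 hunr) (Ideal.dvd_iff_le.2 hle)

/-- If the different ideal is trivial, the trace dual of `B` is `B`. -/
theorem ud_traceDual_one_eq_one (h : differentIdeal A B = ⊤) :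
    Submodule.traceDual A (FractionRing A) (1 : Submodule B (FractionRing B)) = 1 := by
  have h1 := coeIdeal_differentIdeal A (FractionRing A) (FractionRing B) B
  rw [h, FractionalIdeal.coeIdeal_top] at h1
  have h2 : FractionalIdeal.dual A (FractionRing A) (1 : FractionalIdeal B⁰ (FractionRing B)) = 1 :=
    inv_eq_one.1 h1.symm
  have h3 := FractionalIdeal.coe_dual_one A (FractionRing A) (FractionRing B) B
  rw [h2, FractionalIdeal.coe_one] at h3
  exact h3.symm

variable {ι : Type*} [Fintype ι] [DecidableEq ι]

/-- **(UNR ⟹ DISC)** If `B ⊇ A` is a finite free extension of Dedekind domains (separable on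
fraction fields) which is unramified at every nonzero prime, then the discriminant of any basis is
a unit of `A`. -/
theorem ud_isUnit_discr_of_traceDual (b : Basis ι A B)
    (h : Submodule.traceDual A (FractionRing A) (1 : Submodule B (FractionRing B)) = 1) :
    IsUnit (Algebra.discr A b) := by
  classical
  let K := FractionRing A
  let L := FractionRing B
  have : Module.Free A B := Module.Free.of_basis b
  have : Algebra.IsIntegral A B := Algebra.IsIntegral.of_finite A B
  have : FaithfulSMul A B := inferInstance
  have : IsLocalization (Algebra.algebraMapSubmonoid B A⁰) L := inferInstance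
  let bL : Basis ι K L := b.localizationLocalization K A⁰ L
  have : FiniteDimensional K L := Module.Finite.of_basis bL
  have hinj := IsFractionRing.injective A K
  -- the dual basis lies in `B`
  have hmem : ∀ j, bL.traceDual j ∈ Submodule.traceDual A K (1 : Submodule B L) := fun j => by
    rw [Submodule.mem_traceDual]
    intro a ha
    obtain ⟨c, rfl⟩ := Submodule.mem_one.1 ha
    have hc : algebraMap B L c = ∑ k, algebraMap A K (b.repr c k) • bL k := by
      conv_lhs => rw [← b.sum_repr c]
      rw [map_sum]
      refine Finset.sum_congr rfl fun k _ => ?_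
      rw [Basis.localizationLocalization_apply, Algebra.smul_def, map_mul,
        ← IsScalarTower.algebraMap_apply, Algebra.smul_def,
        IsScalarTower.algebraMap_apply A K L]
    rw [Algebra.traceForm_apply, hc, Finset.mul_sum, map_sum]
    refine ⟨b.repr c j, ?_⟩
    rw [Finset.sum_eq_single j]
    · rw [mul_smul_comm, map_smul, Basis.trace_traceDual_mul, if_pos rfl, smul_eq_mul, mul_one]
    · intro k _ hkj
      rw [mul_smul_comm, map_smul, Basis.trace_traceDual_mul, if_neg hkj, smul_zero]
    · intro hj; exact absurd (Finset.mem_univ j) hj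
  rw [h] at hmem
  choose c hc using fun j => Submodule.mem_one.1 (hmem j)
  -- the matrix of coordinates of the dual basis
  let S : Matrix ι ι A := fun i j => b.repr (c j) i
  set T := Algebra.traceMatrix A b with hT
  have hST : Sᵀ * T = 1 := by
    ext j k
    apply hinj
    rw [Matrix.mul_apply, map_sum, Matrix.one_apply]
    have h1 : Algebra.trace K L (bL.traceDual j * bL k) =
        algebraMap A K (Algebra.trace A B (c j * b k)) := by
      rw [← hc j, Basis.localizationLocalization_apply, ← map_mul]
      exact Algebra.trace_localization A A⁰ (c j * b k)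
    have h2 : Algebra.trace A B (c j * b k) = ∑ i, S i j * T i k := by
      conv_lhs => rw [← b.sum_repr (c j)]
      rw [Finset.sum_mul, map_sum]
      refine Finset.sum_congr rfl fun i _ => ?_
      rw [smul_mul_assoc, map_smul, smul_eq_mul, hT, Algebra.traceMatrix_apply,
        Algebra.traceForm_apply]
    rw [Basis.trace_traceDual_mul] at h1
    simp only [Matrix.transpose_apply]
    rw [← map_sum, ← h2, ← h1]
    by_cases hjk : j = k
    · subst hjk; simp
    · rw [if_neg hjk, if_neg (Ne.symm hjk), map_zero]
  have hdet : Sᵀ.det * T.det = 1 := by rw [← Matrix.det_mul, hST, Matrix.det_one]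
  exact IsUnit.of_mul_eq_one _ (by rw [mul_comm]; exact hdet)

/-- **(UNR ⟹ DISC)**, final form. -/
theorem ud_isUnit_discr_of_unramified (b : Basis ι A B)
    (h : ∀ (P : Ideal B) [P.IsPrime], P ≠ ⊥ → Algebra.IsUnramifiedAt A P) :
    IsUnit (Algebra.discr A b) :=
  ud_isUnit_discr_of_traceDual b (ud_traceDual_one_eq_one (ud_differentIdeal_eq_top h))

end

section Away

variable {A : Type*} [CommRing A] [IsDomain A]

/-- An element of a domain which becomes a unit after inverting `π ≠ 0` divides a power of `π`. -/
theorem ud_exists_mul_eq_pow_of_isUnit_away {π d : A} (hπ0 : π ≠ 0) (Aπ : Type*) [CommRing Aπ]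
    [Algebra A Aπ] [IsLocalization.Away π Aπ] (h : IsUnit (algebraMap A Aπ d)) :
    ∃ (e : A) (k : ℕ), d * e = π ^ k := by
  obtain ⟨y, hy⟩ := h.exists_right_inv
  obtain ⟨⟨a, s⟩, has⟩ := IsLocalization.surj (Submonoid.powers π) y
  obtain ⟨k, hk⟩ := (Submonoid.mem_powers_iff _ _).1 s.2
  have hinj : Function.Injective (algebraMap A Aπ) :=
    IsLocalization.injective Aπ (powers_le_nonZeroDivisors_of_noZeroDivisors hπ0)
  refine ⟨a, k, hinj ?_⟩
  simp only at has
  rw [map_mul, ← has, ← mul_assoc, hy, one_mul, hk]

/-- **D1(b) in one statement**: a discriminant which is not divisible by the prime `π` and which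
becomes a unit after inverting `π` is a unit. -/
theorem ud_isUnit_of_isUnit_away {π d : A} (hπ : Prime π) (hd : ¬ π ∣ d) (Aπ : Type*)
    [CommRing Aπ] [Algebra A Aπ] [IsLocalization.Away π Aπ] (h : IsUnit (algebraMap A Aπ d)) :
    IsUnit d := by
  obtain ⟨e, k, hek⟩ := ud_exists_mul_eq_pow_of_isUnit_away hπ.ne_zero Aπ h
  have hdvd : π ^ k ∣ d * e := ⟨1, by rw [hek, mul_one]⟩
  obtain ⟨e', he'⟩ := hπ.pow_dvd_of_dvd_mul_left k hd hdvd
  have hne : π ^ k ≠ 0 := pow_ne_zero k hπ.ne_zero
  have : π ^ k * (d * e') = π ^ k * 1 := by
    rw [he'] at hek; linear_combination hek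
  exact IsUnit.of_mul_eq_one e' (mul_left_cancel₀ hne this)

end Away

end Fermat.Agent.JT3
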