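/-
JT3 / Route R (S18), helper12: **[KUM]** Kummer-form Abhyankar, elementary.

* `kum_unram_ramified` : **(a)** `V0` a DVR of `K` with uniformiser `t`, `E / K` finite separable
  with every ramification index over `V0` dividing `n`, `E2 = E(w)`, `w ^ n = t`: then `E2` is
  unramified over every DVR `V2 ⊇ V0` in which `w` is a nonunit (`jt_Unram V2 E2`).
* `kum_unram_unit` : **(b)** `t` a unit of `V0`, `E` unramified over `V0`, `E2 = E(w)`, `w ^ n = t`:
  then `E2` is unramified over every DVR `V2 ⊇ V0` (`jt_Unram V2 E2`).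
  Both in residue characteristic zero, all carriers abstract.
* generic tools: `kum_Str` (structure statement `y = w ^ n * unit`), `kum_eis` (Eisenstein step),
  `kum_core_ram`, `kum_core_unit`, `kum_adic_str`, `kum_valuation_uniformizer`, `kum_center`,
  `kum_unram_of_str`.
-/
import Mathlib
import Fermat.Agent.JT3.Algebra.UnramGen
import Fermat.Agent.JT3.Descent.ConstDVR

set_option autoImplicit false
set_option linter.unusedSectionVars false

namespace Fermat.Agent.JT3

open Polynomial

section Basics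

variable {E : Type*} [Field E] (O : ValuationSubring E)

/-- a valuation subring is root closed. -/
theorem kum_mem_of_pow_mem {x : E} {n : ℕ} (hn : n ≠ 0) (h : x ^ n ∈ O) : x ∈ O := by
  rw [← ValuationSubring.valuation_le_one_iff] at h ⊢
  rw [map_pow] at h
  exact (pow_le_one_iff_of_nonneg zero_le hn).1 h

theorem kum_mem_nonunits_of_pow_mem {x : E} {n : ℕ} (hn : n ≠ 0) (h : x ^ n ∈ O.nonunits) :
    x ∈ O.nonunits := by
  rw [ValuationSubring.mem_nonunits_iff] at h ⊢
  rw [map_pow] at h
  exact (pow_lt_one_iff_of_nonneg zero_le hn).1 h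

theorem kum_pow_mem_nonunits {x : E} (hx : x ∈ O.nonunits) {n : ℕ} (hn : n ≠ 0) :
    x ^ n ∈ O.nonunits := by
  rw [ValuationSubring.mem_nonunits_iff] at hx ⊢
  rw [map_pow]
  exact (pow_lt_one_iff_of_nonneg zero_le hn).2 hx

/-- `nonunit * integral` is a nonunit. -/
theorem kum_mul_mem_nonunits {x y : E} (hx : x ∈ O.nonunits) (hy : y ∈ O) :
    x * y ∈ O.nonunits := by
  rw [ValuationSubring.mem_nonunits_iff] at hx ⊢
  rw [map_mul]
  have hy' : O.valuation y ≤ 1 := (ValuationSubring.valuation_le_one_iff O y).2 hy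
  calc O.valuation x * O.valuation y ≤ O.valuation x * 1 := mul_le_mul_right hy' _
    _ = O.valuation x := mul_one _
    _ < 1 := hx

variable {O}

/-- a unit plus a nonunit is a unit with the same residue. -/
theorem kum_unit_add (u : Oˣ) {x : E} (hx : x ∈ O.nonunits) :
    ∃ U : Oˣ, ((U : O) : E) = ((u : O) : E) + x ∧
      IsLocalRing.residue O (U : O) = IsLocalRing.residue O (u : O) := by
  set x' : O := ⟨x, ValuationSubring.nonunits_subset hx⟩ with hx'
  have hxm : x' ∈ IsLocalRing.maximalIdeal O := ValuationSubring.coe_mem_nonunits_iff.1 hx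
  have hres : IsLocalRing.residue O ((u : O) + x') = IsLocalRing.residue O (u : O) := by
    rw [map_add, (IsLocalRing.residue_eq_zero_iff x').2 hxm, add_zero]
  have hunit : IsUnit ((u : O) + x') := by
    rw [← IsLocalRing.residue_ne_zero_iff_isUnit, hres, IsLocalRing.residue_ne_zero_iff_isUnit]
    exact u.isUnit
  exact ⟨hunit.unit, rfl, hres⟩

end Basics

section Str

variable {E : Type*} [Field E] (O : ValuationSubring E)

/-- the structure statement with respect to an element `w` of the big field: every nonzero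
element of `T` is `w ^ n * u` with `u` a unit of `O` whose residue lies in `M`. -/
def kum_Str (w : E) (M : Subfield (IsLocalRing.ResidueField O)) (T : Set E) : Prop :=
  ∀ y ∈ T, y ≠ 0 → ∃ (n : ℤ) (u : Oˣ), y = w ^ n * ((u : O) : E) ∧
    IsLocalRing.residue O (u : O) ∈ M

variable {O}

theorem kum_str_iff_ug {K : Type*} [Field K] [Algebra K E] (ϖ : K)
    (M : Subfield (IsLocalRing.ResidueField O)) (T : Set E) :
    ug_Str O ϖ M T ↔ kum_Str O (algebraMap K E ϖ) M T := Iff.rfl

theorem kum_Str.mono {w : E} {M : Subfield (IsLocalRing.ResidueField O)} {T T' : Set E}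
    (h : kum_Str O w M T) (hT : T' ⊆ T) : kum_Str O w M T' :=
  fun y hy hy0 => h y (hT hy) hy0

/-- positive powers of a nonunit are nonunits. -/
theorem kum_zpow_mem_nonunits {w : E} (hw : w ∈ O.nonunits) {d : ℤ} (hd : 0 < d) :
    w ^ d ∈ O.nonunits := by
  obtain ⟨k, rfl⟩ : ∃ k : ℕ, d = (k + 1 : ℕ) := ⟨(d - 1).toNat, by omega⟩
  rw [zpow_natCast]
  exact kum_pow_mem_nonunits O hw (Nat.succ_ne_zero k)

/-- the sum of two structured elements with distinct exponents is structured, with the smaller
exponent and the residue of the corresponding unit. -/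
theorem kum_add_str {w : E} (hw : w ∈ O.nonunits) (hw0 : w ≠ 0) {a b : ℤ} (hab : a < b)
    (u1 u2 : Oˣ) :
    ∃ U : Oˣ, w ^ a * ((u1 : O) : E) + w ^ b * ((u2 : O) : E) = w ^ a * ((U : O) : E) ∧
      IsLocalRing.residue O (U : O) = IsLocalRing.residue O (u1 : O) := by
  have hnon : w ^ (b - a) * ((u2 : O) : E) ∈ O.nonunits :=
    kum_mul_mem_nonunits O (kum_zpow_mem_nonunits hw (by omega)) (u2 : O).2
  obtain ⟨U, hU, hres⟩ := kum_unit_add u1 hnon
  refine ⟨U, ?_, hres⟩
  rw [hU, mul_add, ← mul_assoc, ← zpow_add₀ hw0]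
  congr 3
  ring

end Str

section Eis

variable {F E : Type*} [Field F] [Field E] [Algebra F E] {O : ValuationSubring E}

/-- **Eisenstein step, partial sums**: if every nonzero element of `F` is `ϖ ^ q * unit` and
`w ^ m = ϖ`, then the terms `c i * w ^ i`, `i < m`, have pairwise distinct exponents. -/
theorem kum_eis_sum {ϖ : F} {M : Subfield (IsLocalRing.ResidueField O)}
    (hF : kum_Str O (algebraMap F E ϖ) M (Set.range (algebraMap F E)))
    {w : E} {m : ℕ} (hwm : w ^ m = algebraMap F E ϖ) (hw : w ∈ O.nonunits)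
    (hw0 : w ≠ 0) (c : ℕ → F) (k : ℕ) (hk : k ≤ m) :
    (∑ i ∈ Finset.range k, algebraMap F E (c i) * w ^ i = 0) ∨
    ∃ (a : ℤ) (U : Oˣ),
      ∑ i ∈ Finset.range k, algebraMap F E (c i) * w ^ i = w ^ a * ((U : O) : E) ∧
      IsLocalRing.residue O (U : O) ∈ M ∧ a % (m : ℤ) < k := by
  induction k with
  | zero => left; simp
  | succ k ih =>
    have ih := ih (by omega)
    have hkm : k < m := by omega
    rw [Finset.sum_range_succ]
    by_cases hck : c k = 0
    · rw [hck, map_zero, zero_mul, add_zero]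
      rcases ih with h0 | ⟨a, U, hS, hU, ha⟩
      · left; exact h0
      · right; exact ⟨a, U, hS, hU, by push_cast; omega⟩
    · have hck' : algebraMap F E (c k) ≠ 0 := by rwa [Ne, map_eq_zero]
      obtain ⟨q, u, hqu, hu⟩ := hF _ ⟨c k, rfl⟩ hck'
      have hterm : algebraMap F E (c k) * w ^ k = w ^ ((m : ℤ) * q + k) * ((u : O) : E) := by
        rw [hqu, ← hwm, ← zpow_natCast w m, ← zpow_mul, ← zpow_natCast w k, zpow_add₀ hw0]
        ring
      have hmod : ((m : ℤ) * q + k) % (m : ℤ) = k := by
        rw [add_comm, Int.add_mul_emod_self_left]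
        exact Int.emod_eq_of_lt (by omega) (by omega)
      rcases ih with h0 | ⟨a, U, hS, hU, ha⟩
      · right
        refine ⟨(m : ℤ) * q + k, u, by rw [h0, zero_add, hterm], hu, ?_⟩
        rw [hmod]; push_cast; omega
      · have hne : a ≠ (m : ℤ) * q + k := by
          intro h; rw [h, hmod] at ha; omega
        rw [hS, hterm]
        rcases lt_or_gt_of_ne hne with hlt | hgt
        · obtain ⟨U', hU', hres⟩ := kum_add_str hw hw0 hlt U u
          exact Or.inr ⟨a, U', hU', hres ▸ hU, by push_cast; omega⟩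
        · obtain ⟨U', hU', hres⟩ := kum_add_str hw hw0 hgt u U
          rw [add_comm]
          exact Or.inr ⟨_, U', hU', hres ▸ hu, by rw [hmod]; push_cast; omega⟩

/-- **Eisenstein step, polynomial values.** -/
theorem kum_eis_aeval {ϖ : F} {M : Subfield (IsLocalRing.ResidueField O)}
    (hF : kum_Str O (algebraMap F E ϖ) M (Set.range (algebraMap F E)))
    {w : E} {m : ℕ} (hm : 0 < m) (hwm : w ^ m = algebraMap F E ϖ) (hw : w ∈ O.nonunits)
    (hw0 : w ≠ 0) (p : F[X]) (hp : aeval w p ≠ 0) :
    ∃ (a : ℤ) (U : Oˣ), aeval w p = w ^ a * ((U : O) : E) ∧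
      IsLocalRing.residue O (U : O) ∈ M := by
  set q : F[X] := X ^ m - C ϖ with hq
  have hqm : q.Monic := monic_X_pow_sub_C ϖ hm.ne'
  have hqdeg : q.natDegree = m := natDegree_X_pow_sub_C
  have hq1 : q ≠ 1 := by
    intro h
    have := congrArg natDegree h
    rw [hqdeg, natDegree_one] at this
    omega
  have hroot : aeval w q = 0 := by
    rw [hq, map_sub, map_pow, aeval_X, aeval_C, hwm, sub_self]
  have hval : aeval w (p %ₘ q) = aeval w p := aeval_modByMonic_eq_self_of_root hroot
  have hdeg : (p %ₘ q).natDegree < m := by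
    have := natDegree_modByMonic_lt p hqm hq1
    rwa [hqdeg] at this
  have hsum : aeval w (p %ₘ q) =
      ∑ i ∈ Finset.range m, algebraMap F E ((p %ₘ q).coeff i) * w ^ i := by
    rw [aeval_eq_sum_range' hdeg]
    exact Finset.sum_congr rfl (fun i _ => Algebra.smul_def _ _)
  rcases kum_eis_sum hF hwm hw hw0 (fun i => (p %ₘ q).coeff i) m le_rfl with h0 | ⟨a, U, hS, hU, -⟩
  · exact absurd (by rw [← hval, hsum]; exact h0) hp
  · exact ⟨a, U, by rw [← hval, hsum]; exact hS, hU⟩

/-- **Eisenstein step**: if every nonzero element of `F` is `ϖ ^ q * unit of O` and `w ^ m = ϖ`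
with `w` a nonunit of `O`, then every nonzero element of `F(w)` is `w ^ a * unit of O`. -/
theorem kum_eis {ϖ : F} {M : Subfield (IsLocalRing.ResidueField O)}
    (hF : kum_Str O (algebraMap F E ϖ) M (Set.range (algebraMap F E)))
    {w : E} {m : ℕ} (hm : 0 < m) (hwm : w ^ m = algebraMap F E ϖ) (hw : w ∈ O.nonunits)
    (hw0 : w ≠ 0) :
    kum_Str O w M ((IntermediateField.adjoin F {w} : IntermediateField F E) : Set E) := by
  intro y hy hy0
  rw [SetLike.mem_coe, IntermediateField.mem_adjoin_simple_iff] at hy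
  obtain ⟨r, s, rfl⟩ := hy
  have hr : aeval w r ≠ 0 := by
    intro h; rw [h, zero_div] at hy0; exact hy0 rfl
  have hs : aeval w s ≠ 0 := by
    intro h; rw [h, div_zero] at hy0; exact hy0 rfl
  obtain ⟨a1, U1, h1, hU1⟩ := kum_eis_aeval hF hm hwm hw hw0 r hr
  obtain ⟨a2, U2, h2, hU2⟩ := kum_eis_aeval hF hm hwm hw hw0 s hs
  refine ⟨a1 - a2, U1 * U2⁻¹, ?_, ?_⟩
  · rw [h1, h2, zpow_sub₀ hw0, Units.val_mul, MulMemClass.coe_mul, ug_coe_unit_inv]
    have := ug_coe_unit_ne_zero U2
    have hwa : w ^ a2 ≠ 0 := zpow_ne_zero _ hw0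
    field_simp
  · rw [Units.val_mul, map_mul]
    refine M.mul_mem hU1 ?_
    have : IsLocalRing.residue O ((U2⁻¹ : Oˣ) : O) = (IsLocalRing.residue O (U2 : O))⁻¹ := by
      have h3 : IsLocalRing.residue O (U2 : O) * IsLocalRing.residue O ((U2⁻¹ : Oˣ) : O) = 1 := by
        rw [← map_mul, Units.mul_inv, map_one]
      exact (inv_eq_of_mul_eq_one_right h3).symm
    rw [this]
    exact M.inv_mem hU2

end Eis

section Units

variable {E : Type*} [Field E] {O : ValuationSubring E}

/-- the unit of `O` attached to an element which is integral together with its inverse. -/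
noncomputable def kum_unitOf (x : E) (hx : x ∈ O) (hx' : x⁻¹ ∈ O) (hx0 : x ≠ 0) : Oˣ :=
  ⟨⟨x, hx⟩, ⟨x⁻¹, hx'⟩, Subtype.ext (mul_inv_cancel₀ hx0), Subtype.ext (inv_mul_cancel₀ hx0)⟩

@[simp] theorem kum_unitOf_coe (x : E) (hx : x ∈ O) (hx' : x⁻¹ ∈ O) (hx0 : x ≠ 0) :
    (((kum_unitOf x hx hx' hx0 : Oˣ) : O) : E) = x := rfl

theorem kum_coe_zpow (C : Oˣ) (n : ℤ) : (((C ^ n : Oˣ) : O) : E) = ((C : O) : E) ^ n := by
  have h1 := map_zpow (Units.map ((O.subtype : O →+* E) : O →* E)) C n
  have h2 := congrArg (fun u : Eˣ => (u : E)) h1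
  simp only [Units.val_zpow_eq_zpow_val] at h2
  exact h2

/-- the units of `O` whose residue lies in `M`. -/
def kum_unitsM (M : Subfield (IsLocalRing.ResidueField O)) : Subgroup Oˣ where
  carrier := {u | IsLocalRing.residue O (u : O) ∈ M}
  one_mem' := by
    show IsLocalRing.residue O ((1 : Oˣ) : O) ∈ M
    rw [Units.val_one, map_one]; exact M.one_mem
  mul_mem' := by
    intro a b ha hb
    show IsLocalRing.residue O ((a * b : Oˣ) : O) ∈ M
    rw [Units.val_mul, map_mul]; exact M.mul_mem ha hb
  inv_mem' := by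
    intro a ha
    show IsLocalRing.residue O ((a⁻¹ : Oˣ) : O) ∈ M
    have h3 : IsLocalRing.residue O (a : O) * IsLocalRing.residue O ((a⁻¹ : Oˣ) : O) = 1 := by
      rw [← map_mul, Units.mul_inv, map_one]
    rw [← inv_eq_of_mul_eq_one_right h3]
    exact M.inv_mem ha

theorem kum_mem_unitsM {M : Subfield (IsLocalRing.ResidueField O)} {u : Oˣ} :
    u ∈ kum_unitsM M ↔ IsLocalRing.residue O (u : O) ∈ M := Iff.rfl

/-- change of the uniformiser by a unit. -/
theorem kum_Str.change {x : E} {M : Subfield (IsLocalRing.ResidueField O)} {T : Set E}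
    (h : kum_Str O x M T) (C : Oˣ) (hC : IsLocalRing.residue O (C : O) ∈ M) :
    kum_Str O (x * ((C : O) : E)) M T := by
  intro y hy hy0
  obtain ⟨n, u, hnu, hu⟩ := h y hy hy0
  refine ⟨n, C ^ (-n) * u, ?_, ?_⟩
  · rw [Units.val_mul, MulMemClass.coe_mul, kum_coe_zpow, hnu, mul_zpow, zpow_neg]
    have hC0 : ((C : O) : E) ^ n ≠ 0 := zpow_ne_zero _ (ug_coe_unit_ne_zero C)
    field_simp
  · exact (kum_unitsM M).mul_mem ((kum_unitsM M).zpow_mem hC _) hu

end Units

section Core

variable {F E : Type*} [Field F] [Field E] [Algebra F E] {O : ValuationSubring E}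

/-- an element of `O ∩ F` whose inverse is integral is a unit of `O ∩ F`. -/
theorem kum_isUnit_comap (x : ↥(O.comap (algebraMap F E))) (hx0 : (x : F) ≠ 0)
    (hinv : (algebraMap F E (x : F))⁻¹ ∈ O) : IsUnit x := by
  have hmem : (x : F)⁻¹ ∈ O.comap (algebraMap F E) := by
    rw [ValuationSubring.mem_comap, map_inv₀]; exact hinv
  exact IsUnit.of_mul_eq_one ⟨(x : F)⁻¹, hmem⟩ (Subtype.ext (mul_inv_cancel₀ hx0))

/-- **a Kummer generator is a good generator**: `z ^ e = u` with `u` and `e` units of `O ∩ F`. -/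
theorem kum_goodGen (e : ℕ) (he : 0 < e) (he0 : (e : F) ≠ 0)
    (heu : (algebraMap F E (e : F))⁻¹ ∈ O) (u : F) (hu0 : u ≠ 0) (hu : algebraMap F E u ∈ O)
    (hu' : (algebraMap F E u)⁻¹ ∈ O) (z : E) (hz : z ^ e = algebraMap F E u) :
    ug_GoodGen (K := F) O ⊤ z := by
  have hzO : z ∈ O := kum_mem_of_pow_mem O he.ne' (hz ▸ hu)
  set u' : ↥(O.comap (algebraMap F E)) := ⟨u, ValuationSubring.mem_comap.2 hu⟩ with hu'def
  have hu'unit : IsUnit u' := kum_isUnit_comap u' hu0 hu'
  have heO : algebraMap F E ((e : ℕ) : F) ∈ O := by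
    rw [map_natCast]; exact natCast_mem O e
  set e' : ↥(O.comap (algebraMap F E)) := ⟨(e : F), ValuationSubring.mem_comap.2 heO⟩ with he'def
  have he'unit : IsUnit e' := kum_isUnit_comap e' he0 heu
  have he'cast : ((e : ℕ) : ↥(O.comap (algebraMap F E))) = e' := by
    apply Subtype.ext
    simp [he'def]
  refine ⟨hzO, Subfield.mem_top _, X ^ e - C u', monic_X_pow_sub_C u' he.ne', ?_, ?_⟩
  · rw [eval₂_sub, eval₂_pow, eval₂_X, eval₂_C, hz]
    exact sub_self _
  · rw [Polynomial.map_sub, Polynomial.map_pow, map_X, map_C]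
    apply separable_X_pow_sub_C
    · have : ((e : ℕ) : IsLocalRing.ResidueField ↥(O.comap (algebraMap F E))) =
          IsLocalRing.residue _ ((e : ℕ) : ↥(O.comap (algebraMap F E))) := (map_natCast _ e).symm
      rw [this, he'cast, Ne, IsLocalRing.residue_eq_zero_iff, IsLocalRing.mem_maximalIdeal,
        mem_nonunits_iff, not_not]
      exact he'unit
    · rw [Ne, IsLocalRing.residue_eq_zero_iff, IsLocalRing.mem_maximalIdeal, mem_nonunits_iff,
        not_not]
      exact hu'unit

/-- **core of (b)**: adjoining an `n`-th root of a unit keeps the uniformiser. -/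
theorem kum_core_unit {τ : F} (hτ : algebraMap F E τ ∈ O.nonunits) (hτ0 : τ ≠ 0)
    (hF : kum_Str O (algebraMap F E τ) ⊤ (Set.range (algebraMap F E)))
    (n : ℕ) (hn : 0 < n) (hn0 : (n : F) ≠ 0) (hnu : (algebraMap F E (n : F))⁻¹ ∈ O)
    (t : F) (ht0 : t ≠ 0) (ht : algebraMap F E t ∈ O) (ht' : (algebraMap F E t)⁻¹ ∈ O)
    (w : E) (hw : w ^ n = algebraMap F E t) :
    kum_Str O (algebraMap F E τ) ⊤
      ((IntermediateField.adjoin F {w} : IntermediateField F E) : Set E) :=
  ug_structure hτ hτ0 ⊤ hF {w} (Set.finite_singleton w) (by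
    rintro θ rfl
    exact kum_goodGen n hn hn0 hnu t ht0 ht ht' θ hw)

/-- **core of (a)**: `w ^ (e * m) = u * τ ^ e` with `u`, `e` units: then `w` is a uniformiser of
`O` on `F(w)`. -/
theorem kum_core_ram {τ : F} (hτ : algebraMap F E τ ∈ O.nonunits) (hτ0 : τ ≠ 0)
    (hF : kum_Str O (algebraMap F E τ) ⊤ (Set.range (algebraMap F E)))
    (e m : ℕ) (he : 0 < e) (hm : 0 < m) (he0 : (e : F) ≠ 0)
    (heu : (algebraMap F E (e : F))⁻¹ ∈ O) (u : F) (hu0 : u ≠ 0) (hu : algebraMap F E u ∈ O)
    (hu' : (algebraMap F E u)⁻¹ ∈ O) (w : E) (hw : w ^ (e * m) = algebraMap F E (u * τ ^ e)) :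
    w ∈ O.nonunits ∧
      kum_Str O w ⊤ ((IntermediateField.adjoin F {w} : IntermediateField F E) : Set E) := by
  have hτE0 : algebraMap F E τ ≠ 0 := by rwa [Ne, map_eq_zero]
  have huE0 : algebraMap F E u ≠ 0 := by rwa [Ne, map_eq_zero]
  have hem : e * m ≠ 0 := Nat.mul_ne_zero he.ne' hm.ne'
  have hwnon : w ∈ O.nonunits := by
    apply kum_mem_nonunits_of_pow_mem O hem
    rw [hw, map_mul, map_pow, mul_comm]
    exact kum_mul_mem_nonunits O (kum_pow_mem_nonunits O hτ he.ne') hu
  have hw0 : w ≠ 0 := by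
    intro h
    rw [h, zero_pow hem, map_mul, map_pow] at hw
    exact mul_ne_zero huE0 (pow_ne_zero _ hτE0) hw.symm
  set z : E := w ^ m / algebraMap F E τ with hz
  have hze : z ^ e = algebraMap F E u := by
    rw [hz, div_pow, ← pow_mul, mul_comm m e, hw, map_mul, map_pow]
    field_simp
  have hgood := kum_goodGen e he he0 heu u hu0 hu hu' z hze
  have hFz : kum_Str O (algebraMap F E τ) ⊤
      ((IntermediateField.adjoin F {z} : IntermediateField F E) : Set E) :=
    ug_structure hτ hτ0 ⊤ hF {z} (Set.finite_singleton z) (by rintro θ rfl; exact hgood)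
  have hzO : z ∈ O := kum_mem_of_pow_mem O he.ne' (hze ▸ hu)
  have hzO' : z⁻¹ ∈ O := kum_mem_of_pow_mem O he.ne' (by rw [inv_pow, hze]; exact hu')
  have hz0 : z ≠ 0 := by
    intro h
    rw [h, zero_pow he.ne'] at hze
    exact huE0 hze.symm
  have hFz' := hFz.change (kum_unitOf z hzO hzO' hz0) (Subfield.mem_top _)
  have hτz : algebraMap F E τ * z = w ^ m := by rw [hz]; field_simp
  have hzF1 : z ∈ IntermediateField.adjoin F {z} := IntermediateField.mem_adjoin_simple_self F z
  set ϖ1 : ↥(IntermediateField.adjoin F {z}) :=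
    ⟨algebraMap F E τ * z, (IntermediateField.adjoin F {z}).mul_mem
      ((IntermediateField.adjoin F {z}).algebraMap_mem τ) hzF1⟩ with hϖ1
  have hstr1 : kum_Str O (algebraMap ↥(IntermediateField.adjoin F {z}) E ϖ1) ⊤
      (Set.range (algebraMap ↥(IntermediateField.adjoin F {z}) E)) := by
    rintro y ⟨y1, rfl⟩ hy0
    exact hFz' _ y1.2 hy0
  have hwm : w ^ m = algebraMap ↥(IntermediateField.adjoin F {z}) E ϖ1 := hτz.symm
  have h1 := kum_eis hstr1 hm hwm hwnon hw0
  refine ⟨hwnon, fun y hy hy0 => h1 y ?_ hy0⟩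
  have hle : IntermediateField.adjoin F {w} ≤
      (IntermediateField.adjoin ↥(IntermediateField.adjoin F {z}) {w}).restrictScalars F := by
    rw [IntermediateField.adjoin_le_iff]
    rintro x rfl
    exact IntermediateField.mem_adjoin_simple_self _ x
  exact hle hy

end Core

section Ram

open IsDedekindDomain WithZero

/-- every nonzero prime of the integral closure lies over the maximal ideal. -/
theorem kum_under_eq (V0 E : Type*) [CommRing V0] [IsDomain V0] [IsDiscreteValuationRing V0]
    [Field E] [Algebra V0 E] [IsDedekindDomain (integralClosure V0 E)]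
    (v1 : HeightOneSpectrum (integralClosure V0 E)) :
    v1.asIdeal.under V0 = IsLocalRing.maximalIdeal V0 := by
  have hne : v1.asIdeal.comap (algebraMap V0 (integralClosure V0 E)) ≠ ⊥ :=
    fun h => v1.ne_bot (Ideal.eq_bot_of_comap_eq_bot h)
  have hprime : (v1.asIdeal.comap (algebraMap V0 (integralClosure V0 E))).IsPrime :=
    Ideal.comap_isPrime _ _
  exact IsLocalRing.eq_maximalIdeal (hprime.isMaximal hne)

/-- the valuation of a uniformiser of the base is given by the ramification index. -/
theorem kum_valuation_uniformizer (V0 K E : Type*) [CommRing V0] [IsDomain V0]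
    [IsDiscreteValuationRing V0] [Field K] [Algebra V0 K] [IsFractionRing V0 K]
    [Field E] [Algebra K E] [Algebra V0 E] [IsScalarTower V0 K E]
    [IsDedekindDomain (integralClosure V0 E)]
    [IsFractionRing (integralClosure V0 E) E]
    (v1 : HeightOneSpectrum (integralClosure V0 E)) {t : V0} (ht : Irreducible t) :
    v1.valuation E (algebraMap V0 E t) = exp (-(v1.asIdeal.ramificationIdx V0 : ℤ)) := by
  have hinj : Function.Injective (algebraMap V0 E) := by
    rw [IsScalarTower.algebraMap_eq V0 K E]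
    exact (algebraMap K E).injective.comp (IsFractionRing.injective V0 K)
  have _ : Module.IsTorsionFree V0 E := Module.isTorsionFree_iff_algebraMap_injective.2 hinj
  have _ : Module.IsTorsionFree V0 (integralClosure V0 E) :=
    IsIntegralClosure.isTorsionFree V0 E
  set v0 : HeightOneSpectrum V0 := IsDiscreteValuationRing.maximalIdeal V0 with hv0
  have hv0' : v0.asIdeal = IsLocalRing.maximalIdeal V0 := rfl
  have _ : v1.asIdeal.LiesOver v0.asIdeal := ⟨by rw [hv0', kum_under_eq V0 E v1]⟩
  have h1 := HeightOneSpectrum.valuation_liesOver E v0 v1 (algebraMap V0 K t)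
  rw [← IsScalarTower.algebraMap_apply V0 K E] at h1
  rw [← h1, HeightOneSpectrum.valuation_of_algebraMap,
    HeightOneSpectrum.intValuation_singleton v0 ht.ne_zero (by rw [hv0']; exact ht.maximalIdeal_eq),
    Ideal.ramificationIdx'_eq_ramificationIdx v0.asIdeal v1.asIdeal v0.ne_bot, ← exp_nsmul]
  simp

end Ram

section Adic

open IsDedekindDomain WithZero

variable {C E E2 : Type*} [CommRing C] [IsDedekindDomain C] [Field E] [Algebra C E]
  [IsFractionRing C E] [Field E2] [Algebra E E2]

/-- elements of valuation `exp (-k)` are `π0 ^ k * unit`. -/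
theorem kum_adic_unit (O : ValuationSubring E2) (v1 : HeightOneSpectrum C)
    (hO : ∀ x : E, algebraMap E E2 x ∈ O ↔ v1.valuation E x ≤ 1) {π0 : E}
    (hπ0 : v1.valuation E π0 = exp (-1 : ℤ)) (x : E) (k : ℤ)
    (hx : v1.valuation E x = exp (-k)) :
    algebraMap E E2 (x / π0 ^ k) ∈ O ∧ (algebraMap E E2 (x / π0 ^ k))⁻¹ ∈ O := by
  have hval : v1.valuation E (x / π0 ^ k) = 1 := by
    rw [map_div₀, map_zpow₀, hπ0, hx, ← exp_zsmul, smul_eq_mul, mul_neg, mul_one,
      div_self exp_ne_zero]
  constructor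
  · rw [hO, hval]
  · rw [← map_inv₀, hO, map_inv₀, hval, inv_one]

/-- the structure statement on `E` for a valuation subring of `E2` inducing the `v1`-adic
valuation subring on `E`. -/
theorem kum_adic_str (O : ValuationSubring E2) (v1 : HeightOneSpectrum C)
    (hO : ∀ x : E, algebraMap E E2 x ∈ O ↔ v1.valuation E x ≤ 1) {π0 : E}
    (hπ0 : v1.valuation E π0 = exp (-1 : ℤ)) :
    algebraMap E E2 π0 ∈ O.nonunits ∧ π0 ≠ 0 ∧
      kum_Str O (algebraMap E E2 π0) ⊤ (Set.range (algebraMap E E2)) := by
  have hπ00 : π0 ≠ 0 := by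
    intro h; rw [h, map_zero] at hπ0; exact exp_ne_zero hπ0.symm
  refine ⟨?_, hπ00, ?_⟩
  · rw [ValuationSubring.mem_nonunits_iff_or]
    right
    rw [← map_inv₀, hO, map_inv₀, hπ0, ← exp_neg, neg_neg, not_le, ← exp_zero, exp_lt_exp]
    exact one_pos
  · rintro y ⟨x, rfl⟩ hy0
    have hx0 : x ≠ 0 := fun h => hy0 (by rw [h, map_zero])
    have hv0 : v1.valuation E x ≠ 0 := (Valuation.ne_zero_iff _).2 hx0
    set k : ℤ := -(log (v1.valuation E x)) with hk
    have hx : v1.valuation E x = exp (-k) := by rw [hk, neg_neg, exp_log hv0]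
    obtain ⟨h1, h2⟩ := kum_adic_unit O v1 hO hπ0 x k hx
    have hne : algebraMap E E2 (x / π0 ^ k) ≠ 0 := by
      rw [Ne, map_eq_zero]; exact div_ne_zero hx0 (zpow_ne_zero _ hπ00)
    refine ⟨k, kum_unitOf _ h1 h2 hne, ?_, Subfield.mem_top _⟩
    rw [kum_unitOf_coe, map_div₀, map_zpow₀]
    have : algebraMap E E2 π0 ^ k ≠ 0 := zpow_ne_zero _ (by rwa [Ne, map_eq_zero])
    field_simp

end Adic



section Final

open IsDedekindDomain

/-- basic facts on the local ring of a height one prime of the integral closure. -/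
theorem kum_setup (V2 E2 : Type*) [CommRing V2] [IsDomain V2] [IsDiscreteValuationRing V2]
    [Field E2] [Algebra V2 E2] [IsDedekindDomain (integralClosure V2 E2)]
    [IsFractionRing (integralClosure V2 E2) E2]
    (v : HeightOneSpectrum (integralClosure V2 E2)) :
    (∀ c : integralClosure V2 E2, (c : E2) ∈ HeightOneSpectrum.valuationSubringAtPrime E2 v) ∧
    (∀ x : V2, algebraMap V2 E2 x ∈ HeightOneSpectrum.valuationSubringAtPrime E2 v) ∧
    (∀ x ∈ IsLocalRing.maximalIdeal V2,
      algebraMap V2 E2 x ∈ (HeightOneSpectrum.valuationSubringAtPrime E2 v).nonunits) ∧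
    (∃ p : E2, p ≠ 0 ∧ p ∈ (HeightOneSpectrum.valuationSubringAtPrime E2 v).nonunits) := by
  set O : ValuationSubring E2 := HeightOneSpectrum.valuationSubringAtPrime E2 v with hO
  have hOv : O = (v.valuation E2).valuationSubring :=
    HeightOneSpectrum.valuationSubringAtPrime_eq_valuationSubring v
  have hmemO : ∀ x : E2, x ∈ O ↔ v.valuation E2 x ≤ 1 := by
    intro x; rw [hOv]; exact Valuation.mem_valuationSubring_iff _ _
  have hCO : ∀ c : integralClosure V2 E2, (c : E2) ∈ O :=
    fun c => (hmemO _).2 (v.valuation_le_one c)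
  have hnonO : ∀ x : E2, x ∈ O.nonunits ↔ v.valuation E2 x < 1 := by
    intro x
    rw [ValuationSubring.mem_nonunits_iff_or]
    by_cases hx : x = 0
    · simp [hx]
    · rw [hmemO, map_inv₀, not_le]
      constructor
      · rintro (h | h)
        · exact absurd h hx
        · exact (one_lt_inv₀ (zero_lt_iff.2 ((_root_.map_ne_zero _).2 hx))).1 h
      · intro h
        exact Or.inr ((one_lt_inv₀ (zero_lt_iff.2 ((_root_.map_ne_zero _).2 hx))).2 h)
  refine ⟨hCO, fun x => hCO (algebraMap V2 (integralClosure V2 E2) x), ?_, ?_⟩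
  · intro x hx
    rw [← kum_under_eq V2 E2 v, Ideal.under_def, Ideal.mem_comap] at hx
    rw [hnonO]
    exact (v.valuation_lt_one_iff_mem (K := E2) (algebraMap V2 (integralClosure V2 E2) x)).2 hx
  · obtain ⟨p, hpP, hp0⟩ := Submodule.exists_mem_ne_zero_of_ne_bot v.ne_bot
    refine ⟨(p : E2), fun h => hp0 (Subtype.ext h), ?_⟩
    rw [hnonO]
    exact (v.valuation_lt_one_iff_mem (K := E2) p).2 hpP

/-- **final step**: if every nonzero element of `E2` is `x ^ n * unit` in the local ring `O` of a
height one prime `v`, for ONE nonunit `x` of the DVR `V2`, then `v` is unramified over `V2`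
(residue characteristic zero). -/
theorem kum_unram_of_str (V2 E2 : Type*) [CommRing V2] [IsDomain V2]
    [IsDiscreteValuationRing V2] [Field E2] [Algebra V2 E2]
    [IsDedekindDomain (integralClosure V2 E2)] [IsFractionRing (integralClosure V2 E2) E2]
    [Module.Finite V2 (integralClosure V2 E2)] [CharZero (IsLocalRing.ResidueField V2)]
    (v : HeightOneSpectrum (integralClosure V2 E2)) (x : V2) (hx : ¬ IsUnit x)
    (hstr : kum_Str (HeightOneSpectrum.valuationSubringAtPrime E2 v) (algebraMap V2 E2 x) ⊤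
      Set.univ) :
    Algebra.IsUnramifiedAt V2 v.asIdeal := by
  classical
  obtain ⟨hCO, hVO', hVP, -⟩ := kum_setup V2 E2 v
  set P : Ideal (integralClosure V2 E2) := v.asIdeal with hPdef
  set O : ValuationSubring E2 := HeightOneSpectrum.valuationSubringAtPrime E2 v with hO
  have hlocO : IsLocalization P.primeCompl ↥O :=
    inferInstanceAs (IsLocalization v.asIdeal.primeCompl
      (HeightOneSpectrum.valuationSubringAtPrime E2 v))
  have hPprime : P.IsPrime := v.isPrime
  -- `O` as a `V2`-algebra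
  let _ : Algebra V2 O :=
    ((algebraMap (integralClosure V2 E2) O).comp (algebraMap V2 (integralClosure V2 E2))).toAlgebra
  have _ : IsScalarTower V2 (integralClosure V2 E2) O :=
    IsScalarTower.of_algebraMap_eq (fun _ => rfl)
  have hVO : ∀ y : V2, ((algebraMap V2 O y : O) : E2) = algebraMap V2 E2 y := fun y => rfl
  have hloc : IsLocalHom (algebraMap V2 O) := by
    constructor
    intro y hy
    by_contra hnu
    have h1 := hVP y ((IsLocalRing.mem_maximalIdeal _).2 hnu)
    rw [← hVO, ValuationSubring.coe_mem_nonunits_iff, IsLocalRing.mem_maximalIdeal] at h1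
    exact h1 hy
  -- the residue field extension is algebraic, hence separable
  have halg : Algebra.IsAlgebraic (IsLocalRing.ResidueField V2) (IsLocalRing.ResidueField O) := by
    refine ⟨fun z => ?_⟩
    obtain ⟨y, rfl⟩ := IsLocalRing.residue_surjective z
    obtain ⟨⟨a, s⟩, has⟩ := IsLocalization.surj P.primeCompl y
    have hint : ∀ c : integralClosure V2 E2, IsIntegral (IsLocalRing.ResidueField V2)
        (IsLocalRing.residue O (algebraMap (integralClosure V2 E2) O c)) := by
      intro c
      have h1 : IsIntegral V2 c := Algebra.IsIntegral.isIntegral c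
      have h2 : IsIntegral V2 (algebraMap (integralClosure V2 E2) O c) :=
        h1.map (IsScalarTower.toAlgHom V2 (integralClosure V2 E2) O)
      have h3 : IsIntegral V2 (IsLocalRing.residue O (algebraMap (integralClosure V2 E2) O c)) :=
        h2.map (IsScalarTower.toAlgHom V2 O (IsLocalRing.ResidueField O))
      exact h3.tower_top
    have hsu : IsUnit (algebraMap (integralClosure V2 E2) O (s : integralClosure V2 E2)) :=
      IsLocalization.map_units O s
    have hs0 : IsLocalRing.residue O (algebraMap (integralClosure V2 E2) O s) ≠ 0 := by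
      rw [Ne, IsLocalRing.residue_eq_zero_iff, IsLocalRing.mem_maximalIdeal, mem_nonunits_iff,
        not_not]
      exact hsu
    have heq : IsLocalRing.residue O y =
        IsLocalRing.residue O (algebraMap (integralClosure V2 E2) O a) *
          (IsLocalRing.residue O (algebraMap (integralClosure V2 E2) O s))⁻¹ := by
      rw [eq_mul_inv_iff_mul_eq₀ hs0, ← map_mul]
      exact congrArg _ has
    rw [heq]
    exact ((hint a).mul (hint s).inv).isAlgebraic
  have hsepRes : Algebra.IsSeparable (IsLocalRing.ResidueField V2) (IsLocalRing.ResidueField O) :=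
    Algebra.IsAlgebraic.isSeparable_of_perfectField
  -- essentially of finite type
  have hfin : Algebra.EssFiniteType V2 O := by
    have : Algebra.EssFiniteType (integralClosure V2 E2) O :=
      Algebra.EssFiniteType.of_isLocalization O P.primeCompl
    exact Algebra.EssFiniteType.comp V2 (integralClosure V2 E2) O
  -- the maximal ideal of `O` is generated by `x`
  have hxm : x ∈ IsLocalRing.maximalIdeal V2 := (IsLocalRing.mem_maximalIdeal _).2 hx
  have hxnon : algebraMap V2 E2 x ∈ O.nonunits := hVP x hxm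
  have hx0 : algebraMap V2 E2 x ≠ 0 := by
    intro h0
    have h1 := hstr 1 trivial one_ne_zero
    obtain ⟨n, u, hnu, -⟩ := h1
    rw [h0] at hnu
    rcases eq_or_ne n 0 with rfl | hn
    · -- then every element is a unit: contradiction with `x` a nonunit mapping to `0`
      have : (0 : E2) ∈ O.nonunits := h0 ▸ hxnon
      have h2 := hstr 1 trivial one_ne_zero
      -- `0 = algebraMap x` is a nonunit, fine; derive contradiction from `v ≠ ⊥`
      obtain ⟨p, hpP, hp0⟩ := Submodule.exists_mem_ne_zero_of_ne_bot v.ne_bot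
      have hp0' : ((p : integralClosure V2 E2) : E2) ≠ 0 := fun h => hp0 (Subtype.ext h)
      obtain ⟨m, u', hmu, -⟩ := hstr _ trivial hp0'
      rw [h0] at hmu
      rcases eq_or_ne m 0 with rfl | hm
      · -- `p` is a unit of `O`, but lies in `P`
        rw [zpow_zero, one_mul] at hmu
        have hpu : IsUnit (algebraMap (integralClosure V2 E2) O p) := by
          have : algebraMap (integralClosure V2 E2) O p = (u' : O) := Subtype.ext hmu
          rw [this]; exact u'.isUnit
        have := (IsLocalization.AtPrime.isUnit_to_map_iff O P p).1 hpu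
        exact this hpP
      · rw [zero_zpow _ hm, zero_mul] at hmu
        exact hp0' hmu
    · rw [zero_zpow _ hn, zero_mul] at hnu
      exact one_ne_zero hnu
  have hmax : Ideal.map (algebraMap V2 O) (IsLocalRing.maximalIdeal V2) =
      IsLocalRing.maximalIdeal O := by
    apply le_antisymm
    · rw [Ideal.map_le_iff_le_comap]
      intro y hy
      rw [Ideal.mem_comap, ← ValuationSubring.coe_mem_nonunits_iff, hVO]
      exact hVP y hy
    · intro w hw
      by_cases hw0 : (w : E2) = 0
      · have : w = 0 := Subtype.ext hw0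
        rw [this]; exact Ideal.zero_mem _
      obtain ⟨n, u, hnu, -⟩ := hstr (w : E2) trivial hw0
      have hn : 0 ≤ n := (ug_zpow_mul_unit_mem_iff hxnon hx0 n u).1 (hnu ▸ w.2)
      obtain ⟨k, rfl⟩ := Int.eq_ofNat_of_zero_le hn
      rw [zpow_natCast] at hnu
      have hw' : w = algebraMap V2 O x ^ k * u := Subtype.ext (by
        rw [hnu, MulMemClass.coe_mul, SubmonoidClass.coe_pow, hVO])
      rcases Nat.eq_zero_or_pos k with rfl | hk
      · exfalso
        rw [hw', pow_zero, one_mul, IsLocalRing.mem_maximalIdeal, mem_nonunits_iff] at hw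
        exact hw u.isUnit
      · obtain ⟨m, rfl⟩ := Nat.exists_eq_succ_of_ne_zero hk.ne'
        rw [hw', pow_succ, mul_assoc, mul_comm (algebraMap V2 O x ^ m), mul_assoc]
        exact Ideal.mul_mem_right _ _ (Ideal.mem_map_of_mem _ hxm)
  have hunr : Algebra.FormallyUnramified V2 O :=
    Algebra.FormallyUnramified.of_map_maximalIdeal hmax
  let e : O ≃ₐ[integralClosure V2 E2] Localization.AtPrime P :=
    IsLocalization.algEquiv P.primeCompl O (Localization.AtPrime P)
  exact Algebra.FormallyUnramified.of_equiv (e.restrictScalars V2)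

end Final

section Main

open IsDedekindDomain WithZero

/-- positive integers are units of a local ring with residue characteristic zero. -/
theorem kum_natCast_isUnit (V2 : Type*) [CommRing V2] [IsLocalRing V2]
    [CharZero (IsLocalRing.ResidueField V2)] {k : ℕ} (hk : 0 < k) : IsUnit ((k : ℕ) : V2) := by
  rw [← IsLocalRing.residue_ne_zero_iff_isUnit, map_natCast]
  exact Nat.cast_ne_zero.2 hk.ne'

/-- the image of a unit of `V2` is a unit of `O`. -/
theorem kum_inv_mem_of_isUnit {V2 E2 : Type*} [CommRing V2] [Field E2] [Algebra V2 E2]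
    (O : ValuationSubring E2) (hVO : ∀ x : V2, algebraMap V2 E2 x ∈ O) {x : V2} (hx : IsUnit x) :
    (algebraMap V2 E2 x)⁻¹ ∈ O := by
  obtain ⟨y, hy⟩ := hx.exists_right_inv
  have h1 : algebraMap V2 E2 x * algebraMap V2 E2 y = 1 := by rw [← map_mul, hy, map_one]
  rw [inv_eq_of_mul_eq_one_right h1]
  exact hVO y

/-- positive integers are units of `O ∩ E`. -/
theorem kum_natCast_facts {V2 E E2 : Type*} [CommRing V2] [IsLocalRing V2]
    [CharZero (IsLocalRing.ResidueField V2)] [Field E] [Field E2] [Algebra V2 E2] [Algebra E E2]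
    (O : ValuationSubring E2) (hVO : ∀ x : V2, algebraMap V2 E2 x ∈ O) {k : ℕ} (hk : 0 < k) :
    ((k : ℕ) : E) ≠ 0 ∧ (algebraMap E E2 ((k : ℕ) : E))⁻¹ ∈ O := by
  have hunit : IsUnit ((k : ℕ) : V2) := kum_natCast_isUnit V2 hk
  constructor
  · intro h0
    have h1 : algebraMap V2 E2 ((k : ℕ) : V2) = 0 := by
      rw [map_natCast, ← map_natCast (algebraMap E E2), h0, map_zero]
    have h2 : IsUnit (algebraMap V2 E2 ((k : ℕ) : V2)) := hunit.map _
    rw [h1] at h2
    exact not_isUnit_zero h2
  · have := kum_inv_mem_of_isUnit O hVO hunit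
    rwa [map_natCast, ← map_natCast (algebraMap E E2)] at this

/-- the centre on `E` of a valuation subring of `E2` containing the base. -/
theorem kum_center (V0 K E : Type*) [CommRing V0] [IsDomain V0] [IsDiscreteValuationRing V0]
    [Field K] [Algebra V0 K] [IsFractionRing V0 K] [Field E] [Algebra K E] [Algebra V0 E]
    [IsScalarTower V0 K E] [IsDedekindDomain (integralClosure V0 E)]
    [IsFractionRing (integralClosure V0 E) E] {E2 : Type*} [Field E2] [Algebra E E2]
    (O : ValuationSubring E2) (hV0 : ∀ a : V0, algebraMap E E2 (algebraMap V0 E a) ∈ O)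
    (hne : ∃ x : E, algebraMap E E2 x ∉ O) :
    ∃ v1 : HeightOneSpectrum (integralClosure V0 E),
      ∀ x : E, algebraMap E E2 x ∈ O ↔ v1.valuation E x ≤ 1 := by
  let _ : Algebra V0 E2 := ((algebraMap E E2).comp (algebraMap V0 E)).toAlgebra
  have _ : IsScalarTower V0 E E2 := IsScalarTower.of_algebraMap_eq (fun _ => rfl)
  have hC0 : ∀ c : integralClosure V0 E,
      algebraMap (integralClosure V0 E) E c ∈ O.comap (algebraMap E E2) := by
    intro c
    rw [ValuationSubring.mem_comap]
    have h1 : IsIntegral V0 (c : E) := c.2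
    have h2 : IsIntegral V0 (algebraMap E E2 (c : E)) :=
      h1.map (IsScalarTower.toAlgHom V0 E E2)
    exact dsc_mem_of_isIntegral_of_le O (O := V0) hV0 h2
  have htop : O.comap (algebraMap E E2) ≠ ⊤ := by
    obtain ⟨x, hx⟩ := hne
    intro h
    apply hx
    have : x ∈ O.comap (algebraMap E E2) := by rw [h]; trivial
    exact this
  obtain ⟨v1, hv1⟩ := dsc_exists_eq_valuationSubring (integralClosure V0 E) E
    (O.comap (algebraMap E E2)) hC0 htop
  refine ⟨v1, fun x => ?_⟩
  rw [← ValuationSubring.mem_comap, ← hv1]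
  exact Valuation.mem_valuationSubring_iff _ _

/-- auxiliary form of `kum_unram_ramified` for a height one prime. -/
theorem kum_unram_ramified_aux
    (V0 K E : Type*) [CommRing V0] [IsDomain V0] [IsDiscreteValuationRing V0]
    [Field K] [Algebra V0 K] [IsFractionRing V0 K]
    [Field E] [Algebra K E] [Algebra V0 E] [IsScalarTower V0 K E]
    (V2 E2 : Type*) [CommRing V2] [IsDomain V2] [IsDiscreteValuationRing V2]
    [Field E2] [Algebra V2 E2] [Algebra E E2] [CharZero (IsLocalRing.ResidueField V2)]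
    [IsDedekindDomain (integralClosure V0 E)]
    [IsFractionRing (integralClosure V0 E) E] [IsDedekindDomain (integralClosure V2 E2)]
    [IsFractionRing (integralClosure V2 E2) E2] [Module.Finite V2 (integralClosure V2 E2)]
    (hV : ∀ a : V0, ∃ b : V2, algebraMap V2 E2 b = algebraMap E E2 (algebraMap V0 E a))
    (n : ℕ) (hn : 0 < n) (t : V0) (ht : Irreducible t) (w : V2) (hw : ¬ IsUnit w)
    (hwt : algebraMap V2 E2 w ^ n = algebraMap E E2 (algebraMap V0 E t))
    (hgen : IntermediateField.adjoin E {algebraMap V2 E2 w} = ⊤)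
    (he : ∀ (P1 : Ideal (integralClosure V0 E)) [P1.IsPrime], P1 ≠ ⊥ →
      P1.ramificationIdx V0 ∣ n)
    (v : HeightOneSpectrum (integralClosure V2 E2)) :
    Algebra.IsUnramifiedAt V2 v.asIdeal := by
  obtain ⟨hCO, hVO, hVP, -⟩ := kum_setup V2 E2 v
  set O : ValuationSubring E2 := HeightOneSpectrum.valuationSubringAtPrime E2 v with hO
  have hV0 : ∀ a : V0, algebraMap E E2 (algebraMap V0 E a) ∈ O := by
    intro a
    obtain ⟨b, hb⟩ := hV a
    rw [← hb]; exact hVO b
  have hwnon : algebraMap V2 E2 w ∈ O.nonunits := hVP w ((IsLocalRing.mem_maximalIdeal _).2 hw)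
  have htnon : algebraMap E E2 (algebraMap V0 E t) ∈ O.nonunits := by
    rw [← hwt]; exact kum_pow_mem_nonunits O hwnon hn.ne'
  have hinj : Function.Injective (algebraMap V0 E) := by
    rw [IsScalarTower.algebraMap_eq V0 K E]
    exact (algebraMap K E).injective.comp (IsFractionRing.injective V0 K)
  have ht0 : algebraMap V0 E t ≠ 0 := by
    rw [Ne, map_eq_zero_iff _ hinj]; exact ht.ne_zero
  have htE0 : algebraMap E E2 (algebraMap V0 E t) ≠ 0 := by rwa [Ne, map_eq_zero]
  have hne : ∃ x : E, algebraMap E E2 x ∉ O := by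
    refine ⟨(algebraMap V0 E t)⁻¹, ?_⟩
    rw [map_inv₀]
    exact ((ValuationSubring.mem_nonunits_iff_or O).1 htnon).resolve_left htE0
  obtain ⟨v1, hO1⟩ := kum_center V0 K E O hV0 hne
  obtain ⟨π0, hπ0⟩ := v1.valuation_exists_uniformizer E
  obtain ⟨hπnon, hπ00, hstrE⟩ := kum_adic_str O v1 hO1 hπ0
  have hval := kum_valuation_uniformizer V0 K E v1 ht
  set e1 : ℕ := v1.asIdeal.ramificationIdx V0 with he1
  obtain ⟨m, hm⟩ : e1 ∣ n := he v1.asIdeal v1.ne_bot
  have he1pos : 0 < e1 := by
    rcases Nat.eq_zero_or_pos e1 with h | h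
    · rw [h, zero_mul] at hm; omega
    · exact h
  have hmpos : 0 < m := by
    rcases Nat.eq_zero_or_pos m with h | h
    · rw [h, mul_zero] at hm; omega
    · exact h
  obtain ⟨hu1, hu2⟩ := kum_adic_unit O v1 hO1 hπ0 (algebraMap V0 E t) (e1 : ℤ) hval
  -- `e1` is a unit
  obtain ⟨he10, he1u⟩ := kum_natCast_facts (E := E) O hVO he1pos
  have hu0 : algebraMap V0 E t / π0 ^ (e1 : ℤ) ≠ 0 := div_ne_zero ht0 (zpow_ne_zero _ hπ00)
  have hpow : algebraMap V2 E2 w ^ (e1 * m) =
      algebraMap E E2 (algebraMap V0 E t / π0 ^ (e1 : ℤ) * π0 ^ e1) := by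
    rw [← hm, hwt, zpow_natCast, div_mul_cancel₀ _ (pow_ne_zero _ hπ00)]
  obtain ⟨-, key⟩ := kum_core_ram hπnon hπ00 hstrE e1 m he1pos hmpos he10 he1u _ hu0 hu1 hu2
    (algebraMap V2 E2 w) hpow
  refine kum_unram_of_str V2 E2 v w hw (fun y _ hy0 => key y ?_ hy0)
  rw [hgen]; trivial

/-- **[KUM] (a)**: `V0` a DVR of `K` with uniformiser `t`, `E / K` finite separable with all
ramification indices over `V0` dividing `n`, `E2 = E(w)` with `w ^ n = t`: then `E2` is unramified
over every DVR `V2 ⊇ V0` (of a subfield `K2` of `E2`) in which `w` is a nonunit. Residue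
characteristic zero. The conclusion is `jt_Unram V2 E2`. -/
theorem kum_unram_ramified
    (V0 K E : Type*) [CommRing V0] [IsDomain V0] [IsDiscreteValuationRing V0]
    [Field K] [Algebra V0 K] [IsFractionRing V0 K]
    [Field E] [Algebra K E] [Algebra V0 E] [IsScalarTower V0 K E]
    [FiniteDimensional K E] [Algebra.IsSeparable K E]
    (V2 K2 E2 : Type*) [CommRing V2] [IsDomain V2] [IsDiscreteValuationRing V2]
    [Field K2] [Algebra V2 K2] [IsFractionRing V2 K2]
    [Field E2] [Algebra K2 E2] [Algebra V2 E2] [IsScalarTower V2 K2 E2]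
    [FiniteDimensional K2 E2] [Algebra.IsSeparable K2 E2]
    [Algebra E E2] [CharZero (IsLocalRing.ResidueField V2)]
    (hV : ∀ a : V0, ∃ b : V2, algebraMap V2 E2 b = algebraMap E E2 (algebraMap V0 E a))
    (n : ℕ) (hn : 0 < n) (t : V0) (ht : Irreducible t) (w : V2) (hw : ¬ IsUnit w)
    (hwt : algebraMap V2 E2 w ^ n = algebraMap E E2 (algebraMap V0 E t))
    (hgen : IntermediateField.adjoin E {algebraMap V2 E2 w} = ⊤)
    (he : ∀ (P1 : Ideal (integralClosure V0 E)) [P1.IsPrime], P1 ≠ ⊥ →
      P1.ramificationIdx V0 ∣ n) :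
    ∀ (P : Ideal (integralClosure V2 E2)) [P.IsPrime], P ≠ ⊥ → Algebra.IsUnramifiedAt V2 P := by
  intro P _ hP
  have _ : IsDedekindDomain (integralClosure V0 E) := integralClosure.isDedekindDomain V0 K E
  have _ : IsFractionRing (integralClosure V0 E) E :=
    integralClosure.isFractionRing_of_finite_extension K E
  have _ : IsDedekindDomain (integralClosure V2 E2) := integralClosure.isDedekindDomain V2 K2 E2
  have _ : IsFractionRing (integralClosure V2 E2) E2 :=
    integralClosure.isFractionRing_of_finite_extension K2 E2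
  have _ : Module.Finite V2 (integralClosure V2 E2) :=
    IsIntegralClosure.finite V2 K2 E2 (integralClosure V2 E2)
  exact kum_unram_ramified_aux V0 K E V2 E2 hV n hn t ht w hw hwt hgen he ⟨P, inferInstance, hP⟩

/-- auxiliary form of `kum_unram_unit` for a height one prime. -/
theorem kum_unram_unit_aux
    (V0 K E : Type*) [CommRing V0] [IsDomain V0] [IsDiscreteValuationRing V0]
    [Field K] [Algebra V0 K] [IsFractionRing V0 K]
    [Field E] [Algebra K E] [Algebra V0 E] [IsScalarTower V0 K E]
    (V2 E2 : Type*) [CommRing V2] [IsDomain V2] [IsDiscreteValuationRing V2]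
    [Field E2] [Algebra V2 E2] [Algebra E E2] [CharZero (IsLocalRing.ResidueField V2)]
    [IsDedekindDomain (integralClosure V0 E)]
    [IsFractionRing (integralClosure V0 E) E] [Module.Finite V0 (integralClosure V0 E)]
    [IsDedekindDomain (integralClosure V2 E2)]
    [IsFractionRing (integralClosure V2 E2) E2] [Module.Finite V2 (integralClosure V2 E2)]
    (hV : ∀ a : V0, ∃ b : V2, algebraMap V2 E2 b = algebraMap E E2 (algebraMap V0 E a))
    (n : ℕ) (hn : 0 < n) (t : V0) (ht : IsUnit t) (w : E2)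
    (hwt : w ^ n = algebraMap E E2 (algebraMap V0 E t))
    (hgen : IntermediateField.adjoin E {w} = ⊤)
    (hunr : ∀ (P1 : Ideal (integralClosure V0 E)) [P1.IsPrime], P1 ≠ ⊥ →
      Algebra.IsUnramifiedAt V0 P1)
    (v : HeightOneSpectrum (integralClosure V2 E2)) :
    Algebra.IsUnramifiedAt V2 v.asIdeal := by
  obtain ⟨hCO, hVO, hVP, p, hp0, hpnon⟩ := kum_setup V2 E2 v
  set O : ValuationSubring E2 := HeightOneSpectrum.valuationSubringAtPrime E2 v with hO
  have hV0 : ∀ a : V0, algebraMap E E2 (algebraMap V0 E a) ∈ O := by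
    intro a
    obtain ⟨b, hb⟩ := hV a
    rw [← hb]; exact hVO b
  have hinj : Function.Injective (algebraMap V0 E) := by
    rw [IsScalarTower.algebraMap_eq V0 K E]
    exact (algebraMap K E).injective.comp (IsFractionRing.injective V0 K)
  -- the image of `t` is a unit of `O`
  have htO : algebraMap E E2 (algebraMap V0 E t) ∈ O := hV0 t
  have htO' : (algebraMap E E2 (algebraMap V0 E t))⁻¹ ∈ O := by
    obtain ⟨t', ht'⟩ := ht.exists_right_inv
    have h1 : algebraMap E E2 (algebraMap V0 E t) * algebraMap E E2 (algebraMap V0 E t') = 1 := by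
      rw [← map_mul, ← map_mul, ht', map_one, map_one]
    rw [inv_eq_of_mul_eq_one_right h1]; exact hV0 t'
  have ht0 : algebraMap V0 E t ≠ 0 := (ht.map (algebraMap V0 E)).ne_zero
  have hwO : w ∈ O := kum_mem_of_pow_mem O hn.ne' (hwt ▸ htO)
  -- `E` is not contained in `O`
  have hne : ∃ x : E, algebraMap E E2 x ∉ O := by
    by_contra hcon
    push Not at hcon
    have hall : ∀ y : E2, y ∈ O := by
      intro y
      have hy : y ∈ IntermediateField.adjoin E {w} := by rw [hgen]; trivial
      have hwint : IsIntegral E w :=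
        ⟨X ^ n - C (algebraMap V0 E t), monic_X_pow_sub_C _ hn.ne', by
          rw [eval₂_sub, eval₂_pow, eval₂_X, eval₂_C, hwt, sub_self]⟩
      rw [← IntermediateField.mem_toSubalgebra,
        IntermediateField.adjoin_simple_toSubalgebra_of_isAlgebraic hwint.isAlgebraic] at hy
      induction hy using Algebra.adjoin_induction with
      | mem x hx => rw [Set.mem_singleton_iff] at hx; rw [hx]; exact hwO
      | algebraMap r => exact hcon r
      | add x y _ _ hx hy => exact O.add_mem _ _ hx hy
      | mul x y _ _ hx hy => exact O.mul_mem _ _ hx hy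
    rw [ValuationSubring.mem_nonunits_iff_or] at hpnon
    rcases hpnon with h | h
    · exact hp0 h
    · exact h (hall _)
  obtain ⟨v1, hO1⟩ := kum_center V0 K E O hV0 hne
  obtain ⟨ϖ, hϖ⟩ := IsDiscreteValuationRing.exists_irreducible V0
  have hval := kum_valuation_uniformizer V0 K E v1 hϖ
  have hram : v1.asIdeal.ramificationIdx V0 = 1 := by
    have := hunr v1.asIdeal v1.ne_bot
    exact Ideal.ramificationIdx_eq_one v1.asIdeal V0
  rw [hram, Nat.cast_one] at hval
  obtain ⟨hπnon, hπ00, hstrE⟩ := kum_adic_str O v1 hO1 hval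
  obtain ⟨hn0, hnu⟩ := kum_natCast_facts (E := E) O hVO hn
  have key := kum_core_unit hπnon hπ00 hstrE n hn hn0 hnu (algebraMap V0 E t) ht0 htO htO' w hwt
  obtain ⟨b, hb⟩ := hV ϖ
  have hbnu : ¬ IsUnit b := by
    intro hbu
    have h1 := kum_inv_mem_of_isUnit O hVO hbu
    rw [hb] at h1
    rw [ValuationSubring.mem_nonunits_iff_or] at hπnon
    rcases hπnon with h0 | h0
    · exact (by rwa [Ne, map_eq_zero] : algebraMap E E2 (algebraMap V0 E ϖ) ≠ 0) h0
    · exact h0 h1
  refine kum_unram_of_str V2 E2 v b hbnu (fun y _ hy0 => ?_)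
  rw [hb]
  exact key y (by rw [hgen]; trivial) hy0

/-- **[KUM] (b)**: `V0` a DVR of `K`, `t` a unit of `V0`, `E / K` finite separable and unramified
over `V0`, `E2 = E(w)` with `w ^ n = t`: then `E2` is unramified over every DVR `V2 ⊇ V0` of a
subfield `K2` of `E2`. Residue characteristic zero. The conclusion is `jt_Unram V2 E2`. -/
theorem kum_unram_unit
    (V0 K E : Type*) [CommRing V0] [IsDomain V0] [IsDiscreteValuationRing V0]
    [Field K] [Algebra V0 K] [IsFractionRing V0 K]
    [Field E] [Algebra K E] [Algebra V0 E] [IsScalarTower V0 K E]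
    [FiniteDimensional K E] [Algebra.IsSeparable K E]
    (V2 K2 E2 : Type*) [CommRing V2] [IsDomain V2] [IsDiscreteValuationRing V2]
    [Field K2] [Algebra V2 K2] [IsFractionRing V2 K2]
    [Field E2] [Algebra K2 E2] [Algebra V2 E2] [IsScalarTower V2 K2 E2]
    [FiniteDimensional K2 E2] [Algebra.IsSeparable K2 E2]
    [Algebra E E2] [CharZero (IsLocalRing.ResidueField V2)]
    (hV : ∀ a : V0, ∃ b : V2, algebraMap V2 E2 b = algebraMap E E2 (algebraMap V0 E a))
    (n : ℕ) (hn : 0 < n) (t : V0) (ht : IsUnit t) (w : E2)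
    (hwt : w ^ n = algebraMap E E2 (algebraMap V0 E t))
    (hgen : IntermediateField.adjoin E {w} = ⊤)
    (hunr : ∀ (P1 : Ideal (integralClosure V0 E)) [P1.IsPrime], P1 ≠ ⊥ →
      Algebra.IsUnramifiedAt V0 P1) :
    ∀ (P : Ideal (integralClosure V2 E2)) [P.IsPrime], P ≠ ⊥ → Algebra.IsUnramifiedAt V2 P := by
  intro P _ hP
  have _ : IsDedekindDomain (integralClosure V0 E) := integralClosure.isDedekindDomain V0 K E
  have _ : IsFractionRing (integralClosure V0 E) E :=
    integralClosure.isFractionRing_of_finite_extension K E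
  have _ : Module.Finite V0 (integralClosure V0 E) :=
    IsIntegralClosure.finite V0 K E (integralClosure V0 E)
  have _ : IsDedekindDomain (integralClosure V2 E2) := integralClosure.isDedekindDomain V2 K2 E2
  have _ : IsFractionRing (integralClosure V2 E2) E2 :=
    integralClosure.isFractionRing_of_finite_extension K2 E2
  have _ : Module.Finite V2 (integralClosure V2 E2) :=
    IsIntegralClosure.finite V2 K2 E2 (integralClosure V2 E2)
  exact kum_unram_unit_aux V0 K E V2 E2 hV n hn t ht w hwt hgen hunr ⟨P, inferInstance, hP⟩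

end Main

end Fermat.Agent.JT3
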