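/-
JT3 / Route R, generic layer: the Kummer seam at a UNIT in ANY residue characteristic
(prefix `kumx_`).

`V0` a discrete valuation ring of `K`, `E / K` finite separable and unramified over `V0`,
`E2 = E(w)` with `w ^ n = t`, `t` and `n` units of `V0`: then `E2` is unramified over every discrete
valuation ring `V2 ⊇ V0` of a subfield `K2` of `E2` (`kumx_unram_unit`).  This is
`kum_unram_unit` (`Algebra/KummerUnram.lean`) with the hypothesis "residue characteristic zero"
replaced by "`n` is a unit of `V0`"; it is what the vertical (Gauss) prime needs.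

Proof: `B := integralClosure V0 E` is finite and formally unramified over `V0` (`kumx_fu_ic`);
`B[T]/(T ^ n - t)` is standard étale over `B` (`kumx_pair`); its image `C' = B[w] ⊆ E2` is a
domain, finite and formally unramified over `V0`, hence a Dedekind domain
(`isDedekindDomain.of_formallyUnramified`), with fraction field `E2`
(`kumx_adjoin_isFractionRing`); every discrete valuation ring of `E2` containing `V0` is the
localisation of `C'` at its centre (`ti_isLocalization_centre`), hence formally unramified over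
`V0`, a fortiori over `V2` (`kumx_unram_of_model`).
-/
import Mathlib
import Fermat.Agent.JT3.Algebra.AbhyankarSeam
import Fermat.Agent.JT3.Algebra.KummerUnram
import Fermat.Agent.JT3.Seams

set_option autoImplicit false
set_option linter.unusedSectionVars false
set_option linter.style.haveILetI false

namespace Fermat.Agent.JT3

open Polynomial IsDedekindDomain

section StdEtale

variable {B : Type*} [CommRing B]

theorem kumx_cond_aux (n : ℕ) (hn0 : n ≠ 0) (t u v : B) (hu : ((n : ℕ) : B) * u = 1)
    (hv : t * v = 1) :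
    derivative (X ^ n - C t : B[X]) * (C (u * v) * X) + (X ^ n - C t) * (- C v) = 1 := by
  obtain ⟨m, rfl⟩ := Nat.exists_eq_succ_of_ne_zero hn0
  rw [derivative_sub, derivative_X_pow, derivative_C, sub_zero, Nat.succ_sub_one]
  simp only [Nat.succ_eq_add_one] at hu ⊢
  have e1 : (C ((m + 1 : ℕ) : B) * X ^ m) * (C (u * v) * X) =
      C (((m + 1 : ℕ) : B) * u * v) * X ^ (m + 1) := by
    simp only [C_mul, pow_succ]; ring
  have e2 : (X ^ (m + 1) - C t : B[X]) * (- C v) =
      - (C v * X ^ (m + 1)) + C (t * v) := by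
    rw [C_mul]; ring
  rw [e1, e2, hu, hv, one_mul, C_1]
  ring

/-- the standard étale pair `(T ^ n - t, 1)` for units `n`, `t`. -/
noncomputable def kumx_pair (n : ℕ) (hn0 : n ≠ 0) (hn : IsUnit ((n : ℕ) : B)) (t : B)
    (ht : IsUnit t) : StandardEtalePair B where
  f := X ^ n - C t
  monic_f := monic_X_pow_sub_C t hn0
  g := 1
  cond := by
    obtain ⟨u, hu⟩ := hn.exists_right_inv
    obtain ⟨v, hv⟩ := ht.exists_right_inv
    exact ⟨C (u * v) * X, - C v, 1, by rw [pow_one]; exact kumx_cond_aux n hn0 t u v hu hv⟩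

variable {E2 : Type*} [Field E2] [Algebra B E2]

/-- `B[w]`, `w ^ n = t` with `n`, `t` units of `B`, is a quotient of a standard étale algebra,
hence formally unramified over `B`. -/
theorem kumx_adjoin_formallyUnramified (n : ℕ) (hn0 : n ≠ 0) (hn : IsUnit ((n : ℕ) : B)) (t : B)
    (ht : IsUnit t) (w : E2) (hw : w ^ n = algebraMap B E2 t) :
    Algebra.FormallyUnramified B (Algebra.adjoin B {w}) := by
  set P := kumx_pair n hn0 hn t ht with hP
  set C' : Subalgebra B E2 := Algebra.adjoin B {w} with hC'
  let x : C' := ⟨w, Algebra.subset_adjoin (Set.mem_singleton w)⟩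
  have hmap : P.HasMap x := by
    refine ⟨?_, ?_⟩
    · apply Subtype.ext
      rw [← Subalgebra.coe_val, ← aeval_algHom_apply]
      change aeval w (X ^ n - C t : B[X]) = 0
      rw [map_sub, map_pow, aeval_X, aeval_C, hw, sub_self]
    · change IsUnit (aeval x (1 : B[X]))
      rw [map_one]; exact isUnit_one
  let φ : P.Ring →ₐ[B] C' := P.lift x hmap
  have hφ : Function.Surjective φ := by
    intro c
    have hle : C' ≤ (φ.range).map C'.val := by
      refine Algebra.adjoin_le ?_
      rintro _ rfl
      exact ⟨x, ⟨P.X, P.lift_X x hmap⟩, rfl⟩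
    obtain ⟨y, ⟨z, hz⟩, hy⟩ := hle c.2
    refine ⟨z, ?_⟩
    apply Subtype.ext
    rw [← hy, ← hz]; rfl
  exact Algebra.FormallyUnramified.of_surjective φ hφ

end StdEtale

section Generic

/-- the integral closure of a DVR in a finite separable extension all of whose nonzero primes are
unramified is formally unramified. -/
theorem kumx_fu_ic (V0 K E : Type*) [CommRing V0] [IsDomain V0] [IsDiscreteValuationRing V0]
    [Field K] [Algebra V0 K] [IsFractionRing V0 K]
    [Field E] [Algebra K E] [Algebra V0 E] [IsScalarTower V0 K E]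
    [FiniteDimensional K E] [Algebra.IsSeparable K E]
    (hunr : ∀ (P1 : Ideal (integralClosure V0 E)) [P1.IsPrime], P1 ≠ ⊥ →
      Algebra.IsUnramifiedAt V0 P1) :
    Algebra.FormallyUnramified V0 (integralClosure V0 E) := by
  rw [Algebra.formallyUnramified_iff_forall]
  intro q
  by_cases hq : q.asIdeal = ⊥
  · haveI : IsFractionRing (integralClosure V0 E) E :=
      integralClosure.isFractionRing_of_finite_extension K E
    haveI h1 : Algebra.FormallyUnramified V0 K :=
      Algebra.FormallyUnramified.of_isLocalization (nonZeroDivisors V0)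
    haveI h2 : Algebra.FormallyUnramified K E := Algebra.FormallyUnramified.of_isSeparable K E
    haveI h3 : Algebra.FormallyUnramified V0 E := Algebra.FormallyUnramified.comp V0 K E
    have hpc : q.asIdeal.primeCompl = nonZeroDivisors (integralClosure V0 E) := by
      ext x
      rw [Ideal.mem_primeCompl_iff, hq, Ideal.mem_bot, mem_nonZeroDivisors_iff_ne_zero]
    haveI : IsLocalization q.asIdeal.primeCompl E := by
      rw [hpc]; infer_instance
    let e : E ≃ₐ[integralClosure V0 E] Localization.AtPrime q.asIdeal :=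
      IsLocalization.algEquiv q.asIdeal.primeCompl E _
    exact Algebra.FormallyUnramified.of_equiv (e.restrictScalars V0)
  · exact hunr q.asIdeal hq

end Generic

section Ded

variable {V0 B E2 : Type*} [CommRing V0] [CommRing B] [Field E2] [Algebra V0 B] [Algebra B E2]
  [Algebra V0 E2] [IsScalarTower V0 B E2]

theorem kumx_isIntegral (n : ℕ) (hn0 : n ≠ 0) (t : B) (w : E2) (hw : w ^ n = algebraMap B E2 t) :
    IsIntegral B w :=
  ⟨X ^ n - C t, monic_X_pow_sub_C t hn0, by
    rw [eval₂_sub, eval₂_pow, eval₂_X, eval₂_C, hw, sub_self]⟩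

theorem kumx_adjoin_finite [Module.Finite V0 B] (n : ℕ) (hn0 : n ≠ 0) (t : B) (w : E2)
    (hw : w ^ n = algebraMap B E2 t) : Module.Finite V0 (Algebra.adjoin B {w}) := by
  haveI : Module.Finite B (Algebra.adjoin B {w}) :=
    Algebra.finite_adjoin_simple_of_isIntegral (kumx_isIntegral n hn0 t w hw)
  exact Module.Finite.trans B _

theorem kumx_adjoin_fu [Algebra.FormallyUnramified V0 B] (n : ℕ) (hn0 : n ≠ 0)
    (hn : IsUnit ((n : ℕ) : B)) (t : B) (ht : IsUnit t) (w : E2)
    (hw : w ^ n = algebraMap B E2 t) :
    Algebra.FormallyUnramified V0 (Algebra.adjoin B {w}) := by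
  haveI := kumx_adjoin_formallyUnramified n hn0 hn t ht w hw
  exact Algebra.FormallyUnramified.comp V0 B _

theorem kumx_adjoin_dedekind [IsDedekindDomain V0] [Module.Finite V0 B]
    [Algebra.FormallyUnramified V0 B] (n : ℕ) (hn0 : n ≠ 0)
    (hn : IsUnit ((n : ℕ) : B)) (t : B) (ht : IsUnit t) (w : E2)
    (hw : w ^ n = algebraMap B E2 t) :
    IsDedekindDomain (Algebra.adjoin B {w}) := by
  haveI := kumx_adjoin_fu (V0 := V0) n hn0 hn t ht w hw
  haveI := kumx_adjoin_finite (V0 := V0) n hn0 t w hw
  exact isDedekindDomain.of_formallyUnramified V0 _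

end Ded

section Frac

variable {B E E2 : Type*} [CommRing B] [IsDomain B] [Field E] [Field E2] [Algebra B E]
  [IsFractionRing B E] [Algebra E E2] [Algebra B E2] [IsScalarTower B E E2]

/-- `B[w]` has fraction field `E(w)` when `B` has fraction field `E` and `w` is algebraic. -/
theorem kumx_adjoin_isFractionRing (w : E2) (hw : IsAlgebraic E w)
    (hgen : IntermediateField.adjoin E {w} = ⊤) :
    IsFractionRing (Algebra.adjoin B {w}) E2 := by
  set C' : Subalgebra B E2 := Algebra.adjoin B {w} with hC'
  refine IsFractionRing.of_field _ _ ?_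
  intro z
  have hz : z ∈ IntermediateField.adjoin E {w} := by rw [hgen]; trivial
  rw [← IntermediateField.mem_toSubalgebra,
    IntermediateField.adjoin_simple_toSubalgebra_of_isAlgebraic hw] at hz
  suffices h : ∃ x y : C', y ≠ 0 ∧ z = (x : E2) / (y : E2) by
    obtain ⟨x, y, -, h⟩ := h
    exact ⟨x, y, h⟩
  induction hz using Algebra.adjoin_induction with
  | mem x hx =>
    rw [Set.mem_singleton_iff] at hx
    refine ⟨⟨w, Algebra.subset_adjoin (Set.mem_singleton w)⟩, 1, one_ne_zero, ?_⟩
    rw [hx, OneMemClass.coe_one, div_one]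
  | algebraMap r =>
    obtain ⟨a, b, hb, hab⟩ := IsFractionRing.div_surjective (A := B) r
    have hb0 : b ≠ 0 := nonZeroDivisors.ne_zero hb
    have hbE : algebraMap B E b ≠ 0 := by
      intro h
      exact hb0 ((IsFractionRing.injective B E) (by rw [h, map_zero]))
    refine ⟨algebraMap B C' a, algebraMap B C' b, ?_, ?_⟩
    · intro h
      have h1 : ((algebraMap B C' b : C') : E2) = 0 := by rw [h]; rfl
      have h2 : ((algebraMap B C' b : C') : E2) = algebraMap E E2 (algebraMap B E b) := by
        rw [← IsScalarTower.algebraMap_apply]; rfl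
      rw [h2, map_eq_zero] at h1
      exact hbE h1
    · have h2 : ∀ c : B, ((algebraMap B C' c : C') : E2) = algebraMap E E2 (algebraMap B E c) := by
        intro c
        rw [← IsScalarTower.algebraMap_apply]; rfl
      rw [h2, h2, ← map_div₀, hab]
  | add x y _ _ hx hy =>
    obtain ⟨x1, y1, hy1, rfl⟩ := hx
    obtain ⟨x2, y2, hy2, rfl⟩ := hy
    have h1 : (y1 : E2) ≠ 0 := fun h => hy1 (Subtype.ext h)
    have h2 : (y2 : E2) ≠ 0 := fun h => hy2 (Subtype.ext h)
    refine ⟨x1 * y2 + x2 * y1, y1 * y2, mul_ne_zero hy1 hy2, ?_⟩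
    push_cast
    field_simp
  | mul x y _ _ hx hy =>
    obtain ⟨x1, y1, hy1, rfl⟩ := hx
    obtain ⟨x2, y2, hy2, rfl⟩ := hy
    have h1 : (y1 : E2) ≠ 0 := fun h => hy1 (Subtype.ext h)
    have h2 : (y2 : E2) ≠ 0 := fun h => hy2 (Subtype.ext h)
    refine ⟨x1 * x2, y1 * y2, mul_ne_zero hy1 hy2, ?_⟩
    push_cast
    field_simp

end Frac

section Loc

variable {V0 C' E2 : Type*} [CommRing V0] [CommRing C'] [IsDedekindDomain C'] [Field E2]
  [Algebra C' E2] [IsFractionRing C' E2] [Algebra V0 C'] [Algebra.FormallyUnramified V0 C']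

/-- a valuation ring (not a field) of the fraction field of a Dedekind domain `C'` formally
unramified over `V0`, containing `C'`, is formally unramified over `V0`. -/
theorem kumx_fu_valuationSubring (O : ValuationSubring E2)
    (hCO : ∀ c : C', algebraMap C' E2 c ∈ O)
    (hp : ∃ p : E2, p ≠ 0 ∧ p ∈ O.nonunits) (f : V0 →+* O)
    (hf : ∀ a, (f a : E2) = algebraMap C' E2 (algebraMap V0 C' a)) :
    f.FormallyUnramified := by
  haveI : IsLocalRing ↥O.toSubring := inferInstanceAs (IsLocalRing ↥O)
  have hBV : ∀ c : C', algebraMap C' E2 c ∈ O.toSubring := hCO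
  have hp2 : ti_centre O.toSubring hBV ≠ ⊥ := by
    apply ti_centre_ne_bot
    obtain ⟨p, hp0, hpn⟩ := hp
    obtain ⟨hpO, hpm⟩ := (ValuationSubring.mem_nonunits_iff_exists_mem_maximalIdeal).1 hpn
    refine ⟨⟨p, hpO⟩, fun h => hp0 (congrArg Subtype.val h), ?_⟩
    exact (IsLocalRing.mem_maximalIdeal _).1 hpm
  haveI hp2prime : (ti_centre O.toSubring hBV).IsPrime := Ideal.comap_isPrime _ _
  letI aCO : Algebra C' ↥O.toSubring := (ti_toSub O.toSubring hBV).toAlgebra
  haveI hloc : IsLocalization.AtPrime ↥O.toSubring (ti_centre O.toSubring hBV) :=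
    ti_isLocalization_centre O.toSubring hBV hp2
  haveI : Algebra.FormallyUnramified C' ↥O.toSubring :=
    Algebra.FormallyUnramified.of_isLocalization (ti_centre O.toSubring hBV).primeCompl
  let f' : V0 →+* ↥O.toSubring := f
  letI aVO : Algebra V0 ↥O.toSubring := f'.toAlgebra
  haveI : IsScalarTower V0 C' ↥O.toSubring :=
    IsScalarTower.of_algebraMap_eq (fun a => Subtype.ext (hf a))
  have : Algebra.FormallyUnramified V0 ↥O.toSubring := Algebra.FormallyUnramified.comp V0 C' _
  exact this

end Loc

section Model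

/-- **unramifiedness from a formally unramified Dedekind model.** `V2` a DVR, `E2` a field over
`V2` with Dedekind integral closure; `C'` a Dedekind domain with fraction field `E2`, integral and
formally unramified over a ring `V0` mapping to `V2`: then every height one prime of the integral
closure of `V2` in `E2` is unramified over `V2`. -/
theorem kumx_unram_of_model (V0 V2 E2 C' : Type*) [CommRing V0] [CommRing V2] [IsDomain V2]
    [IsDiscreteValuationRing V2] [Field E2] [Algebra V2 E2]
    [IsDedekindDomain (integralClosure V2 E2)] [IsFractionRing (integralClosure V2 E2) E2]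
    [Algebra V0 V2] [Algebra V0 E2] [IsScalarTower V0 V2 E2]
    [CommRing C'] [IsDedekindDomain C'] [Algebra C' E2] [IsFractionRing C' E2] [Algebra V0 C']
    [IsScalarTower V0 C' E2] [Algebra.FormallyUnramified V0 C'] [Algebra.IsIntegral V0 C']
    (v : HeightOneSpectrum (integralClosure V2 E2)) :
    Algebra.IsUnramifiedAt V2 v.asIdeal := by
  obtain ⟨hCO, hVO, hVP, p, hp0, hpnon⟩ := kum_setup V2 E2 v
  set P : Ideal (integralClosure V2 E2) := v.asIdeal with hPdef
  set O : ValuationSubring E2 := HeightOneSpectrum.valuationSubringAtPrime E2 v with hO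
  have hlocO : IsLocalization P.primeCompl ↥O :=
    inferInstanceAs (IsLocalization v.asIdeal.primeCompl
      (HeightOneSpectrum.valuationSubringAtPrime E2 v))
  have hPprime : P.IsPrime := v.isPrime
  -- `C' ⊆ O`
  have hC'O : ∀ c : C', algebraMap C' E2 c ∈ O := by
    intro c
    have h1 : IsIntegral V0 c := Algebra.IsIntegral.isIntegral c
    have h2 : IsIntegral V0 (algebraMap C' E2 c) := h1.map (IsScalarTower.toAlgHom V0 C' E2)
    have h3 : IsIntegral V2 (algebraMap C' E2 c) := h2.tower_top
    exact hCO ⟨_, h3⟩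
  -- `V2 → O`
  letI aV2O : Algebra V2 O :=
    ((algebraMap (integralClosure V2 E2) O).comp (algebraMap V2 (integralClosure V2 E2))).toAlgebra
  haveI : IsScalarTower V2 (integralClosure V2 E2) O :=
    IsScalarTower.of_algebraMap_eq (fun _ => rfl)
  let f : V0 →+* O := (algebraMap V2 O).comp (algebraMap V0 V2)
  have hf : ∀ a, (f a : E2) = algebraMap C' E2 (algebraMap V0 C' a) := by
    intro a
    change algebraMap V2 E2 (algebraMap V0 V2 a) = _
    rw [← IsScalarTower.algebraMap_apply, ← IsScalarTower.algebraMap_apply]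
  have hfu : f.FormallyUnramified := kumx_fu_valuationSubring O hC'O ⟨p, hp0, hpnon⟩ f hf
  letI aV0O : Algebra V0 O := f.toAlgebra
  haveI : IsScalarTower V0 V2 O := IsScalarTower.of_algebraMap_eq (fun _ => rfl)
  haveI hfu' : Algebra.FormallyUnramified V0 O := hfu
  haveI hfu2 : Algebra.FormallyUnramified V2 O :=
    Algebra.FormallyUnramified.of_restrictScalars V0 V2 O
  let e : O ≃ₐ[integralClosure V2 E2] Localization.AtPrime P :=
    IsLocalization.algEquiv P.primeCompl O (Localization.AtPrime P)
  exact Algebra.FormallyUnramified.of_equiv (e.restrictScalars V2)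

end Model

section Main

/-- a ring homomorphism `V0 → V2` from compatible maps into a common overfield. -/
theorem kumx_exists_hom {V0 V2 E2 : Type*} [CommRing V0] [CommRing V2] [Field E2] [Algebra V2 E2]
    (hinj : Function.Injective (algebraMap V2 E2)) (g : V0 →+* E2)
    (hV : ∀ a : V0, ∃ b : V2, algebraMap V2 E2 b = g a) :
    ∃ ι : V0 →+* V2, ∀ a, algebraMap V2 E2 (ι a) = g a := by
  classical
  have hs : ∀ a, algebraMap V2 E2 (Classical.choose (hV a)) = g a :=
    fun a => Classical.choose_spec (hV a)
  refine ⟨{ toFun := fun a => Classical.choose (hV a)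
            map_one' := hinj (by rw [hs, map_one, map_one])
            map_mul' := fun a b => hinj (by rw [hs, map_mul, map_mul, hs, hs])
            map_zero' := hinj (by rw [hs, map_zero, map_zero])
            map_add' := fun a b => hinj (by rw [hs, map_add, map_add, hs, hs]) }, hs⟩

/-- auxiliary form of `kumx_unram_unit` with the instances as arguments. -/
theorem kumx_unram_unit_aux
    (V0 K E : Type*) [CommRing V0] [IsDomain V0] [IsDiscreteValuationRing V0]
    [Field K] [Algebra V0 K] [IsFractionRing V0 K]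
    [Field E] [Algebra K E] [Algebra V0 E] [IsScalarTower V0 K E]
    (V2 E2 : Type*) [CommRing V2] [IsDomain V2] [IsDiscreteValuationRing V2]
    [Field E2] [Algebra V2 E2] [Algebra E E2]
    [IsDedekindDomain (integralClosure V0 E)]
    [IsFractionRing (integralClosure V0 E) E] [Module.Finite V0 (integralClosure V0 E)]
    [Algebra.FormallyUnramified V0 (integralClosure V0 E)]
    [IsDedekindDomain (integralClosure V2 E2)]
    [IsFractionRing (integralClosure V2 E2) E2]
    (hinj2 : Function.Injective (algebraMap V2 E2))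
    (hV : ∀ a : V0, ∃ b : V2, algebraMap V2 E2 b = algebraMap E E2 (algebraMap V0 E a))
    (n : ℕ) (hn : 0 < n) (hnu : IsUnit ((n : ℕ) : V0)) (t : V0) (ht : IsUnit t) (w : E2)
    (hwt : w ^ n = algebraMap E E2 (algebraMap V0 E t))
    (hgen : IntermediateField.adjoin E {w} = ⊤)
    (v : HeightOneSpectrum (integralClosure V2 E2)) :
    Algebra.IsUnramifiedAt V2 v.asIdeal := by
  -- `E2` over `V0`
  letI aV0E2 : Algebra V0 E2 := ((algebraMap E E2).comp (algebraMap V0 E)).toAlgebra
  haveI : IsScalarTower V0 (integralClosure V0 E) E2 :=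
    IsScalarTower.of_algebraMap_eq (fun _ => rfl)
  -- `V0 → V2`
  obtain ⟨ι, hι⟩ := kumx_exists_hom hinj2 (algebraMap V0 E2) hV
  letI aV0V2 : Algebra V0 V2 := ι.toAlgebra
  haveI : IsScalarTower V0 V2 E2 := IsScalarTower.of_algebraMap_eq (fun a => (hι a).symm)
  -- the ring `C' = B[w]`
  set tB : integralClosure V0 E := algebraMap V0 (integralClosure V0 E) t with htB
  have hw' : w ^ n = algebraMap (integralClosure V0 E) E2 tB := hwt
  have hnB : IsUnit ((n : ℕ) : integralClosure V0 E) := by
    have := hnu.map (algebraMap V0 (integralClosure V0 E))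
    rwa [map_natCast] at this
  have htBu : IsUnit tB := ht.map _
  haveI hC'ded : IsDedekindDomain (Algebra.adjoin (integralClosure V0 E) {w}) :=
    kumx_adjoin_dedekind (V0 := V0) n hn.ne' hnB tB htBu w hw'
  haveI hC'fu : Algebra.FormallyUnramified V0 (Algebra.adjoin (integralClosure V0 E) {w}) :=
    kumx_adjoin_fu (V0 := V0) n hn.ne' hnB tB htBu w hw'
  haveI hC'fin : Module.Finite V0 (Algebra.adjoin (integralClosure V0 E) {w}) :=
    kumx_adjoin_finite (V0 := V0) n hn.ne' tB w hw'
  have hwint : IsIntegral E w :=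
    ⟨X ^ n - C (algebraMap V0 E t), monic_X_pow_sub_C _ hn.ne', by
      rw [eval₂_sub, eval₂_pow, eval₂_X, eval₂_C, hwt, sub_self]⟩
  haveI hC'frac : IsFractionRing (Algebra.adjoin (integralClosure V0 E) {w}) E2 :=
    kumx_adjoin_isFractionRing w hwint.isAlgebraic hgen
  haveI : IsScalarTower V0 (Algebra.adjoin (integralClosure V0 E) {w}) E2 :=
    IsScalarTower.of_algebraMap_eq (fun _ => rfl)
  haveI : Algebra.IsIntegral V0 (Algebra.adjoin (integralClosure V0 E) {w}) :=
    Algebra.IsIntegral.of_finite V0 _
  exact kumx_unram_of_model V0 V2 E2 (Algebra.adjoin (integralClosure V0 E) {w}) v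


/-- **Kummer seam at a unit, any residue characteristic** (`kum_unram_unit` with "residue
characteristic zero" replaced by "`n` is a unit of `V0`"): `V0` a DVR of `K`, `t` and `n` units of
`V0`, `E / K` finite separable and unramified over `V0`, `E2 = E(w)` with `w ^ n = t`: then `E2`
is unramified over every DVR `V2 ⊇ V0` of a subfield `K2` of `E2`. -/
theorem kumx_unram_unit
    (V0 K E : Type*) [CommRing V0] [IsDomain V0] [IsDiscreteValuationRing V0]
    [Field K] [Algebra V0 K] [IsFractionRing V0 K]
    [Field E] [Algebra K E] [Algebra V0 E] [IsScalarTower V0 K E]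
    [FiniteDimensional K E] [Algebra.IsSeparable K E]
    (V2 K2 E2 : Type*) [CommRing V2] [IsDomain V2] [IsDiscreteValuationRing V2]
    [Field K2] [Algebra V2 K2] [IsFractionRing V2 K2]
    [Field E2] [Algebra K2 E2] [Algebra V2 E2] [IsScalarTower V2 K2 E2]
    [FiniteDimensional K2 E2] [Algebra.IsSeparable K2 E2]
    [Algebra E E2]
    (hV : ∀ a : V0, ∃ b : V2, algebraMap V2 E2 b = algebraMap E E2 (algebraMap V0 E a))
    (n : ℕ) (hn : 0 < n) (hnu : IsUnit ((n : ℕ) : V0)) (t : V0) (ht : IsUnit t) (w : E2)
    (hwt : w ^ n = algebraMap E E2 (algebraMap V0 E t))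
    (hgen : IntermediateField.adjoin E {w} = ⊤)
    (hunr : ∀ (P1 : Ideal (integralClosure V0 E)) [P1.IsPrime], P1 ≠ ⊥ →
      Algebra.IsUnramifiedAt V0 P1) :
    ∀ (P : Ideal (integralClosure V2 E2)) [P.IsPrime], P ≠ ⊥ → Algebra.IsUnramifiedAt V2 P := by
  intro P _ hP
  have _ : IsDedekindDomain (integralClosure V0 E) := integralClosure.isDedekindDomain V0 K E
  have _ : IsFractionRing (integralClosure V0 E) E :=
    integralClosure.isFractionRing_of_finite_extension K E
  have _ : Module.Finite V0 (integralClosure V0 E) :=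
    IsIntegralClosure.finite V0 K E (integralClosure V0 E)
  have _ : IsDedekindDomain (integralClosure V2 E2) := integralClosure.isDedekindDomain V2 K2 E2
  have _ : IsFractionRing (integralClosure V2 E2) E2 :=
    integralClosure.isFractionRing_of_finite_extension K2 E2
  have _ : Algebra.FormallyUnramified V0 (integralClosure V0 E) := kumx_fu_ic V0 K E hunr
  have hinj2 : Function.Injective (algebraMap V2 E2) := by
    rw [IsScalarTower.algebraMap_eq V2 K2 E2]
    exact (algebraMap K2 E2).injective.comp (IsFractionRing.injective V2 K2)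
  exact kumx_unram_unit_aux V0 K E V2 E2 hinj2 hV n hn hnu t ht w hwt hgen ⟨P, inferInstance, hP⟩

end Main

end Fermat.Agent.JT3
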