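import Mathlib

/-!
# The quadratic group lemma (prefix `qg_`)

`K` an algebraically closed field of characteristic `≠ 2`, `ρ : G → GL(U)` an irreducible
finite-dimensional representation, `ε : G → Kˣ` a character and `t : G → K` a function such that
`ρ(g)² - t(g) ρ(g) + ε(g) = 0` for all `g`.  Then `dim U ≤ 2`; if `dim U = 2` then `tr ρ(g) = t(g)`
and `det ρ(g) = ε(g)` for all `g`; if `dim U = 1` then `ρ = ψ` is a character with
`ψ + ε ψ⁻¹ = t`.

The proof uses Burnside's theorem (`qg_burnside`), deduced here from the Jacobson density theorem.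
-/

set_option autoImplicit false

namespace Fermat.Agent.JT3

open Module

section burnside

variable {K : Type*} [Field K] [IsAlgClosed K] {U : Type*} [AddCommGroup U] [Module K U]
  [FiniteDimensional K U] [Nontrivial U]

omit [IsAlgClosed K] [FiniteDimensional K U] in
/-- An irreducible subalgebra of `End_K(U)` makes `U` a simple module. -/
theorem qg_isSimpleModule (A : Subalgebra K (Module.End K U))
    (hirr : ∀ W : Submodule K U, (∀ a ∈ A, W ≤ W.comap a) → W = ⊥ ∨ W = ⊤) :
    IsSimpleModule A U := by
  have key : ∀ W : Submodule A U, W = ⊥ ∨ W = ⊤ := by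
    intro W
    let W' : Submodule K U :=
      { carrier := W
        add_mem' := W.add_mem
        zero_mem' := W.zero_mem
        smul_mem' := fun c u hu => by
          have h1 : (algebraMap K A c) • u ∈ W := W.smul_mem _ hu
          have h2 : (algebraMap K A c) • u = c • u := by
            change ((algebraMap K A c : A) : Module.End K U) u = c • u
            simp [Module.algebraMap_end_apply]
          rwa [h2] at h1 }
    have hW' : ∀ u, u ∈ W' ↔ u ∈ W := fun u => Iff.rfl
    rcases hirr W' (fun a ha u hu => W.smul_mem ⟨a, ha⟩ hu) with h | h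
    · left
      ext u
      rw [← hW', h]
      simp
    · right
      ext u
      rw [← hW', h]
      simp
  exact { exists_pair_ne := ⟨⊥, ⊤, bot_ne_top⟩
          eq_bot_or_eq_top := key }

omit [FiniteDimensional K U] [Nontrivial U] [IsAlgClosed K] in
private theorem qg_smul_comm (A : Subalgebra K (Module.End K U)) (a : A) (c : K) (u : U) :
    a • (c • u) = c • (a • u) :=
  (a : Module.End K U).map_smul c u

/-- **Schur's lemma** over an algebraically closed field. -/
theorem qg_schur (A : Subalgebra K (Module.End K U)) [IsSimpleModule A U]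
    (e : Module.End A U) : ∃ c : K, ∀ u, e u = c • u := by
  let e' : Module.End K U :=
    { toFun := e
      map_add' := e.map_add
      map_smul' := fun c u => by
        have h2 : ∀ v : U, (algebraMap K A c) • v = c • v := fun v => by
          change ((algebraMap K A c : A) : Module.End K U) v = c • v
          simp [Module.algebraMap_end_apply]
        have := e.map_smul (algebraMap K A c) u
        rw [h2, h2] at this
        exact this }
  obtain ⟨c, hc⟩ := Module.End.exists_eigenvalue e'
  obtain ⟨v, hv⟩ := hc.exists_hasEigenvector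
  refine ⟨c, ?_⟩
  let d : Module.End A U :=
    { toFun := fun u => e u - c • u
      map_add' := fun u v => by rw [map_add, smul_add]; abel
      map_smul' := fun a u => by
        rw [RingHom.id_apply, map_smul, smul_sub, qg_smul_comm] }
  rcases LinearMap.bijective_or_eq_zero d with h | h
  · exfalso
    have h1 : d v = 0 := by
      change e v - c • v = 0
      have := hv.apply_eq_smul
      change e v = c • v at this
      rw [this, sub_self]
    exact hv.2 (h.1 (h1.trans (map_zero d).symm))
  · intro u
    have h1 : d u = 0 := by rw [h]; rfl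
    change e u - c • u = 0 at h1
    exact sub_eq_zero.1 h1

/-- **Burnside's theorem**: an irreducible subalgebra of `End_K(U)`, `K` algebraically closed,
`U` finite-dimensional, is everything. -/
theorem qg_burnside (A : Subalgebra K (Module.End K U))
    (hirr : ∀ W : Submodule K U, (∀ a ∈ A, W ≤ W.comap a) → W = ⊥ ∨ W = ⊤) : A = ⊤ := by
  classical
  have := qg_isSimpleModule A hirr
  rw [eq_top_iff]
  intro φ _
  let f : Module.End (Module.End A U) U :=
    { toFun := φ
      map_add' := φ.map_add
      map_smul' := fun e u => by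
        obtain ⟨c, hc⟩ := qg_schur A e
        change φ (e u) = e (φ u)
        rw [hc, hc, map_smul] }
  let b := Module.finBasis K U
  obtain ⟨r, hr⟩ := jacobson_density f (Finset.image b Finset.univ)
  have : φ = (r : Module.End K U) := by
    apply b.ext
    intro i
    exact hr (b i) (Finset.mem_image_of_mem _ (Finset.mem_univ i))
  rw [this]
  exact r.2

end burnside

section quad

variable {K : Type*} [Field K] {U : Type*} [AddCommGroup U] [Module K U]
  {G : Type*} [Group G] (ρ : G →* (U →ₗ[K] U)) (ε : G →* Kˣ) (t : G → K)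

/-- The centred operators `2 ρ(g) - t(g)`. -/
def qg_c (g : G) : Module.End K U := (2 : K) • ρ g - t g • 1

/-- The span of the centred operators. -/
def qg_V0 : Submodule K (Module.End K U) := Submodule.span K (Set.range (qg_c ρ t))

variable {ρ ε t}
variable (h : ∀ g, ρ g * ρ g - t g • ρ g + (ε g : K) • (1 : Module.End K U) = 0)

include h

theorem qg_mul_sub (g : G) : ρ g * (t g • 1 - ρ g) = (ε g : K) • (1 : Module.End K U) := by
  have e := h g
  simp only [mul_sub, mul_smul_comm, mul_one]
  apply eq_of_sub_eq_zero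
  have : (t g • ρ g - ρ g * ρ g) - (ε g : K) • (1 : Module.End K U) =
      -(ρ g * ρ g - t g • ρ g + (ε g : K) • (1 : Module.End K U)) := by abel
  rw [this, e, neg_zero]

theorem qg_anti (g k : G) : ρ g * ρ k + ρ k * ρ g =
    (t (g * k) - t g * t k) • (1 : Module.End K U) + t k • ρ g + t g • ρ k := by
  have hab : ρ (g * k) = ρ g * ρ k := map_mul ρ g k
  have h1 := qg_mul_sub h g
  have h2 := qg_mul_sub h k
  have h3 := qg_mul_sub h (g * k)
  rw [hab, map_mul, Units.val_mul] at h3
  have h4 : (ρ g * ρ k) * ((t k • 1 - ρ k) * (t g • 1 - ρ g)) =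
      ((ε g : K) * (ε k : K)) • (1 : Module.End K U) := by
    calc (ρ g * ρ k) * ((t k • 1 - ρ k) * (t g • 1 - ρ g))
        = ρ g * (ρ k * (t k • 1 - ρ k)) * (t g • 1 - ρ g) := by simp only [mul_assoc]
      _ = ρ g * ((ε k : K) • 1) * (t g • 1 - ρ g) := by rw [h2]
      _ = (ε k : K) • (ρ g * (t g • 1 - ρ g)) := by
          simp only [mul_smul_comm, mul_one, smul_mul_assoc]
      _ = _ := by rw [h1, smul_smul, mul_comm]
  have hinv : ρ (g * k)⁻¹ * (ρ g * ρ k) = 1 := by
    rw [← hab, ← map_mul, inv_mul_cancel, map_one]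
  have h5 : t (g * k) • 1 - ρ g * ρ k = (t k • 1 - ρ k) * (t g • 1 - ρ g) := by
    have := congrArg (fun z => ρ (g * k)⁻¹ * z) (h3.trans h4.symm)
    simpa only [← mul_assoc, hinv, one_mul] using this
  simp only [sub_mul, mul_sub, smul_mul_assoc, mul_smul_comm, one_mul, mul_one] at h5
  have e : ρ g * ρ k = t (g * k) • (1 : Module.End K U) -
      (t g • (t k • 1 - ρ k) - (t k • ρ g - ρ k * ρ g)) := by
    rw [← h5]; abel
  rw [e]
  module

/-- The anticommutator of two centred operators is a scalar. -/
theorem qg_c_anti (g k : G) : qg_c ρ t g * qg_c ρ t k + qg_c ρ t k * qg_c ρ t g =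
    (4 * t (g * k) - 2 * (t g * t k)) • (1 : Module.End K U) := by
  have e : ρ g * ρ k = (t (g * k) - t g * t k) • (1 : Module.End K U) + t k • ρ g + t g • ρ k -
      ρ k * ρ g := eq_sub_of_add_eq (qg_anti h g k)
  unfold qg_c
  simp only [sub_mul, mul_sub, smul_mul_assoc, mul_smul_comm, one_mul, mul_one]
  rw [e]
  module

/-- The anticommutator is scalar-valued on `V₀`. -/
theorem qg_V0_anti {x y : Module.End K U} (hx : x ∈ qg_V0 ρ t) (hy : y ∈ qg_V0 ρ t) :
    ∃ c : K, x * y + y * x = c • (1 : Module.End K U) := by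
  unfold qg_V0 at hx hy
  induction hx using Submodule.span_induction with
  | mem x hx =>
    obtain ⟨g, rfl⟩ := hx
    induction hy using Submodule.span_induction with
    | mem y hy =>
      obtain ⟨k, rfl⟩ := hy
      exact ⟨_, qg_c_anti h g k⟩
    | zero => exact ⟨0, by simp⟩
    | add y z _ _ hy hz =>
      obtain ⟨c, hc⟩ := hy
      obtain ⟨d, hd⟩ := hz
      refine ⟨c + d, ?_⟩
      rw [mul_add, add_mul, add_smul, ← hc, ← hd]
      abel
    | smul a y _ hy =>
      obtain ⟨c, hc⟩ := hy
      refine ⟨a * c, ?_⟩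
      rw [mul_smul_comm, smul_mul_assoc, ← smul_add, hc, smul_smul]
  | zero => exact ⟨0, by simp⟩
  | add x z _ _ hx hz =>
    obtain ⟨c, hc⟩ := hx
    obtain ⟨d, hd⟩ := hz
    refine ⟨c + d, ?_⟩
    rw [mul_add, add_mul, add_smul, ← hc, ← hd]
    abel
  | smul a x _ hx =>
    obtain ⟨c, hc⟩ := hx
    refine ⟨a * c, ?_⟩
    rw [mul_smul_comm, smul_mul_assoc, ← smul_add, hc, smul_smul]

/-- The square of an element of `V₀` is a scalar. -/
theorem qg_V0_sq (h2 : (2 : K) ≠ 0) {x : Module.End K U} (hx : x ∈ qg_V0 ρ t) :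
    ∃ s : K, x * x = s • (1 : Module.End K U) := by
  obtain ⟨c, hc⟩ := qg_V0_anti h hx hx
  refine ⟨2⁻¹ * c, ?_⟩
  have e : (2 : K) • (x * x) = c • (1 : Module.End K U) := by rw [two_smul, hc]
  rw [← smul_smul, ← e, smul_smul, inv_mul_cancel₀ h2, one_smul]

omit h in
/-- `ρ(g) ∈ K + V₀`. -/
theorem qg_mem_sup (h2 : (2 : K) ≠ 0) (g : G) :
    ρ g ∈ Submodule.span K {(1 : Module.End K U)} ⊔ qg_V0 ρ t := by
  have e : ρ g = (2⁻¹ * t g) • (1 : Module.End K U) + (2 : K)⁻¹ • qg_c ρ t g := by
    unfold qg_c
    rw [smul_sub, smul_smul, inv_mul_cancel₀ h2, one_smul, smul_smul]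
    abel
  rw [e]
  exact Submodule.add_mem_sup (Submodule.smul_mem _ _ (Submodule.mem_span_singleton_self _))
    (Submodule.smul_mem _ _ (Submodule.subset_span ⟨g, rfl⟩))

end quad

section main

variable {K : Type*} [Field K] [IsAlgClosed K] {U : Type*} [AddCommGroup U] [Module K U]
  [FiniteDimensional K U] [Nontrivial U]
  {G : Type*} [Group G] {ρ : G →* (U →ₗ[K] U)} {ε : G →* Kˣ} {t : G → K}

/-- **Burnside for a representation**: the operators `ρ(g)` of an irreducible representation
span `End_K(U)`. -/
theorem qg_span_eq_top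
    (hirr : ∀ W : Submodule K U, (∀ g, W ≤ W.comap (ρ g)) → W = ⊥ ∨ W = ⊤) :
    Submodule.span K (Set.range ρ) = ⊤ := by
  have h1 : Algebra.adjoin K (Set.range ρ) = ⊤ :=
    qg_burnside _ (fun W hW => hirr W (fun g => hW (ρ g) (Algebra.subset_adjoin ⟨g, rfl⟩)))
  have h2 := Algebra.adjoin_eq_span K (Set.range ρ)
  rw [h1, ← MonoidHom.coe_mrange, Submonoid.closure_eq, MonoidHom.coe_mrange] at h2
  rw [← h2]
  rfl

variable (h2 : (2 : K) ≠ 0)
  (hirr : ∀ W : Submodule K U, (∀ g, W ≤ W.comap (ρ g)) → W = ⊥ ∨ W = ⊤)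
  (h : ∀ g, ρ g * ρ g - t g • ρ g + (ε g : K) • (1 : Module.End K U) = 0)

include h2 hirr h

omit h in
/-- Every endomorphism is `c + x` with `x ∈ V₀`. -/
theorem qg_exists_decomp (φ : Module.End K U) :
    ∃ (c : K) (x : Module.End K U), x ∈ qg_V0 ρ t ∧ φ = c • 1 + x := by
  have h1 : φ ∈ Submodule.span K (Set.range ρ) := by
    rw [qg_span_eq_top hirr]; trivial
  have h3 : Submodule.span K (Set.range ρ) ≤
      Submodule.span K {(1 : Module.End K U)} ⊔ qg_V0 ρ t := by
    rw [Submodule.span_le]
    rintro _ ⟨g, rfl⟩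
    exact qg_mem_sup h2 g
  obtain ⟨y, hy, x, hx, rfl⟩ := Submodule.mem_sup.1 (h3 h1)
  obtain ⟨c, rfl⟩ := Submodule.mem_span_singleton.1 hy
  exact ⟨c, x, hx, rfl⟩

/-- Every endomorphism satisfies `(φ - c)² = s`. -/
theorem qg_exists_sq (φ : Module.End K U) :
    ∃ c s : K, (φ - c • 1) * (φ - c • 1) = s • (1 : Module.End K U) := by
  obtain ⟨c, x, hx, rfl⟩ := qg_exists_decomp h2 hirr φ
  obtain ⟨s, hs⟩ := qg_V0_sq h h2 hx
  exact ⟨c, s, by rw [add_sub_cancel_left, hs]⟩

/-- **The dimension is at most `2`.** -/
theorem qg_finrank_le_two : Module.finrank K U ≤ 2 := by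
  classical
  by_contra hd
  rw [not_le] at hd
  let b := Module.finBasis K U
  let i0 : Fin (Module.finrank K U) := ⟨0, by omega⟩
  let i1 : Fin (Module.finrank K U) := ⟨1, by omega⟩
  let i2 : Fin (Module.finrank K U) := ⟨2, by omega⟩
  let μ : Fin (Module.finrank K U) → K := fun i => if i = i0 then 0 else if i = i1 then 1 else -1
  let T : Module.End K U := b.constr K (fun i => μ i • b i)
  obtain ⟨c, s, hcs⟩ := qg_exists_sq h2 hirr h T
  have key : ∀ i, (μ i - c) * (μ i - c) = s := by
    intro i
    have hT : T (b i) = μ i • b i := b.constr_basis K _ i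
    have e1 : (T - c • 1) (b i) = (μ i - c) • b i := by
      rw [LinearMap.sub_apply, hT, LinearMap.smul_apply, Module.End.one_apply, sub_smul]
    have e2 := congrArg (fun F : Module.End K U => F (b i)) hcs
    simp only [Module.End.mul_apply, e1, map_smul, LinearMap.smul_apply, Module.End.one_apply,
      smul_smul] at e2
    by_contra hne
    have := sub_eq_zero.2 e2
    rw [← sub_smul] at this
    rcases smul_eq_zero.1 this with h0 | h0
    · exact hne (sub_eq_zero.1 h0)
    · exact b.ne_zero i h0
  have hi01 : i1 ≠ i0 := by simp [i0, i1, Fin.ext_iff]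
  have hi02 : i2 ≠ i0 := by simp [i0, i2, Fin.ext_iff]
  have hi12 : i2 ≠ i1 := by simp [i1, i2, Fin.ext_iff]
  have k0 := key i0
  have k1 := key i1
  have k2 := key i2
  simp only [μ, if_true, if_neg hi01, if_neg hi02, if_neg hi12] at k0 k1 k2
  have hc4 : (2 : K) * 2 * c = 0 := by linear_combination k2 - k1
  have hc : c = 0 := by
    rcases mul_eq_zero.1 hc4 with h0 | h0
    · exact absurd (mul_self_eq_zero.1 h0) h2
    · exact h0
  rw [hc] at k0 k1
  have : (1 : K) = 0 := by linear_combination k1 - k0
  exact one_ne_zero this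

/-- For `dim U = 2`, the only scalar in `V₀` is `0`. -/
theorem qg_V0_scalar (hd : Module.finrank K U = 2) {s : K}
    (hs : s • (1 : Module.End K U) ∈ qg_V0 ρ t) : s = 0 := by
  by_contra hs0
  have hV : qg_V0 ρ t ≤ Submodule.span K {(1 : Module.End K U)} := by
    intro y hy
    obtain ⟨c, hc⟩ := qg_V0_anti h hs hy
    rw [smul_mul_assoc, one_mul, mul_smul_comm, mul_one, ← two_smul K, smul_smul] at hc
    have hy' : y = ((2 * s)⁻¹ * c) • (1 : Module.End K U) := by
      rw [← smul_smul, ← hc, smul_smul, inv_mul_cancel₀ (mul_ne_zero h2 hs0), one_smul]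
    rw [hy']
    exact Submodule.smul_mem _ _ (Submodule.mem_span_singleton_self _)
  have htop : Submodule.span K {(1 : Module.End K U)} = ⊤ := by
    rw [eq_top_iff]
    intro φ _
    obtain ⟨c, x, hx, rfl⟩ := qg_exists_decomp h2 hirr φ
    exact Submodule.add_mem _ (Submodule.smul_mem _ _ (Submodule.mem_span_singleton_self _))
      (hV hx)
  have h1 : Module.finrank K (Submodule.span K {(1 : Module.End K U)}) = 1 :=
    finrank_span_singleton one_ne_zero
  rw [htop, finrank_top, Module.finrank_linearMap, hd] at h1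
  omega

/-- **Trace and determinant** in dimension `2`. -/
theorem qg_trace_det (hd : Module.finrank K U = 2) (g : G) :
    LinearMap.trace K U (ρ g) = t g ∧ LinearMap.det (ρ g) = (ε g : K) := by
  classical
  by_cases hsc : ∃ c : K, ρ g = c • (1 : Module.End K U)
  · -- scalar case
    obtain ⟨c, hc⟩ := hsc
    have h0 : (2 * c - t g) • (1 : Module.End K U) ∈ qg_V0 ρ t := by
      have : qg_c ρ t g = (2 * c - t g) • (1 : Module.End K U) := by
        unfold qg_c
        rw [hc, smul_smul, sub_smul]
      rw [← this]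
      exact Submodule.subset_span ⟨g, rfl⟩
    have ht : t g = 2 * c := (sub_eq_zero.1 (qg_V0_scalar h2 hirr h hd h0)).symm
    have hrel := h g
    rw [hc, smul_mul_assoc, one_mul, smul_smul, smul_smul, ← sub_smul, ← add_smul] at hrel
    have hrel' : c * c - t g * c + (ε g : K) = 0 := by
      rcases smul_eq_zero.1 hrel with h0 | h0
      · exact h0
      · exact absurd h0 one_ne_zero
    constructor
    · rw [hc, map_smul, LinearMap.trace_one, hd, ht, smul_eq_mul]
      push_cast
      ring
    · rw [hc, LinearMap.det_smul, hd]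
      have : LinearMap.det (1 : Module.End K U) = 1 := LinearMap.det_id
      rw [this]
      rw [ht] at hrel'
      linear_combination -hrel'
  · -- non-scalar case
    push Not at hsc
    let b := Module.finBasisOfFinrankEq K U hd
    let Φ := LinearMap.toMatrixAlgEquiv b
    have htr : LinearMap.trace K U (ρ g) = (Φ (ρ g)).trace :=
      LinearMap.trace_eq_matrix_trace K b (ρ g)
    have hdet : LinearMap.det (ρ g) = (Φ (ρ g)).det := (LinearMap.det_toMatrix b (ρ g)).symm
    set M := Φ (ρ g) with hM
    have hrel : M * M - t g • M + (ε g : K) • 1 = 0 := by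
      have := congrArg Φ (h g)
      rw [map_add, map_sub, map_mul, map_smul, map_smul, map_one, map_zero] at this
      exact this
    have hCH : M * M - M.trace • M + M.det • 1 = 0 := by
      have := Matrix.aeval_self_charpoly M
      rw [Matrix.charpoly_fin_two] at this
      simp only [map_add, map_sub, map_mul, Polynomial.aeval_X, Polynomial.aeval_C, pow_two]
        at this
      rw [Algebra.algebraMap_eq_smul_one, Algebra.algebraMap_eq_smul_one, smul_mul_assoc,
        one_mul] at this
      exact this
    have hdiff : (M.trace - t g) • M = (M.det - (ε g : K)) • (1 : Matrix (Fin 2) (Fin 2) K) := by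
      have e : M * M = t g • M - (ε g : K) • 1 := by
        rw [← sub_eq_zero, ← hrel]; abel
      rw [e] at hCH
      rw [← sub_eq_zero, ← neg_eq_zero, ← hCH]
      module
    have htr' : M.trace = t g := by
      by_contra hne
      have hne' : M.trace - t g ≠ 0 := sub_ne_zero.2 hne
      have hMs : M = ((M.trace - t g)⁻¹ * (M.det - (ε g : K))) • (1 : Matrix (Fin 2) (Fin 2) K) := by
        rw [← smul_smul, ← hdiff, smul_smul, inv_mul_cancel₀ hne', one_smul]
      apply hsc ((M.trace - t g)⁻¹ * (M.det - (ε g : K)))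
      apply Φ.injective
      rw [map_smul, map_one]
      exact hMs
    refine ⟨htr.trans htr', hdet.trans ?_⟩
    rw [htr', sub_self, zero_smul] at hdiff
    have := hdiff.symm
    rcases smul_eq_zero.1 this with h0 | h0
    · exact sub_eq_zero.1 h0
    · exact absurd h0 one_ne_zero

/-- **The characteristic polynomial** in dimension `2`. -/
theorem qg_charpoly (hd : Module.finrank K U = 2) (g : G) :
    (ρ g).charpoly = Polynomial.X ^ 2 - Polynomial.C (t g) * Polynomial.X +
      Polynomial.C (ε g : K) := by
  classical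
  obtain ⟨h1, h3⟩ := qg_trace_det h2 hirr h hd g
  let b := Module.finBasisOfFinrankEq K U hd
  rw [← LinearMap.charpoly_toMatrix (ρ g) b, Matrix.charpoly_fin_two,
    ← LinearMap.trace_eq_matrix_trace K b (ρ g), LinearMap.det_toMatrix b (ρ g), h1, h3]

end main

section dimOne

variable {K : Type*} [Field K] {U : Type*} [AddCommGroup U] [Module K U]
  {G : Type*} [Group G] {ρ : G →* (U →ₗ[K] U)} {ε : G →* Kˣ} {t : G → K}

/-- **Dimension `1`**: `ρ = ψ` is a character with `ψ + ε ψ⁻¹ = t`. -/
theorem qg_dim_one (hd : Module.finrank K U = 1)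
    (h : ∀ g, ρ g * ρ g - t g • ρ g + (ε g : K) • (1 : Module.End K U) = 0) :
    ∃ ψ : G →* Kˣ, (∀ g u, ρ g u = (ψ g : K) • u) ∧
      ∀ g, (ψ g : K) + (ε g : K) / (ψ g : K) = t g := by
  have : Nontrivial U := Module.nontrivial_of_finrank_pos (R := K) (by omega)
  let e := LinearEquiv.smul_id_of_finrank_eq_one hd
  have he : ∀ c : K, e c = c • (1 : Module.End K U) :=
    fun c => LinearEquiv.smul_id_of_finrank_eq_one_apply hd c
  have hρ : ∀ g, ρ g = e.symm (ρ g) • (1 : Module.End K U) := fun g => by
    rw [← he, LinearEquiv.apply_symm_apply]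
  have hinj : ∀ c d : K, c • (1 : Module.End K U) = d • 1 → c = d := fun c d hcd => by
    rw [← he, ← he] at hcd
    exact e.injective hcd
  let ψ₀ : G →* K :=
    { toFun := fun g => e.symm (ρ g)
      map_one' := by
        apply hinj
        rw [← hρ, map_one, one_smul]
      map_mul' := fun g k => by
        apply hinj
        rw [← hρ, map_mul, ← smul_smul]
        nth_rewrite 1 [hρ g, hρ k]
        rw [smul_mul_assoc, one_mul] }
  refine ⟨ψ₀.toHomUnits, fun g u => ?_, fun g => ?_⟩
  · rw [MonoidHom.coe_toHomUnits]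
    have := congrArg (fun F : Module.End K U => F u) (hρ g)
    simp only [LinearMap.smul_apply, Module.End.one_apply] at this
    exact this
  · rw [MonoidHom.coe_toHomUnits]
    have hne : ψ₀ g ≠ 0 := by
      have := (ψ₀.toHomUnits g).ne_zero
      rwa [MonoidHom.coe_toHomUnits] at this
    have hrel := h g
    rw [hρ g, smul_mul_assoc, one_mul, smul_smul, smul_smul, ← sub_smul, ← add_smul] at hrel
    have hrel' : ψ₀ g * ψ₀ g - t g * ψ₀ g + (ε g : K) = 0 := by
      rcases smul_eq_zero.1 hrel with h0 | h0
      · exact h0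
      · exact absurd h0 one_ne_zero
    field_simp
    linear_combination hrel'

end dimOne

end Fermat.Agent.JT3
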