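/-
The `p`-adic cyclotomic character of `Gal(ℚ̄/ℚ)` with values in a complete local ring `O` of
residue characteristic `p` (the `ε` input of `gcl_good` / `qg_`, lead Design Note #17 (4)):

* `cya_padicHom`  : `ℤ_[p] →+* O`;
* `cya_eps`       : `Gal(ℚ̄/ℚ) →* O`, Mathlib's `cyclotomicCharacter` pushed to `O`;
* `cya_eps_spec`  : the characterisation by the action on `p^n`-th roots of unity
                    (the shape of the prelude's `GaloisRepAdic.DetIsCyclotomic`);
* `cya_eps_continuous` : adic continuity (the hypothesis `hε` of `gcl_good`);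
* `cya_eps_frob`  : `ε(Frob_ℓ) = ℓ` for `ℓ ≠ p`.

Owner: helper9.  Prefix `cya_`.
-/
import Mathlib
import Fermat.Prelude.Def_GaloisRep_LocalConditions
import Fermat.Prelude.Def_GaloisRep_ComplexConjugation
import Fermat.Agent.S55.CycloUnram

set_option autoImplicit false
set_option linter.style.haveILetI false
set_option linter.unusedSectionVars false

namespace Fermat.Agent.JT3

open IsLocalRing

local notation "GQ" => (AlgebraicClosure ℚ ≃ₐ[ℚ] AlgebraicClosure ℚ)
local notation "Qbar" => AlgebraicClosure ℚ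

/-- Instance-path repair: the default `Algebra ℚ (AlgebraicClosure ℚ)` is the division-ring one. -/
local instance cya_qbarIsAlgebraic : Algebra.IsAlgebraic ℚ (AlgebraicClosure ℚ) :=
  AlgebraicClosure.isAlgebraic ℚ

/-! ### The ring homomorphism `ℤ_[p] → O` -/

section padicHom

variable (p : ℕ) [Fact p.Prime] (O : Type*) [CommRing O] [IsLocalRing O]

/-- `p ^ n = 0` in `O ⧸ 𝔪 ^ n` when `p ∈ 𝔪`. -/
theorem cya_natCast_pow_eq_zero (hp : (p : O) ∈ maximalIdeal O) (n : ℕ) :
    ((p ^ n : ℕ) : O ⧸ maximalIdeal O ^ n) = 0 := by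
  have h1 : ((p ^ n : ℕ) : O) ∈ maximalIdeal O ^ n := by
    rw [Nat.cast_pow]
    exact Ideal.pow_mem_pow hp n
  have h2 : ((p ^ n : ℕ) : O ⧸ maximalIdeal O ^ n) =
      Ideal.Quotient.mk (maximalIdeal O ^ n) ((p ^ n : ℕ) : O) := by
    rw [map_natCast]
  rw [h2, Ideal.Quotient.eq_zero_iff_mem]
  exact h1

/-- The level `n` map `ZMod (p ^ n) → O ⧸ 𝔪 ^ n`. -/
noncomputable def cya_zmodHom (hp : (p : O) ∈ maximalIdeal O) (n : ℕ) :
    ZMod (p ^ n) →+* O ⧸ maximalIdeal O ^ n :=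
  ZMod.castHom (ringChar.dvd (cya_natCast_pow_eq_zero p O hp n)) (O ⧸ maximalIdeal O ^ n)

theorem cya_compat (hp : (p : O) ∈ maximalIdeal O) {m n : ℕ} (hmn : m ≤ n) :
    (Ideal.Quotient.factorPow (maximalIdeal O) hmn).comp
        ((cya_zmodHom p O hp n).comp (PadicInt.toZModPow n)) =
      (cya_zmodHom p O hp m).comp (PadicInt.toZModPow m) := by
  rw [← RingHom.comp_assoc, ← PadicInt.zmod_cast_comp_toZModPow m n hmn,
    ← RingHom.comp_assoc]
  congr 1
  exact Subsingleton.elim _ _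

variable [IsAdicComplete (maximalIdeal O) O]

/-- The canonical ring homomorphism `ℤ_[p] → O` for a complete local ring `O` with `p ∈ 𝔪`. -/
noncomputable def cya_padicHom (hp : (p : O) ∈ maximalIdeal O) : ℤ_[p] →+* O :=
  IsAdicComplete.liftRingHom (maximalIdeal O)
    (fun n => (cya_zmodHom p O hp n).comp (PadicInt.toZModPow n))
    (fun hmn => cya_compat p O hp hmn)

theorem cya_mk_padicHom (hp : (p : O) ∈ maximalIdeal O) (n : ℕ) (x : ℤ_[p]) :
    Ideal.Quotient.mk (maximalIdeal O ^ n) (cya_padicHom p O hp x) =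
      cya_zmodHom p O hp n (PadicInt.toZModPow n x) :=
  IsAdicComplete.mk_liftRingHom (maximalIdeal O) _ (fun hmn => cya_compat p O hp hmn) n x

/-- If `x ≡ 0 mod p ^ n` then its image in `O` is a multiple of `p ^ n`. -/
theorem cya_padicHom_mem_span (hp : (p : O) ∈ maximalIdeal O) {n : ℕ} {x : ℤ_[p]}
    (hx : PadicInt.toZModPow n x = 0) :
    cya_padicHom p O hp x ∈ Ideal.span {((p ^ n : ℕ) : O)} := by
  have h1 : x ∈ RingHom.ker (PadicInt.toZModPow (p := p) n) := hx
  rw [PadicInt.ker_toZModPow, Ideal.mem_span_singleton'] at h1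
  obtain ⟨y, rfl⟩ := h1
  rw [map_mul, map_pow, map_natCast, Ideal.mem_span_singleton']
  exact ⟨cya_padicHom p O hp y, by rw [Nat.cast_pow]⟩

theorem cya_span_le (hp : (p : O) ∈ maximalIdeal O) (n : ℕ) :
    Ideal.span {((p ^ n : ℕ) : O)} ≤ maximalIdeal O ^ n := by
  rw [Ideal.span_singleton_le_iff_mem, Nat.cast_pow]
  exact Ideal.pow_mem_pow hp n

end padicHom

/-! ### The cyclotomic character -/

section eps

variable (p : ℕ) [Fact p.Prime] (O : Type*) [CommRing O] [IsLocalRing O]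
  [IsAdicComplete (maximalIdeal O) O]

/-- The `p`-adic cyclotomic character of `Gal(ℚ̄/ℚ)`, with values in `ℤ_[p]`. -/
noncomputable def cya_chi : GQ →* ℤ_[p] :=
  (Units.coeHom ℤ_[p]).comp
    ((cyclotomicCharacter Qbar p).comp (MulSemiringAction.toRingAut GQ Qbar))

/-- The `p`-adic cyclotomic character of `Gal(ℚ̄/ℚ)`, with values in `O`. -/
noncomputable def cya_eps (hp : (p : O) ∈ maximalIdeal O) : GQ →* O :=
  (cya_padicHom p O hp : ℤ_[p] →* O).comp (cya_chi p)

theorem cya_eps_apply (hp : (p : O) ∈ maximalIdeal O) (σ : GQ) :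
    cya_eps p O hp σ = cya_padicHom p O hp (cya_chi p σ) := rfl

/-- The defining property of the `p`-adic cyclotomic character. -/
theorem cya_chi_spec (σ : GQ) {n : ℕ} {μ : Qbar} (hμ : μ ^ p ^ n = 1) :
    σ μ = μ ^ (PadicInt.toZModPow n (cya_chi p σ)).val :=
  cyclotomicCharacter.spec p (MulSemiringAction.toRingAut GQ Qbar σ) μ hμ

/-- If `σ` raises the `p ^ n`-th roots of unity to the power `a`, then `χ(σ) ≡ a mod p ^ n`. -/
theorem cya_chi_toZModPow (σ : GQ) {n a : ℕ} (h : ∀ μ : Qbar, μ ^ p ^ n = 1 → σ μ = μ ^ a) :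
    PadicInt.toZModPow n (cya_chi p σ) = (a : ZMod (p ^ n)) := by
  have hp : p.Prime := Fact.out
  haveI : NeZero (p ^ n) := ⟨pow_ne_zero _ hp.ne_zero⟩
  obtain ⟨ζ, hζ⟩ := HasEnoughRootsOfUnity.exists_primitiveRoot Qbar (p ^ n)
  have h1 := cya_chi_spec p σ hζ.pow_eq_one
  rw [h ζ hζ.pow_eq_one] at h1
  have hfin : IsOfFinOrder ζ :=
    isOfFinOrder_iff_pow_eq_one.mpr ⟨p ^ n, pow_pos hp.pos n, hζ.pow_eq_one⟩
  rw [hfin.pow_eq_pow_iff_modEq, ← hζ.eq_orderOf, ← ZMod.natCast_eq_natCast_iff,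
    ZMod.natCast_zmod_val] at h1
  exact h1.symm

/-- The characterisation of `ε` (the shape of the prelude's `DetIsCyclotomic`). -/
theorem cya_eps_spec (hp : (p : O) ∈ maximalIdeal O) (n : ℕ) (σ : GQ) (a : ℕ)
    (h : ∀ μ : Qbar, μ ^ p ^ n = 1 → σ μ = μ ^ a) :
    cya_eps p O hp σ - (a : O) ∈ Ideal.span {((p ^ n : ℕ) : O)} := by
  have h1 : cya_eps p O hp σ - (a : O) = cya_padicHom p O hp (cya_chi p σ - (a : ℤ_[p])) := by
    rw [map_sub, map_natCast, cya_eps_apply]
  rw [h1]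
  refine cya_padicHom_mem_span p O hp ?_
  rw [map_sub, map_natCast, cya_chi_toZModPow p σ h, sub_self]

/-- Adic continuity of `ε` (the hypothesis `hε` of `gcl_good`). -/
theorem cya_eps_continuous (hp : (p : O) ∈ maximalIdeal O) (n : ℕ) :
    ∃ L : IntermediateField ℚ Qbar, FiniteDimensional ℚ L ∧
      ∀ σ : GQ, (∀ x ∈ L, σ x = x) → cya_eps p O hp σ - 1 ∈ maximalIdeal O ^ n := by
  have hpp : p.Prime := Fact.out
  haveI : NeZero (p ^ n) := ⟨pow_ne_zero _ hpp.ne_zero⟩
  obtain ⟨ζ, hζ⟩ := HasEnoughRootsOfUnity.exists_primitiveRoot Qbar (p ^ n)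
  have hint : IsIntegral ℚ ζ := (Algebra.IsAlgebraic.isAlgebraic (R := ℚ) ζ).isIntegral
  refine ⟨IntermediateField.adjoin ℚ {ζ}, IntermediateField.adjoin.finiteDimensional hint,
    fun σ hσ => ?_⟩
  have hσζ : σ ζ = ζ := hσ ζ (IntermediateField.mem_adjoin_simple_self ℚ ζ)
  have h1 := cya_eps_spec p O hp n σ 1 (fun μ hμ => by
    obtain ⟨i, -, rfl⟩ := hζ.eq_pow_of_pow_eq_one hμ
    rw [map_pow, hσζ, pow_one])
  rw [Nat.cast_one] at h1
  exact cya_span_le p O hp n h1

theorem cya_eps_isUnit (hp : (p : O) ∈ maximalIdeal O) (σ : GQ) : IsUnit (cya_eps p O hp σ) :=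
  (Group.isUnit σ).map (cya_eps p O hp)

end eps

/-! ### Frobenius elements -/

section frob

variable {L : Type*} [Field L] (A : ValuationSubring L)

/-- A `p`-power root of unity congruent to `1` modulo the maximal ideal of a valuation ring of
residue characteristic different from `p` is `1`. -/
theorem cya_eq_one_of_valuation_sub_one_lt {p : ℕ} (hp : p.Prime)
    (hpA : ¬ A.valuation (p : L) < 1) :
    ∀ (n : ℕ) {ω : L}, ω ^ p ^ n = 1 → A.valuation (ω - 1) < 1 → ω = 1 := by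
  intro n
  induction n with
  | zero => intro ω hω _; simpa using hω
  | succ n ih =>
    intro ω hω hlt
    have hω0 : ω ^ p ^ (n + 1) = 1 := hω
    have hωA : ω ∈ A := by
      rw [← ValuationSubring.valuation_le_one_iff,
        Fermat.Agent.S55.tl_valuation_eq_one_of_pow_eq_one A
          (pow_ne_zero (n + 1) hp.ne_zero) hω0]
    have h1 : (ω ^ p) ^ p ^ n = 1 := by rw [← pow_mul, ← pow_succ']; exact hω0
    have h2 : A.valuation (ω ^ p - 1) < 1 := by
      rw [← geom_sum_mul, map_mul]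
      have hsum : A.valuation (∑ j ∈ Finset.range p, ω ^ j) ≤ 1 := by
        rw [ValuationSubring.valuation_le_one_iff]
        exact sum_mem fun j _ => pow_mem hωA j
      calc A.valuation (∑ j ∈ Finset.range p, ω ^ j) * A.valuation (ω - 1)
          ≤ 1 * A.valuation (ω - 1) := mul_le_mul_left hsum _
        _ = A.valuation (ω - 1) := one_mul _
        _ < 1 := hlt
    have h3 : ω ^ p = 1 := ih h1 h2
    by_contra hne
    exact hpA (Fermat.Agent.S55.tl_valuation_prime_lt_one A hp h3 hne hlt)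

end frob

section frobQ

variable (p : ℕ) [Fact p.Prime]

/-- A Frobenius element at `ℓ ≠ p` raises the `p`-power roots of unity to the power `ℓ`. -/
theorem cya_frob_rootsOfUnity {ℓ : ℕ} (hℓ : ℓ.Prime) (hℓp : ℓ ≠ p)
    (A : ValuationSubring Qbar) (hA : A.LiesOverPrime ℓ) (φ : GQ) (hφ : A.IsFrobeniusAt φ ℓ)
    (n : ℕ) {μ : Qbar} (hμ : μ ^ p ^ n = 1) : φ μ = μ ^ ℓ := by
  have hp : p.Prime := Fact.out
  have hpn : p ^ n ≠ 0 := pow_ne_zero _ hp.ne_zero
  have hvμ : A.valuation μ = 1 :=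
    Fermat.Agent.S55.tl_valuation_eq_one_of_pow_eq_one A hpn hμ
  have hμA : μ ∈ A := by rw [← ValuationSubring.valuation_le_one_iff, hvμ]
  have hμ0 : μ ≠ 0 := by
    intro h
    rw [h, zero_pow hpn] at hμ
    exact zero_ne_one hμ
  -- the Frobenius congruence
  have hcong : A.valuation (φ μ - μ ^ ℓ) < 1 := by
    have h := hφ.smul_residue_eq (IsLocalRing.residue A ⟨μ, hμA⟩)
    rw [← IsLocalRing.ResidueField.residue_smul, ← map_pow] at h
    have h1 := Ideal.Quotient.eq.mp h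
    rw [← ValuationSubring.coe_mem_nonunits_iff] at h1
    exact (ValuationSubring.mem_nonunits_iff (A := A)).1 h1
  -- `p` is a unit at `A`
  have hpA : ¬ A.valuation ((p : ℕ) : Qbar) < 1 := fun h1 =>
    Fermat.Agent.S55.tl_not_two_primes A hp hℓ hℓp h1
      ((ValuationSubring.mem_nonunits_iff (A := A)).1 hA)
  have hμℓ0 : μ ^ ℓ ≠ 0 := pow_ne_zero _ hμ0
  have hω : (φ μ * (μ ^ ℓ)⁻¹) ^ p ^ n = 1 := by
    rw [mul_pow, ← map_pow, hμ, map_one, one_mul, inv_pow, ← pow_mul, mul_comm, pow_mul, hμ,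
      one_pow, inv_one]
  have hlt : A.valuation (φ μ * (μ ^ ℓ)⁻¹ - 1) < 1 := by
    have : φ μ * (μ ^ ℓ)⁻¹ - 1 = (φ μ - μ ^ ℓ) * (μ ^ ℓ)⁻¹ := by
      rw [sub_mul, mul_inv_cancel₀ hμℓ0]
    rw [this, map_mul, map_inv₀, map_pow, hvμ, one_pow, inv_one, mul_one]
    exact hcong
  have h1 := cya_eq_one_of_valuation_sub_one_lt A hp hpA n hω hlt
  have := congrArg (· * μ ^ ℓ) h1
  simpa [hμℓ0] using this

/-- An element of the inertia group at `q ≠ p` fixes the `p`-power roots of unity. -/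
theorem cya_inertia_rootsOfUnity {q : ℕ} (hq : q.Prime) (hqp : q ≠ p)
    (A : ValuationSubring Qbar) (hA : A.LiesOverPrime q) {σ : GQ}
    (hσ : σ ∈ A.inertiaSubgroupIn ℚ) (n : ℕ) {μ : Qbar} (hμ : μ ^ p ^ n = 1) : σ μ = μ := by
  have hp : p.Prime := Fact.out
  have hpn : p ^ n ≠ 0 := pow_ne_zero _ hp.ne_zero
  have hvμ : A.valuation μ = 1 :=
    Fermat.Agent.S55.tl_valuation_eq_one_of_pow_eq_one A hpn hμ
  have hμA : μ ∈ A := by rw [← ValuationSubring.valuation_le_one_iff, hvμ]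
  have hμ0 : μ ≠ 0 := by
    intro h
    rw [h, zero_pow hpn] at hμ
    exact zero_ne_one hμ
  obtain ⟨-, htriv⟩ := (Fermat.Agent.S55.tl_mem_inertiaSubgroupIn_iff A σ).1 hσ
  have hcong : A.valuation (σ μ - μ) < 1 :=
    (ValuationSubring.mem_nonunits_iff (A := A)).1 (htriv μ hμA)
  have hpA : ¬ A.valuation ((p : ℕ) : Qbar) < 1 := fun h1 =>
    Fermat.Agent.S55.tl_not_two_primes A hp hq hqp h1
      ((ValuationSubring.mem_nonunits_iff (A := A)).1 hA)
  have hω : (σ μ * μ⁻¹) ^ p ^ n = 1 := by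
    rw [mul_pow, ← map_pow, hμ, map_one, one_mul, inv_pow, hμ, inv_one]
  have hlt : A.valuation (σ μ * μ⁻¹ - 1) < 1 := by
    have : σ μ * μ⁻¹ - 1 = (σ μ - μ) * μ⁻¹ := by
      rw [sub_mul, mul_inv_cancel₀ hμ0]
    rw [this, map_mul, map_inv₀, hvμ, inv_one, mul_one]
    exact hcong
  have h1 := cya_eq_one_of_valuation_sub_one_lt A hp hpA n hω hlt
  have := congrArg (· * μ) h1
  simpa [hμ0] using this

variable (O : Type*) [CommRing O] [IsLocalRing O] [IsAdicComplete (maximalIdeal O) O]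

/-- `ε(Frob_ℓ) = ℓ` for `ℓ ≠ p`. -/
theorem cya_eps_frob (hp : (p : O) ∈ maximalIdeal O) {ℓ : ℕ} (hℓ : ℓ.Prime) (hℓp : ℓ ≠ p)
    (A : ValuationSubring Qbar) (hA : A.LiesOverPrime ℓ) (φ : GQ) (hφ : A.IsFrobeniusAt φ ℓ) :
    cya_eps p O hp φ = (ℓ : O) := by
  rw [← sub_eq_zero]
  refine IsHausdorff.haus (I := maximalIdeal O) inferInstance _ fun n => ?_
  rw [SModEq.zero, smul_eq_mul, Ideal.mul_top]
  exact cya_span_le p O hp n (cya_eps_spec p O hp n φ ℓ
    (fun μ hμ => cya_frob_rootsOfUnity p hℓ hℓp A hA φ hφ n hμ))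

/-- `ε` is trivial on the inertia groups at `q ≠ p`. -/
theorem cya_eps_inertia (hp : (p : O) ∈ maximalIdeal O) {q : ℕ} (hq : q.Prime) (hqp : q ≠ p)
    (A : ValuationSubring Qbar) (hA : A.LiesOverPrime q) {σ : GQ}
    (hσ : σ ∈ A.inertiaSubgroupIn ℚ) : cya_eps p O hp σ = 1 := by
  rw [← sub_eq_zero]
  refine IsHausdorff.haus (I := maximalIdeal O) inferInstance _ fun n => ?_
  rw [SModEq.zero, smul_eq_mul, Ideal.mul_top]
  have h1 := cya_eps_spec p O hp n σ 1
    (fun μ hμ => by rw [pow_one]; exact cya_inertia_rootsOfUnity p hq hqp A hA hσ n hμ)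
  rw [Nat.cast_one] at h1
  exact cya_span_le p O hp n h1

end frobQ

/-! ### Complex conjugation -/

section conj

/-- Complex conjugation (prelude) inverts the roots of unity. -/
theorem cya_complexConjugation_rootsOfUnity {n : ℕ} (hn : n ≠ 0) {μ : Qbar} (hμ : μ ^ n = 1) :
    complexConjugation μ = μ⁻¹ := by
  apply complexEmbedding.toRingHom.injective
  show complexEmbedding (complexConjugation μ) = complexEmbedding μ⁻¹
  rw [complexEmbedding_complexConjugation, map_inv₀]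
  set z : ℂ := complexEmbedding μ with hz
  have hzn : z ^ n = 1 := by rw [hz, ← map_pow, hμ, map_one]
  have hnorm : ‖z‖ = 1 := Complex.norm_eq_one_of_pow_eq_one hzn hn
  have hz0 : z ≠ 0 := by
    intro h
    rw [h, norm_zero] at hnorm
    exact zero_ne_one hnorm
  have h1 : z * starRingEnd ℂ z = 1 := by
    rw [Complex.mul_conj, Complex.normSq_eq_norm_sq, hnorm]
    norm_num
  exact eq_inv_of_mul_eq_one_right h1

variable (p : ℕ) [Fact p.Prime] (O : Type*) [CommRing O] [IsLocalRing O]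
  [IsAdicComplete (maximalIdeal O) O]

/-- `ε(c) = -1` for the complex conjugation `c` of the prelude. -/
theorem cya_eps_complexConjugation (hp : (p : O) ∈ maximalIdeal O) :
    cya_eps p O hp complexConjugation = -1 := by
  have hpp : p.Prime := Fact.out
  rw [← sub_eq_zero, sub_neg_eq_add]
  refine IsHausdorff.haus (I := maximalIdeal O) inferInstance _ fun n => ?_
  rw [SModEq.zero, smul_eq_mul, Ideal.mul_top]
  have hpos : 1 ≤ p ^ n := Nat.one_le_pow _ _ hpp.pos
  have h1 := cya_eps_spec p O hp n complexConjugation (p ^ n - 1) (fun μ hμ => by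
    rw [cya_complexConjugation_rootsOfUnity (pow_ne_zero n hpp.ne_zero) hμ]
    apply inv_eq_of_mul_eq_one_left
    rw [← pow_succ, Nat.sub_add_cancel hpos, hμ])
  rw [Nat.cast_sub hpos, Nat.cast_one] at h1
  have h2 : ((p ^ n : ℕ) : O) ∈ Ideal.span {((p ^ n : ℕ) : O)} := Ideal.mem_span_singleton_self _
  have h3 := Ideal.add_mem _ h1 h2
  have h4 : cya_eps p O hp complexConjugation - (((p ^ n : ℕ) : O) - 1) + ((p ^ n : ℕ) : O) =
      cya_eps p O hp complexConjugation + 1 := by ring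
  rw [h4] at h3
  exact cya_span_le p O hp n h3

end conj

/-! ### Comparison with the prelude's `DetIsCyclotomic` -/

section det

variable (p : ℕ) [Fact p.Prime] {O : Type} [CommRing O] [IsLocalRing O]
  [IsAdicComplete (maximalIdeal O) O]

/-- A representation with cyclotomic determinant (prelude sense) has determinant `ε`. -/
theorem cya_det_eq_eps (ρ : GaloisRepAdic O) (h : ρ.DetIsCyclotomic p) (σ : GQ) :
    LinearMap.det (ρ.ρ σ) = cya_eps p O h.1 σ := by
  rw [← sub_eq_zero]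
  refine IsHausdorff.haus (I := maximalIdeal O) inferInstance _ fun n => ?_
  rw [SModEq.zero, smul_eq_mul, Ideal.mul_top]
  have hspec : ∀ μ : Qbar, μ ^ p ^ n = 1 →
      σ μ = μ ^ (PadicInt.toZModPow n (cya_chi p σ)).val := fun μ hμ => cya_chi_spec p σ hμ
  have h1 := h.2 n σ _ hspec
  have h2 := cya_eps_spec p O h.1 n σ _ hspec
  have h3 := cya_span_le p O h.1 n (Ideal.sub_mem _ h1 h2)
  rwa [sub_sub_sub_cancel_right] at h3

/-- A representation with determinant `ε` has cyclotomic determinant (prelude sense). -/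
theorem cya_detIsCyclotomic (ρ : GaloisRepAdic O) (hp : (p : O) ∈ maximalIdeal O)
    (h : ∀ σ : GQ, LinearMap.det (ρ.ρ σ) = cya_eps p O hp σ) : ρ.DetIsCyclotomic p :=
  ⟨hp, fun n σ a ha => by rw [h]; exact cya_eps_spec p O hp n σ a ha⟩

end det

end Fermat.Agent.JT3
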