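/-
[CL] = the CLOSURE LEMMA of lead Design Note #17 (2).

`O` a complete Noetherian local ring, `T` a finite free `O`-module with an adically continuous
action `ρ` of `Gal(ℚ̄/ℚ)` (prelude: `GaloisActionIsAdicContinuous`), `ε` an adically continuous
multiplicative function to `O` (the cyclotomic character).
`Good := {σ | ∃ t, ρ(σ)² - t ρ(σ) + ε(σ) = 0}`.
If every Frobenius element at every prime outside a finite set `S` is good and the weak Chebotarev
statement (WC) (`Fermat.Agent.WC.wcf_main`) holds, then every `σ` is good.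

Owner: helper9.  Prefix `gcl_`.
-/
import Mathlib
import Fermat.Prelude.Def_GaloisRep_Adic

set_option autoImplicit false
set_option linter.style.haveILetI false

namespace Fermat.Agent.JT3

open IsLocalRing

local notation "GQ" => (AlgebraicClosure ℚ ≃ₐ[ℚ] AlgebraicClosure ℚ)
local notation "Qbar" => AlgebraicClosure ℚ

/-- Instance-path repair: the default `Algebra ℚ (AlgebraicClosure ℚ)` is the division-ring one. -/
local instance gcl_qbarIsAlgebraic : Algebra.IsAlgebraic ℚ (AlgebraicClosure ℚ) :=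
  AlgebraicClosure.isAlgebraic ℚ

local instance gcl_qbarIsAlgClosure : IsAlgClosure ℚ (AlgebraicClosure ℚ) :=
  ⟨inferInstance, inferInstance⟩

/-! ### Powers of a root of a quadratic polynomial -/

section lucas

variable {O : Type*} [CommRing O]

/-- The Lucas sequence `V_k(a, e)`: the trace of `x ^ k` in `O[x]/(x² - a x + e)`. -/
def gcl_luc (a e : O) : ℕ → O
  | 0 => 2
  | 1 => a
  | (k + 2) => a * gcl_luc a e (k + 1) - e * gcl_luc a e k

variable {R : Type*} [Ring R] [Algebra O R]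

/-- If `x² - a x + e = 0` then `(x^k)² - V_k x^k + e^k = 0`. -/
theorem gcl_pow_relation {a e : O} {x : R} (h : x * x - a • x + e • 1 = 0) (k : ℕ) :
    x ^ k * x ^ k - gcl_luc a e k • x ^ k + e ^ k • (1 : R) = 0 := by
  set y : R := a • 1 - x with hy
  have hxx : x * x = a • x - e • 1 := by
    have := h
    rw [sub_add_eq_add_sub, sub_eq_zero] at this
    rw [← this]; abel
  have hxy : x * y = e • 1 := by
    rw [hy, mul_sub, hxx, mul_smul_comm, mul_one]; abel
  have hcomm : Commute x y := by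
    rw [hy]
    exact ((Commute.one_right x).smul_right a).sub_right (Commute.refl x)
  have hyx : y * x = e • 1 := by rw [← hcomm.eq, hxy]
  have hadd : x + y = a • 1 := by rw [hy]; abel
  have hsum : ∀ k : ℕ, x ^ k + y ^ k = gcl_luc a e k • (1 : R) := by
    intro k
    induction k using Nat.twoStepInduction with
    | zero =>
      simp only [pow_zero, gcl_luc]
      rw [← one_add_one_eq_two, add_smul, one_smul]
    | one => simp only [pow_one, gcl_luc]; exact hadd
    | more k ih0 ih1 =>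
      have h1 : x ^ (k + 2) + y ^ (k + 2) =
          (x + y) * (x ^ (k + 1) + y ^ (k + 1)) - (y * x) * x ^ k - (x * y) * y ^ k := by
        rw [pow_succ' x (k + 1), pow_succ' y (k + 1), pow_succ' x k, pow_succ' y k]
        noncomm_ring
      rw [h1, hadd, ih1, hxy, hyx, sub_sub, ← mul_add, ih0]
      simp only [gcl_luc]
      rw [smul_mul_smul_comm, smul_mul_smul_comm, mul_one, sub_smul]
  have hpow : x ^ k * y ^ k = e ^ k • (1 : R) := by
    rw [← hcomm.mul_pow, hxy, smul_pow, one_pow]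
  have h2 : gcl_luc a e k • x ^ k = x ^ k * x ^ k + x ^ k * y ^ k := by
    rw [← mul_add, hsum k, mul_smul_comm, mul_one]
  rw [h2, hpow]
  abel

end lucas

/-! ### Endomorphisms that are small modulo `I` -/

section small

variable {O : Type*} [CommRing O] {T : Type*} [AddCommGroup T] [Module O T]

/-- `f` maps `T` into `I • T`. -/
def gcl_Small (I : Ideal O) (f : Module.End O T) : Prop :=
  ∀ v : T, f v ∈ I • (⊤ : Submodule O T)

variable {I : Ideal O}

theorem gcl_Small.zero : gcl_Small I (0 : Module.End O T) := fun _ => Submodule.zero_mem _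

theorem gcl_Small.add {f g : Module.End O T} (hf : gcl_Small I f) (hg : gcl_Small I g) :
    gcl_Small I (f + g) := fun v => Submodule.add_mem _ (hf v) (hg v)

theorem gcl_Small.sub {f g : Module.End O T} (hf : gcl_Small I f) (hg : gcl_Small I g) :
    gcl_Small I (f - g) := fun v => Submodule.sub_mem _ (hf v) (hg v)

theorem gcl_Small.neg {f : Module.End O T} (hf : gcl_Small I f) :
    gcl_Small I (-f) := fun v => Submodule.neg_mem _ (hf v)

theorem gcl_Small.smul {f : Module.End O T} (hf : gcl_Small I f) (c : O) :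
    gcl_Small I (c • f) := fun v => Submodule.smul_mem _ c (hf v)

theorem gcl_Small.mul_right {f : Module.End O T} (hf : gcl_Small I f) (g : Module.End O T) :
    gcl_Small I (f * g) := fun v => hf (g v)

theorem gcl_map_mem (g : Module.End O T) {w : T} (hw : w ∈ I • (⊤ : Submodule O T)) :
    g w ∈ I • (⊤ : Submodule O T) := by
  refine Submodule.smul_induction_on hw (fun r hr n _ => ?_) (fun x y hx hy => ?_)
  · rw [map_smul]
    exact Submodule.smul_mem_smul hr Submodule.mem_top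
  · rw [map_add]
    exact Submodule.add_mem _ hx hy

theorem gcl_Small.mul_left {f : Module.End O T} (hf : gcl_Small I f) (g : Module.End O T) :
    gcl_Small I (g * f) := fun v => gcl_map_mem g (hf v)

theorem gcl_Small.smul_of_mem {c : O} (hc : c ∈ I) (f : Module.End O T) :
    gcl_Small I (c • f) := fun _ => Submodule.smul_mem_smul hc Submodule.mem_top

theorem gcl_Small.mono {I J : Ideal O} (hIJ : I ≤ J) {f : Module.End O T} (hf : gcl_Small I f) :
    gcl_Small J f := fun v => Submodule.smul_mono_left hIJ (hf v)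

/-- On a nontrivial free module, a scalar that is small lies in the ideal. -/
theorem gcl_mem_of_small_smul_one [Module.Free O T] [Nontrivial T] {c : O}
    (hc : gcl_Small I (c • (1 : Module.End O T))) : c ∈ I := by
  classical
  let b := Module.Free.chooseBasis O T
  have : Nonempty (Module.Free.ChooseBasisIndex O T) := b.index_nonempty
  obtain ⟨i⟩ := this
  have h1 : c • b i ∈ I • (⊤ : Submodule O T) := hc (b i)
  have h2 : ∀ w ∈ I • (⊤ : Submodule O T), b.coord i w ∈ I := by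
    intro w hw
    refine Submodule.smul_induction_on hw (fun r hr n _ => ?_) (fun x y hx hy => ?_)
    · rw [map_smul, smul_eq_mul]
      exact I.mul_mem_right _ hr
    · rw [map_add]
      exact I.add_mem hx hy
  have h3 := h2 _ h1
  rw [map_smul, Module.Basis.coord_apply, Module.Basis.repr_self, Finsupp.single_eq_same,
    smul_eq_mul, mul_one] at h3
  exact h3

end small

/-! ### The closure lemma -/

section main

variable {O : Type} [CommRing O] [IsLocalRing O] {T : Type} [AddCommGroup T] [Module O T]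

/-- `σ` is good modulo `𝔪 ^ n`, with trace `t`. -/
def gcl_GoodAt (ρ : GQ →* Module.End O T) (ε : GQ →* O) (n : ℕ) (σ : GQ) (t : O) : Prop :=
  gcl_Small (maximalIdeal O ^ n) (ρ σ * ρ σ - t • ρ σ + ε σ • (1 : Module.End O T))

theorem gcl_GoodAt.mono {ρ : GQ →* Module.End O T} {ε : GQ →* O} {m n : ℕ} (hmn : m ≤ n)
    {σ : GQ} {t : O} (h : gcl_GoodAt ρ ε n σ t) : gcl_GoodAt ρ ε m σ t :=
  gcl_Small.mono (Ideal.pow_le_pow_right hmn) h

/-- Uniqueness of the trace modulo `𝔪 ^ n`. -/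
theorem gcl_goodAt_unique [Module.Free O T] [Nontrivial T] (ρ : GQ →* Module.End O T)
    (ε : GQ →* O) {n : ℕ} {σ : GQ} {t t' : O} (h : gcl_GoodAt ρ ε n σ t)
    (h' : gcl_GoodAt ρ ε n σ t') : t - t' ∈ maximalIdeal O ^ n := by
  have h1 : gcl_Small (maximalIdeal O ^ n) ((t - t') • ρ σ) := by
    have h2 := gcl_Small.sub h' h
    have h3 : (ρ σ * ρ σ - t' • ρ σ + ε σ • (1 : Module.End O T)) -
        (ρ σ * ρ σ - t • ρ σ + ε σ • (1 : Module.End O T)) = (t - t') • ρ σ := by
      rw [sub_smul]; abel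
    rwa [h3] at h2
  have h4 := h1.mul_right (ρ σ⁻¹)
  rw [smul_mul_assoc, ← map_mul, mul_inv_cancel, map_one] at h4
  exact gcl_mem_of_small_smul_one h4

/-- Existence of a trace modulo `𝔪 ^ n`: `σ` agrees with a power of a Frobenius element at
level `n`. -/
theorem gcl_exists_goodAt (ρ : GQ →* Module.End O T) (hρ : GaloisActionIsAdicContinuous O ρ)
    (ε : GQ →* O)
    (hε : ∀ n : ℕ, ∃ L : IntermediateField ℚ Qbar, FiniteDimensional ℚ L ∧
      ∀ σ : GQ, (∀ x ∈ L, σ x = x) → ε σ - 1 ∈ maximalIdeal O ^ n)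
    (S : Finset ℕ)
    (hfrob : ∀ ℓ : ℕ, ℓ.Prime → ℓ ∉ S → ∀ A : ValuationSubring Qbar, A.LiesOverPrime ℓ →
      ∀ φ : GQ, A.IsFrobeniusAt φ ℓ → ∃ t : O, ρ φ * ρ φ - t • ρ φ + ε φ • 1 = 0)
    (hWC : ∀ (L : IntermediateField ℚ Qbar) [FiniteDimensional ℚ L] [Normal ℚ L] (σ : GQ),
      ∃ (ℓ : ℕ) (A : ValuationSubring Qbar) (φ : GQ) (k : ℕ), ℓ.Prime ∧ ℓ ∉ S ∧
        A.LiesOverPrime ℓ ∧ A.IsFrobeniusAt φ ℓ ∧ ∀ x ∈ L, (φ ^ k) x = σ x)
    (σ : GQ) (n : ℕ) : ∃ t : O, gcl_GoodAt ρ ε n σ t := by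
  obtain ⟨L₁, hL₁, h₁⟩ := hρ n
  obtain ⟨L₂, hL₂, h₂⟩ := hε n
  haveI := hL₁
  haveI := hL₂
  haveI : FiniteDimensional ℚ ↥(L₁ ⊔ L₂) := IntermediateField.finiteDimensional_sup L₁ L₂
  haveI : Normal ℚ Qbar := IsAlgClosure.normal ℚ Qbar
  let L : IntermediateField ℚ Qbar := IntermediateField.normalClosure ℚ ↥(L₁ ⊔ L₂) Qbar
  haveI : FiniteDimensional ℚ L := normalClosure.is_finiteDimensional ℚ _ Qbar
  haveI : Normal ℚ L := normalClosure.normal ℚ _ Qbar
  have hle : L₁ ⊔ L₂ ≤ L := IntermediateField.le_normalClosure _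
  obtain ⟨ℓ, A, φ, k, hℓ, hℓS, hA, hφ, hk⟩ := hWC L σ
  obtain ⟨a, ha⟩ := hfrob ℓ hℓ hℓS A hA φ hφ
  have hY := gcl_pow_relation ha k
  set τ : GQ := σ⁻¹ * φ ^ k with hτdef
  have hτ : ∀ x ∈ L, τ x = x := by
    intro x hx
    rw [hτdef, AlgEquiv.mul_apply, hk x hx]
    exact σ.symm_apply_apply x
  have hφk : φ ^ k = σ * τ := by rw [hτdef, mul_inv_cancel_left]
  have hE : gcl_Small (maximalIdeal O ^ n) (ρ τ - 1) := fun v => by
    simpa using h₁ τ (fun x hx => hτ x (hle (le_sup_left (a := L₁) (b := L₂) hx))) v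
  have hδ : ε τ - 1 ∈ maximalIdeal O ^ n :=
    h₂ τ (fun x hx => hτ x (hle (le_sup_right (a := L₁) (b := L₂) hx)))
  have hYeq : ρ φ ^ k = ρ σ + ρ σ * (ρ τ - 1) := by
    rw [← map_pow, hφk, map_mul, mul_sub, mul_one]; abel
  have heeq : ε φ ^ k = ε σ + ε σ * (ε τ - 1) := by
    rw [← map_pow, hφk, map_mul, mul_sub, mul_one]; abel
  refine ⟨gcl_luc a (ε φ) k, ?_⟩
  rw [hYeq, heeq] at hY
  have hEs : gcl_Small (maximalIdeal O ^ n) (ρ σ * (ρ τ - 1)) := hE.mul_left (ρ σ)
  have hδ' : ε σ * (ε τ - 1) ∈ maximalIdeal O ^ n := Ideal.mul_mem_left _ _ hδ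
  generalize ρ σ * (ρ τ - 1) = E at hY hEs
  generalize ε σ * (ε τ - 1) = δ at hY hδ'
  generalize gcl_luc a (ε φ) k = c at hY ⊢
  have key : ρ σ * ρ σ - c • ρ σ + ε σ • (1 : Module.End O T) =
      ((ρ σ + E) * (ρ σ + E) - c • (ρ σ + E) + (ε σ + δ) • (1 : Module.End O T)) -
        (ρ σ * E + E * ρ σ + E * E - c • E + δ • (1 : Module.End O T)) := by
    simp only [add_smul, smul_add, mul_add, add_mul]
    abel
  unfold gcl_GoodAt
  rw [key, hY, zero_sub]
  exact (((((hEs.mul_left _).add (hEs.mul_right _)).add (hEs.mul_left _)).sub (hEs.smul c)).add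
    (gcl_Small.smul_of_mem hδ' _)).neg

/-- **[CL]**: if all Frobenius elements outside `S` are good, every element is good. -/
theorem gcl_good [IsNoetherianRing O] [IsAdicComplete (maximalIdeal O) O]
    [Module.Free O T] [Module.Finite O T]
    (ρ : GQ →* Module.End O T) (hρ : GaloisActionIsAdicContinuous O ρ)
    (ε : GQ →* O)
    (hε : ∀ n : ℕ, ∃ L : IntermediateField ℚ Qbar, FiniteDimensional ℚ L ∧
      ∀ σ : GQ, (∀ x ∈ L, σ x = x) → ε σ - 1 ∈ maximalIdeal O ^ n)
    (S : Finset ℕ)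
    (hfrob : ∀ ℓ : ℕ, ℓ.Prime → ℓ ∉ S → ∀ A : ValuationSubring Qbar, A.LiesOverPrime ℓ →
      ∀ φ : GQ, A.IsFrobeniusAt φ ℓ → ∃ t : O, ρ φ * ρ φ - t • ρ φ + ε φ • 1 = 0)
    (hWC : ∀ (L : IntermediateField ℚ Qbar) [FiniteDimensional ℚ L] [Normal ℚ L] (σ : GQ),
      ∃ (ℓ : ℕ) (A : ValuationSubring Qbar) (φ : GQ) (k : ℕ), ℓ.Prime ∧ ℓ ∉ S ∧
        A.LiesOverPrime ℓ ∧ A.IsFrobeniusAt φ ℓ ∧ ∀ x ∈ L, (φ ^ k) x = σ x)
    (σ : GQ) : ∃ t : O, ρ σ * ρ σ - t • ρ σ + ε σ • 1 = 0 := by
  by_cases hT : Subsingleton T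
  · exact ⟨0, LinearMap.ext fun v => Subsingleton.elim _ _⟩
  · haveI : Nontrivial T := not_subsingleton_iff_nontrivial.mp hT
    choose t ht using fun n => gcl_exists_goodAt ρ hρ ε hε S hfrob hWC σ n
    have hcauchy : ∀ {m n : ℕ}, m ≤ n →
        t m ≡ t n [SMOD (maximalIdeal O ^ m • ⊤ : Submodule O O)] := by
      intro m n hmn
      rw [SModEq.sub_mem, smul_eq_mul, Ideal.mul_top]
      exact gcl_goodAt_unique ρ ε (ht m) ((ht n).mono hmn)
    obtain ⟨t', ht'⟩ := IsPrecomplete.prec (I := maximalIdeal O) (M := O) inferInstance hcauchy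
    refine ⟨t', LinearMap.ext fun v => ?_⟩
    rw [LinearMap.zero_apply]
    refine IsHausdorff.haus (I := maximalIdeal O) inferInstance _ fun n => ?_
    rw [SModEq.zero]
    have h1 : t n - t' ∈ maximalIdeal O ^ n := by
      have := ht' n
      rwa [SModEq.sub_mem, smul_eq_mul, Ideal.mul_top] at this
    have h2 : ρ σ * ρ σ - t' • ρ σ + ε σ • (1 : Module.End O T) =
        (ρ σ * ρ σ - t n • ρ σ + ε σ • (1 : Module.End O T)) + (t n - t') • ρ σ := by
      rw [sub_smul]; abel
    rw [h2]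
    exact ((ht n).add (gcl_Small.smul_of_mem h1 _)) v

end main

end Fermat.Agent.JT3
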