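/-
[CL] unconditional: the closure lemma with weak Chebotarev (`Fermat.Agent.WC.wc_main`) plugged in,
and its form for the `p`-adic cyclotomic character `cya_eps` with the Eichler–Shimura relation
`ρ(φ)² - a ρ(φ) + ℓ = 0` at Frobenius elements as input.

Owner: helper9.  Prefix `gcl_`.
-/
import Fermat.Agent.JT3.Algebra.GoodClosure
import Fermat.Agent.JT3.Algebra.CycloAdic
import Fermat.Agent.WC.Final

set_option autoImplicit false

namespace Fermat.Agent.JT3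

open IsLocalRing

local notation "GQ" => (AlgebraicClosure ℚ ≃ₐ[ℚ] AlgebraicClosure ℚ)
local notation "Qbar" => AlgebraicClosure ℚ

/-- **[CL]**, unconditional. -/
theorem gcl_good_final
    {O : Type} [CommRing O] [IsLocalRing O] [IsNoetherianRing O]
    [IsAdicComplete (maximalIdeal O) O]
    {T : Type} [AddCommGroup T] [Module O T] [Module.Free O T] [Module.Finite O T]
    (ρ : GQ →* Module.End O T) (hρ : GaloisActionIsAdicContinuous O ρ)
    (ε : GQ →* O)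
    (hε : ∀ n : ℕ, ∃ L : IntermediateField ℚ Qbar, FiniteDimensional ℚ L ∧
      ∀ σ : GQ, (∀ x ∈ L, σ x = x) → ε σ - 1 ∈ maximalIdeal O ^ n)
    (S : Finset ℕ)
    (hfrob : ∀ ℓ : ℕ, ℓ.Prime → ℓ ∉ S → ∀ A : ValuationSubring Qbar, A.LiesOverPrime ℓ →
      ∀ φ : GQ, A.IsFrobeniusAt φ ℓ → ∃ t : O, ρ φ * ρ φ - t • ρ φ + ε φ • 1 = 0)
    (σ : GQ) : ∃ t : O, ρ σ * ρ σ - t • ρ σ + ε σ • 1 = 0 :=
  gcl_good ρ hρ ε hε S hfrob (fun L _ _ σ => Fermat.Agent.WC.wc_main L S σ) σ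

/-- **[CL]** for the cyclotomic character: from the Eichler–Shimura relations
`ρ(φ)² - a ρ(φ) + ℓ = 0` at the Frobenius elements outside `S ∋ p` to the relations
`ρ(σ)² - t ρ(σ) + ε(σ) = 0` for all `σ`. -/
theorem gcl_good_cyclo (p : ℕ) [Fact p.Prime]
    {O : Type} [CommRing O] [IsLocalRing O] [IsNoetherianRing O]
    [IsAdicComplete (maximalIdeal O) O] (hp : (p : O) ∈ maximalIdeal O)
    {T : Type} [AddCommGroup T] [Module O T] [Module.Free O T] [Module.Finite O T]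
    (ρ : GQ →* Module.End O T) (hρ : GaloisActionIsAdicContinuous O ρ)
    (S : Finset ℕ) (hpS : p ∈ S)
    (hfrob : ∀ ℓ : ℕ, ℓ.Prime → ℓ ∉ S → ∀ A : ValuationSubring Qbar, A.LiesOverPrime ℓ →
      ∀ φ : GQ, A.IsFrobeniusAt φ ℓ → ∃ a : O, ρ φ * ρ φ - a • ρ φ + (ℓ : O) • 1 = 0)
    (σ : GQ) : ∃ t : O, ρ σ * ρ σ - t • ρ σ + cya_eps p O hp σ • 1 = 0 := by
  refine gcl_good_final ρ hρ (cya_eps p O hp) (cya_eps_continuous p O hp) S
    (fun ℓ hℓ hℓS A hA φ hφ => ?_) σ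
  have hℓp : ℓ ≠ p := fun h => hℓS (h ▸ hpS)
  rw [cya_eps_frob p O hp hℓ hℓp A hA φ hφ]
  exact hfrob ℓ hℓ hℓS A hA φ hφ

end Fermat.Agent.JT3
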