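import Mathlib

/-!
# JT3 / pure algebra: finite modules of depth two over a two-dimensional regular local ring
are free (elementary form)

`jd_free_of_regular_pair`: `R` Noetherian local with maximal ideal `(x, y)`, `M` a finite
`R`-module on which `x` is regular and which is *saturated*: `y • a = x • b → a ∈ x M`
(i.e. `y` is regular on `M / x M`).  Then `M` is free.

`jd_saturated_integralClosure`: for `R` an integrally closed domain, `x` a prime element and
`y ∉ (x)`, the integral closure of `R` in a field extension of `Frac R` is saturated.  Hence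
(`jd_free_integralClosure`) it is free over `R` as soon as it is finite.
-/

set_option autoImplicit false
set_option linter.unusedSectionVars false
set_option linter.style.haveILetI false

open IsLocalRing
open scoped Pointwise

namespace Fermat.Agent.JT3

section Module

variable {R : Type*} [CommRing R] [IsNoetherianRing R] [IsLocalRing R]

/-- **Depth two ⟹ free** over a Noetherian local ring whose maximal ideal is generated by two
elements. -/
theorem jd_free_of_regular_pair (x y : R) (hmax : maximalIdeal R = Ideal.span {x, y})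
    (M : Type*) [AddCommGroup M] [Module R M] [Module.Finite R M]
    (hx : IsSMulRegular M x) (hy : ∀ a b : M, y • a = x • b → ∃ c, a = x • c) :
    Module.Free R M := by
  have hxm : x ∈ maximalIdeal R := by
    rw [hmax]; exact Ideal.subset_span (Set.mem_insert _ _)
  have hym : y ∈ maximalIdeal R := by
    rw [hmax]; exact Ideal.subset_span (Set.mem_insert_of_mem _ rfl)
  -- the quotient ring `R̄ = R / x`
  have hxtop : Ideal.span {x} ≠ (⊤ : Ideal R) := by
    intro h
    have : (1 : R) ∈ Ideal.span {x} := by rw [h]; trivial
    have h1 : (1 : R) ∈ maximalIdeal R := (Ideal.span_singleton_le_iff_mem _).2 hxm this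
    exact (Ideal.ne_top_iff_one _).1 (maximalIdeal.isMaximal R).ne_top h1
  haveI : Nontrivial (R ⧸ Ideal.span {x}) := Ideal.Quotient.nontrivial_iff.2 hxtop
  haveI : IsLocalRing (R ⧸ Ideal.span {x}) :=
    IsLocalRing.of_surjective' (Ideal.Quotient.mk (Ideal.span {x})) Ideal.Quotient.mk_surjective
  let yb : R ⧸ Ideal.span {x} := Ideal.Quotient.mk _ y
  -- `(yb)` is maximal in `R̄`
  have hmap : Ideal.map (Ideal.Quotient.mk (Ideal.span {x})) (maximalIdeal R) = Ideal.span {yb} := by
    rw [hmax, Ideal.map_span, Set.image_pair]
    apply le_antisymm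
    · rw [Ideal.span_le]
      rintro z (rfl | rfl)
      · have h0 : Ideal.Quotient.mk (Ideal.span {x}) x = 0 :=
          Ideal.Quotient.eq_zero_iff_mem.2 (Ideal.subset_span rfl)
        rw [h0]; exact Ideal.zero_mem _
      · exact Ideal.subset_span rfl
    · exact Ideal.span_mono (by
        intro z hz; rw [Set.mem_singleton_iff] at hz; rw [hz]; exact Set.mem_insert_of_mem _ rfl)
  have hybmax : (Ideal.span {yb}).IsMaximal := by
    rcases Ideal.map_eq_top_or_isMaximal_of_surjective (Ideal.Quotient.mk (Ideal.span {x}))
      Ideal.Quotient.mk_surjective (maximalIdeal.isMaximal R) with h | h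
    · exfalso
      rw [hmap] at h
      have h1 : (1 : R ⧸ Ideal.span {x}) ∈ Ideal.span {yb} := by rw [h]; trivial
      obtain ⟨z, hz⟩ := Ideal.mem_span_singleton'.1 h1
      obtain ⟨z, rfl⟩ := Ideal.Quotient.mk_surjective z
      rw [← map_mul, ← map_one (Ideal.Quotient.mk (Ideal.span {x})), Ideal.Quotient.eq] at hz
      have h2 : z * y - 1 ∈ maximalIdeal R := (Ideal.span_singleton_le_iff_mem _).2 hxm hz
      have h3 : z * y ∈ maximalIdeal R := Ideal.mul_mem_left _ _ hym
      have h4 : (1 : R) ∈ maximalIdeal R := by
        have := Ideal.sub_mem _ h3 h2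
        rwa [sub_sub_cancel] at this
      exact (Ideal.ne_top_iff_one _).1 (maximalIdeal.isMaximal R).ne_top h4
    · rwa [hmap] at h
  -- the module `N = M / x M` over `R̄`
  have hNfin : Module.Finite (R ⧸ Ideal.span {x}) (QuotSMulTop x M) :=
    Module.Finite.of_restrictScalars_finite R (R ⧸ Ideal.span {x}) (QuotSMulTop x M)
  haveI : Module.FinitePresentation (R ⧸ Ideal.span {x}) (QuotSMulTop x M) :=
    Module.finitePresentation_of_finite _ _
  haveI : Module.FinitePresentation R M := Module.finitePresentation_of_finite _ _
  -- `yb` is regular on `N`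
  have hybreg : IsSMulRegular (QuotSMulTop x M) yb := by
    rw [isSMulRegular_iff_right_eq_zero_of_smul]
    intro n hn
    obtain ⟨a, rfl⟩ := Submodule.mkQ_surjective _ n
    have h1 : Submodule.mkQ (x • (⊤ : Submodule R M)) (y • a) = 0 := by
      rw [map_smul]; exact hn
    rw [Submodule.mkQ_apply, Submodule.Quotient.mk_eq_zero,
      Submodule.mem_smul_pointwise_iff_exists] at h1
    obtain ⟨b, -, hb⟩ := h1
    obtain ⟨c, rfl⟩ := hy a b hb.symm
    rw [Submodule.mkQ_apply, Submodule.Quotient.mk_eq_zero]
    exact Submodule.smul_mem_pointwise_smul c x ⊤ trivial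
  have hybjac : yb ∈ (⊥ : Ideal (R ⧸ Ideal.span {x})).jacobson := by
    rw [IsLocalRing.jacobson_eq_maximalIdeal ⊥ bot_ne_top]
    have := (hybmax.eq_of_le (maximalIdeal.isMaximal _).ne_top
      ((IsLocalRing.le_maximalIdeal hybmax.ne_top)))
    rw [← this]
    exact Ideal.subset_span rfl
  have hxjac : x ∈ (⊥ : Ideal R).jacobson := by
    rw [IsLocalRing.jacobson_eq_maximalIdeal ⊥ bot_ne_top]; exact hxm
  -- the residue field
  letI : Field ((R ⧸ Ideal.span {x}) ⧸ Ideal.span {yb}) := Ideal.Quotient.field _
  have hfree0 : Module.Free ((R ⧸ Ideal.span {x}) ⧸ Ideal.span {yb})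
      (QuotSMulTop yb (QuotSMulTop x M)) := Module.Free.of_divisionRing _ _
  have hfree1 : Module.Free (R ⧸ Ideal.span {x}) (QuotSMulTop x M) :=
    (Module.free_quotSMulTop_iff_free _ _ hybjac hybreg).1 hfree0
  exact (Module.free_quotSMulTop_iff_free _ _ hxjac hx).1 hfree1

end Module

section IntegralClosure

open Polynomial

variable {R K L : Type*} [CommRing R] [IsDomain R] [IsIntegrallyClosed R] [Field K] [Algebra R K]
  [IsFractionRing R K] [Field L] [Algebra K L] [Algebra R L] [IsScalarTower R K L]

/-- The minimal polynomial of `s * u` divides the scaled minimal polynomial of `u`. -/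
theorem jd_minpoly_dvd_scaleRoots (s : K) (u : L) :
    minpoly K (algebraMap K L s * u) ∣ scaleRoots (minpoly K u) s :=
  minpoly.dvd K _ (scaleRoots_aeval_eq_zero (minpoly.aeval K u))

/-- For `s ≠ 0`, the minimal polynomial of `s * u` is the scaled minimal polynomial of `u`. -/
theorem jd_minpoly_mul (s : K) (hs : s ≠ 0) (u : L) (hu : IsIntegral K u) :
    minpoly K (algebraMap K L s * u) = scaleRoots (minpoly K u) s := by
  have hsu : IsIntegral K (algebraMap K L s * u) := (isIntegral_algebraMap).mul hu
  have h1 := jd_minpoly_dvd_scaleRoots s u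
  have h2 := jd_minpoly_dvd_scaleRoots s⁻¹ (algebraMap K L s * u)
  have hinv : algebraMap K L s⁻¹ * (algebraMap K L s * u) = u := by
    rw [← mul_assoc, ← map_mul, inv_mul_cancel₀ hs, map_one, one_mul]
  rw [hinv] at h2
  have hm1 : (scaleRoots (minpoly K u) s).Monic := (monic_scaleRoots_iff s).2 (minpoly.monic hu)
  have hm2 : (scaleRoots (minpoly K (algebraMap K L s * u)) s⁻¹).Monic :=
    (monic_scaleRoots_iff _).2 (minpoly.monic hsu)
  have d1 : (minpoly K (algebraMap K L s * u)).natDegree ≤ (minpoly K u).natDegree := by
    have := natDegree_le_of_dvd h1 hm1.ne_zero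
    rwa [natDegree_scaleRoots] at this
  have d2 : (minpoly K u).natDegree ≤ (minpoly K (algebraMap K L s * u)).natDegree := by
    have := natDegree_le_of_dvd h2 hm2.ne_zero
    rwa [natDegree_scaleRoots] at this
  exact (eq_of_monic_of_dvd_of_natDegree_le (minpoly.monic hsu) hm1 h1
    (by rw [natDegree_scaleRoots]; exact d2)).symm

/-- If `x t` and `y t` are integral over the integrally closed domain `R`, with `x` a prime
element not dividing `y`, then `t` is integral over `R`. -/
theorem jd_isIntegral_of_mul (K : Type*) {R L : Type*} [CommRing R] [IsDomain R]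
    [IsIntegrallyClosed R] [Field K] [Algebra R K] [IsFractionRing R K] [Field L] [Algebra K L]
    [Algebra R L] [IsScalarTower R K L] (x y : R) (hxp : Prime x) (hxy : ¬ x ∣ y) (t : L)
    (hxt : IsIntegral R (algebraMap R L x * t)) (hyt : IsIntegral R (algebraMap R L y * t)) :
    IsIntegral R t := by
  have hx0 : x ≠ 0 := hxp.ne_zero
  have hy0 : y ≠ 0 := fun h => hxy (h ▸ dvd_zero x)
  have hinjK : Function.Injective (algebraMap R K) := IsFractionRing.injective R K
  have hxK : algebraMap R K x ≠ 0 := fun h => hx0 (hinjK (by rw [h, map_zero]))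
  have hyK : algebraMap R K y ≠ 0 := fun h => hy0 (hinjK (by rw [h, map_zero]))
  have hxL : algebraMap R L x ≠ 0 := by
    rw [IsScalarTower.algebraMap_apply R K L]
    exact fun h => hxK ((algebraMap K L).injective (by rw [h, map_zero]))
  set u : L := algebraMap R L x * t with hu
  set f := minpoly R u with hf
  set g := minpoly R (algebraMap R L y * t) with hg
  set d := f.natDegree with hd
  -- over `K`
  have hfK : minpoly K u = f.map (algebraMap R K) :=
    minpoly.isIntegrallyClosed_eq_field_fractions' K hxt
  have hgK : minpoly K (algebraMap R L y * t) = g.map (algebraMap R K) :=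
    minpoly.isIntegrallyClosed_eq_field_fractions' K hyt
  set s : K := algebraMap R K y / algebraMap R K x with hs
  have hs0 : s ≠ 0 := div_ne_zero hyK hxK
  have hsu : algebraMap K L s * u = algebraMap R L y * t := by
    rw [hs, hu, map_div₀, ← IsScalarTower.algebraMap_apply R K L,
      ← IsScalarTower.algebraMap_apply R K L]
    field_simp
  have hrel := jd_minpoly_mul s hs0 u hxt.tower_top
  rw [hsu, hgK, hfK] at hrel
  have hfmonic : f.Monic := minpoly.monic hxt
  have hdK : (f.map (algebraMap R K)).natDegree = d := hfmonic.natDegree_map _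
  -- coefficient relation in `R`
  have hcoeff : ∀ i, g.coeff i * x ^ (d - i) = f.coeff i * y ^ (d - i) := by
    intro i
    have := congrArg (fun p => p.coeff i) hrel
    simp only [coeff_map, coeff_scaleRoots, hdK] at this
    apply hinjK
    rw [map_mul, map_mul, map_pow, map_pow, this, hs, div_pow]
    field_simp
  -- `x ^ (d - i)` divides the `i`-th coefficient of `f`
  have hdiv : ∀ i, x ^ (d - i) ∣ f.coeff i := fun i =>
    hxp.pow_dvd_of_dvd_mul_right (d - i) (fun h => hxy (hxp.dvd_of_dvd_pow h))
      ⟨g.coeff i, by rw [← hcoeff i, mul_comm]⟩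
  choose h hh using hdiv
  -- the monic polynomial with root `t`
  let H : R[X] := X ^ d + ∑ i : Fin d, C (h i) * X ^ (i : ℕ)
  have hHmonic : H.Monic := monic_X_pow_add (degree_sum_fin_lt _)
  refine ⟨H, hHmonic, ?_⟩
  have hroot : aeval u f = 0 := minpoly.aeval R u
  rw [aeval_eq_sum_range, ← hd, Finset.sum_range_succ, hfmonic.coeff_natDegree, one_smul,
    Finset.sum_range] at hroot
  have hexp : (algebraMap R L x) ^ d * (t ^ d + ∑ i : Fin d, algebraMap R L (h i) * t ^ (i : ℕ))
      = 0 := by
    rw [← hroot, mul_add, Finset.mul_sum, hu, mul_pow, add_comm]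
    congr 1
    refine Finset.sum_congr rfl fun i _ => ?_
    rw [hh i, Algebra.smul_def, map_mul, map_pow, mul_pow]
    have hi : d - (i : ℕ) + (i : ℕ) = d := Nat.sub_add_cancel i.2.le
    calc algebraMap R L x ^ d * (algebraMap R L (h i) * t ^ (i : ℕ))
        = algebraMap R L x ^ (d - (i : ℕ) + (i : ℕ)) * (algebraMap R L (h i) * t ^ (i : ℕ)) := by
          rw [hi]
      _ = algebraMap R L x ^ (d - (i : ℕ)) * algebraMap R L (h i) *
            (algebraMap R L x ^ (i : ℕ) * t ^ (i : ℕ)) := by rw [pow_add]; ring
  have := (mul_eq_zero.1 hexp).resolve_left (pow_ne_zero _ hxL)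
  rw [← this]
  simp only [H, eval₂_add, eval₂_pow, eval₂_X, eval₂_finsetSum, eval₂_mul, eval₂_C]

/-- The integral closure of `R` in `L` is saturated: `y • a = x • b → a ∈ x • B'`. -/
theorem jd_saturated_integralClosure (K : Type*) {R L : Type*} [CommRing R] [IsDomain R]
    [IsIntegrallyClosed R] [Field K] [Algebra R K] [IsFractionRing R K] [Field L] [Algebra K L]
    [Algebra R L] [IsScalarTower R K L] (x y : R) (hxp : Prime x) (hxy : ¬ x ∣ y)
    (a b : integralClosure R L) (hab : y • a = x • b) : ∃ c : integralClosure R L, a = x • c := by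
  have hinjK : Function.Injective (algebraMap R K) := IsFractionRing.injective R K
  have hxL : algebraMap R L x ≠ 0 := by
    rw [IsScalarTower.algebraMap_apply R K L]
    intro h
    have h1 : algebraMap R K x = 0 := (algebraMap K L).injective (by rw [h, map_zero])
    exact hxp.ne_zero (hinjK (by rw [h1, map_zero]))
  have hab' : algebraMap R L y * (a : L) = algebraMap R L x * (b : L) := by
    have := congrArg (fun z : integralClosure R L => (z : L)) hab
    simpa [Algebra.smul_def] using this
  set t : L := (algebraMap R L x)⁻¹ * (a : L) with ht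
  have hxt : algebraMap R L x * t = (a : L) := by
    rw [ht, ← mul_assoc, mul_inv_cancel₀ hxL, one_mul]
  have hyt : algebraMap R L y * t = (b : L) := by
    rw [ht, mul_left_comm, hab', ← mul_assoc, inv_mul_cancel₀ hxL, one_mul]
  have hint : IsIntegral R t :=
    jd_isIntegral_of_mul K x y hxp hxy t (by rw [hxt]; exact a.2) (by rw [hyt]; exact b.2)
  refine ⟨⟨t, hint⟩, Subtype.ext ?_⟩
  change (a : L) = x • t
  rw [Algebra.smul_def, hxt]

/-- **Freeness of integral closures over a two-dimensional regular local ring** (elementary form):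
`R` a Noetherian local integrally closed domain with maximal ideal `(x, y)`, `x` a prime element
not dividing `y`; the integral closure of `R` in a field extension `L` of `Frac R` is free over
`R` as soon as it is finite. -/
theorem jd_free_integralClosure (K : Type*) {R L : Type*} [CommRing R] [IsDomain R]
    [IsIntegrallyClosed R] [IsNoetherianRing R] [IsLocalRing R] [Field K] [Algebra R K]
    [IsFractionRing R K] [Field L] [Algebra K L] [Algebra R L] [IsScalarTower R K L] (x y : R)
    (hmax : maximalIdeal R = Ideal.span {x, y}) (hxp : Prime x) (hxy : ¬ x ∣ y)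
    [Module.Finite R (integralClosure R L)] : Module.Free R (integralClosure R L) := by
  have hinjK : Function.Injective (algebraMap R K) := IsFractionRing.injective R K
  have hxL : algebraMap R L x ≠ 0 := by
    rw [IsScalarTower.algebraMap_apply R K L]
    intro h
    have h1 : algebraMap R K x = 0 := (algebraMap K L).injective (by rw [h, map_zero])
    exact hxp.ne_zero (hinjK (by rw [h1, map_zero]))
  refine jd_free_of_regular_pair x y hmax (integralClosure R L) ?_
    (jd_saturated_integralClosure K x y hxp hxy)
  rw [isSMulRegular_iff_right_eq_zero_of_smul]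
  intro a ha
  have h1 : algebraMap R L x * (a : L) = 0 := by
    have := congrArg (fun z : integralClosure R L => (z : L)) ha
    simpa [Algebra.smul_def] using this
  exact Subtype.ext ((mul_eq_zero.1 h1).resolve_left hxL)

end IntegralClosure

end Fermat.Agent.JT3
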