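/-
[CL] with the weak Chebotarev input in the form `Fermat.Agent.WC.wcf_NF` (= the statement of
`wc_nf`, WC/NumberField.lean).

Owner: helper9.  Prefix `gcl_`.
-/
import Fermat.Agent.JT3.Algebra.GoodClosure
import Fermat.Agent.WC.Main

set_option autoImplicit false

namespace Fermat.Agent.JT3

open IsLocalRing

local notation "GQ" => (AlgebraicClosure ℚ ≃ₐ[ℚ] AlgebraicClosure ℚ)
local notation "Qbar" => AlgebraicClosure ℚ

/-- **[CL]** with (WC) in number-field form as hypothesis. -/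
theorem gcl_good_of_NF (hNF : Fermat.Agent.WC.wcf_NF)
    {O : Type} [CommRing O] [IsLocalRing O] [IsNoetherianRing O]
    [IsAdicComplete (maximalIdeal O) O]
    {T : Type} [AddCommGroup T] [Module O T] [Module.Free O T] [Module.Finite O T]
    (ρ : GQ →* Module.End O T) (hρ : GaloisActionIsAdicContinuous O ρ)
    (ε : GQ →* O)
    (hε : ∀ n : ℕ, ∃ L : IntermediateField ℚ Qbar, FiniteDimensional ℚ L ∧
      ∀ σ : GQ, (∀ x ∈ L, σ x = x) → ε σ - 1 ∈ maximalIdeal O ^ n)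
    (S : Finset ℕ)
    (hfrob : ∀ ℓ : ℕ, ℓ.Prime → ℓ ∉ S → ∀ A : ValuationSubring Qbar, A.LiesOverPrime ℓ →
      ∀ φ : GQ, A.IsFrobeniusAt φ ℓ → ∃ t : O, ρ φ * ρ φ - t • ρ φ + ε φ • 1 = 0)
    (σ : GQ) : ∃ t : O, ρ σ * ρ σ - t • ρ σ + ε σ • 1 = 0 :=
  gcl_good ρ hρ ε hε S hfrob (fun L _ _ σ => Fermat.Agent.WC.wcf_main hNF L S σ) σ

end Fermat.Agent.JT3
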