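/-
Copyright: team work file (helper12).  Abstract-carrier form of `ug_unramAt`
(`Fermat/Agent/JT3/Algebra/UnramGen.lean`): the DVR `V` is an arbitrary commutative ring with
fraction field `K`, not a `Subring K`.  The conclusion is `jt_Unram V E` of `JT3/Seams.lean`
verbatim.
-/
import Mathlib
import Fermat.Agent.JT3.Algebra.UnramGen

set_option autoImplicit false
set_option linter.unusedSectionVars false

namespace Fermat.Agent.JT3

open Polynomial

section Carrier

open IsDedekindDomain

variable (V : Type*) [CommRing V] [IsDomain V] [IsDiscreteValuationRing V]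
  (K : Type*) [Field K] [Algebra V K] [IsFractionRing V K]
  (E : Type*) [Field E] [Algebra K E] [Algebra V E] [IsScalarTower V K E]
  [FiniteDimensional K E] [Algebra.IsSeparable K E]

/-- auxiliary form of `ug_unramAt` for a height one prime. -/
theorem ug_unram_aux [IsDedekindDomain (integralClosure V E)]
    [IsFractionRing (integralClosure V E) E] [Module.Finite V (integralClosure V E)]
    (S : Set E) (hS : S.Finite) (hgen : IntermediateField.adjoin K S = ⊤)
    (hθ : ∀ θ ∈ S, ∃ h : V[X], h.Monic ∧ aeval θ h = 0 ∧
      (h.map (IsLocalRing.residue V)).Separable)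
    (v : HeightOneSpectrum (integralClosure V E)) :
    Algebra.IsUnramifiedAt V v.asIdeal := by
  classical
  set P : Ideal (integralClosure V E) := v.asIdeal with hPdef
  have hP : P ≠ ⊥ := v.ne_bot
  set O : ValuationSubring E := HeightOneSpectrum.valuationSubringAtPrime E v with hO
  have hlocO : IsLocalization P.primeCompl ↥O :=
    inferInstanceAs (IsLocalization v.asIdeal.primeCompl
      (HeightOneSpectrum.valuationSubringAtPrime E v))
  have hPprime : P.IsPrime := v.isPrime
  have hOv : O = (v.valuation E).valuationSubring :=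
    HeightOneSpectrum.valuationSubringAtPrime_eq_valuationSubring v
  have hmemO : ∀ x : E, x ∈ O ↔ v.valuation E x ≤ 1 := by
    intro x; rw [hOv]; exact Valuation.mem_valuationSubring_iff _ _
  have hCO : ∀ c : integralClosure V E, (c : E) ∈ O := fun c => (hmemO _).2 (v.valuation_le_one c)
  have hnonO : ∀ x : E, x ∈ O.nonunits ↔ v.valuation E x < 1 := by
    intro x
    rw [ValuationSubring.mem_nonunits_iff_or]
    by_cases hx : x = 0
    · simp [hx]
    · rw [hmemO, map_inv₀, not_le]
      constructor
      · rintro (h | h)
        · exact absurd h hx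
        · exact (one_lt_inv₀ (zero_lt_iff.2 ((_root_.map_ne_zero _).2 hx))).1 h
      · intro h
        exact Or.inr ((one_lt_inv₀ (zero_lt_iff.2 ((_root_.map_ne_zero _).2 hx))).2 h)
  -- the uniformiser of `V` lies in `P`
  obtain ⟨ϖ, hϖ⟩ := IsDiscreteValuationRing.exists_irreducible V
  have hcomap : P.comap (algebraMap V (integralClosure V E)) = IsLocalRing.maximalIdeal V := by
    have hne : P.comap (algebraMap V (integralClosure V E)) ≠ ⊥ :=
      fun h => hP (Ideal.eq_bot_of_comap_eq_bot h)
    have hprime : (P.comap (algebraMap V (integralClosure V E))).IsPrime :=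
      Ideal.comap_isPrime _ P
    exact IsLocalRing.eq_maximalIdeal (hprime.isMaximal hne)
  have hVP : ∀ x : V, x ∈ IsLocalRing.maximalIdeal V → algebraMap K E (algebraMap V K x) ∈ O.nonunits := by
    intro x hx
    rw [← hcomap, Ideal.mem_comap] at hx
    rw [hnonO, ← IsScalarTower.algebraMap_apply V K E]
    exact (v.valuation_lt_one_iff_mem (K := E) (algebraMap V (integralClosure V E) x)).2 hx
  have hϖnon : algebraMap K E (algebraMap V K ϖ) ∈ O.nonunits :=
    hVP ϖ ((IsLocalRing.mem_maximalIdeal _).2 hϖ.not_isUnit)
  have hϖ0 : algebraMap V K ϖ ≠ 0 := by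
    rw [Ne, map_eq_zero_iff _ (IsFractionRing.injective V K)]; exact hϖ.ne_zero
  -- `O` as a `V`-algebra
  let _ : Algebra V O :=
    ((algebraMap (integralClosure V E) O).comp (algebraMap V (integralClosure V E))).toAlgebra
  have _ : IsScalarTower V (integralClosure V E) O := IsScalarTower.of_algebraMap_eq (fun _ => rfl)
  have hVO : ∀ x : V, ((algebraMap V O x : O) : E) = algebraMap K E (algebraMap V K x) :=
    fun x => IsScalarTower.algebraMap_apply V K E x
  have hloc : IsLocalHom (algebraMap V O) := by
    constructor
    intro x hx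
    by_contra hnu
    have h1 := hVP x ((IsLocalRing.mem_maximalIdeal _).2 hnu)
    rw [← hVO, ValuationSubring.coe_mem_nonunits_iff, IsLocalRing.mem_maximalIdeal] at h1
    exact h1 hx
  -- the separable closure of the residue field of `V` inside that of `O`
  set M : Subfield (IsLocalRing.ResidueField O) :=
    (separableClosure (IsLocalRing.ResidueField V) (IsLocalRing.ResidueField O)).toSubfield
    with hM
  have hmemM : ∀ x : IsLocalRing.ResidueField O, x ∈ M ↔
      IsSeparable (IsLocalRing.ResidueField V) x := fun x => mem_separableClosure_iff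
  have hMV : ∀ x : V, IsLocalRing.residue O (algebraMap V O x) ∈ M := by
    intro x
    have : IsLocalRing.residue O (algebraMap V O x) =
        algebraMap (IsLocalRing.ResidueField V) (IsLocalRing.ResidueField O)
          (IsLocalRing.residue V x) := rfl
    rw [this]
    exact (separableClosure (IsLocalRing.ResidueField V)
      (IsLocalRing.ResidueField O)).algebraMap_mem _
  -- structure on `K`
  have hK : ug_Str O (algebraMap V K ϖ) M (Set.range (algebraMap K E)) := by
    rintro y ⟨x, rfl⟩ hy0
    have hx0 : x ≠ 0 := fun h => hy0 (by rw [h, map_zero])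
    obtain ⟨a, b, hb, rfl⟩ := IsFractionRing.div_surjective (A := V) x
    have hb0 : b ≠ 0 := nonZeroDivisors.ne_zero hb
    have ha0 : a ≠ 0 := by
      rintro rfl
      rw [map_zero, zero_div] at hx0
      exact hx0 rfl
    obtain ⟨i, ua, hua⟩ := IsDiscreteValuationRing.eq_unit_mul_pow_irreducible ha0 hϖ
    obtain ⟨j, ub, hub⟩ := IsDiscreteValuationRing.eq_unit_mul_pow_irreducible hb0 hϖ
    refine ⟨(i : ℤ) - (j : ℤ), Units.map (algebraMap V O : V →* O) (ua * ub⁻¹), ?_, ?_⟩
    · have hιϖ0 : algebraMap K E (algebraMap V K ϖ) ≠ 0 := by rw [Ne, map_eq_zero]; exact hϖ0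
      have hinjVK := IsFractionRing.injective V K
      have hub0 : algebraMap V K (ub : V) ≠ 0 := by
        rw [Ne, map_eq_zero_iff _ hinjVK]; exact ub.ne_zero
      have hinv : algebraMap V K ((ub⁻¹ : Vˣ) : V) = (algebraMap V K (ub : V))⁻¹ := by
        have h2 : (ub : V) * ((ub⁻¹ : Vˣ) : V) = 1 := Units.mul_inv ub
        have h1 : algebraMap V K (ub : V) * algebraMap V K ((ub⁻¹ : Vˣ) : V) = 1 := by
          rw [← map_mul, h2, map_one]
        exact (inv_eq_of_mul_eq_one_right h1).symm
      have hu : ((Units.map (algebraMap V O : V →* O) (ua * ub⁻¹) : O) : E) =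
          algebraMap K E (algebraMap V K (ua : V) * (algebraMap V K (ub : V))⁻¹) := by
        show ((algebraMap V O ((ua * ub⁻¹ : Vˣ) : V) : O) : E) = _
        rw [hVO, Units.val_mul, map_mul, hinv]
      rw [hu, hua, hub, zpow_sub₀ hιϖ0, zpow_natCast, zpow_natCast]
      simp only [map_div₀, map_mul, map_pow, map_inv₀]
      have : algebraMap K E (algebraMap V K (ub : V)) ≠ 0 := by rw [Ne, map_eq_zero]; exact hub0
      field_simp
    · exact hMV _
  -- `V → O ∩ K`
  let ψ : V →+* ↥(O.comap (algebraMap K E)) :=
    (algebraMap V K).codRestrict (O.comap (algebraMap K E)).toSubring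
      (fun x => by
        have := hCO (algebraMap V (integralClosure V E) x)
        rw [ValuationSubring.mem_toSubring, ValuationSubring.mem_comap,
          ← IsScalarTower.algebraMap_apply V K E]
        exact this)
  have hψ : (ug_incl O).comp ψ = algebraMap V O := by
    ext x
    exact (hVO x).symm
  have hψloc : IsLocalHom ψ := by
    constructor
    intro x hx
    have h1 : IsUnit (ug_incl O (ψ x)) := hx.map _
    have h2 : ug_incl O (ψ x) = algebraMap V O x := RingHom.congr_fun hψ x
    rw [h2] at h1
    exact hloc.map_nonunit x h1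
  have hgood : ∀ θ ∈ S, ug_GoodGen (K := K) O M θ := by
    intro θ hθS
    obtain ⟨h, hmonic, hroot, hsep⟩ := hθ θ hθS
    have hint : IsIntegral V θ := ⟨h, hmonic, by rw [← aeval_def]; exact hroot⟩
    have hθO : θ ∈ O := hCO ⟨θ, hint⟩
    refine ⟨hθO, ?_, h.map ψ, hmonic.map ψ, ?_, ?_⟩
    · -- the residue of `θ` is separable
      rw [hmemM]
      have hroot' : aeval (IsLocalRing.residue O (⟨θ, hθO⟩ : O))
          (h.map (IsLocalRing.residue V)) = 0 := by
        rw [aeval_def, eval₂_map]
        have hcomp : (algebraMap (IsLocalRing.ResidueField V) (IsLocalRing.ResidueField O)).comp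
            (IsLocalRing.residue V) = (IsLocalRing.residue O).comp (algebraMap V O) := rfl
        rw [hcomp, ← hom_eval₂]
        have : eval₂ (algebraMap V O) (⟨θ, hθO⟩ : O) h = 0 := by
          apply Subtype.ext
          have h3 := hom_eval₂ h (algebraMap V O) (O.subtype : O →+* E) (⟨θ, hθO⟩ : O)
          have h4 : (O.subtype : O →+* E).comp (algebraMap V O) = algebraMap V E := by
            ext x; rfl
          rw [h4] at h3
          show (O.subtype : O →+* E) (eval₂ (algebraMap V O) (⟨θ, hθO⟩ : O) h) = 0
          rw [h3, ← aeval_def]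
          exact hroot
        rw [this, map_zero]
      exact Polynomial.Separable.of_dvd hsep (minpoly.dvd _ _ hroot')
    · rw [eval₂_map]
      have : ((algebraMap K E).comp (O.comap (algebraMap K E)).subtype).comp ψ =
          algebraMap V E := by
        ext x; exact (IsScalarTower.algebraMap_apply V K E x).symm
      rw [this, ← aeval_def]
      exact hroot
    · rw [Polynomial.map_map, ← IsLocalRing.ResidueField.map_comp_residue, ← Polynomial.map_map]
      exact hsep.map
  have hE := ug_structure hϖnon hϖ0 M hK S hS hgood
  rw [hgen] at hE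
  -- separable residue field extension
  have hsepRes : Algebra.IsSeparable (IsLocalRing.ResidueField V) (IsLocalRing.ResidueField O) := by
    refine ⟨fun x => ?_⟩
    obtain ⟨w, rfl⟩ := IsLocalRing.residue_surjective x
    exact (hmemM _).1 (hE.residue_mem hϖnon hϖ0 w trivial)
  -- essentially of finite type
  have hfin : Algebra.EssFiniteType V O := by
    have : Algebra.EssFiniteType (integralClosure V E) O :=
      Algebra.EssFiniteType.of_isLocalization O P.primeCompl
    exact Algebra.EssFiniteType.comp V (integralClosure V E) O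
  -- the maximal ideal of `O` is generated by the uniformiser of `V`
  have hιϖ0 : algebraMap K E (algebraMap V K ϖ) ≠ 0 := by rw [Ne, map_eq_zero]; exact hϖ0
  have hmax : Ideal.map (algebraMap V O) (IsLocalRing.maximalIdeal V) =
      IsLocalRing.maximalIdeal O := by
    apply le_antisymm
    · rw [Ideal.map_le_iff_le_comap]
      intro x hx
      rw [Ideal.mem_comap, ← ValuationSubring.coe_mem_nonunits_iff, hVO]
      exact hVP x hx
    · intro w hw
      by_cases hw0 : (w : E) = 0
      · have : w = 0 := Subtype.ext hw0
        rw [this]; exact Ideal.zero_mem _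
      obtain ⟨n, u, hnu, -⟩ := hE (w : E) trivial hw0
      have hn : 0 ≤ n := (ug_zpow_mul_unit_mem_iff hϖnon hιϖ0 n u).1 (hnu ▸ w.2)
      obtain ⟨k, rfl⟩ := Int.eq_ofNat_of_zero_le hn
      rw [zpow_natCast] at hnu
      have hw' : w = algebraMap V O ϖ ^ k * u := Subtype.ext (by
        rw [hnu, MulMemClass.coe_mul, SubmonoidClass.coe_pow, hVO])
      rcases Nat.eq_zero_or_pos k with rfl | hk
      · exfalso
        rw [hw', pow_zero, one_mul, IsLocalRing.mem_maximalIdeal, mem_nonunits_iff] at hw
        exact hw u.isUnit
      · obtain ⟨m, rfl⟩ := Nat.exists_eq_succ_of_ne_zero hk.ne'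
        rw [hw', pow_succ, mul_assoc, mul_comm (algebraMap V O ϖ ^ m), mul_assoc]
        exact Ideal.mul_mem_right _ _ (Ideal.mem_map_of_mem _
          ((IsLocalRing.mem_maximalIdeal _).2 hϖ.not_isUnit))
  have hunr : Algebra.FormallyUnramified V O :=
    Algebra.FormallyUnramified.of_map_maximalIdeal hmax
  -- transfer to the localisation of `integralClosure V E` at `P`
  let e : O ≃ₐ[integralClosure V E] Localization.AtPrime P :=
    IsLocalization.algEquiv P.primeCompl O (Localization.AtPrime P)
  exact Algebra.FormallyUnramified.of_equiv (e.restrictScalars V)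

/-- **[UG]** `E = K(θ_1, …, θ_n)` with each `θ_i` a root of a monic polynomial over the DVR `V`
whose reduction is separable: then `E` is unramified over `V` (`jt_UnramAt V E`). -/
theorem ug_unram (S : Set E) (hS : S.Finite) (hgen : IntermediateField.adjoin K S = ⊤)
    (hθ : ∀ θ ∈ S, ∃ h : V[X], h.Monic ∧ aeval θ h = 0 ∧
      (h.map (IsLocalRing.residue V)).Separable)
    (P : Ideal (integralClosure V E)) [P.IsPrime] (hP : P ≠ ⊥) :
    Algebra.IsUnramifiedAt V P := by
  have _ : IsDedekindDomain (integralClosure V E) := integralClosure.isDedekindDomain V K E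
  have _ : IsFractionRing (integralClosure V E) E :=
    integralClosure.isFractionRing_of_finite_extension K E
  have _ : Module.Finite V (integralClosure V E) :=
    IsIntegralClosure.finite V K E (integralClosure V E)
  exact ug_unram_aux V K E S hS hgen hθ ⟨P, inferInstance, hP⟩

end Carrier

end Fermat.Agent.JT3
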